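import Mathlib
import Fermat.Prelude.Def_FLTPrelim_Modularity

/-!
# S51, piece "semistable contradiction" (helper26)

For a semistable integral Weierstrass model `W` with `Δ ≠ 0`, the `j`-invariant `c₄³/Δ`
cannot be one of the four `j`-invariants of the non-cuspidal rational points of `X₀(15)`,
nor `0`, nor `1728`.  Everything is elementary divisibility.
-/

set_option autoImplicit false

namespace Fermat.Agent.S51.H26

open WeierstrassCurve

/-- Core divisibility lemma: if `A * c₄³ = B * Δ` with `5 ∤ A`, `5 ∣ B`, `125 ∤ B`,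
then `W` is not a semistable model. -/
theorem semistable_false_of_five (W : WeierstrassCurve ℤ) (hW : W.IsSemistableModel)
    (A B : ℤ) (h : A * W.c₄ ^ 3 = B * W.Δ) (hA : ¬ (5 : ℤ) ∣ A) (hB5 : (5 : ℤ) ∣ B)
    (hB125 : ¬ (125 : ℤ) ∣ B) : False := by
  have h5 : Prime (5 : ℤ) := by norm_num
  -- 5 ∣ c₄
  have hc4 : (5 : ℤ) ∣ W.c₄ := by
    have h1 : (5 : ℤ) ∣ A * W.c₄ ^ 3 := by rw [h]; exact Dvd.dvd.mul_right hB5 _
    rcases h5.dvd_or_dvd h1 with h2 | h2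
    · exact absurd h2 hA
    · exact h5.dvd_of_dvd_pow h2
  -- hence 5 ∤ Δ by semistability
  have hΔ5 : ¬ (5 : ℤ) ∣ W.Δ := fun hd =>
    hW 5 (by norm_num) (by exact_mod_cast hd) (by exact_mod_cast hc4)
  -- 125 ∣ B * Δ
  have h125 : (125 : ℤ) ∣ B * W.Δ := by
    rw [← h]
    obtain ⟨k, hk⟩ := hc4
    exact ⟨A * k ^ 3, by rw [hk]; ring⟩
  -- 125 coprime to Δ
  have hcop : IsCoprime (125 : ℤ) W.Δ := by
    have : IsCoprime (5 : ℤ) W.Δ := (Prime.coprime_iff_not_dvd h5).mpr hΔ5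
    have h3 : IsCoprime ((5 : ℤ) ^ 3) W.Δ := this.pow_left
    norm_num at h3
    exact h3
  exact hB125 (hcop.dvd_of_dvd_mul_right h125)

/-- The four `X₀(5)`-parameters of the non-cuspidal rational points of `X₀(15)` are impossible
for a semistable integral model: `j = c₄³/Δ ≠ (s²+10s+5)³/s`. -/
theorem semistable_j_ne (W : WeierstrassCurve ℤ) (hW : W.IsSemistableModel)
    (s : ℚ) (hs : s = -10 ∨ s = -25 / 8 ∨ s = -25 / 2 ∨ s = -40) :
    (W.c₄ : ℚ) ^ 3 * s ≠ (s ^ 2 + 10 * s + 5) ^ 3 * (W.Δ : ℚ) := by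
  intro h
  rcases hs with rfl | rfl | rfl | rfl
  · -- s = -10 : -10 c₄³ = 125 Δ, i.e. (-2) c₄³ = 25 Δ
    have h' : ((-2 : ℤ) : ℚ) * (W.c₄ : ℚ) ^ 3 = ((25 : ℤ) : ℚ) * (W.Δ : ℚ) := by
      push_cast; linear_combination (1 / 5 : ℚ) * h
    have h'' : (-2 : ℤ) * W.c₄ ^ 3 = 25 * W.Δ := by exact_mod_cast h'
    exact semistable_false_of_five W hW (-2) 25 h'' (by norm_num) (by norm_num) (by norm_num)
  · -- s = -25/8 : 2^15 c₄³ = 5 * 211^3 Δ
    have h' : ((32768 : ℤ) : ℚ) * (W.c₄ : ℚ) ^ 3 = ((46969655 : ℤ) : ℚ) * (W.Δ : ℚ) := by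
      push_cast; linear_combination (-262144 / 25 : ℚ) * h
    have h'' : (32768 : ℤ) * W.c₄ ^ 3 = 46969655 * W.Δ := by exact_mod_cast h'
    exact semistable_false_of_five W hW 32768 46969655 h'' (by norm_num) (by norm_num)
      (by norm_num)
  · -- s = -25/2 : 32 c₄³ = -5 * 29^3 Δ
    have h' : ((32 : ℤ) : ℚ) * (W.c₄ : ℚ) ^ 3 = ((-121945 : ℤ) : ℚ) * (W.Δ : ℚ) := by
      push_cast; linear_combination (-64 / 25 : ℚ) * h
    have h'' : (32 : ℤ) * W.c₄ ^ 3 = -121945 * W.Δ := by exact_mod_cast h'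
    exact semistable_false_of_five W hW 32 (-121945) h'' (by norm_num) (by norm_num)
      (by norm_num)
  · -- s = -40 : 8 c₄³ = -25 * 241^3 Δ
    have h' : ((8 : ℤ) : ℚ) * (W.c₄ : ℚ) ^ 3 = ((-349938025 : ℤ) : ℚ) * (W.Δ : ℚ) := by
      push_cast; linear_combination (-1 / 5 : ℚ) * h
    have h'' : (8 : ℤ) * W.c₄ ^ 3 = -349938025 * W.Δ := by exact_mod_cast h'
    exact semistable_false_of_five W hW 8 (-349938025) h'' (by norm_num) (by norm_num)
      (by norm_num)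

/-- A semistable integral model with `Δ ≠ 0` has `c₄ ≠ 0` (i.e. `j ≠ 0`). -/
theorem semistable_c₄_ne_zero (W : WeierstrassCurve ℤ)
    (hW : W.IsSemistableModel) : W.c₄ ≠ 0 := by
  intro hc4
  -- every prime dividing Δ would divide c₄ = 0, so Δ = ±1
  have hunit : IsUnit W.Δ := by
    by_contra hnu
    obtain ⟨p, hp, hpd⟩ := Int.exists_prime_and_dvd (n := W.Δ) (by
      intro h1
      exact hnu (Int.isUnit_iff_natAbs_eq.mpr h1))
    have hpn : (p.natAbs).Prime := Int.prime_iff_natAbs_prime.mp hp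
    have hpd' : ((p.natAbs : ℕ) : ℤ) ∣ W.Δ := by
      rw [Int.natCast_natAbs]; exact (abs_dvd _ _).mpr hpd
    exact hW p.natAbs hpn hpd' (by rw [hc4]; exact dvd_zero _)
  -- 1728 Δ = c₄³ - c₆² = - c₆²
  have hrel : 1728 * W.Δ = W.c₄ ^ 3 - W.c₆ ^ 2 := by
    have := W.c_relation
    linarith
  rw [hc4] at hrel
  rcases Int.isUnit_iff.mp hunit with h1 | h1
  · rw [h1] at hrel
    nlinarith [sq_nonneg W.c₆]
  · rw [h1] at hrel
    -- c₆² = 1728, impossible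
    have h2 : W.c₆ ^ 2 = 1728 := by linarith
    have h3 : W.c₆.natAbs ^ 2 = 1728 := by
      have := congrArg Int.natAbs h2
      simpa [Int.natAbs_pow] using this
    have h4 : W.c₆.natAbs < 42 := by
      by_contra hge
      have : 42 ^ 2 ≤ W.c₆.natAbs ^ 2 := Nat.pow_le_pow_left (not_lt.mp hge) 2
      omega
    have h5 : 41 < W.c₆.natAbs := by
      by_contra hle
      have : W.c₆.natAbs ^ 2 ≤ 41 ^ 2 := Nat.pow_le_pow_left (not_lt.mp hle) 2
      omega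
    omega

/-- A semistable integral model has `c₆ ≠ 0` (i.e. `j ≠ 1728`). -/
theorem semistable_c₆_ne_zero (W : WeierstrassCurve ℤ)
    (hW : W.IsSemistableModel) : W.c₆ ≠ 0 := by
  intro hc6
  have hrel : 1728 * W.Δ = W.c₄ ^ 3 - W.c₆ ^ 2 := by
    have := W.c_relation
    linarith
  rw [hc6] at hrel
  -- every prime dividing Δ divides c₄; so Δ is a unit
  have hunit : IsUnit W.Δ := by
    by_contra hnu
    obtain ⟨p, hp, hpd⟩ := Int.exists_prime_and_dvd (n := W.Δ) (by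
      intro h1
      exact hnu (Int.isUnit_iff_natAbs_eq.mpr h1))
    have hpn : (p.natAbs).Prime := Int.prime_iff_natAbs_prime.mp hp
    have hpd' : ((p.natAbs : ℕ) : ℤ) ∣ W.Δ := by
      rw [Int.natCast_natAbs]; exact (abs_dvd _ _).mpr hpd
    have hpc : p ∣ W.c₄ := by
      have h1 : p ∣ W.c₄ ^ 3 := by
        have : W.c₄ ^ 3 = 1728 * W.Δ := by linarith
        rw [this]; exact Dvd.dvd.mul_left hpd _
      exact hp.dvd_of_dvd_pow h1
    exact hW p.natAbs hpn hpd' (by rw [Int.natCast_natAbs]; exact (abs_dvd _ _).mpr hpc)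
  -- b₂ is even but not divisible by 4, impossible for a₁² + 4 a₂
  have hc4 : W.c₄ = W.b₂ ^ 2 - 24 * W.b₄ := rfl
  have hb2 : W.b₂ = W.a₁ ^ 2 + 4 * W.a₂ := rfl
  have hcube : W.c₄ ^ 3 = 1728 ∨ W.c₄ ^ 3 = -1728 := by
    rcases Int.isUnit_iff.mp hunit with h1 | h1
    · left; rw [h1] at hrel; linarith
    · right; rw [h1] at hrel; linarith
  have hc4val : W.c₄ = 12 ∨ W.c₄ = -12 := by
    rcases hcube with h | h
    · left
      have h12 : W.c₄ ^ 3 = 12 ^ 3 := by rw [h]; norm_num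
      exact (Odd.strictMono_pow (by decide : Odd 3)).injective h12
    · right
      have h12 : W.c₄ ^ 3 = (-12) ^ 3 := by rw [h]; norm_num
      exact (Odd.strictMono_pow (by decide : Odd 3)).injective h12
  -- reduce mod 8 :  b₂² ≡ 4 (mod 8), with b₂ ≡ a₁² (mod 4)
  have h8 : (W.a₁ ^ 2 + 4 * W.a₂) ^ 2 % 8 = 4 := by
    rw [← hb2]
    rcases hc4val with h | h <;> rw [hc4] at h <;> omega
  have ha1 : W.a₁ % 2 = 0 ∨ W.a₁ % 2 = 1 := by omega
  rcases ha1 with ha | ha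
  · obtain ⟨k, hk⟩ : ∃ k, W.a₁ = 2 * k := ⟨W.a₁ / 2, by omega⟩
    have : (W.a₁ ^ 2 + 4 * W.a₂) ^ 2 = 16 * (k ^ 2 + W.a₂) ^ 2 := by rw [hk]; ring
    rw [this] at h8
    omega
  · obtain ⟨k, hk⟩ : ∃ k, W.a₁ = 2 * k + 1 := ⟨W.a₁ / 2, by omega⟩
    have : (W.a₁ ^ 2 + 4 * W.a₂) ^ 2 = 8 * (2 * (k ^ 2 + k + W.a₂) ^ 2 + (k ^ 2 + k + W.a₂)) + 1 := by
      rw [hk]; ring
    rw [this] at h8
    omega

/-- Interface (E) of the S51 architecture (helper45), exact shape. -/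
theorem not_semistable_of_t (W : WeierstrassCurve ℤ) (_hΔ : W.Δ ≠ 0) (hW : W.IsSemistableModel)
    (t : ℚ) (ht : t = -40 ∨ t = -25 / 2 ∨ t = -10 ∨ t = -25 / 8)
    (h : (W.c₄ : ℚ) ^ 3 * t = (W.Δ : ℚ) * (t ^ 2 + 10 * t + 5) ^ 3) : False := by
  refine semistable_j_ne W hW t ?_ (by rw [h]; ring)
  rcases ht with h | h | h | h
  · exact Or.inr (Or.inr (Or.inr h))
  · exact Or.inr (Or.inr (Or.inl h))
  · exact Or.inl h
  · exact Or.inr (Or.inl h)

end Fermat.Agent.S51.H26
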