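import Fermat.Agent.S51.H80_Identities

/-!
# 2-, 3- and 5-torsion points of a Weierstrass curve via the x-coordinate (helper80, for S51)

For a nonsingular affine point `P = (x, y)` on a Weierstrass curve `W` over a field of
characteristic `≠ 2` with `Δ ≠ 0`:
* `P + P = 0 ↔ Bx W x = 0`
* `P + P + P = 0 ↔ psi3 W x = 0`
* `P + P + P + P + P = 0 ↔ Psi5 W x = 0`
-/

set_option autoImplicit false

namespace Fermat.Agent.S51.H80

open WeierstrassCurve WeierstrassCurve.Affine

variable {K : Type*} [Field K] [DecidableEq K] (W : Affine K)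

lemma add_self_eq_zero_iff {x y : K} (h : W.Nonsingular x y) :
    Point.some x y h + Point.some x y h = 0 ↔ Bx W x = 0 := by
  rw [Bx_eq_zero_iff W h.1]
  constructor
  · intro h0
    by_contra hy
    rw [Point.add_self_of_Y_ne hy] at h0
    exact Point.some_ne_zero _ h0
  · intro hy
    exact Point.add_self_of_Y_eq hy

/-- doubling a non-2-torsion point, with the `x`-coordinate given by the duplication formula. -/
lemma exists_add_self {x y : K} (h : W.Nonsingular x y) (hB : Bx W x ≠ 0) :
    ∃ (y' : K) (h' : W.Nonsingular (numD W x / Bx W x) y'),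
      Point.some x y h + Point.some x y h = Point.some (numD W x / Bx W x) y' h' := by
  have hy : y ≠ W.negY x y := fun hy => hB ((Bx_eq_zero_iff W h.1).2 hy)
  have hadd := Point.add_self_of_Y_ne (h₁ := h) hy
  have hx := addX_self W h.1 hy
  have key : ∀ (x' : K), W.addX x x (W.slope x x y y) = x' →
      ∃ (y' : K) (h' : W.Nonsingular x' y'),
        Point.some x y h + Point.some x y h = Point.some x' y' h' := by
    intro x' hx'
    subst hx'
    exact ⟨_, _, hadd⟩
  exact key _ hx

variable {W}

omit [DecidableEq K] in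
lemma Bx_ne_zero_of_psi3 (hΔ : W.Δ ≠ 0) (h2 : (2 : K) ≠ 0) {x : K} (h3 : psi3 W x = 0) :
    Bx W x ≠ 0 := fun hB => hΔ (Δ_eq_zero_of_Bx_psi3 W h2 hB h3)

/-- a nonsingular affine point is `3`-torsion iff its `x`-coordinate is a root of `ψ₃`. -/
lemma three_torsion_iff (hΔ : W.Δ ≠ 0) (h2 : (2 : K) ≠ 0) {x y : K} (h : W.Nonsingular x y) :
    Point.some x y h + Point.some x y h + Point.some x y h = 0 ↔ psi3 W x = 0 := by
  constructor
  · intro h3
    have hB : Bx W x ≠ 0 := by
      intro hB
      rw [(add_self_eq_zero_iff W h).2 hB, zero_add] at h3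
      exact Point.some_ne_zero _ h3
    obtain ⟨y', h', hadd⟩ := exists_add_self W h hB
    rw [hadd] at h3
    have hneg : Point.some _ y' h' = -Point.some x y h := eq_neg_of_add_eq_zero_left h3
    rw [Point.neg_some] at hneg
    have hx : numD W x / Bx W x = x := by
      injection hneg
    rw [div_eq_iff hB] at hx
    have := numD_sub W x
    rw [hx] at this
    linear_combination this
  · intro h3
    have hB := Bx_ne_zero_of_psi3 hΔ h2 h3
    obtain ⟨y', h', hadd⟩ := exists_add_self W h hB
    have hx : numD W x / Bx W x = x := by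
      rw [div_eq_iff hB]
      have := numD_sub W x
      rw [h3] at this
      linear_combination this
    rw [hadd]
    rcases (Point.X_eq_iff (h₁ := h') (h₂ := h)).1 hx with h1 | h1
    · exfalso
      rw [h1] at hadd
      have : Point.some x y h = 0 := by
        have := congrArg (fun P => P - Point.some x y h) hadd
        simp at this
      exact Point.some_ne_zero _ this
    · rw [h1]; exact neg_add_cancel _


omit [DecidableEq K] in
lemma psi4t_of_psi3 {x : K} (h3 : psi3 W x = 0) : psi4t W x = - Bx W x ^ 2 := by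
  simp only [psi4t, h3]; ring

omit [DecidableEq K] in
lemma Psi5_of_psi3 {x : K} (h3 : psi3 W x = 0) : Psi5 W x = - Bx W x ^ 4 := by
  simp only [Psi5, psi4t_of_psi3 h3, h3]; ring

omit [DecidableEq K] in
lemma psi3_ne_zero_of_Psi5 (hΔ : W.Δ ≠ 0) (h2 : (2 : K) ≠ 0) {x : K} (h5 : Psi5 W x = 0) :
    psi3 W x ≠ 0 := by
  intro h3
  have hB := Bx_ne_zero_of_psi3 hΔ h2 h3
  rw [Psi5_of_psi3 h3, neg_eq_zero] at h5
  exact hB (pow_eq_zero_iff (by norm_num) |>.1 h5)

omit [DecidableEq K] in
lemma Bx_ne_zero_of_Psi5 (hΔ : W.Δ ≠ 0) (h2 : (2 : K) ≠ 0) {x : K} (h5 : Psi5 W x = 0) :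
    Bx W x ≠ 0 := by
  intro hB
  have h3 := psi3_ne_zero_of_Psi5 hΔ h2 h5
  simp only [Psi5, hB] at h5
  have : psi3 W x ^ 3 = 0 := by linear_combination -h5
  exact h3 (pow_eq_zero_iff (by norm_num) |>.1 this)

omit [DecidableEq K] in
lemma psi4t_ne_zero_of_Psi5 (hΔ : W.Δ ≠ 0) (h2 : (2 : K) ≠ 0) {x : K} (h5 : Psi5 W x = 0) :
    psi4t W x ≠ 0 := by
  intro h4
  have h3 := psi3_ne_zero_of_Psi5 hΔ h2 h5
  simp only [Psi5, h4] at h5
  have : psi3 W x ^ 3 = 0 := by linear_combination -h5
  exact h3 (pow_eq_zero_iff (by norm_num) |>.1 this)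

/-- a nonsingular affine point is `5`-torsion iff its `x`-coordinate is a root of `ψ₅`. -/
lemma five_torsion_iff (hΔ : W.Δ ≠ 0) (h2 : (2 : K) ≠ 0) {x y : K} (h : W.Nonsingular x y) :
    Point.some x y h + Point.some x y h + (Point.some x y h + Point.some x y h)
      + Point.some x y h = 0 ↔ Psi5 W x = 0 := by
  constructor
  · intro h5
    -- `P` is not `2`-torsion
    have hB : Bx W x ≠ 0 := by
      intro hB
      rw [(add_self_eq_zero_iff W h).2 hB, zero_add, zero_add] at h5
      exact Point.some_ne_zero _ h5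
    -- `P` is not `3`-torsion
    have h3 : psi3 W x ≠ 0 := by
      intro h3
      have h3' := (three_torsion_iff hΔ h2 h).2 h3
      have e : Point.some x y h + Point.some x y h + (Point.some x y h + Point.some x y h)
          + Point.some x y h = (Point.some x y h + Point.some x y h + Point.some x y h)
          + (Point.some x y h + Point.some x y h) := by abel
      rw [e, h3', zero_add] at h5
      exact hB ((add_self_eq_zero_iff W h).1 h5)
    obtain ⟨y₂, h₂, hadd⟩ := exists_add_self W h hB
    have ht : numD W x / Bx W x * Bx W x = numD W x := div_mul_cancel₀ _ hB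
    rw [hadd] at h5
    -- `2P` is not `2`-torsion
    have hB₂ : Bx W (numD W x / Bx W x) ≠ 0 := by
      intro hB₂
      rw [(add_self_eq_zero_iff W h₂).2 hB₂, zero_add] at h5
      exact Point.some_ne_zero _ h5
    obtain ⟨y₄, h₄, hadd₂⟩ := exists_add_self W h₂ hB₂
    rw [hadd₂] at h5
    have hneg : Point.some _ y₄ h₄ = -Point.some x y h := eq_neg_of_add_eq_zero_left h5
    rw [Point.neg_some] at hneg
    have hx : numD W (numD W x / Bx W x) / Bx W (numD W x / Bx W x) = x := by
      injection hneg
    rw [div_eq_iff hB₂] at hx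
    have e1 := Bx_dbl W ht
    have e2 := numD_dbl W ht
    rw [hx] at e2
    have : Psi5 W x * psi3 W x = 0 := by
      linear_combination e2 - x * Bx W x * e1
    exact (mul_eq_zero.1 this).resolve_right h3
  · intro h5
    have hB := Bx_ne_zero_of_Psi5 hΔ h2 h5
    have h3 := psi3_ne_zero_of_Psi5 hΔ h2 h5
    have h4 := psi4t_ne_zero_of_Psi5 hΔ h2 h5
    obtain ⟨y₂, h₂, hadd⟩ := exists_add_self W h hB
    have ht : numD W x / Bx W x * Bx W x = numD W x := div_mul_cancel₀ _ hB
    have e1 := Bx_dbl W ht
    have e2 := numD_dbl W ht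
    have hB₂ : Bx W (numD W x / Bx W x) ≠ 0 := by
      intro hB₂
      rw [hB₂, zero_mul] at e1
      exact h4 (pow_eq_zero_iff (by norm_num) |>.1 e1.symm)
    obtain ⟨y₄, h₄, hadd₂⟩ := exists_add_self W h₂ hB₂
    have hx : numD W (numD W x / Bx W x) / Bx W (numD W x / Bx W x) = x := by
      rw [div_eq_iff hB₂]
      have hB4 : Bx W x ^ 4 ≠ 0 := pow_ne_zero 4 hB
      apply mul_right_cancel₀ hB4
      rw [h5, zero_mul, neg_zero] at e2
      linear_combination e2 - x * Bx W x * e1
    rw [hadd, hadd₂]
    rcases (Point.X_eq_iff (h₁ := h₄) (h₂ := h)).1 hx with h1 | h1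
    · exfalso
      -- `4P = P` gives `3P = 0`
      apply h3
      apply (three_torsion_iff hΔ h2 h).1
      have e4 : Point.some x y h + Point.some x y h + (Point.some x y h + Point.some x y h)
          = Point.some x y h := by rw [hadd, hadd₂, h1]
      have := congrArg (fun P => P - Point.some x y h) e4
      simp only [sub_self] at this
      rw [← this]
      abel
    · rw [h1]; exact neg_add_cancel _

end Fermat.Agent.S51.H80
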