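/-
helper45: (3b) the X_0(3) parameter attached to a root of psi3.
For a root x of psi3 on a Weierstrass curve with Delta != 0 (char != 2), U := Delta / Bx(x)^2 satisfies
  c4^3 * U = Delta * (U+27) * (U+3)^3,   U != 0.
-/
import Fermat.Agent.S51.H80_Torsion

set_option autoImplicit false

namespace Fermat.Agent.S51.H45

open WeierstrassCurve WeierstrassCurve.Affine Fermat.Agent.S51.H80

variable {K : Type*} [Field K] (W : Affine K)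

/-- value of `ψ₂²' / 2 = 6x² + b₂x + b₄`. -/
def Nx (x : K) : K := 6 * x ^ 2 + W.b₂ * x + W.b₄

lemma Δ_eq_psi3 (x : K) :
    W.Δ = Nx W x ^ 3 - 27 * Bx W x ^ 2
      + psi3 W x * (36 * Nx W x - (12 * x + W.b₂) ^ 2) := by
  simp only [WeierstrassCurve.Δ, Nx, Bx, psi3, b₂, b₄, b₆, b₈]
  ring

lemma c₄_mul_eq_psi3 (x : K) :
    W.c₄ * Bx W x ^ 2 = Nx W x * (Nx W x ^ 3 - 24 * Bx W x ^ 2)
      + 4 * psi3 W x * ((12 * x + W.b₂) * Bx W x + Nx W x ^ 2) := by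
  simp only [WeierstrassCurve.c₄, Nx, Bx, psi3, b₂, b₄, b₆, b₈]
  ring

variable {W}

/-- **(3b)** -/
theorem U_of_root3 (hΔ : W.Δ ≠ 0) (h2 : (2 : K) ≠ 0) (x : K) (hx : psi3 W x = 0) :
    W.Δ / Bx W x ^ 2 ≠ 0 ∧
    W.c₄ ^ 3 * (W.Δ / Bx W x ^ 2)
      = W.Δ * ((W.Δ / Bx W x ^ 2 + 27) * (W.Δ / Bx W x ^ 2 + 3) ^ 3) := by
  have hB : Bx W x ≠ 0 := Bx_ne_zero_of_psi3 hΔ h2 hx
  have hB2 : Bx W x ^ 2 ≠ 0 := pow_ne_zero 2 hB
  have e1 := Δ_eq_psi3 W x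
  have e2 := c₄_mul_eq_psi3 W x
  rw [hx] at e1 e2
  refine ⟨div_ne_zero hΔ hB2, ?_⟩
  have e1' : W.Δ = Nx W x ^ 3 - 27 * Bx W x ^ 2 := by linear_combination e1
  have e2' : W.c₄ * Bx W x ^ 2 = Nx W x * (Nx W x ^ 3 - 24 * Bx W x ^ 2) := by
    linear_combination e2
  have hU27 : W.Δ / Bx W x ^ 2 + 27 = Nx W x ^ 3 / Bx W x ^ 2 := by
    field_simp
    linear_combination e1'
  have hU3 : W.Δ / Bx W x ^ 2 + 3 = (Nx W x ^ 3 - 24 * Bx W x ^ 2) / Bx W x ^ 2 := by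
    field_simp
    linear_combination e1'
  rw [hU27, hU3]
  have hc4 : W.c₄ = Nx W x * (Nx W x ^ 3 - 24 * Bx W x ^ 2) / Bx W x ^ 2 := by
    field_simp
    linear_combination e2'
  rw [hc4]
  field_simp

end Fermat.Agent.S51.H45
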