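import Mathlib

/-!
# S51 sub-lemma (D1): the only rational points on `Y² = X(X-1)(X-81)` have `Y = 0`

Elementary 2-descent (curve 15a2).  Core statement: the system
`r² = s² + e²`, `r² = t² + 81 e²` has no integer solution with `e ≠ 0`.
-/

namespace Fermat.Agent.S51.H58

/-- squares modulo 8, with the parity information -/
lemma sq_emod8_cases (x : ℤ) :
    ((4:ℤ) ∣ x ∧ x ^ 2 % 8 = 0) ∨ ((2:ℤ) ∣ x ∧ ¬ (4:ℤ) ∣ x ∧ x ^ 2 % 8 = 4) ∨
      (¬ (2:ℤ) ∣ x ∧ x ^ 2 % 8 = 1) := by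
  have h8 : x % 8 = 0 ∨ x % 8 = 1 ∨ x % 8 = 2 ∨ x % 8 = 3 ∨ x % 8 = 4 ∨ x % 8 = 5 ∨
      x % 8 = 6 ∨ x % 8 = 7 := by omega
  rcases h8 with h | h | h | h | h | h | h | h
  · left; refine ⟨by omega, ?_⟩; simp [pow_two, Int.mul_emod, h]
  · right; right; refine ⟨by omega, ?_⟩; simp [pow_two, Int.mul_emod, h]
  · right; left; refine ⟨by omega, by omega, ?_⟩; simp [pow_two, Int.mul_emod, h]
  · right; right; refine ⟨by omega, ?_⟩; simp [pow_two, Int.mul_emod, h]
  · left; refine ⟨by omega, ?_⟩; simp [pow_two, Int.mul_emod, h]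
  · right; right; refine ⟨by omega, ?_⟩; simp [pow_two, Int.mul_emod, h]
  · right; left; refine ⟨by omega, by omega, ?_⟩; simp [pow_two, Int.mul_emod, h]
  · right; right; refine ⟨by omega, ?_⟩; simp [pow_two, Int.mul_emod, h]

lemma sq_of_coprime_pos {a b c : ℤ} (h : IsCoprime a b) (hab : a * b = c ^ 2) (ha : 0 < a) :
    ∃ k, a = k ^ 2 := by
  obtain ⟨k, hk | hk⟩ := Int.sq_of_isCoprime h hab
  · exact ⟨k, hk⟩
  · exfalso; nlinarith [sq_nonneg k]

lemma prime_five_int : Prime (5:ℤ) := by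
  rw [Int.prime_iff_natAbs_prime]; norm_num

lemma five_split {u v w : ℤ} (h : IsCoprime u v) (huv : u * v = 5 * w ^ 2) :
    ∃ F : ℤ, u = F ^ 2 ∨ u = -F ^ 2 ∨ v = F ^ 2 ∨ v = -F ^ 2 := by
  have h5 : (5:ℤ) ∣ u * v := ⟨w ^ 2, huv⟩
  rcases prime_five_int.dvd_or_dvd h5 with ⟨u', hu⟩ | ⟨v', hv⟩
  · have h' : IsCoprime v u' := by
      rw [hu] at h; exact (IsCoprime.of_mul_left_right h).symm
    have e : v * u' = w ^ 2 := by
      have : 5 * (v * u') = 5 * w ^ 2 := by rw [← huv, hu]; ring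
      linarith
    obtain ⟨F, hF | hF⟩ := Int.sq_of_isCoprime h' e
    · exact ⟨F, Or.inr (Or.inr (Or.inl hF))⟩
    · exact ⟨F, Or.inr (Or.inr (Or.inr hF))⟩
  · have h' : IsCoprime u v' := by
      rw [hv] at h; exact IsCoprime.of_mul_right_right h
    have e : u * v' = w ^ 2 := by
      have : 5 * (u * v') = 5 * w ^ 2 := by rw [← huv, hv]; ring
      linarith
    obtain ⟨F, hF | hF⟩ := Int.sq_of_isCoprime h' e
    · exact ⟨F, Or.inl hF⟩
    · exact ⟨F, Or.inr (Or.inl hF)⟩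

lemma coprime_add_sub {r s : ℤ} (h : IsCoprime r s) (hodd : ¬ (2:ℤ) ∣ (r + s)) :
    IsCoprime (r + s) (r - s) := by
  have h2 : IsCoprime (r + s) 2 := by
    obtain ⟨k, hk⟩ : ∃ k, r + s = 2 * k + 1 := ⟨(r + s) / 2, by omega⟩
    exact ⟨1, -k, by rw [hk]; ring⟩
  have hr : IsCoprime (r + s) r := by
    have : IsCoprime (s + r * 1) r := (IsCoprime.add_mul_left_left_iff).mpr h.symm
    simpa [add_comm] using this
  have h2r : IsCoprime (r + s) (2 * r) := h2.mul_right hr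
  have : IsCoprime (r + s) (2 * r + (r + s) * (-1)) :=
    (IsCoprime.add_mul_left_right_iff).mpr h2r
  have e : 2 * r + (r + s) * (-1) = r - s := by ring
  rwa [e] at this

lemma coprime_half {a b : ℤ} (h : IsCoprime (a + b) (a - b)) : IsCoprime a b := by
  obtain ⟨x, y, hxy⟩ := h
  exact ⟨x + y, x - y, by linear_combination hxy⟩


/-- bounds on `s` from `r² = s² + e²`, `e ≠ 0`, `r > 0` -/
lemma abs_lt_of_sq_eq {r s e : ℤ} (hr : 0 < r) (he : e ≠ 0) (h1 : r ^ 2 = s ^ 2 + e ^ 2) :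
    -r < s ∧ s < r := by
  have he2 : 0 < e ^ 2 := by positivity
  have hlt : s ^ 2 < r ^ 2 := by linarith
  have := abs_lt_of_sq_lt_sq hlt hr.le
  exact abs_lt.mp this

/-- The new (smaller) solution built from the factorisation data. -/
lemma build_new (d r s t e A B C F : ℤ) (hd : 0 < d) (hr : 0 < r) (he : e ≠ 0)
    (h1 : r ^ 2 = s ^ 2 + e ^ 2) (h2 : r ^ 2 = t ^ 2 + 81 * e ^ 2)
    (hA : r + s = d * A ^ 2) (hB : r - s = d * B ^ 2) (hC : r + t = d * C ^ 2)
    (hF : s + t = d * F ^ 2) :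
    ∃ r' s' t' e' : ℤ, e' ≠ 0 ∧ r' ^ 2 = s' ^ 2 + e' ^ 2 ∧ r' ^ 2 = t' ^ 2 + 81 * e' ^ 2 ∧
      r'.natAbs < r.natAbs := by
  obtain ⟨hs1, hs2⟩ := abs_lt_of_sq_eq hr he h1
  have he81 : (9 * e) ≠ 0 := by simpa using he
  obtain ⟨ht1, ht2⟩ := abs_lt_of_sq_eq (s := t) (e := 9 * e) hr he81 (by rw [h2]; ring)
  have hB0 : B ≠ 0 := by
    rintro rfl
    have : r - s = 0 := by rw [hB]; ring
    linarith
  have hA0 : A ≠ 0 := by
    rintro rfl
    have : r + s = 0 := by rw [hA]; ring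
    linarith
  have key : (d * d) * (A ^ 2 * (C ^ 2 - 81 * B ^ 2)) = (d * d) * (C * F) ^ 2 := by
    have e1 : (d * d) * (A ^ 2 * (C ^ 2 - 81 * B ^ 2))
        = (d * A ^ 2) * (d * C ^ 2 - 81 * (d * B ^ 2)) := by ring
    have e2 : (d * d) * (C * F) ^ 2 = (d * C ^ 2) * (d * F ^ 2) := by ring
    rw [e1, e2, ← hA, ← hB, ← hC, ← hF]
    linear_combination h2 - 81 * h1
  have hdd : d * d ≠ 0 := mul_ne_zero hd.ne' hd.ne'
  have key2 : A ^ 2 * (C ^ 2 - 81 * B ^ 2) = (C * F) ^ 2 := mul_left_cancel₀ hdd key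
  have hdiv : A ∣ C * F := by
    have : A ^ 2 ∣ (C * F) ^ 2 := ⟨_, key2.symm⟩
    exact (Int.pow_dvd_pow_iff (by norm_num)).mp this
  obtain ⟨T, hT⟩ := hdiv
  have hT2 : T ^ 2 = C ^ 2 - 81 * B ^ 2 := by
    have : A ^ 2 * T ^ 2 = A ^ 2 * (C ^ 2 - 81 * B ^ 2) := by rw [key2, hT]; ring
    exact mul_left_cancel₀ (pow_ne_zero 2 hA0) this
  refine ⟨C, F, T, B, hB0, ?_, ?_, ?_⟩
  · have : d * (C ^ 2) = d * (F ^ 2 + B ^ 2) := by linarith
    exact mul_left_cancel₀ hd.ne' this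
  · linarith
  · rw [Int.natAbs_lt_iff_sq_lt]
    have hr9 : 9 ≤ r := by
      by_contra hlt
      have hlt := lt_of_not_ge hlt
      have he2 : 1 ≤ e ^ 2 := by
        have : 0 < e ^ 2 := by positivity
        linarith
      nlinarith [sq_nonneg t]
    have hC2 : 0 ≤ C ^ 2 := sq_nonneg C
    have hdC : C ^ 2 ≤ d * C ^ 2 := by nlinarith
    nlinarith

lemma prime_three_int : Prime (3:ℤ) := by
  rw [Int.prime_iff_natAbs_prime]; norm_num

lemma prime_sq_dvd_five_mul {p x : ℤ} (hp : Prime p) (h : p * p ∣ 5 * x) : p ∣ x := by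
  have h1 : p ∣ 5 * x := (dvd_mul_right p p).trans h
  rcases hp.dvd_or_dvd h1 with h5 | hx
  · obtain ⟨c, hc⟩ := h5
    have h2 : p * p ∣ p * (c * x) := by
      have : p * (c * x) = 5 * x := by rw [hc]; ring
      rw [this]; exact h
    have h3 : p ∣ c * x := (mul_dvd_mul_iff_left hp.ne_zero).mp h2
    rcases hp.dvd_or_dvd h3 with hcc | hx
    · exfalso
      obtain ⟨c', hc'⟩ := hcc
      have hdvd : p * p ∣ (5:ℤ) := ⟨c', by rw [hc, hc']; ring⟩
      have hle : p * p ≤ 5 := Int.le_of_dvd (by norm_num) hdvd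
      have hp1 : p ≤ 2 := by nlinarith
      have hp2 : -2 ≤ p := by nlinarith
      have hu : ¬ IsUnit p := hp.not_isUnit
      have h0 : p ≠ 0 := hp.ne_zero
      interval_cases p
      · omega
      · exact hu (by decide)
      · exact h0 rfl
      · exact hu (by decide)
      · omega
    · exact hx
  · exact hx

lemma not_dvd_of_prime_dvd_two {p x : ℤ} (hp : Prime p) (hx : ¬ (2:ℤ) ∣ x) (hpx : p ∣ x) :
    ¬ p ∣ (2:ℤ) := by
  intro h2
  have hassoc : Associated p 2 := (hp.dvd_prime_iff_associated Int.prime_two).mp h2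
  exact hx (hassoc.symm.dvd.trans hpx)

/-- The descent step for a primitive solution with `r > 0`. -/
lemma primitive_step (r s t e : ℤ) (hr : 0 < r) (he : e ≠ 0) (hcop : IsCoprime r e)
    (h1 : r ^ 2 = s ^ 2 + e ^ 2) (h2 : r ^ 2 = t ^ 2 + 81 * e ^ 2) :
    ∃ r' s' t' e' : ℤ, e' ≠ 0 ∧ r' ^ 2 = s' ^ 2 + e' ^ 2 ∧ r' ^ 2 = t' ^ 2 + 81 * e' ^ 2 ∧
      r'.natAbs < r.natAbs := by
  obtain ⟨hs1, hs2⟩ := abs_lt_of_sq_eq hr he h1
  have he81 : (9 * e) ≠ 0 := by simpa using he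
  obtain ⟨ht1, ht2⟩ := abs_lt_of_sq_eq (s := t) (e := 9 * e) hr he81 (by rw [h2]; ring)
  have h1n : r ^ 2 = (-s) ^ 2 + e ^ 2 := by rw [neg_sq]; exact h1
  have h2n : r ^ 2 = (-t) ^ 2 + 81 * e ^ 2 := by rw [neg_sq]; exact h2
  -- a prime dividing `e` and `s` gives a contradiction
  have hpes : ∀ p : ℤ, Prime p → p ∣ e → p ∣ s → False := by
    intro p hp hpe hps
    have : p ∣ r ^ 2 := by
      rw [h1]; exact dvd_add (dvd_pow hps two_ne_zero) (dvd_pow hpe two_ne_zero)
    have hpr : p ∣ r := hp.dvd_of_dvd_pow this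
    exact hp.not_isUnit (hcop.isUnit_of_dvd' hpr hpe)
  have hrs : IsCoprime r s := by
    apply isCoprime_of_prime_dvd
    · rintro ⟨h, -⟩; exact hr.ne' h
    · intro p hp hpr hps
      have : p ∣ e ^ 2 := by
        have : e ^ 2 = r ^ 2 - s ^ 2 := by linarith
        rw [this]
        exact dvd_sub (dvd_pow hpr two_ne_zero) (dvd_pow hps two_ne_zero)
      have hpe : p ∣ e := hp.dvd_of_dvd_pow this
      exact hp.not_isUnit (hcop.isUnit_of_dvd' hpr hpe)
  have h3r : ¬ (3:ℤ) ∣ r := by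
    intro h3
    have hz := congrArg (Int.cast : ℤ → ZMod 3) h1
    push_cast at hz
    have hr0 : (r : ZMod 3) = 0 := (ZMod.intCast_zmod_eq_zero_iff_dvd r 3).mpr (by exact_mod_cast h3)
    rw [hr0] at hz
    have key : ∀ a b : ZMod 3, (0:ZMod 3) ^ 2 = a ^ 2 + b ^ 2 → b = 0 := by decide
    have he0 := key _ _ hz
    have h3e : (3:ℤ) ∣ e := by exact_mod_cast (ZMod.intCast_zmod_eq_zero_iff_dvd e 3).mp he0
    exact prime_three_int.not_isUnit (hcop.isUnit_of_dvd' h3 h3e)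
  have hrt : IsCoprime r t := by
    apply isCoprime_of_prime_dvd
    · rintro ⟨h, -⟩; exact hr.ne' h
    · intro p hp hpr hpt
      have h81 : p ∣ 81 * e ^ 2 := by
        have : 81 * e ^ 2 = r ^ 2 - t ^ 2 := by linarith
        rw [this]
        exact dvd_sub (dvd_pow hpr two_ne_zero) (dvd_pow hpt two_ne_zero)
      rcases hp.dvd_or_dvd h81 with h | h
      · have h3 : p ∣ (3:ℤ) := by
          have : p ∣ (3:ℤ) ^ 4 := by norm_num; exact h
          exact hp.dvd_of_dvd_pow this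
        have hassoc : Associated p 3 := (hp.dvd_prime_iff_associated prime_three_int).mp h3
        exact h3r (hassoc.symm.dvd.trans hpr)
      · have hpe : p ∣ e := hp.dvd_of_dvd_pow h
        exact hp.not_isUnit (hcop.isUnit_of_dvd' hpr hpe)
  have hprod_s : (r + s) * (r - s) = e ^ 2 := by linear_combination h1
  have hprod_s' : (r - s) * (r + s) = e ^ 2 := by linear_combination h1
  have hprod_t : (r + t) * (r - t) = (9 * e) ^ 2 := by linear_combination h2
  have hprod_t' : (r - t) * (r + t) = (9 * e) ^ 2 := by linear_combination h2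
  by_cases he2 : (2:ℤ) ∣ e
  · ---------------- e even ----------------
    obtain ⟨e1, he1⟩ := he2
    have hr2 : ¬ (2:ℤ) ∣ r := fun h =>
      Int.prime_two.not_isUnit (hcop.isUnit_of_dvd' h ⟨e1, he1⟩)
    have hfacts : ¬ (2:ℤ) ∣ s ∧ ¬ (2:ℤ) ∣ t := by
      rcases sq_emod8_cases e with ⟨_, he8⟩ | ⟨_, _, he8⟩ | ⟨h, _⟩
      · rcases sq_emod8_cases r with ⟨_, hr8⟩ | ⟨_, _, hr8⟩ | ⟨_, hr8⟩ <;>
        rcases sq_emod8_cases s with ⟨_, hs8⟩ | ⟨_, _, hs8⟩ | ⟨hs2', hs8⟩ <;>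
        rcases sq_emod8_cases t with ⟨_, ht8⟩ | ⟨_, _, ht8⟩ | ⟨ht2', ht8⟩ <;>
        omega
      · rcases sq_emod8_cases r with ⟨_, hr8⟩ | ⟨_, _, hr8⟩ | ⟨_, hr8⟩ <;>
        rcases sq_emod8_cases s with ⟨_, hs8⟩ | ⟨_, _, hs8⟩ | ⟨hs2', hs8⟩ <;>
        rcases sq_emod8_cases t with ⟨_, ht8⟩ | ⟨_, _, ht8⟩ | ⟨ht2', ht8⟩ <;>
        omega
      · omega
    obtain ⟨hs2o, ht2o⟩ := hfacts
    obtain ⟨a, ha⟩ : (2:ℤ) ∣ r + s := by omega
    obtain ⟨b, hb⟩ : (2:ℤ) ∣ r - s := by omega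
    obtain ⟨c, hc⟩ : (2:ℤ) ∣ r + t := by omega
    obtain ⟨c', hc'⟩ : (2:ℤ) ∣ r - t := by omega
    obtain ⟨u, hu⟩ : (2:ℤ) ∣ s + t := by omega
    obtain ⟨v, hv⟩ : (2:ℤ) ∣ s - t := by omega
    have hab : IsCoprime a b := by
      apply coprime_half
      have e1' : a + b = r := by linarith
      have e2' : a - b = s := by linarith
      rw [e1', e2']; exact hrs
    have hcc : IsCoprime c c' := by
      apply coprime_half
      have e1' : c + c' = r := by linarith
      have e2' : c - c' = t := by linarith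
      rw [e1', e2']; exact hrt
    have hst : IsCoprime s t := by
      apply isCoprime_of_prime_dvd
      · rintro ⟨h, -⟩; rw [h] at hs2o; exact hs2o (dvd_zero _)
      · intro p hp hps hpt
        have hp2 : ¬ p ∣ (2:ℤ) := not_dvd_of_prime_dvd_two hp hs2o hps
        have hpp : p * p ∣ 5 * (16 * e ^ 2) := by
          have : 5 * (16 * e ^ 2) = s * s - t * t := by linear_combination h1 - h2
          rw [this]
          exact dvd_sub (mul_dvd_mul hps hps) (mul_dvd_mul hpt hpt)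
        have h16 : p ∣ 16 * e ^ 2 := prime_sq_dvd_five_mul hp hpp
        rcases hp.dvd_or_dvd h16 with h | h
        · have : p ∣ (2:ℤ) ^ 4 := by norm_num; exact h
          exact hp2 (hp.dvd_of_dvd_pow this)
        · exact hpes p hp (hp.dvd_of_dvd_pow h) hps
    have huv : IsCoprime u v := by
      apply coprime_half
      have e1' : u + v = s := by linarith
      have e2' : u - v = t := by linarith
      rw [e1', e2']; exact hst
    have hab_eq : a * b = e1 ^ 2 := by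
      have : 4 * (a * b) = 4 * e1 ^ 2 := by
        have : (2 * a) * (2 * b) = (2 * e1) ^ 2 := by rw [← ha, ← hb, ← he1]; exact hprod_s
        linear_combination this
      linarith
    have hba_eq : b * a = e1 ^ 2 := by rw [mul_comm]; exact hab_eq
    have hcc_eq : c * c' = (9 * e1) ^ 2 := by
      have : 4 * (c * c') = 4 * (9 * e1) ^ 2 := by
        have : (2 * c) * (2 * c') = (9 * (2 * e1)) ^ 2 := by
          rw [← hc, ← hc', ← he1]; exact hprod_t
        linear_combination this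
      linarith
    have hcc_eq' : c' * c = (9 * e1) ^ 2 := by rw [mul_comm]; exact hcc_eq
    have huv_eq : u * v = 5 * (2 * e) ^ 2 := by
      have : 4 * (u * v) = 4 * (5 * (2 * e) ^ 2) := by
        have : (2 * u) * (2 * v) = 80 * e ^ 2 := by
          rw [← hu, ← hv]; linear_combination h2 - h1
        linear_combination this
      linarith
    obtain ⟨A, hA⟩ := sq_of_coprime_pos hab hab_eq (by linarith)
    obtain ⟨B, hB⟩ := sq_of_coprime_pos hab.symm hba_eq (by linarith)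
    obtain ⟨C, hC⟩ := sq_of_coprime_pos hcc hcc_eq (by linarith)
    obtain ⟨D, hD⟩ := sq_of_coprime_pos hcc.symm hcc_eq' (by linarith)
    obtain ⟨F, hF | hF | hF | hF⟩ := five_split huv huv_eq
    · exact build_new 2 r s t e A B C F (by norm_num) hr he h1 h2
        (by rw [ha, hA]) (by rw [hb, hB]) (by rw [hc, hC]) (by rw [hu, hF])
    · exact build_new 2 r (-s) (-t) e B A D F (by norm_num) hr he h1n h2n
        (by rw [← hB]; linarith) (by rw [← hA]; linarith) (by rw [← hD]; linarith)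
        (by linarith)
    · exact build_new 2 r s (-t) e A B D F (by norm_num) hr he h1 h2n
        (by rw [ha, hA]) (by rw [hb, hB]) (by rw [← hD]; linarith) (by rw [← hF]; linarith)
    · exact build_new 2 r (-s) t e B A C F (by norm_num) hr he h1n h2
        (by rw [← hB]; linarith) (by rw [← hA]; linarith) (by rw [hc, hC]) (by linarith)
  · ---------------- e odd ----------------
    have hfacts : ¬ (2:ℤ) ∣ r ∧ (4:ℤ) ∣ s ∧ (4:ℤ) ∣ t := by
      rcases sq_emod8_cases e with ⟨h, _⟩ | ⟨h, _, _⟩ | ⟨_, he8⟩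
      · omega
      · omega
      · rcases sq_emod8_cases r with ⟨_, hr8⟩ | ⟨_, _, hr8⟩ | ⟨hr2, hr8⟩ <;>
        rcases sq_emod8_cases s with ⟨hs4, hs8⟩ | ⟨_, _, hs8⟩ | ⟨_, hs8⟩ <;>
        rcases sq_emod8_cases t with ⟨ht4, ht8⟩ | ⟨_, _, ht8⟩ | ⟨_, ht8⟩ <;>
        omega
    obtain ⟨hr2, ⟨s2, hs4⟩, ⟨t2, ht4⟩⟩ := hfacts
    have huv_eq : (s2 + t2) * (s2 - t2) = 5 * e ^ 2 := by
      have : 16 * ((s2 + t2) * (s2 - t2)) = 16 * (5 * e ^ 2) := by
        have h := h1
        have h' := h2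
        rw [hs4] at h
        rw [ht4] at h'
        linear_combination h' - h
      linarith
    have huv : IsCoprime (s2 + t2) (s2 - t2) := by
      apply isCoprime_of_prime_dvd
      · rintro ⟨h, -⟩
        rw [h] at huv_eq
        have : e ^ 2 = 0 := by linarith
        exact he (pow_eq_zero_iff (two_ne_zero) |>.mp this)
      · intro p hp hpu hpv
        have hpp : p * p ∣ 5 * e ^ 2 := by rw [← huv_eq]; exact mul_dvd_mul hpu hpv
        have hpe : p ∣ e := hp.dvd_of_dvd_pow (prime_sq_dvd_five_mul hp hpp)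
        have hps : p ∣ s := by
          have : s = 2 * ((s2 + t2) + (s2 - t2)) := by rw [hs4]; ring
          rw [this]
          exact Dvd.dvd.mul_left (dvd_add hpu hpv) 2
        exact hpes p hp hpe hps
    have hodd_s : ¬ (2:ℤ) ∣ r + s := by omega
    have hodd_t : ¬ (2:ℤ) ∣ r + t := by omega
    have hc_s : IsCoprime (r + s) (r - s) := coprime_add_sub hrs hodd_s
    have hc_t : IsCoprime (r + t) (r - t) := coprime_add_sub hrt hodd_t
    obtain ⟨A, hA⟩ := sq_of_coprime_pos hc_s hprod_s (by linarith)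
    obtain ⟨B, hB⟩ := sq_of_coprime_pos hc_s.symm hprod_s' (by linarith)
    obtain ⟨C, hC⟩ := sq_of_coprime_pos hc_t hprod_t (by linarith)
    obtain ⟨D, hD⟩ := sq_of_coprime_pos hc_t.symm hprod_t' (by linarith)
    obtain ⟨F, hF | hF | hF | hF⟩ := five_split huv huv_eq
    · exact build_new 1 r s t e A B C (2 * F) (by norm_num) hr he h1 h2
        (by rw [hA]; ring) (by rw [hB]; ring) (by rw [hC]; ring)
        (by rw [hs4, ht4]; linear_combination 4 * hF)
    · exact build_new 1 r (-s) (-t) e B A D (2 * F) (by norm_num) hr he h1n h2n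
        (by rw [← hB]; ring) (by rw [← hA]; ring) (by rw [← hD]; ring)
        (by rw [hs4, ht4]; linear_combination (-4) * hF)
    · exact build_new 1 r s (-t) e A B D (2 * F) (by norm_num) hr he h1 h2n
        (by rw [hA]; ring) (by rw [hB]; ring) (by rw [← hD]; ring)
        (by rw [hs4, ht4]; linear_combination 4 * hF)
    · exact build_new 1 r (-s) t e B A C (2 * F) (by norm_num) hr he h1n h2
        (by rw [← hB]; ring) (by rw [← hA]; ring) (by rw [hC]; ring)
        (by rw [hs4, ht4]; linear_combination (-4) * hF)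


/-- Core descent: no integer solutions with `e ≠ 0` (induction on `|r|`). -/
theorem core_aux : ∀ (n : ℕ) (r s t e : ℤ), r.natAbs = n → e ≠ 0 → r ^ 2 = s ^ 2 + e ^ 2 →
    r ^ 2 = t ^ 2 + 81 * e ^ 2 → False := by
  intro n
  induction n using Nat.strong_induction_on with
  | _ n ih =>
    intro r s t e hn he h1 h2
    have hr0 : r ≠ 0 := by
      rintro rfl
      have : 0 < e ^ 2 := by positivity
      nlinarith [sq_nonneg s]
    by_cases hcop : IsCoprime r e
    · rcases lt_or_gt_of_ne hr0 with hneg | hpos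
      · obtain ⟨r', s', t', e', he', h1', h2', hlt⟩ :=
          primitive_step (-r) s t e (by linarith) he hcop.neg_left
            (by rw [neg_sq]; exact h1) (by rw [neg_sq]; exact h2)
        rw [Int.natAbs_neg, hn] at hlt
        exact ih _ hlt r' s' t' e' rfl he' h1' h2'
      · obtain ⟨r', s', t', e', he', h1', h2', hlt⟩ :=
          primitive_step r s t e hpos he hcop h1 h2
        rw [hn] at hlt
        exact ih _ hlt r' s' t' e' rfl he' h1' h2'
    · have hex : ∃ p : ℤ, Prime p ∧ p ∣ r ∧ p ∣ e := by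
        by_contra hno
        apply hcop
        apply isCoprime_of_prime_dvd
        · rintro ⟨h, -⟩; exact hr0 h
        · intro p hp hpr hpe
          exact hno ⟨p, hp, hpr, hpe⟩
      obtain ⟨p, hp, ⟨r1, hr1⟩, ⟨e1, he1⟩⟩ := hex
      have hps : p ∣ s := by
        have : p ∣ s ^ 2 := by
          have : s ^ 2 = r ^ 2 - e ^ 2 := by linarith
          rw [this, hr1, he1]
          exact ⟨p * r1 ^ 2 - p * e1 ^ 2, by ring⟩
        exact hp.dvd_of_dvd_pow this
      have hpt : p ∣ t := by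
        have : p ∣ t ^ 2 := by
          have : t ^ 2 = r ^ 2 - 81 * e ^ 2 := by linarith
          rw [this, hr1, he1]
          exact ⟨p * r1 ^ 2 - 81 * p * e1 ^ 2, by ring⟩
        exact hp.dvd_of_dvd_pow this
      obtain ⟨s1, hs1⟩ := hps
      obtain ⟨t1, ht1⟩ := hpt
      have hp0 : p ≠ 0 := hp.ne_zero
      have hpp : p ^ 2 ≠ 0 := pow_ne_zero 2 hp0
      have h1' : r1 ^ 2 = s1 ^ 2 + e1 ^ 2 := by
        apply mul_left_cancel₀ hpp
        rw [hr1, hs1, he1] at h1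
        linear_combination h1
      have h2' : r1 ^ 2 = t1 ^ 2 + 81 * e1 ^ 2 := by
        apply mul_left_cancel₀ hpp
        rw [hr1, ht1, he1] at h2
        linear_combination h2
      have he1' : e1 ≠ 0 := by rintro rfl; exact he (by rw [he1]; ring)
      have hlt : r1.natAbs < n := by
        rw [← hn, hr1, Int.natAbs_mul]
        have hp2 : 2 ≤ p.natAbs := (Int.prime_iff_natAbs_prime.mp hp).two_le
        have hr1' : 0 < r1.natAbs := by
          rw [Int.natAbs_pos]; rintro rfl; exact hr0 (by rw [hr1]; ring)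
        nlinarith
      exact ih _ hlt r1 s1 t1 e1 rfl he1' h1' h2'

/-- The system `r² = s² + e²`, `r² = t² + 81 e²` has no integer solution with `e ≠ 0`. -/
theorem core_int (r s t e : ℤ) (he : e ≠ 0) (h1 : r ^ 2 = s ^ 2 + e ^ 2)
    (h2 : r ^ 2 = t ^ 2 + 81 * e ^ 2) : False :=
  core_aux _ r s t e rfl he h1 h2

/-- The same over `ℚ`. -/
theorem core_rat (ρ σ τ ε : ℚ) (he : ε ≠ 0) (h1 : ρ ^ 2 = σ ^ 2 + ε ^ 2)
    (h2 : ρ ^ 2 = τ ^ 2 + 81 * ε ^ 2) : False := by
  have hρ := Rat.mul_den_eq_num ρ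
  have hσ := Rat.mul_den_eq_num σ
  have hτ := Rat.mul_den_eq_num τ
  have hε := Rat.mul_den_eq_num ε
  have dρ : (ρ.den : ℚ) ≠ 0 := by exact_mod_cast ρ.den_pos.ne'
  have dσ : (σ.den : ℚ) ≠ 0 := by exact_mod_cast σ.den_pos.ne'
  have dτ : (τ.den : ℚ) ≠ 0 := by exact_mod_cast τ.den_pos.ne'
  have dε : (ε.den : ℚ) ≠ 0 := by exact_mod_cast ε.den_pos.ne'
  set D : ℚ := (ρ.den : ℚ) * σ.den * τ.den * ε.den with hD
  have e_r : ((ρ.num * σ.den * τ.den * ε.den : ℤ) : ℚ) = ρ * D := by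
    push_cast; rw [← hρ, hD]; ring
  have e_s : ((σ.num * ρ.den * τ.den * ε.den : ℤ) : ℚ) = σ * D := by
    push_cast; rw [← hσ, hD]; ring
  have e_t : ((τ.num * ρ.den * σ.den * ε.den : ℤ) : ℚ) = τ * D := by
    push_cast; rw [← hτ, hD]; ring
  have e_e : ((ε.num * ρ.den * σ.den * τ.den : ℤ) : ℚ) = ε * D := by
    push_cast; rw [← hε, hD]; ring
  have hD0 : D ≠ 0 := by
    rw [hD]; exact mul_ne_zero (mul_ne_zero (mul_ne_zero dρ dσ) dτ) dε
  apply core_int (ρ.num * σ.den * τ.den * ε.den) (σ.num * ρ.den * τ.den * ε.den)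
    (τ.num * ρ.den * σ.den * ε.den) (ε.num * ρ.den * σ.den * τ.den)
  · intro h0
    have : ((ε.num * ρ.den * σ.den * τ.den : ℤ) : ℚ) = 0 := by rw [h0]; simp
    rw [e_e] at this
    exact (mul_ne_zero he hD0) this
  · have : (((ρ.num * σ.den * τ.den * ε.den : ℤ) : ℚ)) ^ 2
        = ((σ.num * ρ.den * τ.den * ε.den : ℤ) : ℚ) ^ 2
          + ((ε.num * ρ.den * σ.den * τ.den : ℤ) : ℚ) ^ 2 := by
      rw [e_r, e_s, e_e]; linear_combination (D ^ 2) * h1
    exact_mod_cast this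
  · have : (((ρ.num * σ.den * τ.den * ε.den : ℤ) : ℚ)) ^ 2
        = ((τ.num * ρ.den * σ.den * ε.den : ℤ) : ℚ) ^ 2
          + 81 * ((ε.num * ρ.den * σ.den * τ.den : ℤ) : ℚ) ^ 2 := by
      rw [e_r, e_t, e_e]; linear_combination (D ^ 2) * h2
    exact_mod_cast this

/-- **(D1)** The only rational points of `Y² = X (X - 1) (X - 81)` (curve 15a2) are the
2-torsion points: `Y = 0`. -/
theorem rational_points_15a2 (X Y : ℚ) (h : Y ^ 2 = X * (X - 1) * (X - 81)) : Y = 0 := by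
  by_contra hY
  apply core_rat (X ^ 2 - 81) (X ^ 2 - 2 * X + 81) (X ^ 2 - 162 * X + 81) (2 * Y)
  · exact mul_ne_zero two_ne_zero hY
  · linear_combination (-4) * h
  · linear_combination (-324) * h

/-- Variant: no rational `X` makes `X`, `X - 1`, `X - 81` simultaneously squares. -/
theorem no_three_squares (X a b c : ℚ) (ha : X = a ^ 2) (hb : X - 1 = b ^ 2)
    (hc : X - 81 = c ^ 2) : False := by
  apply core_rat a b c 1 one_ne_zero
  · rw [← ha, ← hb]; ring
  · rw [← ha, ← hc]; ring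

end Fermat.Agent.S51.H58
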