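/-
helper45: rational points of the singular plane model of X_0(15)
  t (U+27)(U+3)^3 = U (t^2+10t+5)^3
(U = Hauptmodul of X_0(3), t = Hauptmodul of X_0(5)).
The function g = (eta3 eta5/(eta1 eta15))^3 is an explicit cubic in U over Q(t); it satisfies
  g t^2 - (g^4 - 9 g^3 - 9 g - 1) t + 125 g^3 = 0,
whose discriminant is (g^2-4g-1)^2 (g^2-11g-1)(g^2+g-1).  The quartic maps to Y^2 = X(X-1)(X-81).
-/
import Fermat.Agent.S51.H58_Descent

set_option autoImplicit false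

namespace Fermat.Agent.S51.H45

/-- coefficient of U^0 in the numerator of g -/
def gN0 (t : ℚ) : ℚ :=
    -t ^ 6 - 15 * t ^ 5 - 54 * t ^ 4 - 25 * t ^ 3 + 9 * t ^ 2 - 225 * t - 3125

/-- coefficient of U^1 in the numerator of g -/
def gN1 (t : ℚ) : ℚ :=
    9 * t ^ 5 + 210 * t ^ 4 + 1740 * t ^ 3 + 6063 * t ^ 2 + 6750 * t

/-- coefficient of U^2 in the numerator of g -/
def gN2 (t : ℚ) : ℚ :=
    t ^ 4 + 25 * t ^ 3 + 254 * t ^ 2 + 900 * t

/-- coefficient of U^3 in the numerator of g -/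
def gN3 (t : ℚ) : ℚ :=
    3 * t ^ 2 + 25 * t

/-- numerator of g as a cubic in U -/
def gNum (U t : ℚ) : ℚ := gN0 t + gN1 t * U + gN2 t * U ^ 2 + gN3 t * U ^ 3

/-- denominator of g -/
def gDen (t : ℚ) : ℚ := t * (t ^ 2 + 4 * t - 1) * (t ^ 2 + 10 * t + 5) ^ 2

/-- coefficient of U^0 in the cofactor -/
def gC0 (t : ℚ) : ℚ :=
    -9 * t ^ 22 - 669 * t ^ 21 - 22332 * t ^ 20 - 442176 * t ^ 19 - 5777511 * t ^ 18
    - 52427682 * t ^ 17 - 338543835 * t ^ 16 - 1567254306 * t ^ 15 - 5170505709 * t ^ 14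
    - 11924288379 * t ^ 13 - 18598403589 * t ^ 12 - 19259675469 * t ^ 11 - 18913945179 * t ^ 10
    - 47711730840 * t ^ 9 - 136701520134 * t ^ 8 - 225064883700 * t ^ 7 - 222004320000 * t ^ 6
    - 511625156250 * t ^ 5 - 1812168750000 * t ^ 4 - 3196728515625 * t ^ 3
    - 1647949218750 * t ^ 2

/-- coefficient of U^1 in the cofactor -/
def gC1 (t : ℚ) : ℚ :=
    -t ^ 21 - 76 * t ^ 20 - 2627 * t ^ 19 - 52094 * t ^ 18 - 590805 * t ^ 17 - 2375699 * t ^ 16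
    + 36901580 * t ^ 15 + 762595796 * t ^ 14 + 7158556845 * t ^ 13 + 42354567715 * t ^ 12
    + 168277838106 * t ^ 11 + 454809527882 * t ^ 10 + 872734155385 * t ^ 9
    + 1583392143799 * t ^ 8 + 4204920065100 * t ^ 7 + 11501374562500 * t ^ 6
    + 20668662500000 * t ^ 5 + 19652551953125 * t ^ 4 + 6963525390625 * t ^ 3
    - 219726562500 * t ^ 2

/-- coefficient of U^2 in the cofactor -/
def gC2 (t : ℚ) : ℚ :=
    -3 * t ^ 19 - 178 * t ^ 18 - 10968 * t ^ 17 - 560238 * t ^ 16 - 17882555 * t ^ 15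
    - 366326707 * t ^ 14 - 5105506788 * t ^ 13 - 50394984062 * t ^ 12 - 360175008605 * t ^ 11
    - 1877770650957 * t ^ 10 - 7099409502100 * t ^ 9 - 19071976858478 * t ^ 8
    - 34972104745125 * t ^ 7 - 40596781508125 * t ^ 6 - 25252099000000 * t ^ 5
    - 4191180468750 * t ^ 4 + 1896093750000 * t ^ 3 - 6103515625 * t ^ 2

/-- coefficient of U^3 in the cofactor -/
def gC3 (t : ℚ) : ℚ :=
    -9 * t ^ 17 - 2595 * t ^ 16 - 174150 * t ^ 15 - 5923026 * t ^ 14 - 125120715 * t ^ 13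
    - 1789788105 * t ^ 12 - 18058310028 * t ^ 11 - 130644081744 * t ^ 10 - 677253125655 * t ^ 9
    - 2474075926593 * t ^ 8 - 6139810975350 * t ^ 7 - 9664614978750 * t ^ 6
    - 8432665453125 * t ^ 5 - 2874882421875 * t ^ 4 + 179296875000 * t ^ 3

/-- coefficient of U^4 in the cofactor -/
def gC4 (t : ℚ) : ℚ :=
    -t ^ 16 - 289 * t ^ 15 - 24368 * t ^ 14 - 973909 * t ^ 13 - 22715177 * t ^ 12
    - 341833758 * t ^ 11 - 3492073552 * t ^ 10 - 24747676230 * t ^ 9 - 121557571985 * t ^ 8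
    - 403728263225 * t ^ 7 - 854710662500 * t ^ 6 - 1016716578125 * t ^ 5 - 490744140625 * t ^ 4
    + 7031250000 * t ^ 3

/-- coefficient of U^5 in the cofactor -/
def gC5 (t : ℚ) : ℚ :=
    -12 * t ^ 14 - 1810 * t ^ 13 - 90120 * t ^ 12 - 2356734 * t ^ 11 - 37800484 * t ^ 10
    - 396324940 * t ^ 9 - 2770717908 * t ^ 8 - 12763347500 * t ^ 7 - 36932290000 * t ^ 6
    - 60068531250 * t ^ 5 - 40964062500 * t ^ 4 + 97656250 * t ^ 3

/-- coefficient of U^6 in the cofactor -/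
def gC6 (t : ℚ) : ℚ :=
    -54 * t ^ 12 - 4572 * t ^ 11 - 153024 * t ^ 10 - 2753220 * t ^ 9 - 29708472 * t ^ 8
    - 199084500 * t ^ 7 - 814455000 * t ^ 6 - 1866187500 * t ^ 5 - 1835156250 * t ^ 4

/-- coefficient of U^7 in the cofactor -/
def gC7 (t : ℚ) : ℚ :=
    -108 * t ^ 10 - 5400 * t ^ 9 - 114516 * t ^ 8 - 1310800 * t ^ 7 - 8492500 * t ^ 6
    - 29375000 * t ^ 5 - 42187500 * t ^ 4

/-- coefficient of U^8 in the cofactor -/
def gC8 (t : ℚ) : ℚ :=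
    -81 * t ^ 8 - 2700 * t ^ 7 - 33750 * t ^ 6 - 187500 * t ^ 5 - 390625 * t ^ 4

/-- cofactor of the plane model in the cleared quartic relation -/
def gCof (U t : ℚ) : ℚ :=
  gC0 t + gC1 t * U + gC2 t * U ^ 2 + gC3 t * U ^ 3 + gC4 t * U ^ 4 + gC5 t * U ^ 5 + gC6 t * U ^ 6 + gC7 t * U ^ 7 + gC8 t * U ^ 8

lemma quartic_cleared (U t : ℚ)
    (h : t * (U + 27) * (U + 3) ^ 3 = U * (t ^ 2 + 10 * t + 5) ^ 3) :
    gNum U t * gDen t ^ 3 * t ^ 2
      - (gNum U t ^ 4 - 9 * gNum U t ^ 3 * gDen t - 9 * gNum U t * gDen t ^ 3 - gDen t ^ 4) * t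
      + 125 * gNum U t ^ 3 * gDen t = 0 := by
  linear_combination (norm := skip) (gCof U t) * h
  simp only [gNum, gDen, gN0, gN1, gN2, gN3, gCof, gC0, gC1, gC2, gC3, gC4, gC5, gC6, gC7, gC8]
  ring1

lemma not_isSquare_five : ¬ IsSquare (5 : ℚ) := by
  rw [show (5:ℚ) = ((5:ℕ):ℚ) by norm_num, Rat.isSquare_natCast_iff]
  intro ⟨k, hk⟩
  have : k < 3 := by nlinarith
  interval_cases k <;> omega

lemma sq_ne_five (r : ℚ) : r ^ 2 ≠ 5 := by
  intro h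
  exact not_isSquare_five ⟨r, by rw [← h]; ring⟩

lemma gDen_ne_zero {t : ℚ} (ht : t ≠ 0) : gDen t ≠ 0 := by
  unfold gDen
  have h1 : t ^ 2 + 4 * t - 1 ≠ 0 := by
    intro h
    exact sq_ne_five (t + 2) (by linear_combination h)
  have h2 : t ^ 2 + 10 * t + 5 ≠ 0 := by
    intro h
    exact sq_ne_five ((t + 5) / 2) (by linear_combination h / 4)
  exact mul_ne_zero (mul_ne_zero ht h1) (pow_ne_zero 2 h2)

/-- Rational points of the model `g t^2 - (g^4 - 9 g^3 - 9 g - 1) t + 125 g^3 = 0` of `X_0(15)`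
with `t ≠ 0`. -/
theorem points_of_quartic (g t : ℚ) (ht : t ≠ 0)
    (hq : g * t ^ 2 - (g ^ 4 - 9 * g ^ 3 - 9 * g - 1) * t + 125 * g ^ 3 = 0) :
    t = -40 ∨ t = -25 / 2 ∨ t = -10 ∨ t = -25 / 8 := by
  have hg0 : g ≠ 0 := by
    rintro rfl
    apply ht
    linear_combination hq
  have hg1 : g ^ 2 - 4 * g - 1 ≠ 0 := fun h => sq_ne_five (g - 2) (by linear_combination h)
  by_cases hg2 : g = -2
  · subst hg2
    have h0 : (t + 40) * (2 * t + 25) = 0 := by linear_combination -hq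
    rcases mul_eq_zero.1 h0 with h1 | h1
    · left; linarith
    · right; left; linarith
  · have hg2' : g + 2 ≠ 0 := fun h => hg2 (by linarith)
    obtain ⟨Y, hYdef⟩ : ∃ Y : ℚ, Y = (2 * g * t - (g ^ 4 - 9 * g ^ 3 - 9 * g - 1)) / (g ^ 2 - 4 * g - 1) :=
      ⟨_, rfl⟩
    have hYmul : Y * (g ^ 2 - 4 * g - 1) = 2 * g * t - (g ^ 4 - 9 * g ^ 3 - 9 * g - 1) := by
      rw [hYdef]; exact div_mul_cancel₀ _ hg1
    have hY : Y ^ 2 = (g ^ 2 - 11 * g - 1) * (g ^ 2 + g - 1) := by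
      have h2 : (g ^ 2 - 4 * g - 1) ^ 2 ≠ 0 := pow_ne_zero 2 hg1
      apply mul_right_cancel₀ h2
      have e : (Y * (g ^ 2 - 4 * g - 1)) ^ 2
          = (2 * g * t - (g ^ 4 - 9 * g ^ 3 - 9 * g - 1)) ^ 2 := by rw [hYmul]
      linear_combination e + 4 * g * hq
    obtain ⟨z, hzdef⟩ : ∃ z : ℚ, z = (g ^ 2 + 1) / (g + 2) := ⟨_, rfl⟩
    have hzmul : z * (g + 2) = g ^ 2 + 1 := by rw [hzdef]; exact div_mul_cancel₀ _ hg2'
    obtain ⟨Wq, hWdef⟩ : ∃ Wq : ℚ, Wq = Y * (g ^ 2 + 4 * g - 1) / (g + 2) ^ 2 := ⟨_, rfl⟩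
    have hWmul : Wq * (g + 2) ^ 2 = Y * (g ^ 2 + 4 * g - 1) := by
      rw [hWdef]; exact div_mul_cancel₀ _ (pow_ne_zero 2 hg2')
    have hW : Wq ^ 2 = (z ^ 2 - 10 * z + 5) * (z ^ 2 + 8 * z - 4) := by
      have h4 : (g + 2) ^ 4 ≠ 0 := pow_ne_zero 4 hg2'
      apply mul_right_cancel₀ h4
      have e1 : (Wq * (g + 2) ^ 2) ^ 2 = (Y * (g ^ 2 + 4 * g - 1)) ^ 2 := by rw [hWmul]
      have e2 : (z ^ 2 - 10 * z + 5) * (g + 2) ^ 2
          = (g ^ 2 - 11 * g - 1) * (g ^ 2 + g - 1) := by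
        have : (z * (g + 2)) ^ 2 - 10 * (z * (g + 2)) * (g + 2) + 5 * (g + 2) ^ 2
            = (g ^ 2 - 11 * g - 1) * (g ^ 2 + g - 1) := by rw [hzmul]; ring
        linear_combination this
      have e3 : (z ^ 2 + 8 * z - 4) * (g + 2) ^ 2 = (g ^ 2 + 4 * g - 1) ^ 2 := by
        have : (z * (g + 2)) ^ 2 + 8 * (z * (g + 2)) * (g + 2) - 4 * (g + 2) ^ 2
            = (g ^ 2 + 4 * g - 1) ^ 2 := by rw [hzmul]; ring
        linear_combination this
      calc Wq ^ 2 * (g + 2) ^ 4 = (Wq * (g + 2) ^ 2) ^ 2 := by ring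
        _ = Y ^ 2 * (g ^ 2 + 4 * g - 1) ^ 2 := by rw [e1]; ring
        _ = ((z ^ 2 - 10 * z + 5) * (g + 2) ^ 2) * ((z ^ 2 + 8 * z - 4) * (g + 2) ^ 2) := by
            rw [hY, e2, e3]
        _ = (z ^ 2 - 10 * z + 5) * (z ^ 2 + 8 * z - 4) * (g + 2) ^ 4 := by ring
    have hX : ((2 * z - 1) * ((2 * Wq + 2 * z ^ 2 - 2 * z + 1) - 81)) ^ 2
        = (2 * Wq + 2 * z ^ 2 - 2 * z + 1) * ((2 * Wq + 2 * z ^ 2 - 2 * z + 1) - 1)
          * ((2 * Wq + 2 * z ^ 2 - 2 * z + 1) - 81) := by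
      linear_combination (-4 * (2 * Wq + 2 * z ^ 2 - 2 * z - 80)) * hW
    have h0 := Fermat.Agent.S51.H58.rational_points_15a2 _ _ hX
    rcases mul_eq_zero.1 h0 with hz | hX81
    · -- z = 1/2
      have hgg : g * (2 * g - 1) = 0 := by
        have : (2 * z - 1) * (g + 2) = 0 := by rw [hz]; ring
        linear_combination this - 2 * hzmul
      have hg12 : 2 * g - 1 = 0 := (mul_eq_zero.1 hgg).resolve_left hg0
      have hg : g = 1 / 2 := by linarith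
      subst hg
      have h1 : (t + 10) * (8 * t + 25) = 0 := by linear_combination 16 * hq
      rcases mul_eq_zero.1 h1 with h2 | h2
      · right; right; left; linarith
      · right; right; right; linarith
    · exfalso
      have hWq : Wq = -(z ^ 2 - z - 40) := by linear_combination hX81 / 2
      rw [hWq] at hW
      have : (1620 : ℚ) = 0 := by linear_combination hW
      norm_num at this

/-- **(C)** Rational points of the plane model `t (U+27)(U+3)^3 = U (t^2+10t+5)^3` of `X_0(15)`. -/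
theorem x015_points (U t : ℚ) (_hU : U ≠ 0) (ht : t ≠ 0)
    (h : t * (U + 27) * (U + 3) ^ 3 = U * (t ^ 2 + 10 * t + 5) ^ 3) :
    t = -40 ∨ t = -25 / 2 ∨ t = -10 ∨ t = -25 / 8 := by
  have hD := gDen_ne_zero ht
  have hc := quartic_cleared U t h
  apply points_of_quartic (gNum U t / gDen t) t ht
  have h4 : gDen t ^ 4 ≠ 0 := pow_ne_zero 4 hD
  apply mul_right_cancel₀ h4
  rw [zero_mul]
  have e : gNum U t / gDen t * gDen t = gNum U t := div_mul_cancel₀ _ hD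
  generalize gNum U t / gDen t = g at e ⊢
  rw [← e] at hc
  linear_combination hc

end Fermat.Agent.S51.H45
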