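import Fermat.Agent.S51.H80_Lines
import Mathlib.FieldTheory.Galois.Infinite

/-!
# S51, part (B): Galois descent for stable lines in `E[3]` and `E[5]` (helper80)
-/

set_option autoImplicit false

namespace Fermat.Agent.S51.H80

open WeierstrassCurve WeierstrassCurve.Affine
open scoped WeierstrassCurve.Affine

/-- `ℚ̄ / ℚ` is Galois (for the algebra instance used in the statements). -/
theorem isGalois_Qbar : IsGalois ℚ (AlgebraicClosure ℚ) :=
  haveI : Algebra.IsAlgebraic ℚ (AlgebraicClosure ℚ) := AlgebraicClosure.isAlgebraic ℚ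
  haveI : IsAlgClosure ℚ (AlgebraicClosure ℚ) := ⟨inferInstance, inferInstance⟩
  inferInstance

/-- an element of `ℚ̄` fixed by every automorphism is rational. -/
theorem exists_rat_of_fixed (x : AlgebraicClosure ℚ)
    (h : ∀ σ : AlgebraicClosure ℚ ≃ₐ[ℚ] AlgebraicClosure ℚ, σ x = x) :
    ∃ r : ℚ, algebraMap ℚ (AlgebraicClosure ℚ) r = x :=
  haveI := isGalois_Qbar
  (InfiniteGalois.mem_range_algebraMap_iff_fixed x).mpr h

section Equivariance

variable {F K : Type*} [Field F] [Field K] [Algebra F K] (V : WeierstrassCurve F)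

lemma Bx_baseChange (x : F) :
    Bx (V.map (algebraMap F K)).toAffine (algebraMap F K x) = algebraMap F K (Bx V.toAffine x) := by
  simp only [Bx, map_b₂, map_b₄, map_b₆, map_add, map_mul, map_pow, map_ofNat]

lemma psi3_baseChange (x : F) :
    psi3 (V.map (algebraMap F K)).toAffine (algebraMap F K x)
      = algebraMap F K (psi3 V.toAffine x) := by
  simp only [psi3, map_b₂, map_b₄, map_b₆, map_b₈, map_add, map_mul, map_pow, map_ofNat]

lemma numD_baseChange (x : F) :
    numD (V.map (algebraMap F K)).toAffine (algebraMap F K x)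
      = algebraMap F K (numD V.toAffine x) := by
  simp only [numD, map_b₄, map_b₆, map_b₈, map_sub, map_mul, map_pow, map_ofNat]

variable (σ : K ≃ₐ[F] K)

lemma Bx_galois (x : K) :
    Bx (V.map (algebraMap F K)).toAffine (σ x) = σ (Bx (V.map (algebraMap F K)).toAffine x) := by
  simp only [Bx, map_b₂, map_b₄, map_b₆, map_add, map_mul, map_pow, map_ofNat, AlgEquiv.commutes]

lemma psi3_galois (x : K) :
    psi3 (V.map (algebraMap F K)).toAffine (σ x)
      = σ (psi3 (V.map (algebraMap F K)).toAffine x) := by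
  simp only [psi3, map_b₂, map_b₄, map_b₆, map_b₈, map_add, map_mul, map_pow, map_ofNat,
    AlgEquiv.commutes]

lemma numD_galois (x : K) :
    numD (V.map (algebraMap F K)).toAffine (σ x)
      = σ (numD (V.map (algebraMap F K)).toAffine x) := by
  simp only [numD, map_b₄, map_b₆, map_b₈, map_sub, map_mul, map_pow, map_ofNat,
    AlgEquiv.commutes]

end Equivariance

/-- the Galois action on an affine point. -/
lemma smul_some (W : WeierstrassCurve ℤ) (σ : AlgebraicClosure ℚ ≃ₐ[ℚ] AlgebraicClosure ℚ)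
    {x y : AlgebraicClosure ℚ} (h : (EQbar W).Nonsingular x y) :
    ∃ h' : (EQbar W).Nonsingular (σ x) (σ y),
      σ • (Point.some x y h : (EQbar W).Point) = Point.some (σ x) (σ y) h' :=
  ⟨_, rfl⟩


section Group

variable {G : Type*} [AddCommGroup G]

lemma nsmul_cases_three (P : G) (h3 : 3 • P = 0) (k : ℕ) :
    k • P = 0 ∨ k • P = P ∨ k • P = -P := by
  have hk : k • P = (k % 3) • P := by
    conv_lhs => rw [← Nat.mod_add_div k 3]
    rw [add_nsmul, mul_nsmul, h3, nsmul_zero, add_zero]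
  have hlt : k % 3 < 3 := Nat.mod_lt _ (by norm_num)
  rw [hk]
  interval_cases (k % 3)
  · left; simp
  · right; left; simp
  · right; right
    rw [eq_neg_iff_add_eq_zero, ← h3]
    rw [show (3 : ℕ) = 2 + 1 from rfl, add_nsmul, one_nsmul]

lemma nsmul_cases_five (P : G) (h5 : 5 • P = 0) (k : ℕ) :
    k • P = 0 ∨ k • P = P ∨ k • P = 2 • P ∨ k • P = -(2 • P) ∨ k • P = -P := by
  have hk : k • P = (k % 5) • P := by
    conv_lhs => rw [← Nat.mod_add_div k 5]
    rw [add_nsmul, mul_nsmul, h5, nsmul_zero, add_zero]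
  have hlt : k % 5 < 5 := Nat.mod_lt _ (by norm_num)
  rw [hk]
  interval_cases (k % 5)
  · left; simp
  · right; left; simp
  · right; right; left; rfl
  · right; right; right; left
    rw [eq_neg_iff_add_eq_zero, ← h5]
    rw [show (5 : ℕ) = 3 + 2 from rfl, add_nsmul]
  · right; right; right; right
    rw [eq_neg_iff_add_eq_zero, ← h5]
    rw [show (5 : ℕ) = 4 + 1 from rfl, add_nsmul, one_nsmul]

end Group

/-- **(3a)** If `E[3]` is not irreducible, then `ψ₃` has a rational root. -/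
theorem exists_rat_root_psi3 (W : WeierstrassCurve ℤ) (hΔ : W.Δ ≠ 0)
    (h : ¬ W.ModRepIsIrreducible 3) :
    ∃ q : ℚ, psi3 (W.map (Int.castRingHom ℚ)).toAffine q = 0 := by
  obtain ⟨N, hN, P, hPN, hP0, hgen⟩ := exists_line_of_not_irreducible_three W hΔ h
  obtain ⟨x, y, hxy, hPx, hx3⟩ := modRep_point_three W hΔ P hP0
  have h3P : 3 • (P : (EQbar W).Point) = 0 := by
    have := (Submodule.mem_torsionBy_iff _ _).1 P.2
    rwa [Nat.cast_smul_eq_nsmul ℤ] at this
  -- every automorphism fixes `x`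
  have hfix : ∀ σ : AlgebraicClosure ℚ ≃ₐ[ℚ] AlgebraicClosure ℚ, σ x = x := by
    intro σ
    obtain ⟨k, hk⟩ := hgen (σ • P) (hN σ P hPN)
    have hk' : σ • (P : (EQbar W).Point) = k • (P : (EQbar W).Point) := by
      have e1 : ((σ • P : Submodule.torsionBy ℤ (EQbar W).Point ((3 : ℕ) : ℤ)) :
          (EQbar W).Point) = σ • (P : (EQbar W).Point) := rfl
      have e2 : ((k • P : Submodule.torsionBy ℤ (EQbar W).Point ((3 : ℕ) : ℤ)) :
          (EQbar W).Point) = k • (P : (EQbar W).Point) := by simp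
      rw [← e1, hk, e2]
    obtain ⟨h', hσ⟩ := smul_some W σ hxy
    rw [hPx] at hk' h3P
    rw [hσ] at hk'
    rcases nsmul_cases_three _ h3P k with h0 | h1 | h2
    · rw [h0] at hk'
      exact absurd hk' (Point.some_ne_zero _)
    · rw [h1] at hk'
      injection hk'
    · rw [h2, Point.neg_some] at hk'
      injection hk'
  obtain ⟨q, hq⟩ := exists_rat_of_fixed x hfix
  refine ⟨q, ?_⟩
  have hinj : Function.Injective (algebraMap ℚ (AlgebraicClosure ℚ)) :=
    (algebraMap ℚ (AlgebraicClosure ℚ)).injective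
  apply hinj
  rw [map_zero, ← psi3_baseChange, hq]
  exact hx3

/-- **(5a)** If `E[5]` is not irreducible, then any Galois-equivariant function of the
`x`-coordinate which is invariant under doubling on the roots of `ψ₅` takes a rational value at
some root of `ψ₅`. -/
theorem exists_rat_invariant_five (W : WeierstrassCurve ℤ) (hΔ : W.Δ ≠ 0)
    (h : ¬ W.ModRepIsIrreducible 5) (f : AlgebraicClosure ℚ → AlgebraicClosure ℚ)
    (hfσ : ∀ (σ : AlgebraicClosure ℚ ≃ₐ[ℚ] AlgebraicClosure ℚ) (x : AlgebraicClosure ℚ),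
      σ (f x) = f (σ x))
    (hf2 : ∀ x : AlgebraicClosure ℚ, Psi5 (EQbar W) x = 0 →
      f (numD (EQbar W) x / Bx (EQbar W) x) = f x) :
    ∃ (x : AlgebraicClosure ℚ) (t : ℚ), Psi5 (EQbar W) x = 0 ∧
      f x = algebraMap ℚ (AlgebraicClosure ℚ) t := by
  obtain ⟨N, hN, P, hPN, hP0, hgen⟩ := exists_line_of_not_irreducible_five W hΔ h
  obtain ⟨x, y, hxy, hPx, hx5, hB, hx3, y', hxy', h2P⟩ := modRep_point_five W hΔ P hP0
  have h5P : 5 • (P : (EQbar W).Point) = 0 := by
    have := (Submodule.mem_torsionBy_iff _ _).1 P.2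
    rwa [Nat.cast_smul_eq_nsmul ℤ] at this
  have h2P' : 2 • (P : (EQbar W).Point)
      = Point.some (numD (EQbar W) x / Bx (EQbar W) x) y' hxy' := by
    rw [← h2P]; simp
  -- every automorphism fixes `f x`
  have hfix : ∀ σ : AlgebraicClosure ℚ ≃ₐ[ℚ] AlgebraicClosure ℚ, σ (f x) = f x := by
    intro σ
    rw [hfσ]
    obtain ⟨k, hk⟩ := hgen (σ • P) (hN σ P hPN)
    have hk' : σ • (P : (EQbar W).Point) = k • (P : (EQbar W).Point) := by
      have e1 : ((σ • P : Submodule.torsionBy ℤ (EQbar W).Point ((5 : ℕ) : ℤ)) :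
          (EQbar W).Point) = σ • (P : (EQbar W).Point) := rfl
      have e2 : ((k • P : Submodule.torsionBy ℤ (EQbar W).Point ((5 : ℕ) : ℤ)) :
          (EQbar W).Point) = k • (P : (EQbar W).Point) := by simp
      rw [← e1, hk, e2]
    obtain ⟨h', hσ⟩ := smul_some W σ hxy
    rw [hPx, hσ] at hk'
    rw [hPx] at h5P h2P'
    rcases nsmul_cases_five _ h5P k with h0 | h1 | h2 | h3 | h4
    · rw [h0] at hk'
      exact absurd hk' (Point.some_ne_zero _)
    · rw [h1] at hk'
      have : σ x = x := by injection hk'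
      rw [this]
    · rw [h2, h2P'] at hk'
      have : σ x = numD (EQbar W) x / Bx (EQbar W) x := by injection hk'
      rw [this, hf2 x hx5]
    · rw [h3, h2P', Point.neg_some] at hk'
      have : σ x = numD (EQbar W) x / Bx (EQbar W) x := by injection hk'
      rw [this, hf2 x hx5]
    · rw [h4, Point.neg_some] at hk'
      have : σ x = x := by injection hk'
      rw [this]
  obtain ⟨t, ht⟩ := exists_rat_of_fixed (f x) hfix
  exact ⟨x, t, hx5, ht.symm⟩


lemma EQbar_c₄ (W : WeierstrassCurve ℤ) :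
    (EQbar W).c₄ = algebraMap ℚ (AlgebraicClosure ℚ) (W.c₄ : ℚ) := by
  show ((W.map (Int.castRingHom ℚ)).map (algebraMap ℚ (AlgebraicClosure ℚ))).c₄ = _
  rw [map_c₄, map_c₄]
  simp

lemma EQbar_Δ (W : WeierstrassCurve ℤ) :
    (EQbar W).Δ = algebraMap ℚ (AlgebraicClosure ℚ) (W.Δ : ℚ) := by
  show ((W.map (Int.castRingHom ℚ)).map (algebraMap ℚ (AlgebraicClosure ℚ))).Δ = _
  rw [map_Δ, map_Δ]
  simp

lemma map_rat_c₄ (W : WeierstrassCurve ℤ) : (W.map (Int.castRingHom ℚ)).c₄ = (W.c₄ : ℚ) := by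
  rw [map_c₄]; simp

lemma map_rat_Δ (W : WeierstrassCurve ℤ) : (W.map (Int.castRingHom ℚ)).Δ = (W.Δ : ℚ) := by
  rw [map_Δ]; simp

/-- **(3) = (3a) + (3b)**, with the algebraic input (3b) `U_of_root3` (for `K = ℚ`) as a
hypothesis. -/
theorem exists_U_of_not_irreducible_three_of (W : WeierstrassCurve ℤ) (hΔ : W.Δ ≠ 0)
    (h : ¬ W.ModRepIsIrreducible 3)
    (h3b : ∀ x : ℚ, psi3 (W.map (Int.castRingHom ℚ)).toAffine x = 0 →
      (W.map (Int.castRingHom ℚ)).Δ / Bx (W.map (Int.castRingHom ℚ)).toAffine x ^ 2 ≠ 0 ∧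
      (W.map (Int.castRingHom ℚ)).c₄ ^ 3 *
          ((W.map (Int.castRingHom ℚ)).Δ / Bx (W.map (Int.castRingHom ℚ)).toAffine x ^ 2)
        = (W.map (Int.castRingHom ℚ)).Δ *
          (((W.map (Int.castRingHom ℚ)).Δ / Bx (W.map (Int.castRingHom ℚ)).toAffine x ^ 2 + 27) *
           ((W.map (Int.castRingHom ℚ)).Δ / Bx (W.map (Int.castRingHom ℚ)).toAffine x ^ 2 + 3)
             ^ 3)) :
    ∃ U : ℚ, U ≠ 0 ∧ (W.c₄ : ℚ) ^ 3 * U = (W.Δ : ℚ) * ((U + 27) * (U + 3) ^ 3) := by
  obtain ⟨q, hq⟩ := exists_rat_root_psi3 W hΔ h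
  obtain ⟨hU0, hU⟩ := h3b q hq
  rw [map_rat_c₄, map_rat_Δ] at hU
  rw [map_rat_Δ] at hU0
  exact ⟨_, hU0, hU⟩

/-- **(5) = (5a) + (5b) + (5c)**, with the algebraic inputs as hypotheses: `f` is any
Galois-equivariant function such that on the roots of `ψ₅` it is invariant under doubling (5c)
and satisfies the modular equation (5b). -/
theorem exists_t_of_not_irreducible_five_of (W : WeierstrassCurve ℤ) (hΔ : W.Δ ≠ 0)
    (h : ¬ W.ModRepIsIrreducible 5) (f : AlgebraicClosure ℚ → AlgebraicClosure ℚ)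
    (hfσ : ∀ (σ : AlgebraicClosure ℚ ≃ₐ[ℚ] AlgebraicClosure ℚ) (x : AlgebraicClosure ℚ),
      σ (f x) = f (σ x))
    (h5c : ∀ x : AlgebraicClosure ℚ, Psi5 (EQbar W) x = 0 →
      f (numD (EQbar W) x / Bx (EQbar W) x) = f x)
    (h5b : ∀ x : AlgebraicClosure ℚ, Psi5 (EQbar W) x = 0 →
      f x ≠ 0 ∧ (EQbar W).c₄ ^ 3 * f x = (EQbar W).Δ * ((f x) ^ 2 + 10 * f x + 5) ^ 3) :
    ∃ t : ℚ, t ≠ 0 ∧ (W.c₄ : ℚ) ^ 3 * t = (W.Δ : ℚ) * (t ^ 2 + 10 * t + 5) ^ 3 := by
  obtain ⟨x, t, hx5, ht⟩ := exists_rat_invariant_five W hΔ h f hfσ h5c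
  obtain ⟨h0, hrel⟩ := h5b x hx5
  have hinj : Function.Injective (algebraMap ℚ (AlgebraicClosure ℚ)) :=
    (algebraMap ℚ (AlgebraicClosure ℚ)).injective
  refine ⟨t, ?_, ?_⟩
  · rintro rfl
    rw [ht, map_zero] at h0
    exact h0 rfl
  · apply hinj
    rw [ht, EQbar_c₄, EQbar_Δ] at hrel
    simpa using hrel

end Fermat.Agent.S51.H80
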