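import Mathlib
import Fermat.Prelude.Def_FLTPrelim_Modularity

/-!
# S51, piece (E): the four exceptional `t`-values give non-semistable curves (helper18)

For `t ∈ {-40, -25/2, -10, -25/8}` (the non-cuspidal rational points of `X₀(15)`), any integral
Weierstrass model with `c₄³ t = Δ (t² + 10 t + 5)³` has `5 ∣ c₄` and `5 ∣ Δ`, so it is not
semistable.
-/

set_option autoImplicit false

namespace Fermat.Agent.S51.H18

/-- `5 ∣ c ^ 3 → 5 ∣ c`. -/
theorem five_dvd_of_dvd_cube {c : ℤ} (h : (5 : ℤ) ∣ c ^ 3) : (5 : ℤ) ∣ c :=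
  (Int.prime_iff_natAbs_prime.mpr (by norm_num : Nat.Prime (5 : ℤ).natAbs)).dvd_of_dvd_pow h

theorem five_dvd_right {b D : ℤ} (hb : ¬ (5 : ℤ) ∣ b) (h : (5 : ℤ) ∣ b * D) : (5 : ℤ) ∣ D :=
  ((Int.prime_iff_natAbs_prime.mpr (by norm_num : Nat.Prime (5 : ℤ).natAbs)).dvd_or_dvd
    h).resolve_left hb

/-- Arithmetic core: the integral relations force `5 ∣ c₄` and `5 ∣ Δ`. -/
theorem five_dvd_both (c D : ℤ) (t : ℚ) (ht : t = -40 ∨ t = -25/2 ∨ t = -10 ∨ t = -25/8)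
    (h : (c : ℚ) ^ 3 * t = (D : ℚ) * (t ^ 2 + 10 * t + 5) ^ 3) : (5 : ℤ) ∣ c ∧ (5 : ℤ) ∣ D := by
  rcases ht with rfl | rfl | rfl | rfl
  · -- t = -40 : -8 c³ = 25 · 241³ · D
    have hq : ((-8 * c ^ 3 : ℤ) : ℚ) = ((349938025 * D : ℤ) : ℚ) := by
      push_cast
      linear_combination (1 / 5) * h
    have hz : -8 * c ^ 3 = 349938025 * D := by exact_mod_cast hq
    have h5 : (5 : ℤ) ∣ c := five_dvd_of_dvd_cube (by omega)
    refine ⟨h5, ?_⟩
    obtain ⟨k, rfl⟩ := h5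
    have hz' : -8 * (125 * k ^ 3) = 349938025 * D := by rw [← hz]; ring
    clear hz hq h
    generalize k ^ 3 = m at hz'
    omega
  · -- t = -25/2 : -32 c³ = 5 · 29³ · D
    have hq : ((-32 * c ^ 3 : ℤ) : ℚ) = ((121945 * D : ℤ) : ℚ) := by
      push_cast
      linear_combination (64 / 25) * h
    have hz : -32 * c ^ 3 = 121945 * D := by exact_mod_cast hq
    have h5 : (5 : ℤ) ∣ c := five_dvd_of_dvd_cube (by omega)
    refine ⟨h5, ?_⟩
    obtain ⟨k, rfl⟩ := h5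
    have hz' : -32 * (125 * k ^ 3) = 121945 * D := by rw [← hz]; ring
    clear hz hq h
    generalize k ^ 3 = m at hz'
    omega
  · -- t = -10 : -2 c³ = 25 D
    have hq : ((-2 * c ^ 3 : ℤ) : ℚ) = ((25 * D : ℤ) : ℚ) := by
      push_cast
      linear_combination (1 / 5) * h
    have hz : -2 * c ^ 3 = 25 * D := by exact_mod_cast hq
    have h5 : (5 : ℤ) ∣ c := five_dvd_of_dvd_cube (by omega)
    refine ⟨h5, ?_⟩
    obtain ⟨k, rfl⟩ := h5
    have hz' : -2 * (125 * k ^ 3) = 25 * D := by rw [← hz]; ring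
    clear hz hq h
    generalize k ^ 3 = m at hz'
    omega
  · -- t = -25/8 : 2^15 c³ = 5 · 211³ · D
    have hq : ((32768 * c ^ 3 : ℤ) : ℚ) = ((46969655 * D : ℤ) : ℚ) := by
      push_cast
      linear_combination (-262144 / 25 : ℚ) * h
    have hz : 32768 * c ^ 3 = 46969655 * D := by exact_mod_cast hq
    have h5 : (5 : ℤ) ∣ c := five_dvd_of_dvd_cube (by omega)
    refine ⟨h5, ?_⟩
    obtain ⟨k, rfl⟩ := h5
    have hz' : 32768 * (125 * k ^ 3) = 46969655 * D := by rw [← hz]; ring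
    clear hz hq h
    generalize k ^ 3 = m at hz'
    have hdvd : (5 : ℤ) ∣ 9393931 * D := ⟨163840 * m, by linarith⟩
    exact five_dvd_right (by norm_num) hdvd

/-- (E) of helper45's S51 plan. -/
theorem not_semistable_of_t (W : WeierstrassCurve ℤ) (_hΔ : W.Δ ≠ 0) (hW : W.IsSemistableModel)
    (t : ℚ) (ht : t = -40 ∨ t = -25/2 ∨ t = -10 ∨ t = -25/8)
    (h : (W.c₄ : ℚ)^3 * t = (W.Δ : ℚ) * (t^2+10*t+5)^3) : False := by
  obtain ⟨h1, h2⟩ := five_dvd_both W.c₄ W.Δ t ht h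
  have h5 : Nat.Prime 5 := by norm_num
  have h2' : ((5 : ℕ) : ℤ) ∣ W.Δ := by
    rw [Nat.cast_ofNat]
    exact h2
  have h1' : ((5 : ℕ) : ℤ) ∣ W.c₄ := by
    rw [Nat.cast_ofNat]
    exact h1
  exact hW 5 h5 h2' h1'

end Fermat.Agent.S51.H18
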