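import Mathlib.AlgebraicGeometry.EllipticCurve.Affine.Point
import Mathlib.Tactic.LinearCombination
import Mathlib.Tactic.FieldSimp

/-!
# Doubling on a Weierstrass curve in terms of the x-coordinate (helper80, for S51)

`Bx`, `psi3`, `numD`, `psi4t`, `Psi5` are the values at `x` of the classical polynomials
`ψ₂² = 4x³ + b₂x² + 2b₄x + b₆`, `ψ₃`, the numerator of the duplication formula, `ψ₄/ψ₂` and `ψ₅`.
-/

set_option autoImplicit false

namespace Fermat.Agent.S51.H80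

open WeierstrassCurve WeierstrassCurve.Affine

variable {K : Type*} [Field K] (W : Affine K)

/-- value of `ψ₂² = 4x³ + b₂x² + 2b₄x + b₆`. -/
def Bx (x : K) : K := 4 * x ^ 3 + W.b₂ * x ^ 2 + 2 * W.b₄ * x + W.b₆

/-- value of `ψ₃`. -/
def psi3 (x : K) : K := 3 * x ^ 4 + W.b₂ * x ^ 3 + 3 * W.b₄ * x ^ 2 + 3 * W.b₆ * x + W.b₈

/-- numerator of the duplication formula `x(2P) = numD / Bx`. -/
def numD (x : K) : K := x ^ 4 - W.b₄ * x ^ 2 - 2 * W.b₆ * x - W.b₈

/-- value of `ψ₄ / ψ₂`. -/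
def psi4t (x : K) : K := (6 * x ^ 2 + W.b₂ * x + W.b₄) * psi3 W x - Bx W x ^ 2

/-- value of `ψ₅`. -/
def Psi5 (x : K) : K := psi4t W x * Bx W x ^ 2 - psi3 W x ^ 3

lemma numD_sub (x : K) : numD W x - x * Bx W x = - psi3 W x := by
  simp only [numD, Bx, psi3]; ring

lemma Bx_eq_sq {x y : K} (h : W.Equation x y) : Bx W x = (y - W.negY x y) ^ 2 := by
  rw [equation_iff] at h
  simp only [Bx, negY, b₂, b₄, b₆]
  linear_combination (-4 : K) * h

lemma Bx_eq_zero_iff {x y : K} (h : W.Equation x y) : Bx W x = 0 ↔ y = W.negY x y := by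
  rw [Bx_eq_sq W h, sq_eq_zero_iff, sub_eq_zero]

variable [DecidableEq K]

/-- the duplication formula for the `x`-coordinate. -/
lemma addX_self {x y : K} (h : W.Equation x y) (hy : y ≠ W.negY x y) :
    W.addX x x (W.slope x x y y) = numD W x / Bx W x := by
  have hd : y - W.negY x y ≠ 0 := sub_ne_zero.2 hy
  rw [slope_of_Y_ne rfl hy, Bx_eq_sq W h, eq_div_iff (pow_ne_zero 2 hd)]
  have e : (3 * x ^ 2 + 2 * W.a₂ * x + W.a₄ - W.a₁ * y) / (y - W.negY x y) * (y - W.negY x y)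
      = 3 * x ^ 2 + 2 * W.a₂ * x + W.a₄ - W.a₁ * y := div_mul_cancel₀ _ hd
  rw [equation_iff] at h
  generalize (3 * x ^ 2 + 2 * W.a₂ * x + W.a₄ - W.a₁ * y) / (y - W.negY x y) = s at e ⊢
  simp only [addX, numD, negY, b₄, b₆, b₈] at e ⊢
  linear_combination
    (s * (y - (-y - W.a₁ * x - W.a₃)) + (3 * x ^ 2 + 2 * W.a₂ * x + W.a₄ - W.a₁ * y)
      + W.a₁ * (y - (-y - W.a₁ * x - W.a₃))) * e
    - (8 * x + W.a₁ ^ 2 + 4 * W.a₂) * h

end Fermat.Agent.S51.H80
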