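import Mathlib.AlgebraicGeometry.EllipticCurve.Affine.Point
import Mathlib.Tactic.LinearCombination
import Mathlib.Tactic.FieldSimp
import Fermat.Agent.S51.H80_Doubling

/-!
# S51, piece (3b) (helper26): the `X₀(3)`-parameter of a root of `ψ₃`

For a Weierstrass curve `W` over a field `K` (`2 ≠ 0`, `Δ ≠ 0`) and a root `x` of `ψ₃`,
`U := Δ / ψ₂²(x)²` is nonzero and `c₄³ U = Δ (U + 27) (U + 3)³`, i.e. `j = (U+27)(U+3)³/U`.
-/

set_option autoImplicit false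

namespace Fermat.Agent.S51.H26

open WeierstrassCurve WeierstrassCurve.Affine Fermat.Agent.S51.H80

variable {K : Type*} [Field K] (W : Affine K)

/-- value of `(ψ₂²)' / 2 = 6x² + b₂x + b₄`. -/
def Nx (x : K) : K := 6 * x ^ 2 + W.b₂ * x + W.b₄

lemma Nx_sq_add (x : K) : Nx W x ^ 2 + 4 * psi3 W x = Bx W x * (12 * x + W.b₂) := by
  simp only [Nx, psi3, Bx, b₂, b₄, b₆, b₈]
  ring

lemma c₄_eq (x : K) : W.c₄ = (12 * x + W.b₂) ^ 2 - 24 * Nx W x := by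
  simp only [Nx, c₄]
  ring

/-- Bezout identity between `ψ₂²` and its half-derivative: the resultant is `-4Δ`. -/
lemma bezout_Bx_Nx (x : K) :
    (6 * x * W.b₂ ^ 2 - 144 * x * W.b₄ + W.b₂ ^ 3 - 30 * W.b₂ * W.b₄ + 108 * W.b₆) * Bx W x
      + (-4 * x ^ 2 * W.b₂ ^ 2 + 96 * x ^ 2 * W.b₄ - x * W.b₂ ^ 3 + 28 * x * W.b₂ * W.b₄
          - 72 * x * W.b₆ - W.b₂ ^ 2 * W.b₄ - 6 * W.b₂ * W.b₆ + 32 * W.b₄ ^ 2) * Nx W x
      = -4 * W.Δ := by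
  simp only [Nx, Bx, Δ, b₂, b₄, b₆, b₈]
  ring

lemma Δ_mul_Bx_sq (x : K) :
    W.Δ * Bx W x ^ 2 = -psi3 W x * (Nx W x ^ 2 + 4 * psi3 W x) ^ 2 + Nx W x ^ 3 * Bx W x ^ 2
      + 36 * Nx W x * psi3 W x * Bx W x ^ 2 - 27 * Bx W x ^ 4 := by
  simp only [Nx, Bx, psi3, Δ, b₂, b₄, b₆, b₈]
  ring

/-- At a root of `ψ₃` (with `Δ ≠ 0`, `2 ≠ 0`), `ψ₂²` does not vanish. -/
lemma Bx_ne_zero_of_psi3 (hΔ : W.Δ ≠ 0) (h2 : (2 : K) ≠ 0) (x : K) (hx : psi3 W x = 0) :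
    Bx W x ≠ 0 := by
  intro hB
  have h1 := Nx_sq_add W x
  rw [hx, hB] at h1
  have hN : Nx W x = 0 := by
    have : Nx W x ^ 2 = 0 := by linear_combination h1
    exact pow_eq_zero_iff (two_ne_zero) |>.mp this
  have h3 := bezout_Bx_Nx W x
  rw [hB, hN] at h3
  have h4 : (4 : K) ≠ 0 := by
    have : (4 : K) = 2 * 2 := by norm_num
    rw [this]; exact mul_ne_zero h2 h2
  apply hΔ
  have : (4 : K) * W.Δ = 0 := by linear_combination h3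
  rcases mul_eq_zero.mp this with h | h
  · exact absurd h h4
  · exact h

/-- Interface (3b) of the S51 architecture. -/
theorem U_of_root3 (hΔ : W.Δ ≠ 0) (h2 : (2 : K) ≠ 0) (x : K) (hx : psi3 W x = 0) :
    W.Δ / Bx W x ^ 2 ≠ 0 ∧
    W.c₄ ^ 3 * (W.Δ / Bx W x ^ 2) =
      W.Δ * ((W.Δ / Bx W x ^ 2 + 27) * (W.Δ / Bx W x ^ 2 + 3) ^ 3) := by
  have hB : Bx W x ≠ 0 := Bx_ne_zero_of_psi3 W hΔ h2 x hx
  have hB2 : Bx W x ^ 2 ≠ 0 := pow_ne_zero 2 hB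
  refine ⟨div_ne_zero hΔ hB2, ?_⟩
  -- N² = B (12 x + b₂)
  have h1 : Nx W x ^ 2 = Bx W x * (12 * x + W.b₂) := by
    have := Nx_sq_add W x
    rw [hx] at this
    linear_combination this
  -- Δ = N³ - 27 B²
  have h2' : W.Δ = Nx W x ^ 3 - 27 * Bx W x ^ 2 := by
    have := Δ_mul_Bx_sq W x
    rw [hx] at this
    have h3 : (W.Δ - (Nx W x ^ 3 - 27 * Bx W x ^ 2)) * Bx W x ^ 2 = 0 := by
      linear_combination this
    rcases mul_eq_zero.mp h3 with h | h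
    · exact sub_eq_zero.mp h
    · exact absurd h hB2
  -- c₄ B² = N (N³ - 24 B²)
  have h3 : W.c₄ * Bx W x ^ 2 = Nx W x * (Nx W x ^ 3 - 24 * Bx W x ^ 2) := by
    rw [c₄_eq W x]
    linear_combination (-(Nx W x ^ 2 + Bx W x * (12 * x + W.b₂))) * h1
  have e27 : W.Δ / Bx W x ^ 2 + 27 = Nx W x ^ 3 / Bx W x ^ 2 := by
    field_simp
    linear_combination h2'
  have e3 : W.Δ / Bx W x ^ 2 + 3 = (Nx W x ^ 3 - 24 * Bx W x ^ 2) / Bx W x ^ 2 := by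
    field_simp
    linear_combination h2'
  rw [e27, e3]
  have h4 : W.c₄ = Nx W x * (Nx W x ^ 3 - 24 * Bx W x ^ 2) / Bx W x ^ 2 := by
    rw [eq_div_iff hB2]; exact h3
  rw [h4]
  field_simp

end Fermat.Agent.S51.H26
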