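/-
helper30: descent lemma (D1) for S51.
The elliptic curve `Y^2 = X (X - 1) (X - 81)` (Cremona 15a2) has no rational point with `Y ≠ 0`.
Elementary proof: complete 2-descent (classes of `X, X-1, X-81` modulo squares by 2-adic and
3-adic arguments) and explicit halving; the measure is the denominator of `X`.
-/
import Mathlib

set_option autoImplicit false

namespace Fermat.Agent.S51.H30

/-! ### Elementary integer lemmas -/

/-- A positive integer which is coprime to its cofactor in a square is a square. -/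
lemma sq_of_pos_of_isCoprime {u M z : ℤ} (hu : 0 < u) (hc : IsCoprime u M)
    (h : u * M = z ^ 2) : ∃ m : ℤ, u = m ^ 2 := by
  obtain ⟨m, hm | hm⟩ := Int.sq_of_isCoprime hc h
  · exact ⟨m, hm⟩
  · exfalso; nlinarith [sq_nonneg m]

/-- If `m ^ 2 * C = z ^ 2` with `m ≠ 0` then `C` is a square. -/
lemma sq_cofactor {m C z : ℤ} (hm : m ≠ 0) (h : m ^ 2 * C = z ^ 2) : ∃ y : ℤ, C = y ^ 2 ∧ z = m * y := by
  have hdvd : m ∣ z := by
    have : m ^ 2 ∣ z ^ 2 := ⟨C, h.symm⟩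
    exact (Int.pow_dvd_pow_iff two_ne_zero).mp this
  obtain ⟨y, rfl⟩ := hdvd
  refine ⟨y, ?_, rfl⟩
  have hm2 : m ^ 2 ≠ 0 := pow_ne_zero 2 hm
  have : m ^ 2 * C = m ^ 2 * y ^ 2 := by rw [h]; ring
  exact mul_left_cancel₀ hm2 this

lemma three_dvd_of_sq {z k : ℤ} (h : z ^ 2 = 9 * k) : ∃ z' : ℤ, z = 3 * z' ∧ z' ^ 2 = k := by
  have h3 : (3 : ℤ) ∣ z := by
    have : (3 : ℤ) ∣ z ^ 2 := ⟨3 * k, by rw [h]; ring⟩
    exact Int.Prime.dvd_pow' (by norm_num) this
  obtain ⟨z', rfl⟩ := h3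
  refine ⟨z', rfl, ?_⟩
  nlinarith

/-- mod 3 obstruction -/
lemma mod3_contra {b m y A B : ℤ} (hb : ¬ (3 : ℤ) ∣ b) (hm : ¬ (3 : ℤ) ∣ m)
    (h : y ^ 2 = (3 * A - b ^ 2) * (m ^ 2 - 3 * B)) : False := by
  have h3 : ((y : ZMod 3)) ^ 2 = - (b : ZMod 3) ^ 2 * (m : ZMod 3) ^ 2 := by
    have := congrArg (Int.cast : ℤ → ZMod 3) h
    push_cast at this
    have h30 : (3 : ZMod 3) = 0 := by decide
    rw [this, h30]; ring
  have hb' : (b : ZMod 3) ≠ 0 := by
    rwa [Ne, ZMod.intCast_zmod_eq_zero_iff_dvd]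
  have hm' : (m : ZMod 3) ≠ 0 := by
    rwa [Ne, ZMod.intCast_zmod_eq_zero_iff_dvd]
  revert h3 hb' hm'
  generalize (y : ZMod 3) = y'
  generalize (b : ZMod 3) = b'
  generalize (m : ZMod 3) = m'
  revert y' b' m'
  decide


lemma coprime_lin {u b c : ℤ} (hub : IsCoprime u b) (huc : IsCoprime u c) (k : ℤ) :
    IsCoprime u (k * u - c * b ^ 2) := by
  have h1 : IsCoprime u (c * b ^ 2) := huc.mul_right hub.pow_right
  have h2 : IsCoprime u (-(c * b ^ 2) + u * k) := h1.neg_right.add_mul_left_right k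
  have e : k * u - c * b ^ 2 = -(c * b ^ 2) + u * k := by ring
  rw [e]; exact h2

lemma coprime_cofactor {u b c : ℤ} (hub : IsCoprime u b) (huc : IsCoprime u c) (k : ℤ) :
    IsCoprime u ((k * u - b ^ 2) * (u - c * b ^ 2)) := by
  have h1 : IsCoprime u (k * u - b ^ 2) := by
    have := coprime_lin hub (isCoprime_one_right (x := u)) k
    simpa using this
  have h2 : IsCoprime u (u - c * b ^ 2) := by
    have := coprime_lin hub huc 1
    simpa using this
  exact h1.mul_right h2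

lemma split_sq {u b k c z : ℤ} (hu : 0 < u) (hub : IsCoprime u b) (huc : IsCoprime u c)
    (h : z ^ 2 = u * ((k * u - b ^ 2) * (u - c * b ^ 2))) :
    ∃ m y : ℤ, m ≠ 0 ∧ u = m ^ 2 ∧ z = m * y ∧ y ^ 2 = (k * m ^ 2 - b ^ 2) * (m ^ 2 - c * b ^ 2) := by
  obtain ⟨m, hm⟩ := sq_of_pos_of_isCoprime hu (coprime_cofactor hub huc k) h.symm
  have hm0 : m ≠ 0 := by
    rintro rfl
    simp at hm
    omega
  obtain ⟨y, hy, hzy⟩ := sq_cofactor (z := z) (C := (k * u - b ^ 2) * (u - c * b ^ 2)) hm0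
    (by rw [← hm, h])
  exact ⟨m, y, hm0, hm, hzy, by rw [← hy, hm]⟩

lemma peel3 {u b k c z : ℤ} (h3 : (3 : ℤ) ∣ u)
    (h : z ^ 2 = u * ((k * u - b ^ 2) * (u - (3 * c) * b ^ 2))) :
    ∃ u' z' : ℤ, u = 3 * u' ∧ z = 3 * z' ∧
      z' ^ 2 = u' * (((3 * k) * u' - b ^ 2) * (u' - c * b ^ 2)) := by
  obtain ⟨u', rfl⟩ := h3
  obtain ⟨z', hz, hz'⟩ := three_dvd_of_sq (z := z)
    (k := u' * (((3 * k) * u' - b ^ 2) * (u' - c * b ^ 2))) (by rw [h]; ring)
  exact ⟨u', z', rfl, hz, hz'⟩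

lemma isCoprime_three_of_not_dvd {u : ℤ} (h : ¬ (3 : ℤ) ∣ u) : IsCoprime u 3 :=
  ((Int.prime_three).coprime_iff_not_dvd.mpr h).symm

lemma not_three_dvd_of_sq {m : ℤ} (h : ¬ (3 : ℤ) ∣ m ^ 2) : ¬ (3 : ℤ) ∣ m :=
  fun hm => h (dvd_pow hm two_ne_zero)

/-- level 4 -/
lemma S4 {u b z : ℤ} (hu : 0 < u) (hub : IsCoprime u b)
    (h : z ^ 2 = u * ((81 * u - b ^ 2) * (u - 1 * b ^ 2))) : ∃ m : ℤ, u = m ^ 2 := by
  obtain ⟨m, y, -, hm, -, -⟩ := split_sq hu hub isCoprime_one_right h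
  exact ⟨m, hm⟩

lemma S3 {u b z : ℤ} (hu : 0 < u) (hub : IsCoprime u b) (hb : ¬ (3 : ℤ) ∣ b)
    (h : z ^ 2 = u * ((27 * u - b ^ 2) * (u - 3 * b ^ 2))) : ∃ m : ℤ, 27 * u = m ^ 2 := by
  by_cases h3 : (3 : ℤ) ∣ u
  · obtain ⟨u', z', rfl, -, hz'⟩ := peel3 (z := z) (b := b) (k := 27) (c := 1) h3 (by rw [h]; ring)
    obtain ⟨m, hm⟩ := S4 (u := u') (b := b) (z := z') (by omega)
      (IsCoprime.of_mul_left_right hub) (by rw [hz']; ring)
    exact ⟨9 * m, by rw [hm]; ring⟩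
  · exfalso
    obtain ⟨m, y, -, hm, -, hy⟩ := split_sq hu hub (isCoprime_three_of_not_dvd h3) h
    rw [hm] at h3
    exact mod3_contra (A := 9 * m ^ 2) (B := b ^ 2) hb (not_three_dvd_of_sq h3)
      (by rw [hy]; ring)

lemma S2 {u b z : ℤ} (hu : 0 < u) (hub : IsCoprime u b) (hb : ¬ (3 : ℤ) ∣ b)
    (h : z ^ 2 = u * ((9 * u - b ^ 2) * (u - 9 * b ^ 2))) : ∃ m : ℤ, 9 * u = m ^ 2 := by
  by_cases h3 : (3 : ℤ) ∣ u
  · obtain ⟨u', z', rfl, -, hz'⟩ := peel3 (z := z) (b := b) (k := 9) (c := 3) h3 (by rw [h]; ring)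
    obtain ⟨m, hm⟩ := S3 (u := u') (b := b) (z := z') (by omega)
      (IsCoprime.of_mul_left_right hub) hb (by rw [hz']; ring)
    exact ⟨m, by rw [← hm]; ring⟩
  · have h9 : IsCoprime u 9 := by
      have := (isCoprime_three_of_not_dvd h3).pow_right (n := 2)
      norm_num at this
      exact this
    obtain ⟨m, y, -, hm, -, -⟩ := split_sq hu hub h9 h
    exact ⟨3 * m, by rw [hm]; ring⟩

lemma S1 {u b z : ℤ} (hu : 0 < u) (hub : IsCoprime u b) (hb : ¬ (3 : ℤ) ∣ b)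
    (h : z ^ 2 = u * ((3 * u - b ^ 2) * (u - 27 * b ^ 2))) : ∃ m : ℤ, 3 * u = m ^ 2 := by
  by_cases h3 : (3 : ℤ) ∣ u
  · obtain ⟨u', z', rfl, -, hz'⟩ := peel3 (z := z) (b := b) (k := 3) (c := 9) h3 (by rw [h]; ring)
    obtain ⟨m, hm⟩ := S2 (u := u') (b := b) (z := z') (by omega)
      (IsCoprime.of_mul_left_right hub) hb (by rw [hz']; ring)
    exact ⟨m, by rw [← hm]; ring⟩
  · exfalso
    have h27 : IsCoprime u 27 := by
      have := (isCoprime_three_of_not_dvd h3).pow_right (n := 3)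
      norm_num at this
      exact this
    obtain ⟨m, y, -, hm, -, hy⟩ := split_sq hu hub h27 h
    rw [hm] at h3
    exact mod3_contra (A := m ^ 2) (B := 9 * b ^ 2) hb (not_three_dvd_of_sq h3)
      (by rw [hy]; ring)

lemma S0 {u b z : ℤ} (hu : 0 < u) (hub : IsCoprime u b)
    (h : z ^ 2 = u * ((1 * u - b ^ 2) * (u - 81 * b ^ 2))) : ∃ m : ℤ, u = m ^ 2 := by
  by_cases h3 : (3 : ℤ) ∣ u
  · have hb : ¬ (3 : ℤ) ∣ b := by
      intro hb
      have := hub.isUnit_of_dvd' h3 hb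
      norm_num [Int.isUnit_iff] at this
    obtain ⟨u', z', rfl, -, hz'⟩ := peel3 (z := z) (b := b) (k := 1) (c := 27) h3 (by rw [h]; ring)
    obtain ⟨m, hm⟩ := S1 (u := u') (b := b) (z := z') (by omega)
      (IsCoprime.of_mul_left_right hub) hb (by rw [hz']; ring)
    exact ⟨m, by rw [← hm]⟩
  · have h81 : IsCoprime u 81 := by
      have := (isCoprime_three_of_not_dvd h3).pow_right (n := 4)
      norm_num at this
      exact this
    obtain ⟨m, y, -, hm, -, -⟩ := split_sq hu hub h81 h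
    exact ⟨m, hm⟩


/-- **First descent lemma** (integers): numerator and denominator of `X` are squares. -/
lemma L1_int {u w z : ℤ} (hw : 0 < w) (hc : IsCoprime u w) (hz : z ≠ 0)
    (h : z ^ 2 = u * w * (u - w) * (u - 81 * w)) :
    ∃ a b y : ℤ, 0 < b ∧ a ≠ 0 ∧ IsCoprime a b ∧ u = a ^ 2 ∧ w = b ^ 2 ∧ y ≠ 0 ∧
      y ^ 2 = (a ^ 2 - b ^ 2) * (a ^ 2 - 81 * b ^ 2) := by
  have hwu : IsCoprime w u := hc.symm
  have h1 : IsCoprime w (u - w) := by
    have := hwu.add_mul_left_right (-1)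
    have e : u - w = u + w * (-1) := by ring
    rw [e]; exact this
  have h2 : IsCoprime w (u - 81 * w) := by
    have := hwu.add_mul_left_right (-81)
    have e : u - 81 * w = u + w * (-81) := by ring
    rw [e]; exact this
  have h3 : IsCoprime w (u * (u - w) * (u - 81 * w)) := (hwu.mul_right h1).mul_right h2
  obtain ⟨b₀, hb₀⟩ := sq_of_pos_of_isCoprime (z := z) hw h3 (by rw [h]; ring)
  have hb₀0 : b₀ ≠ 0 := by
    rintro rfl
    simp at hb₀
    omega
  obtain ⟨b, hb, hbpos⟩ : ∃ b : ℤ, w = b ^ 2 ∧ 0 < b := by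
    refine ⟨|b₀|, by rw [sq_abs]; exact hb₀, abs_pos.mpr hb₀0⟩
  subst hb
  obtain ⟨z₁, hz₁, hzz₁⟩ := sq_cofactor (z := z) (m := b)
    (C := u * ((1 * u - b ^ 2) * (u - 81 * b ^ 2))) hbpos.ne' (by rw [h]; ring)
  have hz₁0 : z₁ ≠ 0 := by
    rintro rfl
    simp at hzz₁
    exact hz hzz₁
  have hCpos : 0 < u * ((1 * u - b ^ 2) * (u - 81 * b ^ 2)) := by
    rw [hz₁]; positivity
  have hb2 : 0 < b ^ 2 := by positivity
  have hu : 0 < u := by
    by_contra hu
    have hu := not_lt.mp hu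
    have e1 : 1 * u - b ^ 2 < 0 := by linarith
    have e2 : u - 81 * b ^ 2 < 0 := by linarith
    have e3 : 0 < (1 * u - b ^ 2) * (u - 81 * b ^ 2) := mul_pos_of_neg_of_neg e1 e2
    have e4 : u * ((1 * u - b ^ 2) * (u - 81 * b ^ 2)) ≤ 0 :=
      mul_nonpos_of_nonpos_of_nonneg hu e3.le
    linarith
  have hub : IsCoprime u b := (IsCoprime.pow_right_iff (by norm_num : 0 < 2)).mp hc
  obtain ⟨a, ha⟩ := S0 (z := z₁) hu hub hz₁.symm
  subst ha
  have ha0 : a ≠ 0 := by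
    rintro rfl
    simp at hu
  have hab : IsCoprime a b := (IsCoprime.pow_left_iff (by norm_num : 0 < 2)).mp hub
  obtain ⟨y, hy, hzy⟩ := sq_cofactor (z := z₁) (m := a)
    (C := (a ^ 2 - b ^ 2) * (a ^ 2 - 81 * b ^ 2)) ha0 (by rw [← hz₁]; ring)
  have hy0 : y ≠ 0 := by
    rintro rfl
    simp at hzy
    exact hz₁0 hzy
  exact ⟨a, b, y, hbpos, ha0, hab, rfl, rfl, hy0, hy.symm⟩


/-! ### The 2-adic part -/

lemma odd_sq_eq {x : ℤ} (hx : Odd x) : ∃ r : ℤ, x ^ 2 = 8 * r + 1 := by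
  obtain ⟨k, rfl⟩ := hx
  obtain ⟨r, hr⟩ := Int.even_mul_succ_self k
  exact ⟨r, by linear_combination 4 * hr⟩

lemma isCoprime_two_of_odd {x : ℤ} (hx : Odd x) : IsCoprime x 2 := by
  have h : ¬ (2 : ℤ) ∣ x := by
    rw [← even_iff_two_dvd]; exact Int.not_even_iff_odd.mpr hx
  exact ((Int.prime_two).coprime_iff_not_dvd.mpr h).symm

lemma isCoprime_five_of_not_dvd {x : ℤ} (h : ¬ (5 : ℤ) ∣ x) : IsCoprime x 5 := by
  have h5 : Prime (5 : ℤ) := by
    rw [Int.prime_iff_natAbs_prime]; norm_num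
  exact (h5.coprime_iff_not_dvd.mpr h).symm

lemma pm_sq {s b c y : ℤ} (hsb : IsCoprime s b) (hsc : IsCoprime s c)
    (h : y ^ 2 = s * (s - c * b ^ 2)) : ∃ m : ℤ, s = m ^ 2 ∨ s = -m ^ 2 := by
  have h1 : IsCoprime s (s - c * b ^ 2) := by
    have := coprime_lin hsb hsc 1
    simpa using this
  exact Int.sq_of_isCoprime h1 h.symm

lemma pm_sq' {s b c y : ℤ} (hsb : IsCoprime s b) (hsc : IsCoprime s c)
    (h : y ^ 2 = s * (s - c * b ^ 2)) : ∃ n : ℤ, s - c * b ^ 2 = n ^ 2 ∨ s - c * b ^ 2 = -n ^ 2 := by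
  have h1 : IsCoprime s (s - c * b ^ 2) := by
    have := coprime_lin hsb hsc 1
    simpa using this
  exact Int.sq_of_isCoprime h1.symm (by rw [h]; ring)

lemma odd_contra {s b c y : ℤ} (hc : c = 2 ∨ c = 10) (hs : Odd s) (hb : Odd b)
    (hsb : IsCoprime s b) (hsc : IsCoprime s c) (hy : y ≠ 0)
    (h : y ^ 2 = s * (s - c * b ^ 2)) : False := by
  obtain ⟨m, hm⟩ := pm_sq hsb hsc h
  obtain ⟨n, hn⟩ := pm_sq' hsb hsc h
  have hypos : 0 < y ^ 2 := by positivity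
  have hcb : Even (c * b ^ 2) := by
    rcases hc with rfl | rfl
    · exact Even.mul_right (by decide) _
    · exact Even.mul_right (by decide) _
  have ht : Odd (s - c * b ^ 2) := hs.sub_even hcb
  have hm_odd : Odd m := by
    rcases hm with hm | hm
    · rw [hm] at hs; exact (Int.odd_pow' two_ne_zero).mp hs
    · rw [hm] at hs
      have : Odd (m ^ 2) := by simpa using hs.neg
      exact (Int.odd_pow' two_ne_zero).mp this
  have hn_odd : Odd n := by
    rcases hn with hn | hn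
    · rw [hn] at ht; exact (Int.odd_pow' two_ne_zero).mp ht
    · rw [hn] at ht
      have : Odd (n ^ 2) := by simpa using ht.neg
      exact (Int.odd_pow' two_ne_zero).mp this
  obtain ⟨r₁, hr₁⟩ := odd_sq_eq hm_odd
  obtain ⟨r₂, hr₂⟩ := odd_sq_eq hn_odd
  obtain ⟨r₃, hr₃⟩ := odd_sq_eq hb
  rcases hm with hm | hm <;> rcases hn with hn | hn
  · rcases hc with rfl | rfl <;> omega
  · have : y ^ 2 = -(m ^ 2 * n ^ 2) := by rw [h, hn, hm]; ring
    nlinarith [sq_nonneg (m * n)]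
  · have : y ^ 2 = -(m ^ 2 * n ^ 2) := by rw [h, hn, hm]; ring
    nlinarith [sq_nonneg (m * n)]
  · rcases hc with rfl | rfl <;> omega

lemma sq_factor_out {k C y : ℤ} (hk : k ≠ 0) (h : y ^ 2 = k ^ 2 * C) :
    ∃ y₁ : ℤ, y = k * y₁ ∧ y₁ ^ 2 = C := by
  obtain ⟨y₁, h1, h2⟩ := sq_cofactor (z := y) (m := k) (C := C) hk h.symm
  exact ⟨y₁, h2, h1.symm⟩

/-- **Second descent lemma** (integers): the class of `X - 1` modulo squares is `±1` or `±5`. -/
lemma L2_int {a b y : ℤ} (hab : IsCoprime a b) (hy : y ≠ 0)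
    (h : y ^ 2 = (a ^ 2 - b ^ 2) * (a ^ 2 - 81 * b ^ 2)) :
    ∃ e m : ℤ, (e = 1 ∨ e = -1 ∨ e = 5 ∨ e = -5) ∧ a ^ 2 - b ^ 2 = e * m ^ 2 := by
  have hsb : IsCoprime (a ^ 2 - b ^ 2) b := by
    have h1 : IsCoprime (a ^ 2) b := hab.pow_left
    have h2 := h1.add_mul_right_left (-b)
    have e : a ^ 2 - b ^ 2 = a ^ 2 + -b * b := by ring
    rw [e]; exact h2
  by_cases hs2 : (2 : ℤ) ∣ a ^ 2 - b ^ 2
  · -- both odd
    have hev : Even (a ^ 2 - b ^ 2) := even_iff_two_dvd.mpr hs2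
    rw [Int.even_sub, Int.even_pow' two_ne_zero, Int.even_pow' two_ne_zero] at hev
    have ha : Odd a := by
      rw [← Int.not_even_iff_odd]
      intro ha
      have hb := hev.mp ha
      have := hab.isUnit_of_dvd' (even_iff_two_dvd.mp ha) (even_iff_two_dvd.mp hb)
      norm_num [Int.isUnit_iff] at this
    have hb : Odd b := by
      rw [← Int.not_even_iff_odd]
      intro hb
      exact (Int.not_even_iff_odd.mpr ha) (hev.mpr hb)
    obtain ⟨r₁, hr₁⟩ := odd_sq_eq ha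
    obtain ⟨r₂, hr₂⟩ := odd_sq_eq hb
    by_cases h5 : (5 : ℤ) ∣ a ^ 2 - b ^ 2
    · -- s = 40 σ
      obtain ⟨σ, hσ⟩ : ∃ σ : ℤ, a ^ 2 - b ^ 2 = 40 * σ := by
        obtain ⟨q, hq⟩ := h5
        exact ⟨5 * (r₁ - r₂) - 3 * q, by omega⟩
      have hσb : IsCoprime σ b := by
        rw [hσ] at hsb; exact IsCoprime.of_mul_left_right hsb
      obtain ⟨y₁, hy₁, hy₁'⟩ := sq_factor_out (k := 40) (C := σ * (σ - 2 * b ^ 2)) (y := y)
        (by norm_num) (by rw [h]; linear_combination (40 * σ - 80 * b^2 + a^2 - b^2) * hσ)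
      have hy₁0 : y₁ ≠ 0 := by rintro rfl; simp at hy₁; exact hy hy₁
      rcases Int.even_or_odd σ with hσe | hσo
      · obtain ⟨σ₂, hσ₂⟩ := hσe
        obtain ⟨y₂, hy₂, hy₂'⟩ := sq_factor_out (k := 2) (C := σ₂ * (σ₂ - 1 * b ^ 2)) (y := y₁)
          (by norm_num) (by rw [hy₁', hσ₂]; ring)
        have hσ₂b : IsCoprime σ₂ b := by
          have e : σ = 2 * σ₂ := by rw [hσ₂]; ring
          rw [e] at hσb; exact IsCoprime.of_mul_left_right hσb
        obtain ⟨m, hm | hm⟩ := pm_sq hσ₂b isCoprime_one_right hy₂'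
        · exact ⟨5, 4 * m, by norm_num, by rw [hσ, hσ₂, hm]; ring⟩
        · exact ⟨-5, 4 * m, by norm_num, by rw [hσ, hσ₂, hm]; ring⟩
      · exact (odd_contra (c := 2) (Or.inl rfl) hσo hb hσb (isCoprime_two_of_odd hσo) hy₁0
          hy₁').elim
    · -- s = 8 σ, 5 ∤ σ
      obtain ⟨σ, hσ⟩ : ∃ σ : ℤ, a ^ 2 - b ^ 2 = 8 * σ := ⟨r₁ - r₂, by omega⟩
      have hσ5 : ¬ (5 : ℤ) ∣ σ := fun hd => h5 (by rw [hσ]; exact Dvd.dvd.mul_left hd 8)
      have hσb : IsCoprime σ b := by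
        rw [hσ] at hsb; exact IsCoprime.of_mul_left_right hsb
      obtain ⟨y₁, hy₁, hy₁'⟩ := sq_factor_out (k := 8) (C := σ * (σ - 10 * b ^ 2)) (y := y)
        (by norm_num) (by rw [h]; linear_combination (8 * σ - 80 * b^2 + a^2 - b^2) * hσ)
      have hy₁0 : y₁ ≠ 0 := by rintro rfl; simp at hy₁; exact hy hy₁
      rcases Int.even_or_odd σ with hσe | hσo
      · obtain ⟨σ₂, hσ₂⟩ := hσe
        have e : σ = 2 * σ₂ := by rw [hσ₂]; ring
        obtain ⟨y₂, hy₂, hy₂'⟩ := sq_factor_out (k := 2) (C := σ₂ * (σ₂ - 5 * b ^ 2)) (y := y₁)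
          (by norm_num) (by rw [hy₁', e]; ring)
        have hσ₂b : IsCoprime σ₂ b := by
          rw [e] at hσb; exact IsCoprime.of_mul_left_right hσb
        have hσ₂5 : ¬ (5 : ℤ) ∣ σ₂ := fun hd => hσ5 (by rw [e]; exact Dvd.dvd.mul_left hd 2)
        obtain ⟨m, hm | hm⟩ := pm_sq hσ₂b (isCoprime_five_of_not_dvd hσ₂5) hy₂'
        · exact ⟨1, 4 * m, by norm_num, by rw [hσ, e, hm]; ring⟩
        · exact ⟨-1, 4 * m, by norm_num, by rw [hσ, e, hm]; ring⟩
      · have h10 : IsCoprime σ 10 := by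
          have := (isCoprime_two_of_odd hσo).mul_right (isCoprime_five_of_not_dvd hσ5)
          norm_num at this
          exact this
        exact (odd_contra (c := 10) (Or.inr rfl) hσo hb hσb h10 hy₁0 hy₁').elim
  · -- s odd
    have hso : Odd (a ^ 2 - b ^ 2) := by
      rw [← Int.not_even_iff_odd, even_iff_two_dvd]; exact hs2
    by_cases h5 : (5 : ℤ) ∣ a ^ 2 - b ^ 2
    · obtain ⟨σ, hσ⟩ := h5
      have hσb : IsCoprime σ b := by
        rw [hσ] at hsb; exact IsCoprime.of_mul_left_right hsb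
      have hσo : Odd σ := by
        rw [hσ] at hso
        exact (Int.odd_mul.mp hso).2
      obtain ⟨y₁, hy₁, hy₁'⟩ := sq_factor_out (k := 5) (C := σ * (σ - 16 * b ^ 2)) (y := y)
        (by norm_num) (by rw [h]; linear_combination (5 * σ - 80 * b^2 + a^2 - b^2) * hσ)
      have h16 : IsCoprime σ 16 := by
        have := (isCoprime_two_of_odd hσo).pow_right (n := 4)
        norm_num at this
        exact this
      obtain ⟨m, hm | hm⟩ := pm_sq hσb h16 hy₁'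
      · exact ⟨5, m, by norm_num, by rw [hσ, hm]⟩
      · exact ⟨-5, m, by norm_num, by rw [hσ, hm]; ring⟩
    · have h80 : IsCoprime (a ^ 2 - b ^ 2) 80 := by
        have h16 := (isCoprime_two_of_odd hso).pow_right (n := 4)
        have := h16.mul_right (isCoprime_five_of_not_dvd h5)
        norm_num at this
        exact this
      obtain ⟨m, hm | hm⟩ := pm_sq (y := y) hsb h80 (by rw [h]; ring)
      · exact ⟨1, m, by norm_num, by rw [hm]; ring⟩
      · exact ⟨-1, m, by norm_num, by rw [hm]; ring⟩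


/-! ### Rational points -/

/-- The duplication map on `x`-coordinates of `Y^2 = X (X-1) (X-81)`. -/
def dup (x : ℚ) : ℚ := (x ^ 2 - 81) ^ 2 / (4 * (x * (x - 1) * (x - 81)))

/-- Points in the image of multiplication by 2: all three of `X, X-1, X-81` are nonzero squares. -/
def InK (X : ℚ) : Prop :=
  ∃ r₁ r₂ r₃ : ℚ, X = r₁ ^ 2 ∧ X - 1 = r₂ ^ 2 ∧ X - 81 = r₃ ^ 2 ∧ r₁ ≠ 0 ∧ r₂ ≠ 0 ∧ r₃ ≠ 0

lemma translate_cases {X r₁ r₂ r₃ e : ℚ} (he : e = 1 ∨ e = -1 ∨ e = 5 ∨ e = -5)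
    (h1 : X = r₁ ^ 2) (h2 : X - 1 = e * r₂ ^ 2) (h3 : X - 81 = e * r₃ ^ 2)
    (hr₁ : r₁ ≠ 0) (hr₂ : r₂ ≠ 0) (hr₃ : r₃ ≠ 0) :
    ∃ X' : ℚ, InK X' ∧ dup X' = dup X := by
  have hX0 : X ≠ 0 := by rw [h1]; positivity
  have he0 : e ≠ 0 := by rcases he with rfl | rfl | rfl | rfl <;> norm_num
  have hX1 : X - 1 ≠ 0 := by rw [h2]; positivity
  have hX81 : X - 81 ≠ 0 := by rw [h3]; positivity
  rcases he with rfl | rfl | rfl | rfl
  · exact ⟨X, ⟨r₁, r₂, r₃, h1, by rw [h2]; ring, by rw [h3]; ring, hr₁, hr₂, hr₃⟩, rfl⟩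
  · refine ⟨81 / X, ⟨9 / r₁, r₃ / r₁, 9 * r₂ / r₁, ?_, ?_, ?_, by positivity, by positivity,
      by positivity⟩, ?_⟩
    · rw [h1]; field_simp; norm_num
    · have : 81 / X - 1 = -(X - 81) / X := by field_simp; ring
      rw [this, h3, h1]; field_simp
    · have : 81 / X - 81 = -81 * (X - 1) / X := by field_simp; ring
      rw [this, h2, h1]; field_simp; ring
    · unfold dup
      have h4 : 81 / X - 1 ≠ 0 := by
        have : 81 / X - 1 = -(X - 81) / X := by field_simp; ring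
        rw [this]; exact div_ne_zero (neg_ne_zero.mpr hX81) hX0
      have h5 : 81 / X - 81 ≠ 0 := by
        have : 81 / X - 81 = -81 * (X - 1) / X := by field_simp; ring
        rw [this]; exact div_ne_zero (mul_ne_zero (by norm_num) hX1) hX0
      have h6 : 81 / X ≠ 0 := by positivity
      rw [div_eq_div_iff (by positivity) (by positivity)]
      field_simp
      ring
  · refine ⟨81 * (X - 1) / (X - 81), ⟨9 * r₂ / r₃, 4 * r₁ / r₃, 36 / r₃, ?_, ?_, ?_,
      by positivity, by positivity, by positivity⟩, ?_⟩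
    · rw [h2, h3]; field_simp
      ring
    · have : 81 * (X - 1) / (X - 81) - 1 = 80 * X / (X - 81) := by field_simp; ring
      rw [this, h3, h1]; field_simp; ring
    · have : 81 * (X - 1) / (X - 81) - 81 = 6480 / (X - 81) := by field_simp; ring
      rw [this, h3]; field_simp; ring
    · unfold dup
      have h4 : 81 * (X - 1) / (X - 81) - 1 ≠ 0 := by
        have : 81 * (X - 1) / (X - 81) - 1 = 80 * X / (X - 81) := by field_simp; ring
        rw [this]; positivity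
      have h5 : 81 * (X - 1) / (X - 81) - 81 ≠ 0 := by
        have : 81 * (X - 1) / (X - 81) - 81 = 6480 / (X - 81) := by field_simp; ring
        rw [this]; positivity
      have h6 : 81 * (X - 1) / (X - 81) ≠ 0 := by positivity
      rw [div_eq_div_iff (by positivity) (by positivity)]
      field_simp
      ring
  · refine ⟨(X - 81) / (X - 1), ⟨r₃ / r₂, 4 / r₂, 4 * r₁ / r₂, ?_, ?_, ?_,
      by positivity, by positivity, by positivity⟩, ?_⟩
    · rw [h2, h3]; field_simp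
    · have : (X - 81) / (X - 1) - 1 = -80 / (X - 1) := by field_simp; ring
      rw [this, h2]; field_simp; ring
    · have : (X - 81) / (X - 1) - 81 = -80 * X / (X - 1) := by field_simp; ring
      rw [this, h2, h1]; field_simp; ring
    · unfold dup
      have h4 : (X - 81) / (X - 1) - 1 ≠ 0 := by
        have : (X - 81) / (X - 1) - 1 = -80 / (X - 1) := by field_simp; ring
        rw [this]; exact div_ne_zero (by norm_num) hX1
      have h5 : (X - 81) / (X - 1) - 81 ≠ 0 := by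
        have : (X - 81) / (X - 1) - 81 = -80 * X / (X - 1) := by field_simp; ring
        rw [this]; exact div_ne_zero (mul_ne_zero (by norm_num) hX0) hX1
      have h6 : (X - 81) / (X - 1) ≠ 0 := by positivity
      rw [div_eq_div_iff (by positivity) (by positivity)]
      field_simp
      ring


/-- Every rational point with `Y ≠ 0` has a translate by a 2-torsion point lying in `2 E(ℚ)`. -/
lemma exists_inK {X Y : ℚ} (hY : Y ≠ 0) (h : Y ^ 2 = X * (X - 1) * (X - 81)) :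
    ∃ X' : ℚ, InK X' ∧ dup X' = dup X := by
  set u : ℤ := X.num with hu
  set w : ℤ := (X.den : ℤ) with hw
  have hwpos : 0 < w := by rw [hw]; exact_mod_cast X.den_pos
  have hwq : (w : ℚ) ≠ 0 := by exact_mod_cast hwpos.ne'
  have hc : IsCoprime u w := Rat.isCoprime_num_den X
  have hX : X = (u : ℚ) / (w : ℚ) := by
    rw [hu, hw]; exact_mod_cast (Rat.num_div_den X).symm
  have hN : ((u * w * (u - w) * (u - 81 * w) : ℤ) : ℚ) = (Y * w ^ 2) ^ 2 := by
    push_cast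
    rw [mul_pow, h, hX]
    field_simp
  have hsq : IsSquare (u * w * (u - w) * (u - 81 * w) : ℤ) := by
    rw [← Rat.isSquare_intCast_iff, hN]
    exact ⟨Y * w ^ 2, by ring⟩
  obtain ⟨z, hz⟩ := hsq
  have hz0 : z ≠ 0 := by
    rintro rfl
    rw [hz] at hN
    have h0 : (Y * (w : ℚ) ^ 2) ^ 2 = 0 := by rw [← hN]; simp
    have h1 : Y * (w : ℚ) ^ 2 = 0 := by simpa using h0
    exact (mul_ne_zero hY (pow_ne_zero 2 hwq)) h1
  obtain ⟨a, b, y, hb, ha, hab, hua, hwb, hy0, hy⟩ := L1_int (z := z) hwpos hc hz0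
    (by rw [hz]; ring)
  obtain ⟨e, m, he, hm⟩ := L2_int hab hy0 hy
  have hbq : (b : ℚ) ≠ 0 := by exact_mod_cast hb.ne'
  have haq : (a : ℚ) ≠ 0 := by exact_mod_cast ha
  have hs0 : a ^ 2 - b ^ 2 ≠ 0 := by
    intro h0; rw [h0] at hy; simp at hy; exact hy0 hy
  have he0 : e ≠ 0 := by rcases he with rfl | rfl | rfl | rfl <;> norm_num
  have hm0 : m ≠ 0 := by
    rintro rfl
    simp at hm
    exact hs0 hm
  have heq : (e : ℚ) ≠ 0 := by exact_mod_cast he0
  have hmq : (m : ℚ) ≠ 0 := by exact_mod_cast hm0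
  have hyq : (y : ℚ) ≠ 0 := by exact_mod_cast hy0
  have hXab : X = ((a : ℚ) / b) ^ 2 := by
    rw [hX, hua, hwb]; push_cast; field_simp
  have hmQ : (a : ℚ) ^ 2 - (b : ℚ) ^ 2 = e * m ^ 2 := by exact_mod_cast hm
  have hyQ : (y : ℚ) ^ 2 = ((a : ℚ) ^ 2 - (b : ℚ) ^ 2) * ((a : ℚ) ^ 2 - 81 * (b : ℚ) ^ 2) := by
    exact_mod_cast hy
  have hX1 : X - 1 = e * ((m : ℚ) / b) ^ 2 := by
    rw [hXab]; field_simp; linear_combination hmQ
  have hX81 : X - 81 = e * ((y : ℚ) / (e * m * b)) ^ 2 := by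
    rw [hXab]; field_simp
    rw [hmQ] at hyQ
    linear_combination (-1 : ℚ) * hyQ
  have heQ : (e : ℚ) = 1 ∨ (e : ℚ) = -1 ∨ (e : ℚ) = 5 ∨ (e : ℚ) = -5 := by
    rcases he with rfl | rfl | rfl | rfl <;> simp
  exact translate_cases heQ hXab hX1 hX81 (div_ne_zero haq hbq) (div_ne_zero hmq hbq)
    (div_ne_zero hyq (mul_ne_zero (mul_ne_zero heq hmq) hbq))

/-- Halving a point of `2 E(ℚ)`. -/
lemma halve {X : ℚ} (hK : InK X) :
    ∃ X₁ Y₁ : ℚ, Y₁ ≠ 0 ∧ Y₁ ^ 2 = X₁ * (X₁ - 1) * (X₁ - 81) ∧ dup X₁ = X := by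
  obtain ⟨r₁, r₂, r₃, h1, h2, h3, hr₁, hr₂, hr₃⟩ := hK
  have hA : r₁ ^ 2 - r₂ ^ 2 = 1 := by linear_combination h2 - h1
  have hB : r₁ ^ 2 - r₃ ^ 2 = 81 := by linear_combination h3 - h1
  have h12 : r₁ + r₂ ≠ 0 := by
    intro h0
    have : r₁ ^ 2 - r₂ ^ 2 = 0 := by
      have : r₁ ^ 2 - r₂ ^ 2 = (r₁ + r₂) * (r₁ - r₂) := by ring
      rw [this, h0, zero_mul]
    linarith
  have h13 : r₁ + r₃ ≠ 0 := by
    intro h0
    have : r₁ ^ 2 - r₃ ^ 2 = 0 := by
      have : r₁ ^ 2 - r₃ ^ 2 = (r₁ + r₃) * (r₁ - r₃) := by ring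
      rw [this, h0, zero_mul]
    linarith
  have h23 : r₂ + r₃ ≠ 0 := by
    intro h0
    have : r₂ ^ 2 - r₃ ^ 2 = 0 := by
      have : r₂ ^ 2 - r₃ ^ 2 = (r₂ + r₃) * (r₂ - r₃) := by ring
      rw [this, h0, zero_mul]
    linarith
  set X₁ : ℚ := (r₁ + r₂) * (r₁ + r₃) with hX₁
  set Y₁ : ℚ := (r₁ + r₂) * (r₁ + r₃) * (r₂ + r₃) with hY₁
  have hY₁0 : Y₁ ≠ 0 := mul_ne_zero (mul_ne_zero h12 h13) h23
  have e1 : X₁ - 1 = (r₂ + r₁) * (r₂ + r₃) := by rw [hX₁]; linear_combination hA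
  have e81 : X₁ - 81 = (r₃ + r₁) * (r₃ + r₂) := by rw [hX₁]; linear_combination hB
  have hcurve : Y₁ ^ 2 = X₁ * (X₁ - 1) * (X₁ - 81) := by
    rw [e1, e81, hX₁, hY₁]; ring
  have key : X₁ ^ 2 - 81 = 2 * r₁ * Y₁ := by
    rw [hX₁, hY₁]
    linear_combination (r₁ ^ 2 - r₃ ^ 2) * hA + hB
  refine ⟨X₁, Y₁, hY₁0, hcurve, ?_⟩
  unfold dup
  rw [← hcurve, key, h1]
  field_simp
  norm_num


lemma not_three_dvd_of_pyth {a b c : ℤ} (hab : IsCoprime a b) (h : a ^ 2 - b ^ 2 = c * c) :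
    ¬ (3 : ℤ) ∣ a := by
  intro h3
  have hb3 : (3 : ℤ) ∣ b := by
    have ha0 : (a : ZMod 3) = 0 := (ZMod.intCast_zmod_eq_zero_iff_dvd a 3).mpr h3
    have hz : (b : ZMod 3) ^ 2 + (c : ZMod 3) ^ 2 = 0 := by
      have := congrArg (Int.cast : ℤ → ZMod 3) h
      push_cast at this
      rw [ha0] at this
      linear_combination -this
    have hb0 : (b : ZMod 3) = 0 := by
      revert hz
      generalize (b : ZMod 3) = b'
      generalize (c : ZMod 3) = c'
      revert b' c'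
      decide
    exact (ZMod.intCast_zmod_eq_zero_iff_dvd b 3).mp hb0
  have := hab.isUnit_of_dvd' h3 hb3
  norm_num [Int.isUnit_iff] at this

/-- The key inequality of the descent: doubling increases the denominator. -/
lemma den_lt {X' : ℚ} (hK : InK X') : X'.den < (dup X').den := by
  obtain ⟨r₁, r₂, r₃, h1, h2, h3, hr₁, hr₂, hr₃⟩ := hK
  set a : ℤ := r₁.num with ha
  set b : ℤ := (r₁.den : ℤ) with hb
  have hbpos : 0 < b := by rw [hb]; exact_mod_cast r₁.den_pos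
  have hbq : (b : ℚ) ≠ 0 := by exact_mod_cast hbpos.ne'
  have hab : IsCoprime a b := Rat.isCoprime_num_den r₁
  have hr : r₁ = (a : ℚ) / (b : ℚ) := by
    rw [ha, hb]; exact_mod_cast (Rat.num_div_den r₁).symm
  have ha0 : a ≠ 0 := by
    rw [ha]; exact Rat.num_ne_zero.mpr hr₁
  have haq : (a : ℚ) ≠ 0 := by exact_mod_cast ha0
  -- the integer `c`
  have hcsq : IsSquare (a ^ 2 - b ^ 2 : ℤ) := by
    rw [← Rat.isSquare_intCast_iff]
    refine ⟨r₂ * b, ?_⟩
    push_cast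
    have : r₂ ^ 2 = ((a : ℚ) / b) ^ 2 - 1 := by rw [← hr, ← h1, h2]
    field_simp at this
    linear_combination -this
  obtain ⟨c, hc⟩ := hcsq
  have hdsq : IsSquare (a ^ 2 - 81 * b ^ 2 : ℤ) := by
    rw [← Rat.isSquare_intCast_iff]
    refine ⟨r₃ * b, ?_⟩
    push_cast
    have : r₃ ^ 2 = ((a : ℚ) / b) ^ 2 - 81 := by rw [← hr, ← h1, h3]
    field_simp at this
    linear_combination -this
  obtain ⟨d, hd⟩ := hdsq
  have hcQ : (a : ℚ) ^ 2 - (b : ℚ) ^ 2 = c * c := by exact_mod_cast hc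
  have hdQ : (a : ℚ) ^ 2 - 81 * (b : ℚ) ^ 2 = d * d := by exact_mod_cast hd
  have hX1 : X' - 1 = ((c : ℚ) / b) ^ 2 := by
    rw [h1, hr]; field_simp; linear_combination hcQ
  have hX81 : X' - 81 = ((d : ℚ) / b) ^ 2 := by
    rw [h1, hr]; field_simp; linear_combination hdQ
  have hc0 : c ≠ 0 := by
    rintro rfl
    rw [h2] at hX1
    simp at hX1
    exact hr₂ hX1
  have hd0 : d ≠ 0 := by
    rintro rfl
    rw [h3] at hX81
    simp at hX81
    exact hr₃ hX81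
  have hcq : (c : ℚ) ≠ 0 := by exact_mod_cast hc0
  have hdq : (d : ℚ) ≠ 0 := by exact_mod_cast hd0
  have h3a : ¬ (3 : ℤ) ∣ a := not_three_dvd_of_pyth hab hc
  -- the numerator and denominator of the square root of `dup X'`
  set A : ℤ := a ^ 4 - 81 * b ^ 4 with hA
  set B : ℤ := 2 * a * b * c * d with hB
  have hB0 : B ≠ 0 := by
    rw [hB]
    exact mul_ne_zero (mul_ne_zero (mul_ne_zero (mul_ne_zero two_ne_zero ha0) hbpos.ne') hc0) hd0
  have hBq : (B : ℚ) ≠ 0 := by exact_mod_cast hB0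
  have hdup : dup X' = ((A : ℚ) / (B : ℚ)) ^ 2 := by
    unfold dup
    rw [hX1, hX81, h1, hr, hA, hB]
    push_cast
    field_simp
    ring
  set ρ : ℚ := (A : ℚ) / (B : ℚ) with hρ
  have hcross : ρ.num * B = A * (ρ.den : ℤ) := by
    have h0 : (ρ.num : ℚ) / (ρ.den : ℚ) = (A : ℚ) / (B : ℚ) := by
      rw [Rat.num_div_den]
    have hden : ((ρ.den : ℤ) : ℚ) ≠ 0 := by exact_mod_cast ρ.den_pos.ne'
    have : (ρ.num : ℚ) * (B : ℚ) = (A : ℚ) * ((ρ.den : ℤ) : ℚ) := by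
      have h0' : (ρ.num : ℚ) / ((ρ.den : ℤ) : ℚ) = (A : ℚ) / (B : ℚ) := by exact_mod_cast h0
      exact (div_eq_div_iff hden hBq).mp h0'
    exact_mod_cast this
  have hcopA : IsCoprime (a * b) A := by
    have h81 : IsCoprime a 81 := by
      have := (isCoprime_three_of_not_dvd h3a).pow_right (n := 4)
      norm_num at this
      exact this
    have h1' : IsCoprime a A := by
      have := coprime_lin (k := a ^ 3) (hab.pow_right (n := 2)) h81
      have e : a ^ 3 * a - 81 * (b ^ 2) ^ 2 = A := by rw [hA]; ring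
      rw [e] at this; exact this
    have h2' : IsCoprime b A := by
      have hba : IsCoprime b (a ^ 4) := hab.symm.pow_right
      have := hba.add_mul_left_right (-81 * b ^ 3)
      have e : a ^ 4 + b * (-81 * b ^ 3) = A := by rw [hA]; ring
      rw [e] at this; exact this
    exact h1'.mul_left h2'
  have hdvd : a * b ∣ (ρ.den : ℤ) := by
    have h1' : a * b ∣ A * (ρ.den : ℤ) := by
      rw [← hcross]
      exact Dvd.dvd.mul_left ⟨2 * c * d, by rw [hB]; ring⟩ _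
    exact hcopA.dvd_of_dvd_mul_left h1'
  have hnat : (a * b).natAbs ∣ ρ.den := by
    have := Int.natAbs_dvd_natAbs.mpr hdvd
    simpa using this
  have hle : (a * b).natAbs ≤ ρ.den := Nat.le_of_dvd ρ.den_pos hnat
  have ha2 : 2 ≤ a.natAbs := by
    by_contra hlt
    have hlt' : a.natAbs ≤ 1 := by omega
    have hsq : a ^ 2 ≤ 1 := by
      have h1' : (a.natAbs : ℤ) ≤ 1 := by exact_mod_cast hlt'
      have h2' : (a.natAbs : ℤ) ^ 2 = a ^ 2 := Int.natAbs_sq a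
      have h3' : 0 ≤ (a.natAbs : ℤ) := by positivity
      nlinarith
    have hb1 : 1 ≤ b ^ 2 := by nlinarith
    have hc1 : 1 ≤ c * c := by
      have : 0 < c * c := mul_self_pos.mpr hc0
      linarith
    linarith
  have hbn : b.natAbs = r₁.den := by rw [hb]; simp
  have hlt : r₁.den < ρ.den := by
    have : (a * b).natAbs = a.natAbs * r₁.den := by rw [Int.natAbs_mul, hbn]
    rw [this] at hle
    have hpos : 0 < r₁.den := r₁.den_pos
    nlinarith
  rw [hdup, h1, Rat.den_pow, Rat.den_pow]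
  exact Nat.pow_lt_pow_left hlt two_ne_zero

/-- `2 E(ℚ)` contains no point with `Y ≠ 0`. -/
theorem not_inK : ∀ X : ℚ, ¬ InK X := by
  suffices H : ∀ n : ℕ, ∀ X : ℚ, InK X → X.den = n → False from
    fun X hX => H X.den X hX rfl
  intro n
  induction n using Nat.strong_induction_on with
  | _ n ih =>
    intro X hX hn
    obtain ⟨X₁, Y₁, hY₁, hcurve, hdup⟩ := halve hX
    obtain ⟨X', hX', hdup'⟩ := exists_inK hY₁ hcurve
    have hlt : X'.den < n := by
      have := den_lt hX'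
      rw [hdup', hdup, hn] at this
      exact this
    exact ih X'.den hlt X' hX' rfl

/-- **(D1)** The only rational points of `Y^2 = X (X - 1) (X - 81)` are the points of order 2
(and the point at infinity): every affine rational point has `Y = 0`. -/
theorem descent_D1 (X Y : ℚ) (h : Y ^ 2 = X * (X - 1) * (X - 81)) : Y = 0 := by
  by_contra hY
  obtain ⟨X', hX', -⟩ := exists_inK hY h
  exact not_inK X' hX'

end Fermat.Agent.S51.H30
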