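/-
helper30: rational points of `X_0(15)`, model `Y^2 = U (U + 9) (U - 16)` (Cremona 15a1):
the affine rational points have `U ∈ {0, -9, 16, -4, 36}`.
Deduced from the descent lemma (D1) for the 2-isogenous curve `y^2 = x (x - 1) (x - 81)`
through the explicit 2-isogeny with kernel generated by `(16, 0)`.
-/
import Fermat.Agent.S51.H30_Descent

set_option autoImplicit false

namespace Fermat.Agent.S51.H30

/-- **(D')** Affine rational points of `Y^2 = U (U + 9) (U - 16)`. -/
theorem descent_X015 (U Y : ℚ) (h : Y ^ 2 = U * (U + 9) * (U - 16)) :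
    U = 0 ∨ U = -9 ∨ U = 16 ∨ U = -4 ∨ U = 36 := by
  by_cases hV : U - 16 = 0
  · right; right; left; linarith
  · set V : ℚ := U - 16 with hVdef
    have hUV : U = V + 16 := by rw [hVdef]; ring
    have hq : Y ^ 2 = V * (V ^ 2 + 41 * V + 400) := by rw [h, hUV]; ring
    have key : (Y * (400 - V ^ 2) / V ^ 2) ^ 2 =
        (Y / V) ^ 2 * ((Y / V) ^ 2 - 1) * ((Y / V) ^ 2 - 81) := by
      field_simp
      have e : Y ^ 2 * (400 - V ^ 2) ^ 2 * V ^ 2 =
          Y ^ 2 * ((Y ^ 2 - V ^ 2) * (Y ^ 2 - 81 * V ^ 2)) := by
        rw [hq]; ring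
      linear_combination e
    have hy := descent_D1 _ _ key
    have hnum : Y * (400 - V ^ 2) = 0 := by
      have hV2 : V ^ 2 ≠ 0 := pow_ne_zero 2 hV
      rcases div_eq_zero_iff.mp hy with h0 | h0
      · exact h0
      · exact absurd h0 hV2
    rcases mul_eq_zero.mp hnum with hY0 | hV400
    · rw [hY0] at h
      have h0 : U * (U + 9) * (U - 16) = 0 := by rw [← h]; ring
      rcases mul_eq_zero.mp h0 with h1 | h1
      · rcases mul_eq_zero.mp h1 with h2 | h2
        · left; exact h2
        · right; left; linarith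
      · right; right; left; linarith
    · have h0 : (V - 20) * (V + 20) = 0 := by linear_combination -hV400
      rcases mul_eq_zero.mp h0 with h1 | h1
      · right; right; right; right; rw [hUV]; linarith
      · right; right; right; left; rw [hUV]; linarith

end Fermat.Agent.S51.H30
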