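/-
helper32: S51 sub-lemma D1.  The elliptic curve `Y^2 = X (X - 1) (X - 81)` (Cremona 15a2) has only the
rational points with `Y = 0` (and the point at infinity).  Proof: classical complete 2-descent,
organised as an infinite descent on the integer system
  `a^2 - b^2 = c^2`,  `a^2 - 81 b^2 = d^2`   (solutions have `b = 0`).
-/
import Mathlib.NumberTheory.PythagoreanTriples
import Mathlib.Tactic

namespace Fermat.Agent.S51.H32

/-! ### Small congruence facts -/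

lemma sq_emod_eight (x : ℤ) : x ^ 2 % 8 = 0 ∨ x ^ 2 % 8 = 1 ∨ x ^ 2 % 8 = 4 := by
  have h : x % 8 = 0 ∨ x % 8 = 1 ∨ x % 8 = 2 ∨ x % 8 = 3 ∨ x % 8 = 4 ∨ x % 8 = 5 ∨ x % 8 = 6 ∨
      x % 8 = 7 := by omega
  rcases h with h | h | h | h | h | h | h | h <;> simp [pow_two, Int.mul_emod, h]

lemma sq_emod_eight_of_odd (x : ℤ) (hx : x % 2 = 1) : x ^ 2 % 8 = 1 := by
  have h : x % 8 = 1 ∨ x % 8 = 3 ∨ x % 8 = 5 ∨ x % 8 = 7 := by omega
  rcases h with h | h | h | h <;> simp [pow_two, Int.mul_emod, h]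

lemma sq_emod_four_of_even (x : ℤ) (hx : x % 2 = 0) : x ^ 2 % 4 = 0 := by
  have h : x % 4 = 0 ∨ x % 4 = 2 := by omega
  rcases h with h | h <;> simp [pow_two, Int.mul_emod, h]

lemma sq_emod_four (x : ℤ) : x ^ 2 % 4 = 0 ∨ x ^ 2 % 4 = 1 := by
  have h : x % 4 = 0 ∨ x % 4 = 1 ∨ x % 4 = 2 ∨ x % 4 = 3 := by omega
  rcases h with h | h | h | h <;> simp [pow_two, Int.mul_emod, h]

lemma sq_emod_three (x : ℤ) : (x % 3 = 0 ∧ x ^ 2 % 3 = 0) ∨ (x % 3 ≠ 0 ∧ x ^ 2 % 3 = 1) := by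
  have h : x % 3 = 0 ∨ x % 3 = 1 ∨ x % 3 = 2 := by omega
  rcases h with h | h | h <;> simp [pow_two, Int.mul_emod, h]

lemma sq_emod_five (x : ℤ) :
    (x % 5 = 0 ∧ x ^ 2 % 5 = 0) ∨ (x % 5 ≠ 0 ∧ (x ^ 2 % 5 = 1 ∨ x ^ 2 % 5 = 4)) := by
  have h : x % 5 = 0 ∨ x % 5 = 1 ∨ x % 5 = 2 ∨ x % 5 = 3 ∨ x % 5 = 4 := by omega
  rcases h with h | h | h | h | h <;> simp [pow_two, Int.mul_emod, h]

/-- The four number lemma: if `ρ s = m n` then `m = αβ`, `n = γδ`, `ρ = αγ`, `s = βδ` with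
`β, γ` coprime. -/
lemma four_numbers {m n ρ s : ℤ} (hm : m ≠ 0) (h : ρ * s = m * n) :
    ∃ α β γ δ : ℤ, m = α * β ∧ n = γ * δ ∧ ρ = α * γ ∧ s = β * δ ∧ IsCoprime β γ := by
  have hpos : 0 < Int.gcd m ρ := Int.gcd_pos_of_ne_zero_left _ hm
  obtain ⟨β, γ, hβγ, hmβ, hργ⟩ := Int.exists_gcd_one hpos
  set α : ℤ := (Int.gcd m ρ : ℤ) with hα
  have hα0 : α ≠ 0 := by
    rw [hα]; exact_mod_cast hpos.ne'
  have hβ0 : β ≠ 0 := by
    rintro rfl
    apply hm; rw [hmβ]; ring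
  have hcop : IsCoprime β γ := Int.isCoprime_iff_gcd_eq_one.mpr hβγ
  -- γ s = β n
  have h2 : γ * s = β * n := by
    have : α * (γ * s) = α * (β * n) := by
      calc α * (γ * s) = (γ * α) * s := by ring
        _ = ρ * s := by rw [← hργ]
        _ = m * n := h
        _ = (β * α) * n := by rw [← hmβ]
        _ = α * (β * n) := by ring
    exact mul_left_cancel₀ hα0 this
  have hdvd : β ∣ s := by
    have : β ∣ γ * s := ⟨n, h2⟩
    exact hcop.dvd_of_dvd_mul_left this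
  obtain ⟨δ, rfl⟩ := hdvd
  refine ⟨α, β, γ, δ, by rw [hmβ]; ring, ?_, by rw [hργ]; ring, rfl, hcop⟩
  have : β * n = β * (γ * δ) := by rw [← h2]; ring
  exact mul_left_cancel₀ hβ0 this

lemma sq_emod_four' (x : ℤ) :
    (x % 2 = 0 ∧ x ^ 2 % 4 = 0) ∨ (x % 2 = 1 ∧ x ^ 2 % 4 = 1) := by
  have h : x % 4 = 0 ∨ x % 4 = 1 ∨ x % 4 = 2 ∨ x % 4 = 3 := by omega
  rcases h with h | h | h | h <;> simp [pow_two, Int.mul_emod, h] <;> omega

lemma not_isCoprime_of_emod {x y : ℤ} (p : ℤ) (hp : 1 < p) (hx : x % p = 0) (hy : y % p = 0) :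
    ¬ IsCoprime x y := by
  intro h
  have h2 : p ∣ 1 := by
    have hg := Int.isCoprime_iff_gcd_eq_one.mp h
    have : p ∣ (Int.gcd x y : ℤ) :=
      Int.dvd_coe_gcd (Int.dvd_of_emod_eq_zero hx) (Int.dvd_of_emod_eq_zero hy)
    rw [hg] at this
    exact_mod_cast this
  have := Int.le_of_dvd one_pos h2
  omega

lemma not_isCoprime_of_even {x y : ℤ} (hx : x % 2 = 0) (hy : y % 2 = 0) : ¬ IsCoprime x y :=
  not_isCoprime_of_emod 2 (by norm_num) hx hy

/-- Core of the descent: from `β² - γ² = k α²`, `β² - 81 γ² = k δ²` (pairwise coprimality as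
stated) we get a solution of the original system whose `b` is one of `α, β, γ, δ`. -/
lemma descent_core {α β γ δ k : ℤ}
    (hαδ : IsCoprime α δ) (hβγ : IsCoprime β γ)
    (E1 : β ^ 2 - γ ^ 2 = k * α ^ 2) (E2 : β ^ 2 - 81 * γ ^ 2 = k * δ ^ 2) :
    ∃ a b c d : ℤ, (b = α ∨ b = β ∨ b = γ ∨ b = δ) ∧
      a ^ 2 - b ^ 2 = c ^ 2 ∧ a ^ 2 - 81 * b ^ 2 = d ^ 2 := by
  obtain ⟨x, y, hxy⟩ := (hβγ.pow (m := 2) (n := 2))
  have h80 : (80 : ℤ) = k * (x * (81 * α ^ 2 - δ ^ 2) + y * (α ^ 2 - δ ^ 2)) := by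
    linear_combination (-80) * hxy + (81 * x + y) * E1 - (x + y) * E2
  have hk80 : k ∣ 80 := ⟨_, h80⟩
  have hkabs : k.natAbs ∣ 80 := by simpa using Int.natAbs_dvd_natAbs.mpr hk80
  have hmem : k.natAbs ∈ Nat.divisors 80 := Nat.mem_divisors.mpr ⟨hkabs, by norm_num⟩
  have hdiv : Nat.divisors 80 = {1, 2, 4, 5, 8, 10, 16, 20, 40, 80} := by decide
  rw [hdiv] at hmem
  simp only [Finset.mem_insert, Finset.mem_singleton] at hmem
  have hα4 := sq_emod_four' α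
  have hβ4 := sq_emod_four' β
  have hγ4 := sq_emod_four' γ
  have hδ4 := sq_emod_four' δ
  have hbad1 : ¬ (α % 2 = 0 ∧ δ % 2 = 0) := fun h => not_isCoprime_of_even h.1 h.2 hαδ
  have hbad2 : ¬ (β % 2 = 0 ∧ γ % 2 = 0) := fun h => not_isCoprime_of_even h.1 h.2 hβγ
  rcases Int.natAbs_eq k with hk | hk <;>
  rcases hmem with h | h | h | h | h | h | h | h | h | h <;>
  rw [h] at hk <;> norm_num at hk <;> subst hk
  -- k = 1
  · exact ⟨β, γ, α, δ, Or.inr (Or.inr (Or.inl rfl)), by linarith, by linarith⟩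
  -- k = 2
  · exfalso; omega
  -- k = 4
  · exact ⟨β, γ, 2 * α, 2 * δ, Or.inr (Or.inr (Or.inl rfl)), by linarith, by linarith⟩
  -- k = 5
  · exact ⟨9 * α, δ, 4 * β, 36 * γ, Or.inr (Or.inr (Or.inr rfl)), by linarith, by linarith⟩
  -- k = 8
  · exfalso; omega
  -- k = 10
  · exfalso; omega
  -- k = 16
  · exact ⟨β, γ, 4 * α, 4 * δ, Or.inr (Or.inr (Or.inl rfl)), by linarith, by linarith⟩
  -- k = 20
  · exact ⟨9 * α, δ, 2 * β, 18 * γ, Or.inr (Or.inr (Or.inr rfl)), by linarith, by linarith⟩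
  -- k = 40
  · exfalso; omega
  -- k = 80
  · exact ⟨9 * α, δ, β, 9 * γ, Or.inr (Or.inr (Or.inr rfl)), by linarith, by linarith⟩
  -- k = -1
  · exact ⟨9 * γ, β, δ, 9 * α, Or.inr (Or.inl rfl), by linarith, by linarith⟩
  -- k = -2
  · exfalso; omega
  -- k = -4
  · exact ⟨9 * γ, β, 2 * δ, 18 * α, Or.inr (Or.inl rfl), by linarith, by linarith⟩
  -- k = -5
  · exact ⟨δ, α, 4 * γ, 4 * β, Or.inl rfl, by linarith, by linarith⟩
  -- k = -8
  · exfalso; omega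
  -- k = -10
  · exfalso; omega
  -- k = -16
  · exact ⟨9 * γ, β, 4 * δ, 36 * α, Or.inr (Or.inl rfl), by linarith, by linarith⟩
  -- k = -20
  · exact ⟨δ, α, 2 * γ, 2 * β, Or.inl rfl, by linarith, by linarith⟩
  -- k = -40
  · exfalso; omega
  -- k = -80
  · exact ⟨δ, α, γ, β, Or.inl rfl, by linarith, by linarith⟩

lemma natAbs_bound {α β γ δ b : ℤ} (hα : α ≠ 0) (hβ : β ≠ 0) (hγ : γ ≠ 0) (hδ : δ ≠ 0)
    (hb : b = α ∨ b = β ∨ b = γ ∨ b = δ) :
    b.natAbs < (2 * (α * β) * (γ * δ)).natAbs := by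
  have hA : 0 < α.natAbs := Int.natAbs_pos.mpr hα
  have hB : 0 < β.natAbs := Int.natAbs_pos.mpr hβ
  have hC : 0 < γ.natAbs := Int.natAbs_pos.mpr hγ
  have hD : 0 < δ.natAbs := Int.natAbs_pos.mpr hδ
  have e : (2 * (α * β) * (γ * δ)).natAbs = 2 * (α.natAbs * β.natAbs) * (γ.natAbs * δ.natAbs) := by
    simp [Int.natAbs_mul]
  rw [e]
  have hAB : 0 < α.natAbs * β.natAbs := Nat.mul_pos hA hB
  have hCD : 0 < γ.natAbs * δ.natAbs := Nat.mul_pos hC hD
  have h1 : α.natAbs ≤ α.natAbs * β.natAbs := Nat.le_mul_of_pos_right _ hB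
  have h2 : β.natAbs ≤ α.natAbs * β.natAbs := Nat.le_mul_of_pos_left _ hA
  have h3 : γ.natAbs ≤ γ.natAbs * δ.natAbs := Nat.le_mul_of_pos_right _ hD
  have h4 : δ.natAbs ≤ γ.natAbs * δ.natAbs := Nat.le_mul_of_pos_left _ hC
  have h5 : α.natAbs * β.natAbs ≤ (α.natAbs * β.natAbs) * (γ.natAbs * δ.natAbs) :=
    Nat.le_mul_of_pos_right _ hCD
  have h6 : γ.natAbs * δ.natAbs ≤ (α.natAbs * β.natAbs) * (γ.natAbs * δ.natAbs) :=
    Nat.le_mul_of_pos_left _ hAB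
  have h7 : 0 < (α.natAbs * β.natAbs) * (γ.natAbs * δ.natAbs) := Nat.mul_pos hAB hCD
  have e2 : 2 * (α.natAbs * β.natAbs) * (γ.natAbs * δ.natAbs) =
      2 * ((α.natAbs * β.natAbs) * (γ.natAbs * δ.natAbs)) := by ring
  rw [e2]
  rcases hb with rfl | rfl | rfl | rfl <;> omega

/-- The even case of the descent step. -/
lemma descent_even {m n r s : ℤ} (hm : m ≠ 0) (hn : n ≠ 0) (hmn : IsCoprime m n)
    (h9 : (9 : ℤ) ∣ r) (hrs : r * s = 9 * (m * n)) (hsum : m ^ 2 + n ^ 2 = r ^ 2 + s ^ 2) :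
    ∃ a b c d : ℤ, b ≠ 0 ∧ b.natAbs < (2 * m * n).natAbs ∧
      a ^ 2 - b ^ 2 = c ^ 2 ∧ a ^ 2 - 81 * b ^ 2 = d ^ 2 := by
  obtain ⟨ρ, rfl⟩ := h9
  have h1 : ρ * s = m * n := by
    have : (9 : ℤ) * (ρ * s) = 9 * (m * n) := by linarith
    exact mul_left_cancel₀ (by norm_num) this
  obtain ⟨α, β, γ, δ, rfl, rfl, rfl, rfl, hβγ⟩ := four_numbers hm h1
  have hα : α ≠ 0 := left_ne_zero_of_mul hm
  have hβ : β ≠ 0 := right_ne_zero_of_mul hm
  have hγ : γ ≠ 0 := left_ne_zero_of_mul hn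
  have hδ : δ ≠ 0 := right_ne_zero_of_mul hn
  have hαδ : IsCoprime α δ := (hmn.of_mul_left_left).of_mul_right_right
  have key : α ^ 2 * (β ^ 2 - 81 * γ ^ 2) = δ ^ 2 * (β ^ 2 - γ ^ 2) := by
    linear_combination hsum
  have hdvd : α ^ 2 ∣ β ^ 2 - γ ^ 2 := by
    have : α ^ 2 ∣ δ ^ 2 * (β ^ 2 - γ ^ 2) := ⟨_, key.symm⟩
    exact (hαδ.pow (m := 2) (n := 2)).dvd_of_dvd_mul_left this
  obtain ⟨k, hk⟩ := hdvd
  have E1 : β ^ 2 - γ ^ 2 = k * α ^ 2 := by rw [hk]; ring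
  have E2 : β ^ 2 - 81 * γ ^ 2 = k * δ ^ 2 := by
    have : α ^ 2 * (β ^ 2 - 81 * γ ^ 2) = α ^ 2 * (k * δ ^ 2) := by rw [key, hk]; ring
    exact mul_left_cancel₀ (pow_ne_zero 2 hα) this
  obtain ⟨a, b, c, d, hb, h1, h2⟩ := descent_core hαδ hβγ E1 E2
  refine ⟨a, b, c, d, ?_, ?_, h1, h2⟩
  · rcases hb with rfl | rfl | rfl | rfl <;> assumption
  · have := natAbs_bound hα hβ hγ hδ hb
    have e : 2 * (α * β) * (γ * δ) = 2 * (α * β) * (γ * δ) := rfl
    simpa [mul_assoc] using this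

/-- The odd case is impossible. -/
lemma descent_odd {m n r s : ℤ} (hpar : m % 2 = 0 ∧ n % 2 = 1 ∨ m % 2 = 1 ∧ n % 2 = 0)
    (hsum : m ^ 2 + n ^ 2 = r ^ 2 + s ^ 2) (hdiff : 9 * (m ^ 2 - n ^ 2) = r ^ 2 - s ^ 2) :
    False := by
  have hr := sq_emod_eight r
  have hs := sq_emod_eight s
  rcases hpar with ⟨h1, h2⟩ | ⟨h1, h2⟩
  · have := sq_emod_four_of_even m h1
    have := sq_emod_eight_of_odd n h2
    omega
  · have := sq_emod_eight_of_odd m h1
    have := sq_emod_four_of_even n h2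
    omega

/-- One descent step for a coprime solution. -/
lemma descent_step_coprime {a b c d : ℤ} (hb : b ≠ 0) (hab : IsCoprime a b)
    (h1 : a ^ 2 - b ^ 2 = c ^ 2) (h2 : a ^ 2 - 81 * b ^ 2 = d ^ 2) :
    ∃ a' b' c' d' : ℤ, b' ≠ 0 ∧ b'.natAbs < b.natAbs ∧
      a' ^ 2 - b' ^ 2 = c' ^ 2 ∧ a' ^ 2 - 81 * b' ^ 2 = d' ^ 2 := by
  have hP1 : PythagoreanTriple b c a := by
    unfold PythagoreanTriple; linarith
  have hcb : IsCoprime c b := by
    have h : IsCoprime (a ^ 2 + b * (-b)) b := (hab.pow_left (m := 2)).add_mul_left_left (-b)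
    have e : a ^ 2 + b * (-b) = c ^ 2 := by linarith
    rw [e] at h
    exact (IsCoprime.pow_left_iff (by norm_num : 0 < 2)).mp h
  have hbc : Int.gcd b c = 1 := Int.isCoprime_iff_gcd_eq_one.mp hcb.symm
  obtain ⟨m, n, hbc', ha, hmn, hpar⟩ := PythagoreanTriple.coprime_classification.mp ⟨hP1, hbc⟩
  have hmn' : IsCoprime m n := Int.isCoprime_iff_gcd_eq_one.mpr hmn
  -- 3 ∤ a
  have h3 : ¬ (3 : ℤ) ∣ a := by
    intro h3a
    have ha3 : a % 3 = 0 := Int.emod_eq_zero_of_dvd h3a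
    have hA := sq_emod_three a
    have hB := sq_emod_three b
    have hC := sq_emod_three c
    have : b % 3 = 0 ∧ c % 3 = 0 := by omega
    exact not_isCoprime_of_emod 3 (by norm_num) this.2 this.1 hcb
  have hP2 : PythagoreanTriple (9 * b) d a := by
    unfold PythagoreanTriple; linarith
  have ha9 : IsCoprime a 9 := by
    have : IsCoprime (3 : ℤ) a := (Int.prime_three.irreducible.coprime_iff_not_dvd).mpr h3
    have h := (this.symm.pow_right (n := 2))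
    norm_num at h
    exact h
  have ha9b : IsCoprime a (9 * b) := ha9.mul_right hab
  have hd9b : IsCoprime d (9 * b) := by
    have h : IsCoprime (a ^ 2 + (9 * b) * (-(9 * b))) (9 * b) :=
      (ha9b.pow_left (m := 2)).add_mul_left_left (-(9 * b))
    have e : a ^ 2 + (9 * b) * (-(9 * b)) = d ^ 2 := by linarith
    rw [e] at h
    exact (IsCoprime.pow_left_iff (by norm_num : 0 < 2)).mp h
  have h9bd : Int.gcd (9 * b) d = 1 := Int.isCoprime_iff_gcd_eq_one.mp hd9b.symm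
  obtain ⟨r, s, h9bd', ha', hrs, hpar'⟩ :=
    PythagoreanTriple.coprime_classification.mp ⟨hP2, h9bd⟩
  have hrs' : IsCoprime r s := Int.isCoprime_iff_gcd_eq_one.mpr hrs
  -- a ≠ 0
  have ha0 : a ≠ 0 := by
    rintro rfl
    have : b ^ 2 = 0 := by nlinarith [sq_nonneg b, sq_nonneg c]
    exact hb (pow_eq_zero_iff (two_ne_zero) |>.mp this)
  have hsum : m ^ 2 + n ^ 2 = r ^ 2 + s ^ 2 := by
    have := sq_nonneg m; have := sq_nonneg n; have := sq_nonneg r; have := sq_nonneg s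
    rcases ha with ha | ha <;> rcases ha' with ha' | ha' <;> omega
  have hm4 := sq_emod_four' m
  have hn4 := sq_emod_four' n
  have hr4 := sq_emod_four' r
  have hs4 := sq_emod_four' s
  rcases hbc' with ⟨hb1, -⟩ | ⟨hb1, -⟩ <;> rcases h9bd' with ⟨hb2, -⟩ | ⟨hb2, -⟩
  · exact (descent_odd hpar hsum (by rw [← hb1, hb2])).elim
  · exfalso
    have e : 9 * b = 2 * (r * s) := by rw [hb2]; ring
    omega
  · exfalso
    have e : b = 2 * (m * n) := by rw [hb1]; ring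
    omega
  · have hm0 : m ≠ 0 := by
      rintro rfl; apply hb; rw [hb1]; ring
    have hn0 : n ≠ 0 := by
      rintro rfl; apply hb; rw [hb1]; ring
    have hrs9 : r * s = 9 * (m * n) := by
      have : 2 * (r * s) = 2 * (9 * (m * n)) := by
        calc 2 * (r * s) = 9 * b := by rw [hb2]; ring
          _ = 2 * (9 * (m * n)) := by rw [hb1]; ring
      exact mul_left_cancel₀ (by norm_num) this
    have hbabs : b.natAbs = (2 * m * n).natAbs := by rw [hb1]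
    rw [hbabs]
    have h9rs : (9 : ℤ) ∣ r * s := ⟨m * n, hrs9⟩
    by_cases h3s : (3 : ℤ) ∣ s
    · -- then 3 ∤ r, so 9 ∣ s
      have h3r : ¬ (3 : ℤ) ∣ r := by
        intro h3r
        exact not_isCoprime_of_emod 3 (by norm_num) (Int.emod_eq_zero_of_dvd h3r)
          (Int.emod_eq_zero_of_dvd h3s) hrs'
      have hc : IsCoprime (9 : ℤ) r := by
        have : IsCoprime (3 : ℤ) r := (Int.prime_three.irreducible.coprime_iff_not_dvd).mpr h3r
        have h := (this.pow_left (m := 2))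
        norm_num at h
        exact h
      have h9s : (9 : ℤ) ∣ s := hc.dvd_of_dvd_mul_left h9rs
      exact descent_even hm0 hn0 hmn' h9s (by rw [mul_comm]; exact hrs9)
        (by rw [hsum]; ring)
    · have hc : IsCoprime (9 : ℤ) s := by
        have : IsCoprime (3 : ℤ) s := (Int.prime_three.irreducible.coprime_iff_not_dvd).mpr h3s
        have h := (this.pow_left (m := 2))
        norm_num at h
        exact h
      have h9r : (9 : ℤ) ∣ r := hc.dvd_of_dvd_mul_right h9rs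
      exact descent_even hm0 hn0 hmn' h9r hrs9 hsum

/-- **Integer descent.** The system `a² - b² = c²`, `a² - 81 b² = d²` forces `b = 0`. -/
theorem descent_int : ∀ (N : ℕ) (a b c d : ℤ), b.natAbs = N →
    a ^ 2 - b ^ 2 = c ^ 2 → a ^ 2 - 81 * b ^ 2 = d ^ 2 → b = 0 := by
  intro N
  induction N using Nat.strong_induction_on with
  | _ N ih =>
    intro a b c d hN h1 h2
    by_contra hb
    have hpos : 0 < Int.gcd a b := Int.gcd_pos_of_ne_zero_right _ hb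
    obtain ⟨a', b', hg, ha, hb'⟩ := Int.exists_gcd_one hpos
    set g : ℤ := (Int.gcd a b : ℤ) with hgdef
    have hg0 : g ≠ 0 := by rw [hgdef]; exact_mod_cast hpos.ne'
    have hg2 : g ^ 2 ≠ 0 := pow_ne_zero 2 hg0
    have hb'0 : b' ≠ 0 := by
      rintro rfl; apply hb; rw [hb']; ring
    -- g ∣ c and g ∣ d
    have hgc : g ∣ c := by
      have : g ^ 2 ∣ c ^ 2 := ⟨a' ^ 2 - b' ^ 2, by rw [← h1, ha, hb']; ring⟩
      exact (Int.pow_dvd_pow_iff (by norm_num)).mp this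
    have hgd : g ∣ d := by
      have : g ^ 2 ∣ d ^ 2 := ⟨a' ^ 2 - 81 * b' ^ 2, by rw [← h2, ha, hb']; ring⟩
      exact (Int.pow_dvd_pow_iff (by norm_num)).mp this
    obtain ⟨c', rfl⟩ := hgc
    obtain ⟨d', rfl⟩ := hgd
    have h1' : a' ^ 2 - b' ^ 2 = c' ^ 2 := by
      have : g ^ 2 * (a' ^ 2 - b' ^ 2) = g ^ 2 * c' ^ 2 := by
        rw [ha, hb'] at h1; linear_combination h1
      exact mul_left_cancel₀ hg2 this
    have h2' : a' ^ 2 - 81 * b' ^ 2 = d' ^ 2 := by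
      have : g ^ 2 * (a' ^ 2 - 81 * b' ^ 2) = g ^ 2 * d' ^ 2 := by
        rw [ha, hb'] at h2; linear_combination h2
      exact mul_left_cancel₀ hg2 this
    have hcop : IsCoprime a' b' := Int.isCoprime_iff_gcd_eq_one.mpr hg
    obtain ⟨a'', b'', c'', d'', hb''0, hlt, h1'', h2''⟩ :=
      descent_step_coprime hb'0 hcop h1' h2'
    have hle : b'.natAbs ≤ b.natAbs := by
      rw [hb', Int.natAbs_mul]
      exact Nat.le_mul_of_pos_right _ (Int.natAbs_pos.mpr hg0)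
    exact hb''0 (ih b''.natAbs (by omega) a'' b'' c'' d'' rfl h1'' h2'')

theorem descent {a b c d : ℤ} (h1 : a ^ 2 - b ^ 2 = c ^ 2) (h2 : a ^ 2 - 81 * b ^ 2 = d ^ 2) :
    b = 0 :=
  descent_int _ a b c d rfl h1 h2

end Fermat.Agent.S51.H32
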