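/-
helper32: S51 sub-lemma D1, second half.  A rational point on `Y^2 = X (X - 1) (X - 81)` with
`Y ≠ 0` yields (after a complete 2-descent and a translation by a 2-torsion point) an integer solution
of `a^2 - b^2 = c^2`, `a^2 - 81 b^2 = d^2` with `b ≠ 0`, which is impossible by
`Fermat.Agent.S51.H32.descent`.
-/
import Fermat.Agent.S51.H32_Descent

namespace Fermat.Agent.S51.H32

/-- If `x y = n²` with `n ≠ 0`, then `x = ± gcd(x,y) t²`. -/
lemma sq_class {x y n : ℤ} (hn : n ≠ 0) (h : x * y = n ^ 2) :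
    ∃ t : ℤ, t ≠ 0 ∧ (x = (Int.gcd x y : ℤ) * t ^ 2 ∨ x = -((Int.gcd x y : ℤ) * t ^ 2)) := by
  have hx : x ≠ 0 := by
    rintro rfl
    rw [zero_mul] at h
    exact hn (pow_eq_zero_iff two_ne_zero |>.mp h.symm)
  have hpos : 0 < Int.gcd x y := Int.gcd_pos_of_ne_zero_left _ hx
  obtain ⟨x', y', hg, hx', hy'⟩ := Int.exists_gcd_one hpos
  obtain ⟨g, hgdef⟩ : ∃ g : ℤ, g = (Int.gcd x y : ℤ) := ⟨_, rfl⟩
  rw [← hgdef] at hx' hy' ⊢
  have hg0 : g ≠ 0 := by rw [hgdef]; exact_mod_cast hpos.ne'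
  have hgn : g ∣ n := by
    have : g ^ 2 ∣ n ^ 2 := ⟨x' * y', by rw [← h, hx', hy']; ring⟩
    exact (Int.pow_dvd_pow_iff two_ne_zero).mp this
  obtain ⟨n', rfl⟩ := hgn
  have h' : x' * y' = n' ^ 2 := by
    have : g ^ 2 * (x' * y') = g ^ 2 * n' ^ 2 := by
      rw [hx', hy'] at h; linear_combination h
    exact mul_left_cancel₀ (pow_ne_zero 2 hg0) this
  obtain ⟨t, ht⟩ := Int.sq_of_gcd_eq_one hg h'
  have ht0 : t ≠ 0 := by
    rintro rfl
    have hx'0 : x' = 0 := by rcases ht with ht | ht <;> simpa using ht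
    apply hx; rw [hx', hx'0]; ring
  refine ⟨t, ht0, ?_⟩
  rcases ht with ht | ht
  · left; rw [hx', ht]; ring
  · right; rw [hx', ht]; ring

lemma class81 (g : ℕ) (hg : (g : ℤ) ∣ 81) :
    ∃ k : ℤ, k ≠ 0 ∧ ((g : ℤ) = k ^ 2 ∨ (g : ℤ) = 3 * k ^ 2) := by
  have h1 : g ∣ 81 := by exact_mod_cast hg
  have hmem : g ∈ Nat.divisors 81 := Nat.mem_divisors.mpr ⟨h1, by norm_num⟩
  have hdiv : Nat.divisors 81 = {1, 3, 9, 27, 81} := by decide
  rw [hdiv] at hmem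
  simp only [Finset.mem_insert, Finset.mem_singleton] at hmem
  rcases hmem with rfl | rfl | rfl | rfl | rfl
  · exact ⟨1, by norm_num, Or.inl (by norm_num)⟩
  · exact ⟨1, by norm_num, Or.inr (by norm_num)⟩
  · exact ⟨3, by norm_num, Or.inl (by norm_num)⟩
  · exact ⟨3, by norm_num, Or.inr (by norm_num)⟩
  · exact ⟨9, by norm_num, Or.inl (by norm_num)⟩

lemma class80 (g : ℕ) (hg : (g : ℤ) ∣ 80) :
    ∃ k : ℤ, k ≠ 0 ∧ ((g : ℤ) = k ^ 2 ∨ (g : ℤ) = 2 * k ^ 2 ∨ (g : ℤ) = 5 * k ^ 2 ∨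
      (g : ℤ) = 10 * k ^ 2) := by
  have h1 : g ∣ 80 := by exact_mod_cast hg
  have hmem : g ∈ Nat.divisors 80 := Nat.mem_divisors.mpr ⟨h1, by norm_num⟩
  have hdiv : Nat.divisors 80 = {1, 2, 4, 5, 8, 10, 16, 20, 40, 80} := by decide
  rw [hdiv] at hmem
  simp only [Finset.mem_insert, Finset.mem_singleton] at hmem
  rcases hmem with rfl | rfl | rfl | rfl | rfl | rfl | rfl | rfl | rfl | rfl
  · exact ⟨1, by norm_num, Or.inl (by norm_num)⟩
  · exact ⟨1, by norm_num, Or.inr (Or.inl (by norm_num))⟩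
  · exact ⟨2, by norm_num, Or.inl (by norm_num)⟩
  · exact ⟨1, by norm_num, Or.inr (Or.inr (Or.inl (by norm_num)))⟩
  · exact ⟨2, by norm_num, Or.inr (Or.inl (by norm_num))⟩
  · exact ⟨1, by norm_num, Or.inr (Or.inr (Or.inr (by norm_num)))⟩
  · exact ⟨4, by norm_num, Or.inl (by norm_num)⟩
  · exact ⟨2, by norm_num, Or.inr (Or.inr (Or.inl (by norm_num)))⟩
  · exact ⟨2, by norm_num, Or.inr (Or.inr (Or.inr (by norm_num)))⟩
  · exact ⟨4, by norm_num, Or.inr (Or.inr (Or.inl (by norm_num)))⟩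

/-- `x = ± g t²` with `g ∣ 81` gives `x = ± u²` or `x = ± 3 u²`. -/
lemma class81' {x y n : ℤ} (hn : n ≠ 0) (h : x * y = n ^ 2) (hg : ((Int.gcd x y : ℕ) : ℤ) ∣ 81) :
    ∃ u : ℤ, u ≠ 0 ∧ (x = u ^ 2 ∨ x = -u ^ 2 ∨ x = 3 * u ^ 2 ∨ x = -(3 * u ^ 2)) := by
  obtain ⟨t, ht0, ht⟩ := sq_class hn h
  obtain ⟨k, hk0, hk⟩ := class81 _ hg
  refine ⟨k * t, mul_ne_zero hk0 ht0, ?_⟩
  rcases ht with ht | ht <;> rcases hk with hk | hk <;> rw [hk] at ht
  · left; rw [ht]; ring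
  · right; right; left; rw [ht]; ring
  · right; left; rw [ht]; ring
  · right; right; right; rw [ht]; ring

/-- `x = ± g t²` with `g ∣ 80` gives `x = s v²` with `s ∈ {±1, ±2, ±5, ±10}`. -/
lemma class80' {x y n : ℤ} (hn : n ≠ 0) (h : x * y = n ^ 2) (hg : ((Int.gcd x y : ℕ) : ℤ) ∣ 80) :
    ∃ s v : ℤ, v ≠ 0 ∧ x = s * v ^ 2 ∧
      (s = 1 ∨ s = -1 ∨ s = 2 ∨ s = -2 ∨ s = 5 ∨ s = -5 ∨ s = 10 ∨ s = -10) := by
  obtain ⟨t, ht0, ht⟩ := sq_class hn h
  obtain ⟨k, hk0, hk⟩ := class80 _ hg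
  rcases ht with ht | ht <;> rcases hk with hk | hk | hk | hk <;> rw [hk] at ht
  · exact ⟨1, k * t, mul_ne_zero hk0 ht0, by rw [ht]; ring, by tauto⟩
  · exact ⟨2, k * t, mul_ne_zero hk0 ht0, by rw [ht]; ring, by tauto⟩
  · exact ⟨5, k * t, mul_ne_zero hk0 ht0, by rw [ht]; ring, by tauto⟩
  · exact ⟨10, k * t, mul_ne_zero hk0 ht0, by rw [ht]; ring, by tauto⟩
  · exact ⟨-1, k * t, mul_ne_zero hk0 ht0, by rw [ht]; ring, by tauto⟩
  · exact ⟨-2, k * t, mul_ne_zero hk0 ht0, by rw [ht]; ring, by tauto⟩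
  · exact ⟨-5, k * t, mul_ne_zero hk0 ht0, by rw [ht]; ring, by tauto⟩
  · exact ⟨-10, k * t, mul_ne_zero hk0 ht0, by rw [ht]; ring, by tauto⟩

/-- From `A B C = f²` with `A = c₁ u²`, `B = s v²` get `c₁ s C = w'²`. -/
lemma extract_sq {u v c C f : ℤ} (hu : u ≠ 0) (hv : v ≠ 0)
    (h : (u ^ 2 * v ^ 2) * (c * C) = f ^ 2) : ∃ w' : ℤ, c * C = w' ^ 2 := by
  have huv : u * v ≠ 0 := mul_ne_zero hu hv
  have hdvd : u * v ∣ f := by
    have : (u * v) ^ 2 ∣ f ^ 2 := ⟨c * C, by rw [← h]; ring⟩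
    exact (Int.pow_dvd_pow_iff two_ne_zero).mp this
  obtain ⟨w', rfl⟩ := hdvd
  refine ⟨w', ?_⟩
  have : (u * v) ^ 2 * (c * C) = (u * v) ^ 2 * w' ^ 2 := by linear_combination h
  exact mul_left_cancel₀ (pow_ne_zero 2 huv) this

/-- For the squarefree numbers `c` we need: `c C = w'²` implies `C = c w²`. -/
lemma sqfree_extract {c C w' : ℤ}
    (hc : c = 2 ∨ c = -2 ∨ c = 5 ∨ c = -5 ∨ c = 10 ∨ c = -10 ∨ c = -3 ∨ c = 6)
    (h : c * C = w' ^ 2) : ∃ w : ℤ, C = c * w ^ 2 := by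
  have hcd : c ∣ w' ^ 2 := ⟨C, h.symm⟩
  have h2 : (2 : ℤ) ∣ c → (2 : ℤ) ∣ w' := fun hc2 =>
    Int.prime_two.dvd_of_dvd_pow (hc2.trans hcd)
  have h3 : (3 : ℤ) ∣ c → (3 : ℤ) ∣ w' := fun hc3 =>
    Int.prime_three.dvd_of_dvd_pow (hc3.trans hcd)
  have h5 : (5 : ℤ) ∣ c → (5 : ℤ) ∣ w' := fun hc5 =>
    (Nat.prime_iff_prime_int.mp Nat.prime_five).dvd_of_dvd_pow (hc5.trans hcd)
  have hdvd : c ∣ w' := by
    rcases hc with rfl | rfl | rfl | rfl | rfl | rfl | rfl | rfl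
    · exact h2 (by norm_num)
    · exact neg_dvd.mpr (h2 (by norm_num))
    · exact h5 (by norm_num)
    · exact neg_dvd.mpr (h5 (by norm_num))
    · have := h2 (by norm_num); have := h5 (by norm_num); omega
    · have := h2 (by norm_num); have := h5 (by norm_num)
      exact neg_dvd.mpr (by omega)
    · exact neg_dvd.mpr (h3 (by norm_num))
    · have := h2 (by norm_num); have := h3 (by norm_num); omega
  have hc0 : c ≠ 0 := by
    rcases hc with rfl | rfl | rfl | rfl | rfl | rfl | rfl | rfl <;> norm_num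
  obtain ⟨w, rfl⟩ := hdvd
  refine ⟨w, ?_⟩
  have : c * C = c * (c * w ^ 2) := by rw [h]; ring
  exact mul_left_cancel₀ hc0 this

/-- parity contradiction for the classes `±2, ±10`. -/
lemma no_even_class {u e v w s : ℤ} (hs : s = 2 ∨ s = -2 ∨ s = 10 ∨ s = -10)
    (hue : IsCoprime u e) (E1 : u ^ 2 - e ^ 2 = s * v ^ 2)
    (E2 : u ^ 2 - 81 * e ^ 2 = s * w ^ 2) : False := by
  have hu4 := sq_emod_four' u
  have he4 := sq_emod_four' e
  have hv4 := sq_emod_four' v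
  have hw4 := sq_emod_four' w
  have hbad : ¬ (u % 2 = 0 ∧ e % 2 = 0) := fun h => not_isCoprime_of_even h.1 h.2 hue
  have hodd : u % 2 = 1 ∧ e % 2 = 1 := by
    rcases hs with rfl | rfl | rfl | rfl <;> omega
  have hu8 := sq_emod_eight_of_odd u hodd.1
  have he8 := sq_emod_eight_of_odd e hodd.2
  have hv2 : v % 2 = 0 := by
    rcases hs with rfl | rfl | rfl | rfl <;> omega
  have hw2 : w % 2 = 0 := by
    rcases hs with rfl | rfl | rfl | rfl <;> omega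
  obtain ⟨v1, rfl⟩ := Int.dvd_of_emod_eq_zero hv2
  obtain ⟨w1, rfl⟩ := Int.dvd_of_emod_eq_zero hw2
  have hv1 := sq_emod_four' v1
  have hw1 := sq_emod_four' w1
  have E1' : u ^ 2 - e ^ 2 = s * (4 * v1 ^ 2) := by rw [E1]; ring
  have E2' : u ^ 2 - 81 * e ^ 2 = s * (4 * w1 ^ 2) := by rw [E2]; ring
  rcases hs with rfl | rfl | rfl | rfl <;> omega

lemma no_class3_a {u e w : ℤ} (he : e % 3 ≠ 0) (h : u ^ 2 + w ^ 2 = 27 * e ^ 2) : False := by
  have hu := sq_emod_three u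
  have hw := sq_emod_three w
  have h0 : u % 3 = 0 ∧ w % 3 = 0 := by omega
  obtain ⟨u1, rfl⟩ := Int.dvd_of_emod_eq_zero h0.1
  obtain ⟨w1, rfl⟩ := Int.dvd_of_emod_eq_zero h0.2
  have h1 : u1 ^ 2 + w1 ^ 2 = 3 * e ^ 2 := by
    have : 9 * (u1 ^ 2 + w1 ^ 2) = 9 * (3 * e ^ 2) := by linear_combination h
    omega
  have hu1 := sq_emod_three u1
  have hw1 := sq_emod_three w1
  have h0' : u1 % 3 = 0 ∧ w1 % 3 = 0 := by omega
  obtain ⟨u2, rfl⟩ := Int.dvd_of_emod_eq_zero h0'.1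
  obtain ⟨w2, rfl⟩ := Int.dvd_of_emod_eq_zero h0'.2
  have h2 : 3 * (u2 ^ 2 + w2 ^ 2) = e ^ 2 := by
    have : 3 * (3 * (u2 ^ 2 + w2 ^ 2)) = 3 * e ^ 2 := by linear_combination h1
    omega
  have he3 := sq_emod_three e
  omega

lemma no_class3_b {u e w : ℤ} (he : e % 3 ≠ 0) (h : u ^ 2 - 2 * w ^ 2 = 27 * e ^ 2) : False := by
  have hu := sq_emod_three u
  have hw := sq_emod_three w
  have h0 : u % 3 = 0 ∧ w % 3 = 0 := by omega
  obtain ⟨u1, rfl⟩ := Int.dvd_of_emod_eq_zero h0.1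
  obtain ⟨w1, rfl⟩ := Int.dvd_of_emod_eq_zero h0.2
  have h1 : u1 ^ 2 - 2 * w1 ^ 2 = 3 * e ^ 2 := by
    have : 9 * (u1 ^ 2 - 2 * w1 ^ 2) = 9 * (3 * e ^ 2) := by linear_combination h
    omega
  have hu1 := sq_emod_three u1
  have hw1 := sq_emod_three w1
  have h0' : u1 % 3 = 0 ∧ w1 % 3 = 0 := by omega
  obtain ⟨u2, rfl⟩ := Int.dvd_of_emod_eq_zero h0'.1
  obtain ⟨w2, rfl⟩ := Int.dvd_of_emod_eq_zero h0'.2
  have h2 : 3 * (u2 ^ 2 - 2 * w2 ^ 2) = e ^ 2 := by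
    have : 3 * (3 * (u2 ^ 2 - 2 * w2 ^ 2)) = 3 * e ^ 2 := by linear_combination h1
    omega
  have he3 := sq_emod_three e
  omega

lemma sign_contra {p e f : ℤ} (hp : p < 0) (h : p * (p - e ^ 2) * (p - 81 * e ^ 2) = f ^ 2) :
    False := by
  have hB : p - e ^ 2 < 0 := by nlinarith [sq_nonneg e]
  have hC : p - 81 * e ^ 2 < 0 := by nlinarith [sq_nonneg e]
  have h1 : 0 < p * (p - e ^ 2) := mul_pos_of_neg_of_neg hp hB
  have h2 : p * (p - e ^ 2) * (p - 81 * e ^ 2) < 0 := mul_neg_of_pos_of_neg h1 hC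
  nlinarith [sq_nonneg f]

/-- The complete 2-descent: an integral "point" gives a solution of the descent system. -/
lemma exists_int_solution {p e f : ℤ} (he0 : e ≠ 0) (hpe : IsCoprime p e) (hf : f ≠ 0)
    (h : p * (p - e ^ 2) * (p - 81 * e ^ 2) = f ^ 2) :
    ∃ a b c d : ℤ, b ≠ 0 ∧ a ^ 2 - b ^ 2 = c ^ 2 ∧ a ^ 2 - 81 * b ^ 2 = d ^ 2 := by
  have hpe2 : IsCoprime p (e ^ 2) := hpe.pow_right
  have hprod0 : p * (p - e ^ 2) * (p - 81 * e ^ 2) ≠ 0 := by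
    rw [h]; exact pow_ne_zero 2 hf
  have hp0 : p ≠ 0 := fun h0 => hprod0 (by rw [h0]; ring)
  have hC0 : p - 81 * e ^ 2 ≠ 0 := fun h0 => hprod0 (by rw [h0]; ring)
  have hpB : IsCoprime p (p - e ^ 2) := by
    have := hpe2.neg_right.add_mul_left_right 1
    have e1 : -(e ^ 2) + p * 1 = p - e ^ 2 := by ring
    rwa [e1] at this
  have hBe : IsCoprime (p - e ^ 2) (e ^ 2) := by
    have := hpe2.symm.add_mul_left_right (-1)
    have e1 : p + e ^ 2 * (-1) = p - e ^ 2 := by ring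
    rw [e1] at this
    exact this.symm
  -- class of p
  have h' : p * ((p - e ^ 2) * (p - 81 * e ^ 2)) = f ^ 2 := by rw [← h]; ring
  have hg1 : ((Int.gcd p ((p - e ^ 2) * (p - 81 * e ^ 2)) : ℕ) : ℤ) ∣ 81 := by
    have hd1 : ((Int.gcd p ((p - e ^ 2) * (p - 81 * e ^ 2)) : ℕ) : ℤ) ∣ p := Int.gcd_dvd_left ..
    have hd2 : ((Int.gcd p ((p - e ^ 2) * (p - 81 * e ^ 2)) : ℕ) : ℤ) ∣
        (p - e ^ 2) * (p - 81 * e ^ 2) := Int.gcd_dvd_right ..
    have hc := hpB.of_isCoprime_of_dvd_left hd1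
    have hd3 := hc.dvd_of_dvd_mul_left hd2
    have hd4 : ((Int.gcd p ((p - e ^ 2) * (p - 81 * e ^ 2)) : ℕ) : ℤ) ∣ 81 * e ^ 2 := by
      have := dvd_sub hd1 hd3
      have e1 : p - (p - 81 * e ^ 2) = 81 * e ^ 2 := by ring
      rwa [e1] at this
    have hc2 := hpe2.of_isCoprime_of_dvd_left hd1
    exact hc2.dvd_of_dvd_mul_right hd4
  obtain ⟨u, hu0, hu⟩ := class81' hf h' hg1
  -- class of p - e^2
  have h'' : (p - e ^ 2) * (p * (p - 81 * e ^ 2)) = f ^ 2 := by rw [← h]; ring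
  have hg2 : ((Int.gcd (p - e ^ 2) (p * (p - 81 * e ^ 2)) : ℕ) : ℤ) ∣ 80 := by
    have hd1 : ((Int.gcd (p - e ^ 2) (p * (p - 81 * e ^ 2)) : ℕ) : ℤ) ∣ p - e ^ 2 :=
      Int.gcd_dvd_left ..
    have hd2 : ((Int.gcd (p - e ^ 2) (p * (p - 81 * e ^ 2)) : ℕ) : ℤ) ∣
        p * (p - 81 * e ^ 2) := Int.gcd_dvd_right ..
    have hc := hpB.symm.of_isCoprime_of_dvd_left hd1
    have hd3 := hc.dvd_of_dvd_mul_left hd2
    have hd4 : ((Int.gcd (p - e ^ 2) (p * (p - 81 * e ^ 2)) : ℕ) : ℤ) ∣ 80 * e ^ 2 := by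
      have := dvd_sub hd1 hd3
      have e1 : p - e ^ 2 - (p - 81 * e ^ 2) = 80 * e ^ 2 := by ring
      rwa [e1] at this
    have hc2 := hBe.of_isCoprime_of_dvd_left hd1
    exact hc2.dvd_of_dvd_mul_right hd4
  obtain ⟨s, v, hv0, hv, hs⟩ := class80' hf h'' hg2
  -- name C
  obtain ⟨C, hC⟩ : ∃ C : ℤ, C = p - 81 * e ^ 2 := ⟨_, rfl⟩
  rw [← hC] at h hC0
  rw [hv] at h
  rcases hu with hu | hu | hu | hu
  · -- p = u^2
    have hue : IsCoprime u e := by
      rw [hu] at hpe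
      exact (IsCoprime.pow_left_iff (by norm_num : 0 < 2)).mp hpe
    have hX : (u ^ 2 * v ^ 2) * (s * C) = f ^ 2 := by rw [← h, hu]; ring
    obtain ⟨w', hw'⟩ := extract_sq hu0 hv0 hX
    have E1 : u ^ 2 - e ^ 2 = s * v ^ 2 := by rw [← hu, hv]
    have E2 : u ^ 2 - 81 * e ^ 2 = C := by rw [← hu, hC]
    rcases hs with rfl | rfl | rfl | rfl | rfl | rfl | rfl | rfl
    · -- s = 1
      exact ⟨u, e, v, w', he0, by linarith, by linarith⟩
    · -- s = -1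
      exact ⟨9 * e, u, w', 9 * v, hu0, by linarith, by linarith⟩
    · -- s = 2
      obtain ⟨w, hw⟩ := sqfree_extract (by norm_num) hw'
      exact (no_even_class (Or.inl rfl) hue E1 (by rw [E2, hw])).elim
    · -- s = -2
      obtain ⟨w, hw⟩ := sqfree_extract (by norm_num) hw'
      exact (no_even_class (Or.inr (Or.inl rfl)) hue E1 (by rw [E2, hw])).elim
    · -- s = 5
      obtain ⟨w, hw⟩ := sqfree_extract (by norm_num) hw'
      have hw0 : w ≠ 0 := by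
        rintro rfl; apply hC0; rw [hw]; ring
      exact ⟨9 * v, w, 4 * u, 36 * e, hw0, by linarith, by linarith⟩
    · -- s = -5
      obtain ⟨w, hw⟩ := sqfree_extract (by norm_num) hw'
      exact ⟨w, v, 4 * e, 4 * u, hv0, by linarith, by linarith⟩
    · -- s = 10
      obtain ⟨w, hw⟩ := sqfree_extract (by norm_num) hw'
      exact (no_even_class (Or.inr (Or.inr (Or.inl rfl))) hue E1 (by rw [E2, hw])).elim
    · -- s = -10
      obtain ⟨w, hw⟩ := sqfree_extract (by norm_num) hw'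
      exact (no_even_class (Or.inr (Or.inr (Or.inr rfl))) hue E1 (by rw [E2, hw])).elim
  · -- p = -u^2 < 0
    exfalso
    have hp : p < 0 := by
      have := pow_pos (abs_pos.mpr hu0) 2
      rw [sq_abs] at this
      rw [hu]; linarith
    rw [← hv, hC] at h
    exact sign_contra hp h
  · -- p = 3 u^2
    exfalso
    have he3 : e % 3 ≠ 0 := by
      intro he3
      have hp3 : p % 3 = 0 := by rw [hu]; omega
      exact not_isCoprime_of_emod 3 (by norm_num) hp3 he3 hpe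
    have hX : (u ^ 2 * v ^ 2) * ((3 * s) * C) = f ^ 2 := by rw [← h, hu]; ring
    obtain ⟨w', hw'⟩ := extract_sq hu0 hv0 hX
    have E1 : 3 * u ^ 2 - e ^ 2 = s * v ^ 2 := by rw [← hu, hv]
    have E2 : 3 * u ^ 2 - 81 * e ^ 2 = C := by rw [← hu, hC]
    have hu3 := sq_emod_three u
    have he3' := sq_emod_three e
    have hv3 := sq_emod_three v
    have hu5 := sq_emod_five u
    have he5 := sq_emod_five e
    have hv5 := sq_emod_five v
    have h5 : ¬ (u % 5 = 0 ∧ e % 5 = 0) := by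
      rintro ⟨h1, h2⟩
      have hp5 : p % 5 = 0 := by rw [hu]; omega
      exact not_isCoprime_of_emod 5 (by norm_num) hp5 h2 hpe
    rcases hs with rfl | rfl | rfl | rfl | rfl | rfl | rfl | rfl
    · omega
    · -- s = -1
      obtain ⟨w, hw⟩ := sqfree_extract (c := -3) (by norm_num) (by rw [← hw']; ring : (-3 : ℤ) * C = w' ^ 2)
      exact no_class3_a (u := u) (w := w) he3 (by linarith)
    · -- s = 2
      obtain ⟨w, hw⟩ := sqfree_extract (c := 6) (by norm_num) (by rw [← hw']; ring : (6 : ℤ) * C = w' ^ 2)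
      exact no_class3_b (u := u) (w := w) he3 (by linarith)
    · omega
    · omega
    · omega
    · omega
    · omega
  · -- p = -3u^2 < 0
    exfalso
    have hp : p < 0 := by
      have := pow_pos (abs_pos.mpr hu0) 2
      rw [sq_abs] at this
      rw [hu]; linarith
    rw [← hv, hC] at h
    exact sign_contra hp h

/-- Integral form: coprime `p, q` with `q > 0` and `p (p - q) (p - 81 q) q` a nonzero square
cannot exist. -/
lemma no_int_point {p q n : ℤ} (hq : 0 < q) (hpq : IsCoprime p q) (hn : n ≠ 0)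
    (h : p * (p - q) * (p - 81 * q) * q = n ^ 2) : False := by
  have h1 : IsCoprime q p := hpq.symm
  have h2 : IsCoprime q (p - q) := by
    have := h1.add_mul_left_right (-1)
    have e1 : p + q * (-1) = p - q := by ring
    rwa [e1] at this
  have h3 : IsCoprime q (p - 81 * q) := by
    have := h1.add_mul_left_right (-81)
    have e1 : p + q * (-81) = p - 81 * q := by ring
    rwa [e1] at this
  have hcop : IsCoprime q (p * (p - q) * (p - 81 * q)) := (h1.mul_right h2).mul_right h3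
  obtain ⟨e, he⟩ := Int.sq_of_isCoprime hcop
    (by rw [← h]; ring : q * (p * (p - q) * (p - 81 * q)) = n ^ 2)
  have hqe : q = e ^ 2 := by
    rcases he with he | he
    · exact he
    · exfalso
      have := sq_nonneg e
      omega
  subst hqe
  have he0 : e ≠ 0 := by
    rintro rfl
    norm_num at hq
  have hdvd : e ∣ n := by
    have : e ^ 2 ∣ n ^ 2 := ⟨p * (p - e ^ 2) * (p - 81 * e ^ 2), by rw [← h]; ring⟩
    exact (Int.pow_dvd_pow_iff two_ne_zero).mp this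
  obtain ⟨f, rfl⟩ := hdvd
  have hf0 : f ≠ 0 := by
    rintro rfl; apply hn; ring
  have h' : p * (p - e ^ 2) * (p - 81 * e ^ 2) = f ^ 2 := by
    have : e ^ 2 * (p * (p - e ^ 2) * (p - 81 * e ^ 2)) = e ^ 2 * f ^ 2 := by
      linear_combination h
    exact mul_left_cancel₀ (pow_ne_zero 2 he0) this
  have hpe : IsCoprime p e := (IsCoprime.pow_right_iff (by norm_num : 0 < 2)).mp hpq
  obtain ⟨a, b, c, d, hb, E1, E2⟩ := exists_int_solution he0 hpe hf0 h'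
  exact hb (descent E1 E2)

lemma clear_denominators {X Y : ℚ} {p q : ℤ} (hq : (q : ℚ) ≠ 0) (hX : X = (p : ℚ) / (q : ℚ))
    (h : Y ^ 2 = X * (X - 1) * (X - 81)) :
    (Y * (q : ℚ) ^ 2) ^ 2 = ((p * (p - q) * (p - 81 * q) * q : ℤ) : ℚ) := by
  have e1 : (Y * (q : ℚ) ^ 2) ^ 2 = Y ^ 2 * (q : ℚ) ^ 4 := by ring
  rw [e1, h, hX]
  push_cast
  field_simp

/-- **D1.** The only rational points on `Y² = X (X - 1) (X - 81)` have `Y = 0`. -/
theorem rational_points_15a2 (X Y : ℚ) (h : Y ^ 2 = X * (X - 1) * (X - 81)) : Y = 0 := by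
  by_contra hY
  have hq0 : (X.den : ℚ) ≠ 0 := by exact_mod_cast X.den_nz
  have hqpos : (0 : ℤ) < (X.den : ℤ) := by exact_mod_cast X.den_pos
  have hX : X = (X.num : ℚ) / (X.den : ℚ) := (Rat.num_div_den X).symm
  -- N = Y q^2 has integral square
  have hN : (Y * (X.den : ℚ) ^ 2) ^ 2 =
      ((X.num * (X.num - X.den) * (X.num - 81 * X.den) * X.den : ℤ) : ℚ) := by
    have := clear_denominators (p := X.num) (q := (X.den : ℤ)) (by exact_mod_cast hq0)
      (by exact_mod_cast hX) h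
    exact_mod_cast this
  have hden : (Y * (X.den : ℚ) ^ 2).den = 1 := by
    have h1 : ((Y * (X.den : ℚ) ^ 2) ^ 2).den = 1 := by rw [hN]; exact Rat.den_intCast _
    rw [Rat.den_pow] at h1
    rcases Nat.pow_eq_one.mp h1 with h2 | h2
    · exact h2
    · omega
  have hnum : (((Y * (X.den : ℚ) ^ 2).num : ℤ) : ℚ) = Y * (X.den : ℚ) ^ 2 :=
    (Rat.den_eq_one_iff _).mp hden
  have hn0 : (Y * (X.den : ℚ) ^ 2).num ≠ 0 := by
    rw [Rat.num_ne_zero]
    exact mul_ne_zero hY (pow_ne_zero 2 hq0)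
  have hZ : X.num * (X.num - X.den) * (X.num - 81 * X.den) * X.den =
      (Y * (X.den : ℚ) ^ 2).num ^ 2 := by
    have : ((X.num * (X.num - X.den) * (X.num - 81 * X.den) * X.den : ℤ) : ℚ) =
        (((Y * (X.den : ℚ) ^ 2).num ^ 2 : ℤ) : ℚ) := by
      rw [← hN]; push_cast; rw [hnum]
    exact_mod_cast this
  have hcop : IsCoprime X.num (X.den : ℤ) := by
    rw [Int.isCoprime_iff_gcd_eq_one, Int.gcd_eq_natAbs, Int.natAbs_natCast]
    exact X.reduced
  exact no_int_point hqpos hcop hn0 hZ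

end Fermat.Agent.S51.H32
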