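import Mathlib

/-!
# Rational points of `Y^2 = X (X - 1) (X - 81)` (helper35, piece D1 of S51)

Elementary complete 2-descent followed by an infinite descent on the denominator.
Main result: `Fermat.Agent.S51.H35.descent_E1`.
-/

set_option autoImplicit false

namespace Fermat.Agent.S51.H35

/-! ## Part 1: halving and translation identities over `ℚ` -/

/-- The doubling relation: `dup x = r^2`, cleared of denominators. -/
def Rel (x r : ℚ) : Prop :=
  (x ^ 2 - 81) ^ 2 = 4 * r ^ 2 * (x * (x - 1) * (x - 81))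

theorem halving {r s t : ℚ} (h1 : r ^ 2 - s ^ 2 = 1) (h81 : r ^ 2 - t ^ 2 = 81) :
    ((r + s) * (r + t) * (s + t)) ^ 2
        = ((r + s) * (r + t)) * ((r + s) * (r + t) - 1) * ((r + s) * (r + t) - 81)
      ∧ (r + s) * (r + t) * (s + t) ≠ 0
      ∧ Rel ((r + s) * (r + t)) r := by
  have e1 : (r + s) * (r + t) - 1 = (r + s) * (s + t) := by
    linear_combination h1
  have e81 : (r + s) * (r + t) - 81 = (r + t) * (s + t) := by
    linear_combination h81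
  have hrs : r + s ≠ 0 := by
    intro h
    have : (r + s) * (r - s) = 1 := by linear_combination h1
    rw [h, zero_mul] at this
    exact zero_ne_one this
  have hrt : r + t ≠ 0 := by
    intro h
    have : (r + t) * (r - t) = 81 := by linear_combination h81
    rw [h, zero_mul] at this
    norm_num at this
  have hst : s + t ≠ 0 := by
    intro h
    have : (s + t) * (s - t) = 80 := by linear_combination h81 - h1
    rw [h, zero_mul] at this
    norm_num at this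
  refine ⟨?_, mul_ne_zero (mul_ne_zero hrs hrt) hst, ?_⟩
  · rw [e1, e81]; ring
  · unfold Rel
    rw [e1, e81]
    have key : ((r + s) * (r + t)) ^ 2 - 81 = 2 * r * ((r + s) * (r + t) * (s + t)) := by
      linear_combination (r ^ 2 - t ^ 2) * h1 + h81
    rw [key]; ring


theorem rel_tau1 {X ρ : ℚ} (hX : X ≠ 0) (h : Rel X ρ) : Rel (81 / X) ρ := by
  unfold Rel at h ⊢
  field_simp
  linear_combination h

theorem rel_tau2 {X ρ : ℚ} (hX : X - 1 ≠ 0) (h : Rel X ρ) : Rel ((X - 81) / (X - 1)) ρ := by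
  unfold Rel at h ⊢
  field_simp
  linear_combination (80 ^ 2 : ℚ) * h

theorem rel_tau3 {X ρ : ℚ} (hX : X - 81 ≠ 0) (h : Rel X ρ) :
    Rel (81 * (X - 1) / (X - 81)) ρ := by
  unfold Rel at h ⊢
  field_simp
  linear_combination (80 ^ 2 : ℚ) * h


/-- From Selmer data (`X = r^2`, `X - 1 = d s^2`, `X - 81 = d t^2`, `d ∈ {1,-1,5,-5}`) to a point
in the kernel class, by translating with a 2-torsion point. -/
theorem translate {X r s t d : ℚ} (hd : d = 1 ∨ d = -1 ∨ d = 5 ∨ d = -5)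
    (hr : X = r ^ 2) (hs : X - 1 = d * s ^ 2) (ht : X - 81 = d * t ^ 2)
    (hr0 : r ≠ 0) (hs0 : s ≠ 0) (ht0 : t ≠ 0) :
    ∃ r1 s1 t1 : ℚ, r1 ^ 2 - s1 ^ 2 = 1 ∧ r1 ^ 2 - t1 ^ 2 = 81 ∧ s1 ≠ 0 ∧ t1 ≠ 0 ∧
      ∀ ρ : ℚ, Rel X ρ → Rel (r1 ^ 2) ρ := by
  have hX0 : X ≠ 0 := by rw [hr]; exact pow_ne_zero 2 hr0
  rcases hd with rfl | rfl | rfl | rfl
  · refine ⟨r, s, t, ?_, ?_, hs0, ht0, fun ρ h => hr ▸ h⟩
    · linear_combination hs - hr
    · linear_combination ht - hr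
  · refine ⟨9 / r, t / r, 9 * s / r, ?_, ?_, div_ne_zero ht0 hr0,
      div_ne_zero (mul_ne_zero (by norm_num) hs0) hr0, fun ρ h => ?_⟩
    · field_simp
      linear_combination hr - ht
    · field_simp
      linear_combination (81 : ℚ) * (hr - hs)
    · have : (9 / r) ^ 2 = 81 / X := by rw [hr]; field_simp; norm_num
      rw [this]; exact rel_tau1 hX0 h
  · have hX81 : X - 81 ≠ 0 := by
      rw [ht]; exact mul_ne_zero (by norm_num) (pow_ne_zero 2 ht0)
    refine ⟨9 * s / t, 4 * r / t, 36 / t, ?_, ?_,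
      div_ne_zero (mul_ne_zero (by norm_num) hr0) ht0, div_ne_zero (by norm_num) ht0,
      fun ρ h => ?_⟩
    · field_simp
      linear_combination (-1 / 5 : ℚ) * (81 * hs - ht) + 16 * hr
    · field_simp
      linear_combination (-81 / 5 : ℚ) * (hs - ht)
    · have : (9 * s / t) ^ 2 = 81 * (X - 1) / (X - 81) := by
        rw [hs, ht]; field_simp; ring
      rw [this]; exact rel_tau3 hX81 h
  · have hX1 : X - 1 ≠ 0 := by
      rw [hs]; exact mul_ne_zero (by norm_num) (pow_ne_zero 2 hs0)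
    refine ⟨t / s, 4 / s, 4 * r / s, ?_, ?_, div_ne_zero (by norm_num) hs0,
      div_ne_zero (mul_ne_zero (by norm_num) hr0) hs0, fun ρ h => ?_⟩
    · field_simp
      linear_combination (-1 / 5 : ℚ) * (hs - ht)
    · field_simp
      linear_combination (-1 / 5 : ℚ) * (81 * hs - ht) + 16 * hr
    · have : (t / s) ^ 2 = (X - 81) / (X - 1) := by
        rw [hs, ht]; field_simp
      rw [this]; exact rel_tau2 hX1 h


/-! ## Part 2: integrality and the size comparison -/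

/-- A rational number whose square is an integer is an integer. -/
theorem int_of_sq_int (q : ℚ) (n : ℤ) (h : q ^ 2 = n) : ∃ z : ℤ, q = z := by
  have hden : (q ^ 2).den = 1 := by rw [h]; exact Rat.den_intCast n
  rw [Rat.den_pow] at hden
  have hq : q.den = 1 := by
    have := Nat.pow_eq_one.mp hden
    rcases this with h1 | h2
    · exact h1
    · exact absurd h2 (by norm_num)
  exact ⟨q.num, ((Rat.den_eq_one_iff q).mp hq).symm⟩

/-- In a primitive solution of `u^2 - e^2 = v^2`, `3 ∤ u`. -/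
theorem three_not_dvd {u e v : ℤ} (hc : IsCoprime u e) (h : u ^ 2 - e ^ 2 = v ^ 2) :
    ¬ (3 : ℤ) ∣ u := by
  intro h3
  have he : ¬ (3 : ℤ) ∣ e := by
    intro h3e
    have := hc.isUnit_of_dvd' h3 h3e
    exact absurd this (by decide)
  have hu0 : (u : ZMod 3) = 0 := (ZMod.intCast_zmod_eq_zero_iff_dvd u 3).mpr h3
  have he0 : (e : ZMod 3) ≠ 0 := fun h0 => he ((ZMod.intCast_zmod_eq_zero_iff_dvd e 3).mp h0)
  have hz : (u : ZMod 3) ^ 2 - (e : ZMod 3) ^ 2 = (v : ZMod 3) ^ 2 := by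
    have := congrArg (Int.cast : ℤ → ZMod 3) h
    push_cast at this
    exact this
  rw [hu0] at hz
  revert he0 hz
  generalize (e : ZMod 3) = a
  generalize (v : ZMod 3) = b
  revert a b
  decide


/-- Integer form of a rational point of the kernel class. -/
theorem int_data {r s t : ℚ} (h1 : r ^ 2 - s ^ 2 = 1) (h81 : r ^ 2 - t ^ 2 = 81)
    (hs0 : s ≠ 0) (ht0 : t ≠ 0) :
    ∃ v w : ℤ, s * r.den = v ∧ t * r.den = w ∧ v ≠ 0 ∧ w ≠ 0 ∧
      r.num ^ 2 - (r.den : ℤ) ^ 2 = v ^ 2 ∧ r.num ^ 2 - 81 * (r.den : ℤ) ^ 2 = w ^ 2 := by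
  have hden : (r.den : ℚ) ≠ 0 := by exact_mod_cast r.den_nz
  have hr : r * r.den = r.num := Rat.mul_den_eq_num r
  have hv : (s * r.den) ^ 2 = ((r.num ^ 2 - (r.den : ℤ) ^ 2 : ℤ) : ℚ) := by
    push_cast
    rw [← hr]
    linear_combination (-(r.den : ℚ) ^ 2) * h1
  have hw : (t * r.den) ^ 2 = ((r.num ^ 2 - 81 * (r.den : ℤ) ^ 2 : ℤ) : ℚ) := by
    push_cast
    rw [← hr]
    linear_combination (-(r.den : ℚ) ^ 2) * h81
  obtain ⟨v, hv'⟩ := int_of_sq_int _ _ hv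
  obtain ⟨w, hw'⟩ := int_of_sq_int _ _ hw
  refine ⟨v, w, hv', hw', ?_, ?_, ?_, ?_⟩
  · intro h0
    rw [h0] at hv'
    have : s * r.den ≠ 0 := mul_ne_zero hs0 hden
    exact this (by simpa using hv')
  · intro h0
    rw [h0] at hw'
    have : t * r.den ≠ 0 := mul_ne_zero ht0 hden
    exact this (by simpa using hw')
  · rw [hv'] at hv
    exact_mod_cast hv.symm
  · rw [hw'] at hw
    exact_mod_cast hw.symm

/-- The size comparison of the descent: the denominator strictly decreases. -/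
theorem den_lt {r1 s1 t1 r : ℚ} (h1 : r1 ^ 2 - s1 ^ 2 = 1) (h81 : r1 ^ 2 - t1 ^ 2 = 81)
    (hs0 : s1 ≠ 0) (ht0 : t1 ≠ 0) (hrel : Rel (r1 ^ 2) r) : r1.den < r.den := by
  obtain ⟨v1, w1, hv, hw, hv0, hw0, ev, ew⟩ := int_data h1 h81 hs0 ht0
  set u1 : ℤ := r1.num with hu1
  set e1 : ℤ := (r1.den : ℤ) with he1
  set u : ℤ := r.num with hu
  set e : ℤ := (r.den : ℤ) with he
  have he1pos : 0 < e1 := by rw [he1]; exact_mod_cast r1.den_pos
  have hepos : 0 < e := by rw [he]; exact_mod_cast r.den_pos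
  have hcop : IsCoprime u1 e1 := Rat.isCoprime_num_den r1
  have he1Q : (e1 : ℚ) ≠ 0 := by exact_mod_cast he1pos.ne'
  have heQ : (e : ℚ) ≠ 0 := by exact_mod_cast hepos.ne'
  have hr1 : r1 = u1 / e1 := by
    rw [hu1, he1]; push_cast; exact (Rat.num_div_den r1).symm
  have hr : r = u / e := by
    rw [hu, he]; push_cast; exact (Rat.num_div_den r).symm
  have hs1 : s1 = v1 / e1 := by
    rw [eq_div_iff he1Q, ← hv, he1]; push_cast; ring
  have ht1 : t1 = w1 / e1 := by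
    rw [eq_div_iff he1Q, ← hw, he1]; push_cast; ring
  -- the relation as a square identity
  have hsq : ((r1 ^ 2) ^ 2 - 81) ^ 2 = (2 * r * r1 * s1 * t1) ^ 2 := by
    unfold Rel at hrel
    rw [hrel]
    have a1 : r1 ^ 2 - 1 = s1 ^ 2 := by linear_combination h1
    have a81 : r1 ^ 2 - 81 = t1 ^ 2 := by linear_combination h81
    rw [a1, a81]; ring
  -- integer version
  have hint : ((u1 ^ 4 - 81 * e1 ^ 4) * e) ^ 2 = (2 * u * u1 * v1 * w1 * e1) ^ 2 := by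
    have : (((u1 ^ 4 - 81 * e1 ^ 4) * e : ℤ) : ℚ) ^ 2
        = ((2 * u * u1 * v1 * w1 * e1 : ℤ) : ℚ) ^ 2 := by
      push_cast
      rw [hr, hr1, hs1, ht1] at hsq
      field_simp at hsq
      linear_combination hsq
    exact_mod_cast this
  have hA : IsCoprime e1 (u1 ^ 4 - 81 * e1 ^ 4) := by
    have h4 : IsCoprime e1 (u1 ^ 4) := (hcop.symm).pow_right
    have := h4.add_mul_left_right (-81 * e1 ^ 3)
    have e : u1 ^ 4 + e1 * (-81 * e1 ^ 3) = u1 ^ 4 - 81 * e1 ^ 4 := by ring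
    rwa [e] at this
  obtain ⟨k, hk⟩ : ∃ k : ℤ, (u1 ^ 4 - 81 * e1 ^ 4) * e = k * u1 * e1 := by
    rcases eq_or_eq_neg_of_sq_eq_sq _ _ hint with h | h
    · exact ⟨2 * u * v1 * w1, by rw [h]; ring⟩
    · exact ⟨-(2 * u * v1 * w1), by rw [h]; ring⟩
  have hdvd : e1 ∣ e := by
    have h2 : e1 ∣ (u1 ^ 4 - 81 * e1 ^ 4) * e := by
      rw [hk]; exact Dvd.intro_left _ rfl
    exact hA.dvd_of_dvd_mul_left h2
  have hle : e1 ≤ e := Int.le_of_dvd hepos hdvd
  have hne : e1 ≠ e := by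
    intro heq
    -- then u1 ∣ 81
    have h3 : (u1 ^ 4 - 81 * e1 ^ 4) = k * u1 := by
      have := hk
      rw [← heq] at this
      have h4 : (u1 ^ 4 - 81 * e1 ^ 4) * e1 = (k * u1) * e1 := by rw [this]
      exact mul_right_cancel₀ he1pos.ne' h4
    have hu81 : u1 ∣ 81 * e1 ^ 4 := by
      have : 81 * e1 ^ 4 = u1 * (u1 ^ 3 - k) := by linear_combination -h3
      rw [this]; exact Dvd.intro _ rfl
    have hu81' : u1 ∣ 81 := (hcop.pow_right (n := 4)).dvd_of_dvd_mul_right hu81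
    have h3u : ¬ (3 : ℤ) ∣ u1 := three_not_dvd hcop ev
    have hc3 : IsCoprime u1 (3 : ℤ) := by
      have hp : Prime (3 : ℤ) := Int.prime_three
      exact (hp.coprime_iff_not_dvd.mpr h3u).symm
    have hc81 : IsCoprime u1 (81 : ℤ) := by
      have := hc3.pow_right (n := 4)
      norm_num at this
      exact this
    have hunit : IsUnit u1 := hc81.isUnit_of_dvd' (dvd_refl u1) hu81'
    have hu1sq : u1 ^ 2 = 1 := by
      rcases Int.isUnit_iff.mp hunit with h | h <;> rw [h] <;> norm_num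
    have : w1 ^ 2 + 81 * e1 ^ 2 = 1 := by linear_combination hu1sq - ew
    nlinarith [sq_nonneg w1, he1pos]
  have hlt : e1 < e := lt_of_le_of_ne hle hne
  rw [he1, he] at hlt
  exact_mod_cast hlt


/-! ## Part 3: the 2-Selmer analysis -/

/-- Step (a): a rational point with `Y ≠ 0` has `X = m / e^2` in lowest terms and
`m (m - e^2) (m - 81 e^2)` is a nonzero square. -/
theorem selmer_a {X Y : ℚ} (h : Y ^ 2 = X * (X - 1) * (X - 81)) (hY : Y ≠ 0) :
    ∃ m e N : ℤ, IsCoprime m e ∧ e ≠ 0 ∧ N ≠ 0 ∧ X = m / (e : ℚ) ^ 2 ∧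
      N ^ 2 = m * (m - e ^ 2) * (m - 81 * e ^ 2) := by
  set a : ℤ := X.num with ha
  set b : ℤ := (X.den : ℤ) with hb
  have hbpos : 0 < b := by rw [hb]; exact_mod_cast X.den_pos
  have hbQ : (b : ℚ) ≠ 0 := by exact_mod_cast hbpos.ne'
  have hcop : IsCoprime a b := Rat.isCoprime_num_den X
  have hX : X = a / b := by
    rw [ha, hb]; push_cast; exact (Rat.num_div_den X).symm
  -- the integer `a b (a - b) (a - 81 b)` is a rational square
  have hsq : IsSquare (((b * (a * (a - b) * (a - 81 * b)) : ℤ)) : ℚ) := by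
    refine ⟨Y * b ^ 2, ?_⟩
    push_cast
    have : Y * (b : ℚ) ^ 2 * (Y * (b : ℚ) ^ 2) = Y ^ 2 * (b : ℚ) ^ 4 := by ring
    rw [this, h, hX]
    field_simp
  obtain ⟨N0, hN0⟩ := Rat.isSquare_intCast_iff.mp hsq
  have hN0' : b * (a * (a - b) * (a - 81 * b)) = N0 ^ 2 := by rw [hN0]; ring
  have hcop' : IsCoprime b (a * (a - b) * (a - 81 * b)) := by
    have c1 : IsCoprime b a := hcop.symm
    have c2 : IsCoprime b (a - b) := by
      have := c1.add_mul_left_right (-1)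
      have e : a + b * -1 = a - b := by ring
      rwa [e] at this
    have c3 : IsCoprime b (a - 81 * b) := by
      have := c1.add_mul_left_right (-81)
      have e : a + b * -81 = a - 81 * b := by ring
      rwa [e] at this
    exact (c1.mul_right c2).mul_right c3
  obtain ⟨e, he⟩ := Int.sq_of_isCoprime hcop' hN0'
  have hbe : b = e ^ 2 := by
    rcases he with he | he
    · exact he
    · exfalso
      have : 0 ≤ e ^ 2 := sq_nonneg e
      omega
  have he0 : e ≠ 0 := by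
    rintro rfl
    rw [hbe] at hbpos
    norm_num at hbpos
  -- the other factor
  have hrest0 : a * (a - b) * (a - 81 * b) ≠ 0 := by
    intro h0
    have hY2 : Y ^ 2 = 0 := by
      rw [h, hX]
      have : ((a * (a - b) * (a - 81 * b) : ℤ) : ℚ) = 0 := by exact_mod_cast h0
      push_cast at this
      field_simp
      linear_combination this
    exact hY ((pow_eq_zero_iff (two_ne_zero)).mp hY2)
  have hN0'' : (a * (a - b) * (a - 81 * b)) * b = N0 ^ 2 := by rw [← hN0']; ring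
  obtain ⟨N, hN⟩ := Int.sq_of_isCoprime hcop'.symm hN0''
  have hpos : 0 < a * (a - b) * (a - 81 * b) := by
    have h1 : 0 ≤ b * (a * (a - b) * (a - 81 * b)) := by rw [hN0']; exact sq_nonneg _
    have h2 : 0 ≤ a * (a - b) * (a - 81 * b) := nonneg_of_mul_nonneg_right h1 hbpos
    exact lt_of_le_of_ne h2 (Ne.symm hrest0)
  have hN' : a * (a - b) * (a - 81 * b) = N ^ 2 := by
    rcases hN with hN | hN
    · exact hN
    · exfalso
      have : 0 ≤ N ^ 2 := sq_nonneg N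
      omega
  have hN0ne : N ≠ 0 := by
    rintro rfl
    rw [hN'] at hpos
    norm_num at hpos
  refine ⟨a, e, N, ?_, he0, hN0ne, ?_, ?_⟩
  · have : IsCoprime a (e ^ 2) := hbe ▸ hcop
    exact IsCoprime.of_mul_right_left (by rwa [sq] at this)
  · rw [hX, hbe]; push_cast; ring
  · rw [← hN', hbe]


/-- Auxiliary: no solution mod 3 of `(-e^2) M^2 = K^2` with `e, M` prime to 3. -/
theorem mod_three_aux {g b2 M e K : ℤ} (hg : (3 : ℤ) ∣ g) (hb2 : (3 : ℤ) ∣ b2)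
    (hM : ¬ (3 : ℤ) ∣ M) (he : ¬ (3 : ℤ) ∣ e)
    (h : (g * M ^ 2 - e ^ 2) * (M ^ 2 - b2 * e ^ 2) = K ^ 2) : False := by
  have hg0 : (g : ZMod 3) = 0 := (ZMod.intCast_zmod_eq_zero_iff_dvd g 3).mpr hg
  have hb0 : (b2 : ZMod 3) = 0 := (ZMod.intCast_zmod_eq_zero_iff_dvd b2 3).mpr hb2
  have hM0 : (M : ZMod 3) ≠ 0 := fun h0 => hM ((ZMod.intCast_zmod_eq_zero_iff_dvd M 3).mp h0)
  have he0 : (e : ZMod 3) ≠ 0 := fun h0 => he ((ZMod.intCast_zmod_eq_zero_iff_dvd e 3).mp h0)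
  have hz : ((g : ZMod 3) * (M : ZMod 3) ^ 2 - (e : ZMod 3) ^ 2)
      * ((M : ZMod 3) ^ 2 - (b2 : ZMod 3) * (e : ZMod 3) ^ 2) = (K : ZMod 3) ^ 2 := by
    have := congrArg (Int.cast : ℤ → ZMod 3) h
    push_cast at this
    exact this
  rw [hg0, hb0] at hz
  revert hM0 he0 hz
  generalize (e : ZMod 3) = a
  generalize (M : ZMod 3) = b
  generalize (K : ZMod 3) = c
  revert a b c
  decide

/-- Step (b): the numerator `m` is a perfect square. -/
theorem selmer_b {m e N : ℤ} (hcop : IsCoprime m e) (hN0 : N ≠ 0)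
    (hN : N ^ 2 = m * (m - e ^ 2) * (m - 81 * e ^ 2)) : ∃ u : ℤ, m = u ^ 2 := by
  have hpos : 0 < m * (m - e ^ 2) * (m - 81 * e ^ 2) := by
    rw [← hN]; positivity
  have hm : 0 < m := by
    by_contra hle
    have hle := not_lt.mp hle
    have h1 : m - e ^ 2 ≤ 0 := by nlinarith [sq_nonneg e]
    have h2 : m - 81 * e ^ 2 ≤ 0 := by nlinarith [sq_nonneg e]
    have h3 : 0 ≤ (m - e ^ 2) * (m - 81 * e ^ 2) := mul_nonneg_of_nonpos_of_nonpos h1 h2
    have h4 : m * ((m - e ^ 2) * (m - 81 * e ^ 2)) ≤ 0 := mul_nonpos_of_nonpos_of_nonneg hle h3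
    nlinarith
  obtain ⟨m1, b2, hgcd1, hm1, hb2⟩ :=
    Int.exists_gcd_one (m := m) (n := 81) (Int.gcd_pos_of_ne_zero_left 81 hm.ne')
  set g : ℕ := Int.gcd m 81 with hg
  have hgdvd : g ∣ 81 := by
    have : (g : ℤ) ∣ 81 := Int.gcd_dvd_right m 81
    exact_mod_cast this
  have hgmem : g ∈ Nat.divisors 81 := Nat.mem_divisors.mpr ⟨hgdvd, by norm_num⟩
  have hgcases : g = 1 ∨ g = 3 ∨ g = 9 ∨ g = 27 ∨ g = 81 := by
    have : Nat.divisors 81 = {1, 3, 9, 27, 81} := by decide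
    rw [this] at hgmem
    simpa using hgmem
  have hc12 : IsCoprime m1 b2 := Int.isCoprime_iff_gcd_eq_one.mpr hgcd1
  have hgpos : (0 : ℤ) < g := by
    have := Int.gcd_pos_of_ne_zero_left 81 hm.ne'
    exact_mod_cast this
  have hm1pos : 0 < m1 := by
    rw [hm1] at hm
    exact pos_of_mul_pos_left hm hgpos.le
  have hc1e : IsCoprime m1 e := by
    rw [hm1] at hcop
    exact hcop.of_mul_left_left
  -- the reduced equation
  have hred : N ^ 2 = (g : ℤ) ^ 2 * (m1 * ((g * m1 - e ^ 2) * (m1 - b2 * e ^ 2))) := by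
    rw [hN]
    have h81 : (81 : ℤ) = b2 * g := hb2
    have : m - 81 * e ^ 2 = g * (m1 - b2 * e ^ 2) := by rw [hm1, h81]; ring
    rw [this, hm1]; ring
  have hgN : (g : ℤ) ∣ N := by
    have : (g : ℤ) ^ 2 ∣ N ^ 2 := by rw [hred]; exact Dvd.intro _ rfl
    exact (Int.pow_dvd_pow_iff two_ne_zero).mp this
  obtain ⟨N1, hN1⟩ := hgN
  have hred1 : m1 * ((g * m1 - e ^ 2) * (m1 - b2 * e ^ 2)) = N1 ^ 2 := by
    have h2 : (g : ℤ) ^ 2 * (m1 * ((g * m1 - e ^ 2) * (m1 - b2 * e ^ 2)))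
        = (g : ℤ) ^ 2 * N1 ^ 2 := by rw [← hred, hN1]; ring
    exact mul_left_cancel₀ (pow_ne_zero 2 hgpos.ne') h2
  have hcF : IsCoprime m1 ((g * m1 - e ^ 2) * (m1 - b2 * e ^ 2)) := by
    have c1 : IsCoprime m1 (g * m1 - e ^ 2) := by
      have h0 : IsCoprime m1 (-(e ^ 2)) := (hc1e.pow_right).neg_right
      have := h0.add_mul_left_right (g : ℤ)
      have e' : -(e ^ 2) + m1 * (g : ℤ) = g * m1 - e ^ 2 := by ring
      rwa [e'] at this
    have c2 : IsCoprime m1 (m1 - b2 * e ^ 2) := by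
      have h0 : IsCoprime m1 (-(b2 * e ^ 2)) := (hc12.mul_right hc1e.pow_right).neg_right
      have := h0.add_mul_left_right (1 : ℤ)
      have e' : -(b2 * e ^ 2) + m1 * 1 = m1 - b2 * e ^ 2 := by ring
      rwa [e'] at this
    exact c1.mul_right c2
  obtain ⟨M, hM⟩ := Int.sq_of_isCoprime hcF hred1
  have hM' : m1 = M ^ 2 := by
    rcases hM with hM | hM
    · exact hM
    · exfalso
      have : 0 ≤ M ^ 2 := sq_nonneg M
      omega
  have hFpos : 0 < (g * m1 - e ^ 2) * (m1 - b2 * e ^ 2) := by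
    have hN1ne : N1 ≠ 0 := by
      rintro rfl
      rw [hN1] at hN0
      simp at hN0
    have : 0 < m1 * ((g * m1 - e ^ 2) * (m1 - b2 * e ^ 2)) := by
      rw [hred1]; positivity
    exact pos_of_mul_pos_left (by rwa [mul_comm] at this) hm1pos.le
  have hred2 : ((g * m1 - e ^ 2) * (m1 - b2 * e ^ 2)) * m1 = N1 ^ 2 := by
    rw [← hred1]; ring
  obtain ⟨K, hK⟩ := Int.sq_of_isCoprime hcF.symm hred2
  have hK' : (g * M ^ 2 - e ^ 2) * (M ^ 2 - b2 * e ^ 2) = K ^ 2 := by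
    rw [← hM']
    rcases hK with hK | hK
    · exact hK
    · exfalso
      have : 0 ≤ K ^ 2 := sq_nonneg K
      omega
  -- bad cases
  have hbad : (3 : ℤ) ∣ g → (3 : ℤ) ∣ b2 → False := by
    intro h3g h3b
    have h3m : (3 : ℤ) ∣ m := by rw [hm1]; exact Dvd.dvd.mul_left h3g m1
    have he3 : ¬ (3 : ℤ) ∣ e := by
      intro h3e
      exact absurd (hcop.isUnit_of_dvd' h3m h3e) (by decide)
    have hM3 : ¬ (3 : ℤ) ∣ M := by
      intro h3M
      have h3m1 : (3 : ℤ) ∣ m1 := by rw [hM']; exact Dvd.dvd.pow h3M two_ne_zero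
      exact absurd (hc12.isUnit_of_dvd' h3m1 h3b) (by decide)
    exact mod_three_aux h3g h3b hM3 he3 hK'
  have h81 : (81 : ℤ) = b2 * g := hb2
  rcases hgcases with h | h | h | h | h
  · refine ⟨M, ?_⟩
    rw [hm1, hM', h]; push_cast; ring
  · exfalso
    rw [h] at h81 hbad
    have hb : b2 = 27 := by push_cast at h81; omega
    exact hbad (by norm_num) (by rw [hb]; norm_num)
  · refine ⟨3 * M, ?_⟩
    rw [hm1, hM', h]; push_cast; ring
  · exfalso
    rw [h] at h81 hbad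
    have hb : b2 = 3 := by push_cast at h81; omega
    exact hbad (by norm_num) (by rw [hb])
  · refine ⟨9 * M, ?_⟩
    rw [hm1, hM', h]; push_cast; ring


theorem four_mul_cast_eq_zero_iff (u : ℤ) : 4 * (u : ZMod 8) = 0 ↔ (2 : ℤ) ∣ u := by
  have h : (4 : ZMod 8) * (u : ZMod 8) = ((4 * u : ℤ) : ZMod 8) := by push_cast; ring
  rw [h, ZMod.intCast_zmod_eq_zero_iff_dvd]
  constructor
  · intro h8; omega
  · intro h2; omega

theorem two_mul_cast_eq_zero_iff (u : ℤ) : 2 * (u : ZMod 4) = 0 ↔ (2 : ℤ) ∣ u := by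
  have h : (2 : ZMod 4) * (u : ZMod 4) = ((2 * u : ℤ) : ZMod 4) := by push_cast; ring
  rw [h, ZMod.intCast_zmod_eq_zero_iff_dvd]
  constructor
  · intro h8; omega
  · intro h2; omega

theorem mod8_aux : ∀ a b x c : ZMod 8, 4 * c ≠ 0 → ¬ (4 * a = 0 ∧ 4 * b = 0) →
    a ^ 2 - b ^ 2 = 2 * c * x ^ 2 → 4 * x = 0 ∧ 4 * b ≠ 0 := by decide

theorem mod8_aux' : ∀ a b x c : ZMod 8, 4 * c ≠ 0 → ¬ (4 * a = 0 ∧ 4 * b = 0) →
    a ^ 2 - 81 * b ^ 2 = 2 * c * x ^ 2 → 4 * x = 0 := by decide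

theorem mod4_aux : ∀ c e x y : ZMod 4, 2 * c ≠ 0 → 2 * e ≠ 0 →
    10 * e ^ 2 = c * (x ^ 2 - y ^ 2) → False := by decide

/-- The 2-adic obstruction: the classes `±2, ±10` do not occur. -/
theorem two_adic {c0 u e V W : ℤ} (hc0 : ¬ (2 : ℤ) ∣ c0) (hcop : IsCoprime u e)
    (h1 : u ^ 2 - e ^ 2 = 2 * c0 * V ^ 2) (h2 : u ^ 2 - 81 * e ^ 2 = 2 * c0 * W ^ 2) : False := by
  have hc8 : 4 * (c0 : ZMod 8) ≠ 0 := fun h => hc0 ((four_mul_cast_eq_zero_iff c0).mp h)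
  have hab : ¬ (4 * (u : ZMod 8) = 0 ∧ 4 * (e : ZMod 8) = 0) := by
    rintro ⟨ha, hb⟩
    have hu2 := (four_mul_cast_eq_zero_iff u).mp ha
    have he2 := (four_mul_cast_eq_zero_iff e).mp hb
    exact absurd (hcop.isUnit_of_dvd' hu2 he2) (by decide)
  have z1 : (u : ZMod 8) ^ 2 - (e : ZMod 8) ^ 2 = 2 * (c0 : ZMod 8) * (V : ZMod 8) ^ 2 := by
    have := congrArg (Int.cast : ℤ → ZMod 8) h1
    push_cast at this
    exact this
  have z2 : (u : ZMod 8) ^ 2 - 81 * (e : ZMod 8) ^ 2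
      = 2 * (c0 : ZMod 8) * (W : ZMod 8) ^ 2 := by
    have := congrArg (Int.cast : ℤ → ZMod 8) h2
    push_cast at this
    exact this
  obtain ⟨hV, he⟩ := mod8_aux _ _ _ _ hc8 hab z1
  have hW := mod8_aux' _ _ _ _ hc8 hab z2
  obtain ⟨V1, rfl⟩ := (four_mul_cast_eq_zero_iff V).mp hV
  obtain ⟨W1, rfl⟩ := (four_mul_cast_eq_zero_iff W).mp hW
  have he2 : ¬ (2 : ℤ) ∣ e := fun h => he ((four_mul_cast_eq_zero_iff e).mpr h)
  have key : 10 * e ^ 2 = c0 * (V1 ^ 2 - W1 ^ 2) := by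
    have h8 : (8 : ℤ) * (10 * e ^ 2) = 8 * (c0 * (V1 ^ 2 - W1 ^ 2)) := by
      linear_combination h1 - h2
    exact mul_left_cancel₀ (by norm_num) h8
  have hc4 : 2 * (c0 : ZMod 4) ≠ 0 := fun h => hc0 ((two_mul_cast_eq_zero_iff c0).mp h)
  have he4 : 2 * (e : ZMod 4) ≠ 0 := fun h => he2 ((two_mul_cast_eq_zero_iff e).mp h)
  have z : 10 * (e : ZMod 4) ^ 2
      = (c0 : ZMod 4) * ((V1 : ZMod 4) ^ 2 - (W1 : ZMod 4) ^ 2) := by
    have := congrArg (Int.cast : ℤ → ZMod 4) key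
    push_cast at this
    exact this
  exact mod4_aux _ _ _ _ hc4 he4 z


/-- Step (c): the classes of `X - 1` and `X - 81` modulo squares. -/
theorem selmer_c {u e N : ℤ} (hcop : IsCoprime u e) (hN0 : N ≠ 0)
    (hN : (u ^ 2 - e ^ 2) * (u ^ 2 - 81 * e ^ 2) = N ^ 2) :
    ∃ d v w : ℤ, (d = 1 ∨ d = -1 ∨ d = 5 ∨ d = -5) ∧ v ≠ 0 ∧ w ≠ 0 ∧
      u ^ 2 - e ^ 2 = d * v ^ 2 ∧ u ^ 2 - 81 * e ^ 2 = d * w ^ 2 := by
  have hα0 : u ^ 2 - e ^ 2 ≠ 0 := by
    intro h0; rw [h0, zero_mul] at hN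
    exact hN0 (pow_eq_zero_iff two_ne_zero |>.mp hN.symm)
  have hβ0 : u ^ 2 - 81 * e ^ 2 ≠ 0 := by
    intro h0; rw [h0, mul_zero] at hN
    exact hN0 (pow_eq_zero_iff two_ne_zero |>.mp hN.symm)
  obtain ⟨α', β', hgcd1, hα, hβ⟩ :=
    Int.exists_gcd_one (m := u ^ 2 - e ^ 2) (n := u ^ 2 - 81 * e ^ 2)
      (Int.gcd_pos_of_ne_zero_left _ hα0)
  set g : ℕ := Int.gcd (u ^ 2 - e ^ 2) (u ^ 2 - 81 * e ^ 2) with hg
  have hgpos : (0 : ℤ) < g := by
    have := Int.gcd_pos_of_ne_zero_left (u ^ 2 - 81 * e ^ 2) hα0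
    exact_mod_cast this
  have hcαβ : IsCoprime α' β' := Int.isCoprime_iff_gcd_eq_one.mpr hgcd1
  -- g ∣ 80
  have hαe : IsCoprime (u ^ 2 - e ^ 2) e := by
    have h0 : IsCoprime (u ^ 2) e := hcop.pow_left
    have := h0.add_mul_right_left (-e)
    have e' : u ^ 2 + -e * e = u ^ 2 - e ^ 2 := by ring
    rwa [e'] at this
  have hge : IsCoprime (g : ℤ) e :=
    IsCoprime.of_isCoprime_of_dvd_left hαe (Int.gcd_dvd_left _ _)
  have hg80 : (g : ℤ) ∣ 80 := by
    have h1 : (g : ℤ) ∣ (u ^ 2 - e ^ 2) - (u ^ 2 - 81 * e ^ 2) :=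
      dvd_sub (Int.gcd_dvd_left _ _) (Int.gcd_dvd_right _ _)
    have h2 : (u ^ 2 - e ^ 2) - (u ^ 2 - 81 * e ^ 2) = 80 * e ^ 2 := by ring
    rw [h2] at h1
    exact (hge.pow_right (n := 2)).dvd_of_dvd_mul_right h1
  have hgmem : g ∈ Nat.divisors 80 := by
    refine Nat.mem_divisors.mpr ⟨?_, by norm_num⟩
    exact_mod_cast hg80
  have hgcases : g = 1 ∨ g = 2 ∨ g = 4 ∨ g = 5 ∨ g = 8 ∨ g = 10 ∨ g = 16 ∨ g = 20 ∨ g = 40
      ∨ g = 80 := by
    have : Nat.divisors 80 = {1, 2, 4, 5, 8, 10, 16, 20, 40, 80} := by decide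
    rw [this] at hgmem
    simpa using hgmem
  -- reduce the equation
  have hred : (g : ℤ) ^ 2 * (α' * β') = N ^ 2 := by
    rw [← hN]
    have e1 : (u ^ 2 - e ^ 2) * (u ^ 2 - 81 * e ^ 2) = (α' * g) * (β' * g) := by
      rw [← hα, ← hβ]
    rw [e1]
    ring
  have hgN : (g : ℤ) ∣ N := by
    have : (g : ℤ) ^ 2 ∣ N ^ 2 := by rw [← hred]; exact Dvd.intro _ rfl
    exact (Int.pow_dvd_pow_iff two_ne_zero).mp this
  obtain ⟨N1, hN1⟩ := hgN
  have hN1ne : N1 ≠ 0 := by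
    rintro rfl
    rw [hN1] at hN0
    simp at hN0
  have hred1 : α' * β' = N1 ^ 2 := by
    have h2 : (g : ℤ) ^ 2 * (α' * β') = (g : ℤ) ^ 2 * N1 ^ 2 := by rw [hred, hN1]; ring
    exact mul_left_cancel₀ (pow_ne_zero 2 hgpos.ne') h2
  have hpos : 0 < α' * β' := by rw [hred1]; positivity
  obtain ⟨V, hV⟩ := Int.sq_of_isCoprime hcαβ hred1
  have hred1' : β' * α' = N1 ^ 2 := by rw [← hred1]; ring
  obtain ⟨W, hW⟩ := Int.sq_of_isCoprime hcαβ.symm hred1'
  -- common sign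
  obtain ⟨ε, hε, hαV, hβW⟩ : ∃ ε : ℤ, (ε = 1 ∨ ε = -1) ∧ α' = ε * V ^ 2 ∧ β' = ε * W ^ 2 := by
    rcases hV with hV | hV <;> rcases hW with hW | hW
    · exact ⟨1, Or.inl rfl, by rw [hV]; ring, by rw [hW]; ring⟩
    · exfalso
      rw [hV, hW] at hpos
      nlinarith [sq_nonneg V, sq_nonneg W, mul_nonneg (sq_nonneg V) (sq_nonneg W)]
    · exfalso
      rw [hV, hW] at hpos
      nlinarith [sq_nonneg V, sq_nonneg W, mul_nonneg (sq_nonneg V) (sq_nonneg W)]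
    · exact ⟨-1, Or.inr rfl, by rw [hV]; ring, by rw [hW]; ring⟩
  have hV0 : V ≠ 0 := by
    rintro rfl
    rw [hαV] at hpos
    simp at hpos
  have hW0 : W ≠ 0 := by
    rintro rfl
    rw [hβW] at hpos
    simp at hpos
  have hA : u ^ 2 - e ^ 2 = ε * (g : ℤ) * V ^ 2 := by
    rw [hα, hαV]; ring
  have hB : u ^ 2 - 81 * e ^ 2 = ε * (g : ℤ) * W ^ 2 := by
    rw [hβ, hβW]; ring
  have hεodd : ¬ (2 : ℤ) ∣ ε := by
    rcases hε with rfl | rfl <;> decide
  have h5εodd : ¬ (2 : ℤ) ∣ 5 * ε := by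
    rcases hε with rfl | rfl <;> decide
  have hd1 : ε = 1 ∨ ε = -1 ∨ ε = 5 ∨ ε = -5 := by
    rcases hε with rfl | rfl <;> simp
  have hd5 : 5 * ε = 1 ∨ 5 * ε = -1 ∨ 5 * ε = 5 ∨ 5 * ε = -5 := by
    rcases hε with rfl | rfl <;> simp
  have two : (2 : ℤ) ≠ 0 := two_ne_zero
  have four : (4 : ℤ) ≠ 0 := by norm_num
  rcases hgcases with h | h | h | h | h | h | h | h | h | h <;> rw [h] at hA hB <;>
    push_cast at hA hB
  · exact ⟨ε, V, W, hd1, hV0, hW0, by rw [hA]; ring, by rw [hB]; ring⟩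
  · exact (two_adic hεodd hcop (V := V) (W := W) (by rw [hA]; ring) (by rw [hB]; ring)).elim
  · exact ⟨ε, 2 * V, 2 * W, hd1, mul_ne_zero two hV0, mul_ne_zero two hW0,
      by rw [hA]; ring, by rw [hB]; ring⟩
  · exact ⟨5 * ε, V, W, hd5, hV0, hW0, by rw [hA]; ring, by rw [hB]; ring⟩
  · exact (two_adic hεodd hcop (V := 2 * V) (W := 2 * W)
      (by rw [hA]; ring) (by rw [hB]; ring)).elim
  · exact (two_adic h5εodd hcop (V := V) (W := W) (by rw [hA]; ring) (by rw [hB]; ring)).elim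
  · exact ⟨ε, 4 * V, 4 * W, hd1, mul_ne_zero four hV0, mul_ne_zero four hW0,
      by rw [hA]; ring, by rw [hB]; ring⟩
  · exact ⟨5 * ε, 2 * V, 2 * W, hd5, mul_ne_zero two hV0, mul_ne_zero two hW0,
      by rw [hA]; ring, by rw [hB]; ring⟩
  · exact (two_adic h5εodd hcop (V := 2 * V) (W := 2 * W)
      (by rw [hA]; ring) (by rw [hB]; ring)).elim
  · exact ⟨5 * ε, 4 * V, 4 * W, hd5, mul_ne_zero four hV0, mul_ne_zero four hW0,
      by rw [hA]; ring, by rw [hB]; ring⟩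


/-- The full 2-descent: every rational point with `Y ≠ 0` is, up to translation by a 2-torsion
point, in the kernel class (all of `X`, `X - 1`, `X - 81` nonzero squares). -/
theorem selmer {X Y : ℚ} (h : Y ^ 2 = X * (X - 1) * (X - 81)) (hY : Y ≠ 0) :
    ∃ r1 s1 t1 : ℚ, r1 ^ 2 - s1 ^ 2 = 1 ∧ r1 ^ 2 - t1 ^ 2 = 81 ∧ s1 ≠ 0 ∧ t1 ≠ 0 ∧
      ∀ ρ : ℚ, Rel X ρ → Rel (r1 ^ 2) ρ := by
  obtain ⟨m, e, N, hcop, he0, hN0, hX, hN⟩ := selmer_a h hY
  obtain ⟨u, rfl⟩ := selmer_b hcop hN0 hN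
  have hu0 : u ≠ 0 := by
    rintro rfl
    apply hN0
    have : N ^ 2 = 0 := by rw [hN]; ring
    exact pow_eq_zero_iff two_ne_zero |>.mp this
  have huN : u ∣ N := by
    have : u ^ 2 ∣ N ^ 2 := by rw [hN, mul_assoc]; exact Dvd.intro _ rfl
    exact (Int.pow_dvd_pow_iff two_ne_zero).mp this
  obtain ⟨N2, rfl⟩ := huN
  have hN2 : (u ^ 2 - e ^ 2) * (u ^ 2 - 81 * e ^ 2) = N2 ^ 2 := by
    have h2 : u ^ 2 * ((u ^ 2 - e ^ 2) * (u ^ 2 - 81 * e ^ 2)) = u ^ 2 * N2 ^ 2 := by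
      linear_combination -hN
    exact mul_left_cancel₀ (pow_ne_zero 2 hu0) h2
  have hN20 : N2 ≠ 0 := by
    rintro rfl
    simp at hN0
  have hcop' : IsCoprime u e := by
    rw [sq] at hcop
    exact hcop.of_mul_left_left
  obtain ⟨d, v, w, hd, hv0, hw0, hv, hw⟩ := selmer_c hcop' hN20 hN2
  have heQ : (e : ℚ) ≠ 0 := by exact_mod_cast he0
  have hvQ : ((u : ℚ) ^ 2 - (e : ℚ) ^ 2) = d * (v : ℚ) ^ 2 := by exact_mod_cast hv
  have hwQ : ((u : ℚ) ^ 2 - 81 * (e : ℚ) ^ 2) = d * (w : ℚ) ^ 2 := by exact_mod_cast hw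
  have hdQ : (d : ℚ) = 1 ∨ (d : ℚ) = -1 ∨ (d : ℚ) = 5 ∨ (d : ℚ) = -5 := by
    rcases hd with rfl | rfl | rfl | rfl <;> simp
  refine translate (X := X) (r := u / e) (s := v / e) (t := w / e) (d := d) hdQ ?_ ?_ ?_
    (div_ne_zero (by exact_mod_cast hu0) heQ) (div_ne_zero (by exact_mod_cast hv0) heQ)
    (div_ne_zero (by exact_mod_cast hw0) heQ)
  · rw [hX]; push_cast; field_simp
  · rw [hX]; push_cast; field_simp; linear_combination hvQ
  · rw [hX]; push_cast; field_simp; linear_combination hwQ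

/-! ## Part 4: the infinite descent -/

/-- There is no rational point in the kernel class. -/
theorem no_kernel_point : ∀ (n : ℕ) (r s t : ℚ), r.den = n → r ^ 2 - s ^ 2 = 1 →
    r ^ 2 - t ^ 2 = 81 → s ≠ 0 → t ≠ 0 → False := by
  intro n
  induction n using Nat.strong_induction_on with
  | _ n ih =>
    intro r s t hn h1 h81 hs0 ht0
    obtain ⟨hcurve, hY, hrel⟩ := halving h1 h81
    obtain ⟨r1, s1, t1, g1, g81, gs0, gt0, grel⟩ := selmer hcurve hY
    have hlt : r1.den < r.den := den_lt g1 g81 gs0 gt0 (grel r hrel)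
    exact ih r1.den (hn ▸ hlt) r1 s1 t1 rfl g1 g81 gs0 gt0

/-- **Descent theorem.** The only rational points of `Y^2 = X (X - 1) (X - 81)` are the
2-torsion points: `Y = 0`. -/
theorem descent_E1 (X Y : ℚ) (h : Y ^ 2 = X * (X - 1) * (X - 81)) : Y = 0 := by
  by_contra hY
  obtain ⟨r1, s1, t1, g1, g81, gs0, gt0, -⟩ := selmer h hY
  exact no_kernel_point r1.den r1 s1 t1 rfl g1 g81 gs0 gt0

/-- Same statement, listing the `X`-coordinates. -/
theorem descent_E1_X (X Y : ℚ) (h : Y ^ 2 = X * (X - 1) * (X - 81)) :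
    Y = 0 ∧ (X = 0 ∨ X = 1 ∨ X = 81) := by
  have hY := descent_E1 X Y h
  refine ⟨hY, ?_⟩
  rw [hY] at h
  have h0 : X * (X - 1) * (X - 81) = 0 := by rw [← h]; ring
  rcases mul_eq_zero.mp h0 with h1 | h1
  · rcases mul_eq_zero.mp h1 with h2 | h2
    · exact Or.inl h2
    · exact Or.inr (Or.inl (by linarith))
  · exact Or.inr (Or.inr (by linarith))

end Fermat.Agent.S51.H35
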