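/-
helper42: the descent (D1) for S51.  Main result:
  Fermat.Agent.S51.H42.rational_points_15a2 :
    ∀ X Y : ℚ, Y ^ 2 = X * (X - 1) * (X - 81) → Y = 0
i.e. the elliptic curve 15a2 has only its four 2-torsion points over ℚ.
Proof: complete 2-descent written as an elementary infinite descent.
* class lemma: for a point with Y ≠ 0, X = A / C², the integers A, A - C², A - 81 C² are
  u², δ v², δ w² with δ ∈ {1, -1, 5, -5} (3-adic and 2-adic obstructions);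
* translating by a 2-torsion point gives X' with X', X' - 1, X' - 81 all squares;
* halving: X₁ = (r₁ + r₂)(r₁ + r₃) is again on the curve, and the numerator drops.
-/
import Mathlib

namespace Fermat.Agent.S51.H42

lemma sq_of_pos_of_sq_or_neg_sq {a a0 : ℤ} (ha : 0 < a) (h : a = a0 ^ 2 ∨ a = -a0 ^ 2) :
    a = a0 ^ 2 := by
  rcases h with h | h
  · exact h
  · have : 0 ≤ a0 ^ 2 := sq_nonneg _
    linarith

lemma exists_sq_of_coprime_mul_eq_sq {a b c : ℤ} (ha : 0 < a) (h : IsCoprime a b)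
    (heq : a * b = c ^ 2) : ∃ u : ℤ, a = u ^ 2 := by
  obtain ⟨u, hu⟩ := Int.sq_of_isCoprime h heq
  exact ⟨u, sq_of_pos_of_sq_or_neg_sq ha hu⟩

lemma sq_mod_three (x : ℤ) : x ^ 2 % 3 = 0 ∨ x ^ 2 % 3 = 1 := by
  have h : x % 3 = 0 ∨ x % 3 = 1 ∨ x % 3 = 2 := by omega
  rcases h with h | h | h <;> simp [pow_two, Int.mul_emod, h]

lemma sq_mod_three_of_not_dvd {x : ℤ} (hx : ¬ (3 : ℤ) ∣ x) : x ^ 2 % 3 = 1 := by
  have h : x % 3 = 1 ∨ x % 3 = 2 := by omega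
  rcases h with h | h <;> simp [pow_two, Int.mul_emod, h]

lemma sq_mod_four (x : ℤ) : x ^ 2 % 4 = 0 ∨ x ^ 2 % 4 = 1 := by
  have h : x % 4 = 0 ∨ x % 4 = 1 ∨ x % 4 = 2 ∨ x % 4 = 3 := by omega
  rcases h with h | h | h | h <;> simp [pow_two, Int.mul_emod, h]

lemma sq_mod_eight_of_odd {x : ℤ} (hx : x % 2 = 1) : x ^ 2 % 8 = 1 := by
  have h : x % 8 = 1 ∨ x % 8 = 3 ∨ x % 8 = 5 ∨ x % 8 = 7 := by omega
  rcases h with h | h | h | h <;> simp [pow_two, Int.mul_emod, h]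

lemma sq_mod_four_of_even {x : ℤ} (hx : x % 2 = 0) : x ^ 2 % 4 = 0 := by
  have h : x % 4 = 0 ∨ x % 4 = 2 := by omega
  rcases h with h | h <;> simp [pow_two, Int.mul_emod, h]

/-- The mod 3 obstruction. -/
lemma mod3_contra {u b c B : ℤ} (hu : ¬ (3 : ℤ) ∣ u) (hb : b % 3 = 2) (hc : c % 3 = 1)
    (h : B ^ 2 = u ^ 2 * b * c) : False := by
  have h1 := sq_mod_three_of_not_dvd hu
  have h2 := sq_mod_three B
  have h3 : B ^ 2 % 3 = 2 := by
    rw [h, Int.mul_emod, Int.mul_emod (u ^ 2), h1, hb, hc]; norm_num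
  omega

/-- divide out a square factor -/
lemma sq_factor {d B R : ℤ} (hd : d ≠ 0) (h : B ^ 2 = d ^ 2 * R) :
    ∃ B', B = d * B' ∧ B' ^ 2 = R := by
  have hdvd : d ∣ B := by
    rw [← Int.pow_dvd_pow_iff (n := 2) two_ne_zero, h]
    exact dvd_mul_right _ _
  obtain ⟨B', rfl⟩ := hdvd
  refine ⟨B', rfl, ?_⟩
  have hd2 : d ^ 2 ≠ 0 := pow_ne_zero _ hd
  apply mul_left_cancel₀ hd2
  rw [← h]; ring

lemma coprime_sub_mul {a m C : ℤ} (h1 : IsCoprime a m) (h2 : IsCoprime a C) :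
    IsCoprime a (a - m * C ^ 2) := by
  have h3 : IsCoprime a (m * C ^ 2) := h1.mul_right h2.pow_right
  have h4 := h3.neg_right.add_mul_left_right 1
  have : -(m * C ^ 2) + a * 1 = a - m * C ^ 2 := by ring
  rwa [this] at h4

lemma coprime_three_pow {a : ℤ} (h : ¬ (3 : ℤ) ∣ a) (k : ℕ) : IsCoprime a (3 ^ k) := by
  have h3 : Prime (3 : ℤ) := Int.prime_three
  exact ((h3.coprime_iff_not_dvd).2 h).symm.pow_right


/-- signs -/
lemma signs {A C B : ℤ} (hC : 0 < C) (hB : B ≠ 0)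
    (heq : B ^ 2 = A * (A - C ^ 2) * (A - 81 * C ^ 2)) :
    0 < A ∧ 0 < (A - C ^ 2) * (A - 81 * C ^ 2) := by
  have hB2 : 0 < B ^ 2 := by positivity
  have hC2 : 0 < C ^ 2 := by positivity
  rw [mul_assoc] at heq
  have hA : 0 < A := by
    by_contra hA
    have hA' : A ≤ 0 := not_lt.mp hA
    have h1 : A - C ^ 2 < 0 := by linarith
    have h2 : A - 81 * C ^ 2 < 0 := by linarith
    have h3 : 0 < (A - C ^ 2) * (A - 81 * C ^ 2) := mul_pos_of_neg_of_neg h1 h2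
    have h4 : A * ((A - C ^ 2) * (A - 81 * C ^ 2)) ≤ 0 :=
      mul_nonpos_of_nonpos_of_nonneg hA' h3.le
    linarith
  refine ⟨hA, ?_⟩
  by_contra h
  have h' : (A - C ^ 2) * (A - 81 * C ^ 2) ≤ 0 := not_lt.mp h
  have h4 : A * ((A - C ^ 2) * (A - 81 * C ^ 2)) ≤ 0 :=
    mul_nonpos_of_nonneg_of_nonpos hA.le h'
  linarith

/-- The numerator `A` is a perfect square. -/
lemma num_isSq {A C B : ℤ} (hC : 0 < C) (hcop : IsCoprime A C) (hB : B ≠ 0)
    (heq : B ^ 2 = A * (A - C ^ 2) * (A - 81 * C ^ 2)) :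
    ∃ u : ℤ, A = u ^ 2 := by
  obtain ⟨hA, -⟩ := signs hC hB heq
  have hAb : IsCoprime A (A - C ^ 2) := by
    have := coprime_sub_mul (isCoprime_one_right (x := A)) hcop
    simpa using this
  by_cases h3 : (3 : ℤ) ∣ A
  · -- 3 ∣ A, hence 3 ∤ C
    have h3C : ¬ (3 : ℤ) ∣ C := by
      intro h
      have := hcop.isUnit_of_dvd' h3 h
      exact Int.prime_three.not_isUnit this
    have hC3 : C ^ 2 % 3 = 1 := sq_mod_three_of_not_dvd h3C
    obtain ⟨A₁, rfl⟩ := h3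
    have hA₁ : 0 < A₁ := by linarith
    have hcop₁ : IsCoprime A₁ C := hcop.of_mul_left_right
    have hAb₁ : IsCoprime A₁ (3 * A₁ - C ^ 2) := hAb.of_mul_left_right
    by_cases h3a : (3 : ℤ) ∣ A₁
    · obtain ⟨A₂, rfl⟩ := h3a
      have hA₂ : 0 < A₂ := by linarith
      have hcop₂ : IsCoprime A₂ C := hcop₁.of_mul_left_right
      have hAb₂ : IsCoprime A₂ (3 * (3 * A₂) - C ^ 2) := hAb₁.of_mul_left_right
      by_cases h3b : (3 : ℤ) ∣ A₂
      · obtain ⟨A₃, rfl⟩ := h3b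
        have hA₃ : 0 < A₃ := by linarith
        have hcop₃ : IsCoprime A₃ C := hcop₂.of_mul_left_right
        have hAb₃ : IsCoprime A₃ (3 * (3 * (3 * A₃)) - C ^ 2) := hAb₂.of_mul_left_right
        by_cases h3c : (3 : ℤ) ∣ A₃
        · -- 81 ∣ A
          obtain ⟨A₄, rfl⟩ := h3c
          have hA₄ : 0 < A₄ := by linarith
          have hcop₄ : IsCoprime A₄ C := hcop₃.of_mul_left_right
          have hAb₄ : IsCoprime A₄ (3 * (3 * (3 * (3 * A₄))) - C ^ 2) := hAb₃.of_mul_left_right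
          have hAc₄ : IsCoprime A₄ (A₄ - C ^ 2) := by
            have := coprime_sub_mul (isCoprime_one_right (x := A₄)) hcop₄
            simpa using this
          have h1 : B ^ 2 = (81 : ℤ) ^ 2 *
              (A₄ * ((3 * (3 * (3 * (3 * A₄))) - C ^ 2) * (A₄ - C ^ 2))) := by
            rw [heq]; ring
          obtain ⟨B', -, hB'⟩ := sq_factor (by norm_num) h1
          obtain ⟨u, hu⟩ := exists_sq_of_coprime_mul_eq_sq hA₄ (hAb₄.mul_right hAc₄) hB'.symm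
          exact ⟨9 * u, by rw [hu]; ring⟩
        · -- v₃(A) = 3 : contradiction
          exfalso
          have hAc₃ : IsCoprime A₃ (A₃ - 3 * C ^ 2) :=
            coprime_sub_mul (by simpa using coprime_three_pow h3c 1) hcop₃
          have h1 : B ^ 2 = (27 : ℤ) ^ 2 *
              (A₃ * ((3 * (3 * (3 * A₃)) - C ^ 2) * (A₃ - 3 * C ^ 2))) := by
            rw [heq]; ring
          obtain ⟨B', -, hB'⟩ := sq_factor (by norm_num) h1
          obtain ⟨u, hu⟩ := exists_sq_of_coprime_mul_eq_sq hA₃ (hAb₃.mul_right hAc₃) hB'.symm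
          have hu3 : ¬ (3 : ℤ) ∣ u := fun h => h3c (hu ▸ dvd_pow h two_ne_zero)
          have hu1 := sq_mod_three_of_not_dvd hu3
          refine mod3_contra hu3 (b := 3 * (3 * (3 * A₃)) - C ^ 2) (c := A₃ - 3 * C ^ 2)
            (B := B') ?_ ?_ ?_
          · omega
          · omega
          · rw [hB', hu]; ring
      · -- v₃(A) = 2
        have hAc₂ : IsCoprime A₂ (A₂ - 9 * C ^ 2) :=
          coprime_sub_mul (by simpa using coprime_three_pow h3b 2) hcop₂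
        have h1 : B ^ 2 = (9 : ℤ) ^ 2 *
            (A₂ * ((3 * (3 * A₂) - C ^ 2) * (A₂ - 9 * C ^ 2))) := by
          rw [heq]; ring
        obtain ⟨B', -, hB'⟩ := sq_factor (by norm_num) h1
        obtain ⟨u, hu⟩ := exists_sq_of_coprime_mul_eq_sq hA₂ (hAb₂.mul_right hAc₂) hB'.symm
        exact ⟨3 * u, by rw [hu]; ring⟩
    · -- v₃(A) = 1 : contradiction
      exfalso
      have hAc₁ : IsCoprime A₁ (A₁ - 27 * C ^ 2) :=
        coprime_sub_mul (by simpa using coprime_three_pow h3a 3) hcop₁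
      have h1 : B ^ 2 = (3 : ℤ) ^ 2 *
          (A₁ * ((3 * A₁ - C ^ 2) * (A₁ - 27 * C ^ 2))) := by
        rw [heq]; ring
      obtain ⟨B', -, hB'⟩ := sq_factor (by norm_num) h1
      obtain ⟨u, hu⟩ := exists_sq_of_coprime_mul_eq_sq hA₁ (hAb₁.mul_right hAc₁) hB'.symm
      have hu3 : ¬ (3 : ℤ) ∣ u := fun h => h3a (hu ▸ dvd_pow h two_ne_zero)
      have hu1 := sq_mod_three_of_not_dvd hu3
      refine mod3_contra hu3 (b := 3 * A₁ - C ^ 2) (c := A₁ - 27 * C ^ 2)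
        (B := B') ?_ ?_ ?_
      · omega
      · omega
      · rw [hB', hu]; ring
  · -- 3 ∤ A
    have hAc : IsCoprime A (A - 81 * C ^ 2) :=
      coprime_sub_mul (by simpa using coprime_three_pow h3 4) hcop
    have h1 : A * ((A - C ^ 2) * (A - 81 * C ^ 2)) = B ^ 2 := by rw [heq]; ring
    exact exists_sq_of_coprime_mul_eq_sq hA (hAb.mul_right hAc) h1

/-- If `b * c` is a positive perfect square and `gcd b c ∣ 80`, then `b` and `c` have a common
"squarefree part" among `±1, ±2, ±5, ±10`. -/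
lemma common_part {b c B : ℤ} (hbc : b * c = B ^ 2) (hpos : 0 < b * c)
    (h80 : (Int.gcd b c : ℤ) ∣ 80) :
    ∃ δ v w : ℤ, (δ = 1 ∨ δ = 2 ∨ δ = 5 ∨ δ = 10 ∨ δ = -1 ∨ δ = -2 ∨ δ = -5 ∨ δ = -10) ∧
      b = δ * v ^ 2 ∧ c = δ * w ^ 2 := by
  have hb0 : b ≠ 0 := fun h => by simp [h] at hpos
  have hg0 : 0 < Int.gcd b c := Int.gcd_pos_of_ne_zero_left _ hb0
  obtain ⟨b₁, hb₁⟩ : (Int.gcd b c : ℤ) ∣ b := Int.gcd_dvd_left ..
  obtain ⟨c₁, hc₁⟩ : (Int.gcd b c : ℤ) ∣ c := Int.gcd_dvd_right ..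
  have hgz : (Int.gcd b c : ℤ) ≠ 0 := by exact_mod_cast hg0.ne'
  have hb₁' : b / (Int.gcd b c : ℤ) = b₁ := Int.ediv_eq_of_eq_mul_right hgz hb₁
  have hc₁' : c / (Int.gcd b c : ℤ) = c₁ := Int.ediv_eq_of_eq_mul_right hgz hc₁
  have hcop : Int.gcd b₁ c₁ = 1 := by
    have := Int.gcd_div_gcd_div_gcd (i := b) (j := c) hg0
    rwa [hb₁', hc₁'] at this
  have hgdvd : Int.gcd b c ∣ 80 := by exact_mod_cast h80
  generalize Int.gcd b c = g at *
  have h1 : B ^ 2 = (g : ℤ) ^ 2 * (b₁ * c₁) := by rw [← hbc, hb₁, hc₁]; ring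
  obtain ⟨B₁, -, hB₁⟩ := sq_factor hgz h1
  have hpos₁ : 0 < b₁ * c₁ := by
    have h2 : 0 < (g : ℤ) ^ 2 * (b₁ * c₁) := by rw [← h1, ← hbc]; exact hpos
    exact (pos_iff_pos_of_mul_pos h2).1 (by positivity)
  have hcop' : IsCoprime b₁ c₁ := Int.isCoprime_iff_gcd_eq_one.2 hcop
  obtain ⟨v₁, hv₁⟩ := Int.sq_of_isCoprime hcop' hB₁.symm
  obtain ⟨w₁, hw₁⟩ := Int.sq_of_isCoprime hcop'.symm (by rw [mul_comm]; exact hB₁.symm)
  -- common sign
  obtain ⟨s, hs, hbs, hcs⟩ : ∃ s : ℤ, (s = 1 ∨ s = -1) ∧ b₁ = s * v₁ ^ 2 ∧ c₁ = s * w₁ ^ 2 := by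
    rcases hv₁ with hv₁ | hv₁ <;> rcases hw₁ with hw₁ | hw₁
    · exact ⟨1, Or.inl rfl, by rw [hv₁]; ring, by rw [hw₁]; ring⟩
    · exfalso
      have : b₁ * c₁ = -(v₁ * w₁) ^ 2 := by rw [hv₁, hw₁]; ring
      have h3 := sq_nonneg (v₁ * w₁)
      linarith
    · exfalso
      have : b₁ * c₁ = -(v₁ * w₁) ^ 2 := by rw [hv₁, hw₁]; ring
      have h3 := sq_nonneg (v₁ * w₁)
      linarith
    · exact ⟨-1, Or.inr rfl, by rw [hv₁]; ring, by rw [hw₁]; ring⟩
  -- squarefree part of g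
  obtain ⟨δ₀, e, hδ₀, hge⟩ : ∃ δ₀ e : ℤ, (δ₀ = 1 ∨ δ₀ = 2 ∨ δ₀ = 5 ∨ δ₀ = 10) ∧
      (g : ℤ) = δ₀ * e ^ 2 := by
    have hmem : g ∈ Nat.divisors 80 := Nat.mem_divisors.2 ⟨hgdvd, by norm_num⟩
    have hdiv : Nat.divisors 80 = {1, 2, 4, 5, 8, 10, 16, 20, 40, 80} := by decide
    rw [hdiv] at hmem
    simp only [Finset.mem_insert, Finset.mem_singleton] at hmem
    rcases hmem with h | h | h | h | h | h | h | h | h | h <;> subst h
    · exact ⟨1, 1, by norm_num, by norm_num⟩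
    · exact ⟨2, 1, by norm_num, by norm_num⟩
    · exact ⟨1, 2, by norm_num, by norm_num⟩
    · exact ⟨5, 1, by norm_num, by norm_num⟩
    · exact ⟨2, 2, by norm_num, by norm_num⟩
    · exact ⟨10, 1, by norm_num, by norm_num⟩
    · exact ⟨1, 4, by norm_num, by norm_num⟩
    · exact ⟨5, 2, by norm_num, by norm_num⟩
    · exact ⟨10, 2, by norm_num, by norm_num⟩
    · exact ⟨5, 4, by norm_num, by norm_num⟩
  refine ⟨s * δ₀, e * v₁, e * w₁, ?_, ?_, ?_⟩
  · rcases hs with rfl | rfl <;> rcases hδ₀ with rfl | rfl | rfl | rfl <;> norm_num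
  · rw [hb₁, hge, hbs]; ring
  · rw [hc₁, hge, hcs]; ring

/-- The classes with an even squarefree part are impossible (2-adic obstruction). -/
lemma no_even_class {u C v w δ : ℤ} (hcop : IsCoprime u C)
    (hδ : δ = 2 ∨ δ = 10 ∨ δ = -2 ∨ δ = -10)
    (h1 : u ^ 2 - C ^ 2 = δ * v ^ 2) (h2 : u ^ 2 - 81 * C ^ 2 = δ * w ^ 2) : False := by
  have hnot : ¬ ((2 : ℤ) ∣ u ∧ (2 : ℤ) ∣ C) := by
    rintro ⟨hu, hC⟩
    have := hcop.isUnit_of_dvd' hu hC
    exact Int.prime_two.not_isUnit this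
  have hu4 := sq_mod_four u
  have hC4 := sq_mod_four C
  rcases Int.emod_two_eq_zero_or_one u with hu | hu <;>
    rcases Int.emod_two_eq_zero_or_one C with hC | hC
  · exact hnot ⟨Int.dvd_of_emod_eq_zero hu, Int.dvd_of_emod_eq_zero hC⟩
  · have hu' := sq_mod_four_of_even hu
    have hC' := sq_mod_eight_of_odd hC
    rcases hδ with rfl | rfl | rfl | rfl <;> omega
  · have hu' := sq_mod_eight_of_odd hu
    have hC' := sq_mod_four_of_even hC
    rcases hδ with rfl | rfl | rfl | rfl <;> omega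
  · have hu' := sq_mod_eight_of_odd hu
    have hC' := sq_mod_eight_of_odd hC
    -- v and w are even
    have hv : v % 2 = 0 := by
      rcases Int.emod_two_eq_zero_or_one v with hv | hv
      · exact hv
      · exfalso
        have hv' := sq_mod_eight_of_odd hv
        rcases hδ with rfl | rfl | rfl | rfl <;> omega
    have hw : w % 2 = 0 := by
      rcases Int.emod_two_eq_zero_or_one w with hw | hw
      · exact hw
      · exfalso
        have hw' := sq_mod_eight_of_odd hw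
        rcases hδ with rfl | rfl | rfl | rfl <;> omega
    obtain ⟨v', rfl⟩ : (2 : ℤ) ∣ v := Int.dvd_of_emod_eq_zero hv
    obtain ⟨w', rfl⟩ : (2 : ℤ) ∣ w := Int.dvd_of_emod_eq_zero hw
    have hv4 := sq_mod_four v'
    have hw4 := sq_mod_four w'
    have e1 : (2 * v') ^ 2 = 4 * v' ^ 2 := by ring
    have e2 : (2 * w') ^ 2 = 4 * w' ^ 2 := by ring
    rw [e1] at h1
    rw [e2] at h2
    rcases hδ with rfl | rfl | rfl | rfl <;> omega

/-- The integer class lemma. -/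
lemma class_int {A C B : ℤ} (hC : 0 < C) (hcop : IsCoprime A C) (hB : B ≠ 0)
    (heq : B ^ 2 = A * (A - C ^ 2) * (A - 81 * C ^ 2)) :
    ∃ u v w δ : ℤ, (δ = 1 ∨ δ = -1 ∨ δ = 5 ∨ δ = -5) ∧ u ≠ 0 ∧ v ≠ 0 ∧ w ≠ 0 ∧
      A = u ^ 2 ∧ A - C ^ 2 = δ * v ^ 2 ∧ A - 81 * C ^ 2 = δ * w ^ 2 := by
  obtain ⟨hA, hbcpos⟩ := signs hC hB heq
  obtain ⟨u, hu⟩ := num_isSq hC hcop hB heq
  have hu0 : u ≠ 0 := by
    rintro rfl
    simp at hu
    omega
  have h1 : B ^ 2 = u ^ 2 * ((A - C ^ 2) * (A - 81 * C ^ 2)) := by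
    rw [heq, ← hu]; ring
  obtain ⟨B', -, hB'⟩ := sq_factor hu0 h1
  -- gcd divides 80
  have hbC : IsCoprime (A - C ^ 2) C := by
    have h := hcop.symm.add_mul_left_right (-C)
    have e : A + C * -C = A - C ^ 2 := by ring
    rw [e] at h
    exact h.symm
  have h80 : (Int.gcd (A - C ^ 2) (A - 81 * C ^ 2) : ℤ) ∣ 80 := by
    have hg1 : (Int.gcd (A - C ^ 2) (A - 81 * C ^ 2) : ℤ) ∣ A - C ^ 2 := Int.gcd_dvd_left ..
    have hg2 : (Int.gcd (A - C ^ 2) (A - 81 * C ^ 2) : ℤ) ∣ A - 81 * C ^ 2 :=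
      Int.gcd_dvd_right ..
    have hg3 : (Int.gcd (A - C ^ 2) (A - 81 * C ^ 2) : ℤ) ∣ 80 * C ^ 2 := by
      have := dvd_sub hg1 hg2
      have e : A - C ^ 2 - (A - 81 * C ^ 2) = 80 * C ^ 2 := by ring
      rwa [e] at this
    have hg4 : IsCoprime (Int.gcd (A - C ^ 2) (A - 81 * C ^ 2) : ℤ) (C ^ 2) :=
      (IsCoprime.of_isCoprime_of_dvd_left hbC hg1).pow_right
    exact hg4.dvd_of_dvd_mul_right hg3
  obtain ⟨δ, v, w, hδ, hb, hc⟩ := common_part hB'.symm hbcpos h80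
  have hv0 : v ≠ 0 := by
    rintro rfl
    simp at hb
    rw [hb] at hbcpos
    simp at hbcpos
  have hw0 : w ≠ 0 := by
    rintro rfl
    simp at hc
    rw [hc] at hbcpos
    simp at hbcpos
  have hcopu : IsCoprime u C := by
    rw [hu] at hcop
    exact (IsCoprime.pow_left_iff (by norm_num)).1 hcop
  rw [hu] at hb hc
  rcases hδ with h | h | h | h | h | h | h | h
  · exact ⟨u, v, w, δ, by simp [h], hu0, hv0, hw0, hu, hu ▸ hb, hu ▸ hc⟩
  · exact (no_even_class hcopu (by simp [h]) hb hc).elim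
  · exact ⟨u, v, w, δ, by simp [h], hu0, hv0, hw0, hu, hu ▸ hb, hu ▸ hc⟩
  · exact (no_even_class hcopu (by simp [h]) hb hc).elim
  · exact ⟨u, v, w, δ, by simp [h], hu0, hv0, hw0, hu, hu ▸ hb, hu ▸ hc⟩
  · exact (no_even_class hcopu (by simp [h]) hb hc).elim
  · exact ⟨u, v, w, δ, by simp [h], hu0, hv0, hw0, hu, hu ▸ hb, hu ▸ hc⟩
  · exact (no_even_class hcopu (by simp [h]) hb hc).elim

/-- From a rational point to the integer equation. -/
lemma rat_to_int {X Y : ℚ} (hY : Y ≠ 0) (h : Y ^ 2 = X * (X - 1) * (X - 81)) :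
    ∃ A C B : ℤ, 0 < C ∧ IsCoprime A C ∧ B ≠ 0 ∧ X = (A : ℚ) / (C : ℚ) ^ 2 ∧
      B ^ 2 = A * (A - C ^ 2) * (A - 81 * C ^ 2) := by
  obtain ⟨A, hA⟩ : ∃ A : ℤ, A = X.num := ⟨_, rfl⟩
  obtain ⟨D, hD⟩ : ∃ D : ℤ, D = (X.den : ℤ) := ⟨_, rfl⟩
  have hDpos : 0 < D := by rw [hD]; exact_mod_cast X.den_pos
  have hDne : (D : ℚ) ≠ 0 := by exact_mod_cast hDpos.ne'
  have hXD : X * (D : ℚ) = A := by
    rw [hA, hD]
    exact_mod_cast Rat.mul_den_eq_num X
  have hcopAD : IsCoprime A D := by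
    rw [Int.isCoprime_iff_nat_coprime, hA, hD]
    simpa using X.reduced
  obtain ⟨M, hMdef⟩ : ∃ M : ℤ, M = A * (A - D) * (A - 81 * D) := ⟨_, rfl⟩
  have hM : ((D * M : ℤ) : ℚ) = (Y * (D : ℚ) ^ 2) ^ 2 := by
    rw [hMdef]
    push_cast
    rw [mul_pow, h, ← hXD]; ring
  have hsq : IsSquare (D * M) := by
    rw [← Rat.isSquare_intCast_iff, hM]; exact ⟨Y * (D : ℚ) ^ 2, by ring⟩
  obtain ⟨B₀, hB₀⟩ := hsq
  have hDM0 : D * M ≠ 0 := by
    intro h0
    have : ((D * M : ℤ) : ℚ) = 0 := by rw [h0]; simp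
    rw [hM] at this
    have := pow_eq_zero_iff (two_ne_zero) |>.1 this
    rcases mul_eq_zero.1 this with h1 | h1
    · exact hY h1
    · exact hDne (pow_eq_zero_iff (two_ne_zero) |>.1 h1)
  have hM0 : M ≠ 0 := fun h0 => hDM0 (by rw [h0, mul_zero])
  have hcopDM : IsCoprime D M := by
    have h1 : IsCoprime D A := hcopAD.symm
    have h2 : IsCoprime D (A - D) := by
      have := h1.add_mul_left_right (-1)
      have e : A + D * -1 = A - D := by ring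
      rwa [e] at this
    have h3 : IsCoprime D (A - 81 * D) := by
      have := h1.add_mul_left_right (-81)
      have e : A + D * -81 = A - 81 * D := by ring
      rwa [e] at this
    rw [hMdef]
    exact (h1.mul_right h2).mul_right h3
  obtain ⟨C₀, hC₀⟩ := exists_sq_of_coprime_mul_eq_sq hDpos hcopDM (by rw [hB₀]; ring)
  have hC₀ne : C₀ ≠ 0 := by
    rintro rfl
    simp at hC₀
    omega
  have hMpos : 0 < M := by
    have h1 : 0 < D * M := by
      have : 0 ≤ D * M := by rw [hB₀]; exact mul_self_nonneg _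
      exact lt_of_le_of_ne this (Ne.symm hDM0)
    exact (pos_iff_pos_of_mul_pos h1).1 hDpos
  obtain ⟨B, hBM⟩ := exists_sq_of_coprime_mul_eq_sq hMpos hcopDM.symm
    (by rw [mul_comm, hB₀]; ring)
  have hB0 : B ≠ 0 := by
    rintro rfl
    simp at hBM
    exact hM0 hBM
  refine ⟨A, |C₀|, B, abs_pos.2 hC₀ne, ?_, hB0, ?_, ?_⟩
  · have : IsCoprime A (C₀ ^ 2) := by rw [← hC₀]; exact hcopAD
    have h1 : IsCoprime A C₀ := (IsCoprime.pow_right_iff (by norm_num)).1 this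
    rcases abs_choice C₀ with h | h <;> rw [h]
    · exact h1
    · exact h1.neg_right
  · have e : ((|C₀| : ℤ) : ℚ) ^ 2 = (D : ℚ) := by
      rw [hC₀]; push_cast; rw [sq_abs]
    rw [e, ← hXD]; field_simp
  · rw [sq_abs, ← hC₀, ← hBM, hMdef]

/-- The rational class lemma. -/
lemma class_rat {X Y : ℚ} (hY : Y ≠ 0) (h : Y ^ 2 = X * (X - 1) * (X - 81)) :
    ∃ δ r s t : ℚ, (δ = 1 ∨ δ = -1 ∨ δ = 5 ∨ δ = -5) ∧ r ≠ 0 ∧ s ≠ 0 ∧ t ≠ 0 ∧
      X = r ^ 2 ∧ X - 1 = δ * s ^ 2 ∧ X - 81 = δ * t ^ 2 := by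
  obtain ⟨A, C, B, hC, hcop, hB, hX, heq⟩ := rat_to_int hY h
  obtain ⟨u, v, w, δ, hδ, hu0, hv0, hw0, hA, hb, hc⟩ := class_int hC hcop hB heq
  have hCq : (C : ℚ) ≠ 0 := by exact_mod_cast hC.ne'
  have hAq : (A : ℚ) = (u : ℚ) ^ 2 := by exact_mod_cast hA
  have hbq : (A : ℚ) - (C : ℚ) ^ 2 = (δ : ℚ) * (v : ℚ) ^ 2 := by exact_mod_cast hb
  have hcq : (A : ℚ) - 81 * (C : ℚ) ^ 2 = (δ : ℚ) * (w : ℚ) ^ 2 := by exact_mod_cast hc
  refine ⟨(δ : ℚ), (u : ℚ) / C, (v : ℚ) / C, (w : ℚ) / C, ?_, ?_, ?_, ?_, ?_, ?_, ?_⟩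
  · rcases hδ with h | h | h | h <;> simp [h]
  · exact div_ne_zero (by exact_mod_cast hu0) hCq
  · exact div_ne_zero (by exact_mod_cast hv0) hCq
  · exact div_ne_zero (by exact_mod_cast hw0) hCq
  · rw [hX, hAq]; field_simp
  · rw [hX]; field_simp; linarith
  · rw [hX]; field_simp; linarith

/-- `X`, `X - 1`, `X - 81` are all squares of positive rationals. -/
def AllSq (X : ℚ) : Prop :=
  ∃ r₁ r₂ r₃ : ℚ, 0 < r₁ ∧ 0 < r₂ ∧ 0 < r₃ ∧ X = r₁ ^ 2 ∧ X - 1 = r₂ ^ 2 ∧ X - 81 = r₃ ^ 2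

lemma allSq_of_sq {X a b c : ℚ} (ha : a ≠ 0) (hb : b ≠ 0) (hc : c ≠ 0)
    (h1 : X = a ^ 2) (h2 : X - 1 = b ^ 2) (h3 : X - 81 = c ^ 2) : AllSq X :=
  ⟨|a|, |b|, |c|, abs_pos.2 ha, abs_pos.2 hb, abs_pos.2 hc,
    by rw [sq_abs]; exact h1, by rw [sq_abs]; exact h2, by rw [sq_abs]; exact h3⟩

/-- A rational point with `Y ≠ 0` produces, after translation by a 2-torsion point, an element
of the all-squares set. -/
lemma allSq_of_point {X Y : ℚ} (hY : Y ≠ 0) (h : Y ^ 2 = X * (X - 1) * (X - 81)) :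
    ∃ X' : ℚ, AllSq X' ∧
      (X' = X ∨ X' = 81 / X ∨ X' = 81 * (X - 1) / (X - 81) ∨ X' = (X - 81) / (X - 1)) := by
  obtain ⟨δ, r, s, t, hδ, hr, hs, ht, h1, h2, h3⟩ := class_rat hY h
  have hX0 : X ≠ 0 := by rw [h1]; exact pow_ne_zero _ hr
  rcases hδ with rfl | rfl | rfl | rfl
  · exact ⟨X, allSq_of_sq hr hs ht h1 (by rw [h2]; ring) (by rw [h3]; ring), Or.inl rfl⟩
  · refine ⟨81 / X, allSq_of_sq (a := 9 / r) (b := t / r) (c := 9 * s / r)
      (by positivity) (div_ne_zero ht hr) (div_ne_zero (mul_ne_zero (by norm_num) hs) hr)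
      ?_ ?_ ?_, Or.inr (Or.inl rfl)⟩
    · rw [h1]; field_simp; norm_num
    · have : t ^ 2 = 81 - r ^ 2 := by rw [← h1]; linarith
      rw [h1]; field_simp; rw [this]
    · have : s ^ 2 = 1 - r ^ 2 := by rw [← h1]; linarith
      rw [h1]; field_simp; rw [this]; ring
  · have hX1 : X - 1 ≠ 0 := by rw [h2]; exact mul_ne_zero (by norm_num) (pow_ne_zero _ hs)
    have hX81 : X - 81 ≠ 0 := by rw [h3]; exact mul_ne_zero (by norm_num) (pow_ne_zero _ ht)
    refine ⟨81 * (X - 1) / (X - 81), allSq_of_sq (a := 9 * s / t) (b := 4 * r / t)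
      (c := 36 / t)
      (div_ne_zero (mul_ne_zero (by norm_num) hs) ht)
      (div_ne_zero (mul_ne_zero (by norm_num) hr) ht)
      (div_ne_zero (by norm_num) ht)
      ?_ ?_ ?_, Or.inr (Or.inr (Or.inl rfl))⟩
    · rw [h2, h3]; field_simp; norm_num
    · have e : 81 * (X - 1) / (X - 81) - 1 = 80 * X / (X - 81) := by
        field_simp; ring
      rw [e, h3, h1]; field_simp; norm_num
    · have e : 81 * (X - 1) / (X - 81) - 81 = 81 * 80 / (X - 81) := by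
        field_simp; ring
      rw [e, h3]; field_simp; norm_num
  · have hX1 : X - 1 ≠ 0 := by rw [h2]; exact mul_ne_zero (by norm_num) (pow_ne_zero _ hs)
    have hX81 : X - 81 ≠ 0 := by rw [h3]; exact mul_ne_zero (by norm_num) (pow_ne_zero _ ht)
    refine ⟨(X - 81) / (X - 1), allSq_of_sq (a := t / s) (b := 4 / s)
      (c := 4 * r / s)
      (div_ne_zero ht hs)
      (div_ne_zero (by norm_num) hs)
      (div_ne_zero (mul_ne_zero (by norm_num) hr) hs)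
      ?_ ?_ ?_, Or.inr (Or.inr (Or.inr rfl))⟩
    · rw [h2, h3]; field_simp
    · have e : (X - 81) / (X - 1) - 1 = -80 / (X - 1) := by
        field_simp; ring
      rw [e, h2]; field_simp; norm_num
    · have e : (X - 81) / (X - 1) - 81 = -80 * X / (X - 1) := by
        field_simp; ring
      rw [e, h2, h1]; field_simp; norm_num

lemma natAbs_num_le {X' : ℚ} {p q : ℤ} (hp : 0 < p) (hq : 0 < q) (h : X' = (p : ℚ) / q) :
    X'.num.natAbs ≤ p.natAbs := by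
  have h1 : (Rat.divInt p q).num ∣ p := Rat.num_dvd p hq.ne'
  rw [Rat.divInt_eq_div, ← h] at h1
  exact Nat.le_of_dvd (Int.natAbs_pos.2 hp.ne') (Int.natAbs_dvd_natAbs.2 h1)

section identities

variable {U V W K : ℚ}

lemma halfX_sub_one (hK : K ≠ 0) (h1 : U ^ 2 - K ^ 2 = V ^ 2) :
    (U / K + V / K) * (U / K + W / K) - 1 = (U + V) * (V + W) / K ^ 2 := by
  field_simp
  linear_combination h1

lemma halfX_sub_eightyone (hK : K ≠ 0) (h2 : U ^ 2 - 81 * K ^ 2 = W ^ 2) :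
    (U / K + V / K) * (U / K + W / K) - 81 = (U + W) * (V + W) / K ^ 2 := by
  field_simp
  linear_combination h2

lemma halfX_eq (hK : K ≠ 0) (hUV : U - V ≠ 0) (h1 : U ^ 2 - K ^ 2 = V ^ 2) :
    (U / K + V / K) * (U / K + W / K) = (U + W) / (U - V) := by
  field_simp
  linear_combination (U + W) * h1

lemma mobius_two (_hK : K ≠ 0) (hUV : U + V ≠ 0) (hUW : U + W ≠ 0)
    (h2 : U ^ 2 - 81 * K ^ 2 = W ^ 2) :
    81 / ((U / K + V / K) * (U / K + W / K)) = (U - W) / (U + V) := by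
  field_simp
  linear_combination (-1 : ℚ) * h2

lemma mobius_three (hK : K ≠ 0) (hUV : U - V ≠ 0) (hUW : U + W ≠ 0) (hVW : V + W ≠ 0)
    (h1 : U ^ 2 - K ^ 2 = V ^ 2) (h2 : U ^ 2 - 81 * K ^ 2 = W ^ 2) :
    81 * ((U / K + V / K) * (U / K + W / K) - 1) / ((U / K + V / K) * (U / K + W / K) - 81)
      = (U - W) / (U - V) := by
  rw [halfX_sub_one hK h1, halfX_sub_eightyone hK h2]
  field_simp
  linear_combination (81 : ℚ) * h1 - h2

lemma mobius_four (hK : K ≠ 0) (hUV : U + V ≠ 0) (hVW : V + W ≠ 0)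
    (h1 : U ^ 2 - K ^ 2 = V ^ 2) (h2 : U ^ 2 - 81 * K ^ 2 = W ^ 2) :
    ((U / K + V / K) * (U / K + W / K) - 81) / ((U / K + V / K) * (U / K + W / K) - 1)
      = (U + W) / (U + V) := by
  rw [halfX_sub_one hK h1, halfX_sub_eightyone hK h2]
  field_simp

end identities

/-- integer square root extraction: if `(r * C)^2` is the integer `n` with `r, C > 0` then
`r = v / C` for a positive integer `v` with `v^2 = n`. -/
lemma exists_int_root {r : ℚ} {C n : ℤ} (hr : 0 < r) (hC : 0 < C)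
    (h : ((n : ℤ) : ℚ) = (r * C) ^ 2) :
    ∃ v : ℤ, 0 < v ∧ r = (v : ℚ) / C ∧ n = v ^ 2 := by
  have hCq : (0 : ℚ) < C := by exact_mod_cast hC
  have hsq : IsSquare n := by
    rw [← Rat.isSquare_intCast_iff, h]; exact ⟨r * C, by ring⟩
  obtain ⟨v₀, hv₀⟩ := hsq
  have hrC : 0 < r * C := mul_pos hr hCq
  have hv₀ne : v₀ ≠ 0 := by
    intro hz
    have hn0 : n = 0 := by rw [hv₀, hz]; ring
    rw [hn0] at h
    have h0 : (r * C) ^ 2 = 0 := by rw [← h]; simp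
    exact hrC.ne' ((pow_eq_zero_iff two_ne_zero).1 h0)
  refine ⟨|v₀|, abs_pos.2 hv₀ne, ?_, by rw [sq_abs, hv₀]; ring⟩
  have h2 : (r * C) ^ 2 = ((|v₀| : ℤ) : ℚ) ^ 2 := by
    rw [← h, hv₀]; push_cast; rw [sq_abs]; ring
  have h3 : r * C = ((|v₀| : ℤ) : ℚ) := by
    have hnn : (0 : ℚ) ≤ ((|v₀| : ℤ) : ℚ) := by exact_mod_cast abs_nonneg v₀
    exact (sq_eq_sq₀ hrC.le hnn).1 h2
  rw [← h3]; field_simp

/-- The descent step. -/
lemma descent_step {X : ℚ} (hX : AllSq X) :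
    ∃ X' : ℚ, AllSq X' ∧ X'.num.natAbs < X.num.natAbs := by
  obtain ⟨r₁, r₂, r₃, hr₁, hr₂, hr₃, h1, h2, h3⟩ := hX
  obtain ⟨u, hu⟩ : ∃ u : ℤ, u = r₁.num := ⟨_, rfl⟩
  obtain ⟨C, hC⟩ : ∃ C : ℤ, C = (r₁.den : ℤ) := ⟨_, rfl⟩
  have hCpos : 0 < C := by rw [hC]; exact_mod_cast r₁.den_pos
  have hupos : 0 < u := by rw [hu]; exact Rat.num_pos.2 hr₁
  have hCq : (0 : ℚ) < C := by exact_mod_cast hCpos
  have huq : (0 : ℚ) < u := by exact_mod_cast hupos
  have hr₁eq : r₁ = (u : ℚ) / C := by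
    rw [hu, hC]; exact_mod_cast (Rat.num_div_den r₁).symm
  have hr₂sq : r₂ ^ 2 = r₁ ^ 2 - 1 := by linarith
  have hr₃sq : r₃ ^ 2 = r₁ ^ 2 - 81 := by linarith
  obtain ⟨v, hvpos, hr₂eq, hv⟩ := exists_int_root (n := u ^ 2 - C ^ 2) hr₂ hCpos (by
    push_cast; rw [mul_pow, hr₂sq, hr₁eq]; field_simp)
  obtain ⟨w, hwpos, hr₃eq, hw⟩ := exists_int_root (n := u ^ 2 - 81 * C ^ 2) hr₃ hCpos (by
    push_cast; rw [mul_pow, hr₃sq, hr₁eq]; field_simp)
  have hvq : (0 : ℚ) < v := by exact_mod_cast hvpos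
  have hwq : (0 : ℚ) < w := by exact_mod_cast hwpos
  have hvu : v < u := by
    by_contra hcon
    have hcon' : u ≤ v := not_lt.mp hcon
    have : u ^ 2 ≤ v ^ 2 := pow_le_pow_left₀ hupos.le hcon' 2
    have hC2 : 0 < C ^ 2 := by positivity
    linarith
  have hwu : w < u := by
    by_contra hcon
    have hcon' : u ≤ w := not_lt.mp hcon
    have : u ^ 2 ≤ w ^ 2 := pow_le_pow_left₀ hupos.le hcon' 2
    have hC2 : 0 < C ^ 2 := by positivity
    linarith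
  have hu2 : 2 ≤ u := by
    by_contra hcon
    have hu1 : u = 1 := by omega
    rw [hu1] at hv
    have hC2 : 1 ≤ C ^ 2 := by nlinarith
    have hv2 : 1 ≤ v ^ 2 := by nlinarith
    linarith
  have hrel1 : (u : ℚ) ^ 2 - (C : ℚ) ^ 2 = (v : ℚ) ^ 2 := by exact_mod_cast hv
  have hrel2 : (u : ℚ) ^ 2 - 81 * (C : ℚ) ^ 2 = (w : ℚ) ^ 2 := by exact_mod_cast hw
  have hUV : (u : ℚ) - v ≠ 0 := by
    have : (v : ℚ) < u := by exact_mod_cast hvu
    linarith
  have hUW : (u : ℚ) + w ≠ 0 := by positivity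
  have hUV' : (u : ℚ) + v ≠ 0 := by positivity
  have hVW : (v : ℚ) + w ≠ 0 := by positivity
  -- the halved point
  have hY₁ : (r₁ + r₂) * (r₁ + r₃) * (r₂ + r₃) ≠ 0 := by positivity
  have hcurve : ((r₁ + r₂) * (r₁ + r₃) * (r₂ + r₃)) ^ 2 =
      ((r₁ + r₂) * (r₁ + r₃)) * ((r₁ + r₂) * (r₁ + r₃) - 1) * ((r₁ + r₂) * (r₁ + r₃) - 81) := by
    have e1 : (r₁ + r₂) * (r₁ + r₃) - 1 = (r₁ + r₂) * (r₂ + r₃) := by
      linear_combination (-1 : ℚ) * hr₂sq
    have e2 : (r₁ + r₂) * (r₁ + r₃) - 81 = (r₁ + r₃) * (r₂ + r₃) := by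
      linear_combination (-1 : ℚ) * hr₃sq
    rw [e1, e2]; ring
  obtain ⟨X', hX', hcases⟩ := allSq_of_point hY₁ hcurve
  refine ⟨X', hX', ?_⟩
  have hXnum : X.num.natAbs = (u ^ 2).natAbs := by
    rw [h1, Rat.num_pow, hu]
  rw [hXnum]
  have hkey : ∀ p : ℤ, 0 < p → p < 2 * u → p.natAbs < (u ^ 2).natAbs := by
    intro p hp hlt
    have h2u : 2 * u ≤ u ^ 2 := by nlinarith
    omega
  rw [hr₁eq, hr₂eq, hr₃eq] at hcases
  rcases hcases with h | h | h | h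
  · rw [halfX_eq hCq.ne' hUV hrel1] at h
    have hle := natAbs_num_le (X' := X') (p := u + w) (q := u - v) (by omega) (by omega)
      (by rw [h]; push_cast; ring)
    exact lt_of_le_of_lt hle (hkey _ (by omega) (by omega))
  · rw [mobius_two hCq.ne' hUV' hUW hrel2] at h
    have hle := natAbs_num_le (X' := X') (p := u - w) (q := u + v) (by omega) (by omega)
      (by rw [h]; push_cast; ring)
    exact lt_of_le_of_lt hle (hkey _ (by omega) (by omega))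
  · rw [mobius_three hCq.ne' hUV hUW hVW hrel1 hrel2] at h
    have hle := natAbs_num_le (X' := X') (p := u - w) (q := u - v) (by omega) (by omega)
      (by rw [h]; push_cast; ring)
    exact lt_of_le_of_lt hle (hkey _ (by omega) (by omega))
  · rw [mobius_four hCq.ne' hUV' hVW hrel1 hrel2] at h
    have hle := natAbs_num_le (X' := X') (p := u + w) (q := u + v) (by omega) (by omega)
      (by rw [h]; push_cast; ring)
    exact lt_of_le_of_lt hle (hkey _ (by omega) (by omega))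

/-- The all-squares set is empty. -/
theorem not_allSq (X : ℚ) : ¬ AllSq X := by
  suffices H : ∀ n : ℕ, ∀ X : ℚ, X.num.natAbs = n → ¬ AllSq X from H _ X rfl
  intro n
  induction n using Nat.strong_induction_on with
  | _ n ih =>
    intro X hn hX
    obtain ⟨X', hX', hlt⟩ := descent_step hX
    exact ih _ (hn ▸ hlt) X' rfl hX'

/-- **Descent (D1)**: the elliptic curve `Y² = X (X - 1) (X - 81)` (Cremona `15a2`) has no rational
points besides its 2-torsion points. -/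
theorem rational_points_15a2 (X Y : ℚ) (h : Y ^ 2 = X * (X - 1) * (X - 81)) : Y = 0 := by
  by_contra hY
  obtain ⟨X', hX', -⟩ := allSq_of_point hY h
  exact not_allSq X' hX'

end Fermat.Agent.S51.H42
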