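/-
Sub-lemma (D1) of the S51 plan (helper45): the elliptic curve `Y^2 = X (X - 1) (X - 81)`
(a model of X_0(15)) has no rational points with `Y ≠ 0`.

Proof: complete 2-descent, written out in elementary terms.
* `num_isSquare`, `second_factor`: local analysis at 2, 3, 5 of an integral point
  `m (m - e^2) (m - 81 e^2) = k^2`: `m` is a square and `m - e^2` is `±1, ±5` times a square.
* `translate_sq3`: hence some translate of the point by a 2-torsion point has all of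
  `X`, `X - 1`, `X - 81` squares (`Sq3`).
* `descent`: a point with `Sq3` is twice a point, a translate of which has `Sq3` again and a
  strictly smaller denominator (`den_lt`).
* `not_sq3`, `not_sol`, `eq_zero_of_sq_eq`: infinite descent.
-/
import Mathlib

set_option autoImplicit false

namespace Fermat.Agent.S51.H56


lemma sq_of_pm_sq_of_pos {x : ℤ} (hx : 0 < x) (h : ∃ a : ℤ, x = a ^ 2 ∨ x = -a ^ 2) :
    ∃ a : ℤ, x = a ^ 2 := by
  obtain ⟨a, ha | ha⟩ := h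
  · exact ⟨a, ha⟩
  · exfalso
    have : 0 ≤ a ^ 2 := sq_nonneg a
    omega

lemma mod3_obstruction (x y z : ℤ) (hx : ¬ (3 : ℤ) ∣ x) (hy : ¬ (3 : ℤ) ∣ y)
    (B C : ℤ) (hB : B ≡ - y ^ 2 [ZMOD 3]) (hC : C ≡ x [ZMOD 3]) (h : x * B * C = z ^ 2) : False := by
  have hx' : (x : ZMod 3) ≠ 0 := by
    rwa [Ne, ZMod.intCast_zmod_eq_zero_iff_dvd]
  have hy' : (y : ZMod 3) ≠ 0 := by
    rwa [Ne, ZMod.intCast_zmod_eq_zero_iff_dvd]
  have hB' : (B : ZMod 3) = - (y : ZMod 3) ^ 2 := by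
    have := (ZMod.intCast_eq_intCast_iff B (-y^2) 3).mpr hB
    simpa using this
  have hC' : (C : ZMod 3) = (x : ZMod 3) := by
    exact (ZMod.intCast_eq_intCast_iff C x 3).mpr hC
  have h' : (x : ZMod 3) * B * C = (z : ZMod 3) ^ 2 := by
    have := congrArg (Int.cast : ℤ → ZMod 3) h
    simpa using this
  rw [hB', hC'] at h'
  revert hx' hy' h'
  generalize (x : ZMod 3) = x'
  generalize (y : ZMod 3) = y'
  generalize (z : ZMod 3) = z'
  revert x' y' z'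
  decide

/-- coprime factor of a square which is positive is a square -/
lemma sq_of_coprime_of_pos {μ B D κ : ℤ} (hμ : 0 < μ) (hB : IsCoprime μ B) (hD : IsCoprime μ D)
    (h : μ * B * D = κ ^ 2) : ∃ a : ℤ, μ = a ^ 2 := by
  have hc : IsCoprime μ (B * D) := hB.mul_right hD
  have h' : μ * (B * D) = κ ^ 2 := by rw [← h]; ring
  exact sq_of_pm_sq_of_pos hμ (Int.sq_of_isCoprime hc h')

lemma three_dvd_of_nine_mul_eq_sq {t κ : ℤ} (h : 9 * t = κ ^ 2) : ∃ κ' : ℤ, κ = 3 * κ' ∧ t = κ' ^ 2 := by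
  have h3 : (3 : ℤ) ∣ κ ^ 2 := ⟨3 * t, by rw [← h]; ring⟩
  have h3' : (3 : ℤ) ∣ κ := Int.prime_three.dvd_of_dvd_pow h3
  obtain ⟨κ', rfl⟩ := h3'
  refine ⟨κ', rfl, ?_⟩
  have : 9 * t = 9 * κ' ^ 2 := by rw [h]; ring
  linarith

lemma isCoprime_sub_self_mul {μ x : ℤ} (c : ℤ) (h : IsCoprime μ x) : IsCoprime μ (c * μ - x) := by
  have h1 : IsCoprime μ (-x) := h.neg_right
  have h2 := h1.add_mul_left_right c
  have : -x + μ * c = c * μ - x := by ring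
  rwa [this] at h2

theorem num_isSquare (m e k : ℤ) (hcop : IsCoprime m e) (hk : k ≠ 0)
    (h : m * (m - e ^ 2) * (m - 81 * e ^ 2) = k ^ 2) : ∃ a : ℤ, m = a ^ 2 := by
  -- positivity of m
  have hkpos : 0 < k ^ 2 := by positivity
  have hm : 0 < m := by
    by_contra hm'
    have hm : m ≤ 0 := not_lt.mp hm'
    have hB : m - e ^ 2 ≤ 0 := by nlinarith [sq_nonneg e]
    have hC : m - 81 * e ^ 2 ≤ 0 := by nlinarith [sq_nonneg e]
    have h1 : 0 ≤ m * (m - e ^ 2) := mul_nonneg_of_nonpos_of_nonpos hm hB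
    have h2 : m * (m - e ^ 2) * (m - 81 * e ^ 2) ≤ 0 := mul_nonpos_of_nonneg_of_nonpos h1 hC
    linarith
  have hcop2 : IsCoprime m (e ^ 2) := hcop.pow_right
  by_cases h3 : (3 : ℤ) ∣ m
  swap
  · -- 3 ∤ m : m coprime to everything
    have hc3 : IsCoprime m 3 := (Int.prime_three.coprime_iff_not_dvd.mpr h3).symm
    have hc81 : IsCoprime m (81 * e ^ 2) := by
      have : IsCoprime m (3 ^ 4 : ℤ) := hc3.pow_right
      have h81 : (81 : ℤ) = 3 ^ 4 := by norm_num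
      rw [h81]
      exact this.mul_right hcop2
    have hB : IsCoprime m (m - e ^ 2) := by
      have := isCoprime_sub_self_mul 1 hcop2
      simpa using this
    have hC : IsCoprime m (m - 81 * e ^ 2) := by
      have := isCoprime_sub_self_mul 1 hc81
      simpa using this
    exact sq_of_coprime_of_pos hm hB hC h
  · obtain ⟨m₁, rfl⟩ := h3
    have he3 : ¬ (3 : ℤ) ∣ e := by
      intro he3
      have : IsUnit (3 : ℤ) := hcop.isUnit_of_dvd' (dvd_mul_right 3 m₁) he3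
      rw [Int.isUnit_iff] at this
      omega
    have hm₁ : 0 < m₁ := by linarith
    have hcop₁ : IsCoprime m₁ e := hcop.of_mul_left_right
    have hcop₁2 : IsCoprime m₁ (e ^ 2) := hcop₁.pow_right
    -- reduce the equation
    have hred : 9 * (m₁ * (3 * m₁ - e ^ 2) * (m₁ - 27 * e ^ 2)) = k ^ 2 := by rw [← h]; ring
    obtain ⟨k₁, -, hk₁⟩ := three_dvd_of_nine_mul_eq_sq hred
    by_cases h3₁ : (3 : ℤ) ∣ m₁
    swap
    · exfalso
      refine mod3_obstruction m₁ e k₁ h3₁ he3 (3 * m₁ - e ^ 2) (m₁ - 27 * e ^ 2) ?_ ?_ hk₁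
      · exact (Int.modEq_iff_dvd.mpr ⟨-m₁, by ring⟩)
      · exact (Int.modEq_iff_dvd.mpr ⟨9 * e ^ 2, by ring⟩)
    · obtain ⟨m₂, rfl⟩ := h3₁
      have hm₂ : 0 < m₂ := by linarith
      have hcop₂ : IsCoprime m₂ e := hcop₁.of_mul_left_right
      have hcop₂2 : IsCoprime m₂ (e ^ 2) := hcop₂.pow_right
      have hred₂ : 9 * (m₂ * (9 * m₂ - e ^ 2) * (m₂ - 9 * e ^ 2)) = k₁ ^ 2 := by rw [← hk₁]; ring
      obtain ⟨k₂, -, hk₂⟩ := three_dvd_of_nine_mul_eq_sq hred₂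
      by_cases h3₂ : (3 : ℤ) ∣ m₂
      swap
      · have hc3 : IsCoprime m₂ 3 := (Int.prime_three.coprime_iff_not_dvd.mpr h3₂).symm
        have hc9 : IsCoprime m₂ (9 * e ^ 2) := by
          have : IsCoprime m₂ (3 ^ 2 : ℤ) := hc3.pow_right
          have h9 : (9 : ℤ) = 3 ^ 2 := by norm_num
          rw [h9]
          exact this.mul_right hcop₂2
        have hB : IsCoprime m₂ (9 * m₂ - e ^ 2) := isCoprime_sub_self_mul 9 hcop₂2
        have hC : IsCoprime m₂ (m₂ - 9 * e ^ 2) := by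
          have := isCoprime_sub_self_mul 1 hc9
          simpa using this
        obtain ⟨a, ha⟩ := sq_of_coprime_of_pos hm₂ hB hC hk₂
        exact ⟨3 * a, by rw [ha]; ring⟩
      · obtain ⟨m₃, rfl⟩ := h3₂
        have hm₃ : 0 < m₃ := by linarith
        have hcop₃ : IsCoprime m₃ e := hcop₂.of_mul_left_right
        have hcop₃2 : IsCoprime m₃ (e ^ 2) := hcop₃.pow_right
        have hred₃ : 9 * (m₃ * (27 * m₃ - e ^ 2) * (m₃ - 3 * e ^ 2)) = k₂ ^ 2 := by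
          rw [← hk₂]; ring
        obtain ⟨k₃, -, hk₃⟩ := three_dvd_of_nine_mul_eq_sq hred₃
        by_cases h3₃ : (3 : ℤ) ∣ m₃
        swap
        · exfalso
          refine mod3_obstruction m₃ e k₃ h3₃ he3 (27 * m₃ - e ^ 2) (m₃ - 3 * e ^ 2) ?_ ?_ hk₃
          · exact (Int.modEq_iff_dvd.mpr ⟨-(9 * m₃), by ring⟩)
          · exact (Int.modEq_iff_dvd.mpr ⟨e ^ 2, by ring⟩)
        · obtain ⟨m₄, rfl⟩ := h3₃
          have hm₄ : 0 < m₄ := by linarith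
          have hcop₄ : IsCoprime m₄ e := hcop₃.of_mul_left_right
          have hcop₄2 : IsCoprime m₄ (e ^ 2) := hcop₄.pow_right
          have hred₄ : 9 * (m₄ * (81 * m₄ - e ^ 2) * (m₄ - e ^ 2)) = k₃ ^ 2 := by
            rw [← hk₃]; ring
          obtain ⟨k₄, -, hk₄⟩ := three_dvd_of_nine_mul_eq_sq hred₄
          have hB : IsCoprime m₄ (81 * m₄ - e ^ 2) := isCoprime_sub_self_mul 81 hcop₄2
          have hC : IsCoprime m₄ (m₄ - e ^ 2) := by
            have := isCoprime_sub_self_mul 1 hcop₄2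
            simpa using this
          obtain ⟨a, ha⟩ := sq_of_coprime_of_pos hm₄ hB hC hk₄
          exact ⟨9 * a, by rw [ha]; ring⟩


lemma odd_sq_mod_eight (n : ℤ) (h : ¬ (2 : ℤ) ∣ n) : n ^ 2 % 8 = 1 := by
  have h8 : n % 8 = 1 ∨ n % 8 = 3 ∨ n % 8 = 5 ∨ n % 8 = 7 := by omega
  rcases h8 with h8 | h8 | h8 | h8 <;> simp [pow_two, Int.mul_emod, h8]

lemma odd_of_coprime_of_even_sub {a e : ℤ} (hcop : IsCoprime a e) (h : (2 : ℤ) ∣ a ^ 2 - e ^ 2) :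
    ¬ (2 : ℤ) ∣ a ∧ ¬ (2 : ℤ) ∣ e := by
  have key : ¬ ((2 : ℤ) ∣ a ∧ (2 : ℤ) ∣ e) := by
    rintro ⟨ha, he⟩
    have : IsUnit (2 : ℤ) := hcop.isUnit_of_dvd' ha he
    rw [Int.isUnit_iff] at this
    omega
  constructor
  · intro ha
    apply key
    refine ⟨ha, ?_⟩
    have h2 : (2 : ℤ) ∣ a ^ 2 := dvd_pow ha (by norm_num)
    have h3 : (2 : ℤ) ∣ e ^ 2 := by
      have := dvd_sub h2 h
      simpa using this
    exact Int.prime_two.dvd_of_dvd_pow h3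
  · intro he
    apply key
    refine ⟨?_, he⟩
    have h2 : (2 : ℤ) ∣ e ^ 2 := dvd_pow he (by norm_num)
    have h3 : (2 : ℤ) ∣ a ^ 2 := by
      have := dvd_add h h2
      simpa using this
    exact Int.prime_two.dvd_of_dvd_pow h3

lemma dvd_eighty_cases {g : ℕ} (h : g ∣ 80) :
    g = 1 ∨ g = 2 ∨ g = 4 ∨ g = 5 ∨ g = 8 ∨ g = 10 ∨ g = 16 ∨ g = 20 ∨ g = 40 ∨ g = 80 := by
  have hle : g ≤ 80 := Nat.le_of_dvd (by norm_num) h
  interval_cases g <;> omega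

theorem second_factor (a e κ : ℤ) (hcop : IsCoprime a e) (hκ : κ ≠ 0)
    (h : (a ^ 2 - e ^ 2) * (a ^ 2 - 81 * e ^ 2) = κ ^ 2) :
    ∃ b : ℤ, a ^ 2 - e ^ 2 = b ^ 2 ∨ a ^ 2 - e ^ 2 = -b ^ 2 ∨ a ^ 2 - e ^ 2 = 5 * b ^ 2 ∨
      a ^ 2 - e ^ 2 = -(5 * b ^ 2) := by
  set B := a ^ 2 - e ^ 2 with hBdef
  set C := a ^ 2 - 81 * e ^ 2 with hCdef
  have hκpos : 0 < κ ^ 2 := by positivity
  have hB0 : B ≠ 0 := by
    rintro hB0
    rw [hB0, zero_mul] at h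
    exact hκ (pow_eq_zero_iff (two_ne_zero) |>.mp h.symm)
  have hBC : B - C = 80 * e ^ 2 := by rw [hBdef, hCdef]; ring
  have hBe : IsCoprime B (e ^ 2) := by
    have h1 : IsCoprime (a ^ 2) (e ^ 2) := hcop.pow
    have h2 : IsCoprime (e ^ 2) (a ^ 2) := h1.symm
    have h3 : IsCoprime (e ^ 2) (a ^ 2 + e ^ 2 * (-1)) := h2.add_mul_left_right (-1)
    have : a ^ 2 + e ^ 2 * (-1) = B := by rw [hBdef]; ring
    rw [this] at h3
    exact h3.symm
  -- the gcd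
  set g : ℕ := Int.gcd B C with hgdef
  have hgB : (g : ℤ) ∣ B := Int.gcd_dvd_left B C
  have hgC : (g : ℤ) ∣ C := Int.gcd_dvd_right B C
  have hgpos : 0 < g := Int.gcd_pos_of_ne_zero_left C hB0
  have hg80' : (g : ℤ) ∣ 80 * e ^ 2 := by rw [← hBC]; exact dvd_sub hgB hgC
  have hge : IsCoprime (g : ℤ) (e ^ 2) := IsCoprime.of_isCoprime_of_dvd_left hBe hgB
  have hg80 : (g : ℤ) ∣ 80 := hge.dvd_of_dvd_mul_right hg80'
  have hg80n : g ∣ 80 := by exact_mod_cast hg80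
  obtain ⟨B₁, hB₁⟩ := hgB
  obtain ⟨C₁, hC₁⟩ := hgC
  have hg0 : (g : ℤ) ≠ 0 := by exact_mod_cast hgpos.ne'
  have hcop₁ : Int.gcd B₁ C₁ = 1 := by
    have := Int.gcd_div_gcd_div_gcd (i := B) (j := C) hgpos
    rw [← hgdef] at this
    have e1 : B / (g : ℤ) = B₁ := by rw [hB₁]; exact Int.mul_ediv_cancel_left _ hg0
    have e2 : C / (g : ℤ) = C₁ := by rw [hC₁]; exact Int.mul_ediv_cancel_left _ hg0
    rwa [e1, e2] at this
  -- g ∣ κ
  have hgκ : (g : ℤ) ∣ κ := by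
    have : (g : ℤ) ^ 2 ∣ κ ^ 2 := ⟨B₁ * C₁, by rw [← h, hB₁, hC₁]; ring⟩
    exact (Int.pow_dvd_pow_iff (by norm_num)).mp this
  obtain ⟨κ₁, hκ₁⟩ := hgκ
  have hκ₁0 : κ₁ ≠ 0 := by rintro rfl; rw [mul_zero] at hκ₁; exact hκ hκ₁
  have hprod : B₁ * C₁ = κ₁ ^ 2 := by
    have : (g : ℤ) ^ 2 * (B₁ * C₁) = (g : ℤ) ^ 2 * κ₁ ^ 2 := by
      rw [← mul_pow, ← hκ₁, ← h, hB₁, hC₁]; ring
    exact mul_left_cancel₀ (pow_ne_zero 2 hg0) this
  have hprod' : C₁ * B₁ = κ₁ ^ 2 := by rw [mul_comm]; exact hprod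
  have hcop₁' : Int.gcd C₁ B₁ = 1 := by rw [Int.gcd_comm]; exact hcop₁
  obtain ⟨b₁, hb₁⟩ := Int.sq_of_gcd_eq_one hcop₁ hprod
  obtain ⟨c₁, hc₁⟩ := Int.sq_of_gcd_eq_one hcop₁' hprod'
  have hκ₁pos : 0 < κ₁ ^ 2 := by positivity
  have hdiff : (g : ℤ) * (B₁ - C₁) = 80 * e ^ 2 := by rw [← hBC, hB₁, hC₁]; ring
  -- parity facts in the even case
  have heven : (2 : ℤ) ∣ (g : ℤ) → False ∨ True := fun _ => Or.inr trivial
  have hnot_both_even : ¬ ((2 : ℤ) ∣ B₁ ∧ (2 : ℤ) ∣ C₁) := by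
    rintro ⟨h1, h2⟩
    have := Int.dvd_gcd h1 h2
    rw [hcop₁] at this
    norm_num at this
  rcases dvd_eighty_cases hg80n with hg | hg | hg | hg | hg | hg | hg | hg | hg | hg
  · -- g = 1
    rw [hg] at hB₁
    rcases hb₁ with hb | hb
    · exact ⟨b₁, Or.inl (by rw [hB₁, hb]; ring)⟩
    · exact ⟨b₁, Or.inr (Or.inl (by rw [hB₁, hb]; ring))⟩
  · -- g = 2 : impossible
    exfalso
    rw [hg] at hB₁ hC₁
    have h2B : (2 : ℤ) ∣ a ^ 2 - e ^ 2 := ⟨B₁, by rw [← hBdef, hB₁]; norm_num⟩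
    obtain ⟨hao, heo⟩ := odd_of_coprime_of_even_sub hcop h2B
    have ha8 := odd_sq_mod_eight a hao
    have he8 := odd_sq_mod_eight e heo
    apply hnot_both_even
    constructor
    · have : (2 : ℤ) * B₁ = a ^ 2 - e ^ 2 := by rw [← hBdef, hB₁]; norm_num
      omega
    · have : (2 : ℤ) * C₁ = a ^ 2 - 81 * e ^ 2 := by rw [← hCdef, hC₁]; norm_num
      omega
  · -- g = 4
    rw [hg] at hB₁
    rcases hb₁ with hb | hb
    · exact ⟨2 * b₁, Or.inl (by rw [hB₁, hb]; push_cast; ring)⟩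
    · exact ⟨2 * b₁, Or.inr (Or.inl (by rw [hB₁, hb]; push_cast; ring))⟩
  · -- g = 5
    rw [hg] at hB₁
    rcases hb₁ with hb | hb
    · exact ⟨b₁, Or.inr (Or.inr (Or.inl (by rw [hB₁, hb]; push_cast; ring)))⟩
    · exact ⟨b₁, Or.inr (Or.inr (Or.inr (by rw [hB₁, hb]; push_cast; ring)))⟩
  · -- g = 8 : impossible
    exfalso
    rw [hg] at hB₁ hC₁ hdiff
    have h2B : (2 : ℤ) ∣ a ^ 2 - e ^ 2 := ⟨4 * B₁, by rw [← hBdef, hB₁]; push_cast; ring⟩
    obtain ⟨hao, heo⟩ := odd_of_coprime_of_even_sub hcop h2B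
    have he8 := odd_sq_mod_eight e heo
    have hd : B₁ - C₁ = 10 * e ^ 2 := by push_cast at hdiff; linarith
    have hB₁odd : ¬ (2 : ℤ) ∣ B₁ := by
      intro hB₁e
      apply hnot_both_even
      exact ⟨hB₁e, by omega⟩
    have hC₁odd : ¬ (2 : ℤ) ∣ C₁ := by omega
    rcases hb₁ with hb | hb <;> rcases hc₁ with hc | hc
    · have hbo : ¬ (2 : ℤ) ∣ b₁ := fun hh => hB₁odd (by rw [hb]; exact dvd_pow hh (by norm_num))
      have hco : ¬ (2 : ℤ) ∣ c₁ := fun hh => hC₁odd (by rw [hc]; exact dvd_pow hh (by norm_num))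
      have := odd_sq_mod_eight b₁ hbo
      have := odd_sq_mod_eight c₁ hco
      omega
    · have : B₁ * C₁ ≤ 0 := by
        rw [hb, hc]; nlinarith [sq_nonneg b₁, sq_nonneg c₁, mul_nonneg (sq_nonneg b₁) (sq_nonneg c₁)]
      linarith
    · have : B₁ * C₁ ≤ 0 := by
        rw [hb, hc]; nlinarith [sq_nonneg b₁, sq_nonneg c₁, mul_nonneg (sq_nonneg b₁) (sq_nonneg c₁)]
      linarith
    · have hbo : ¬ (2 : ℤ) ∣ b₁ := fun hh => hB₁odd (by rw [hb]; exact (dvd_pow hh (by norm_num)).neg_right)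
      have hco : ¬ (2 : ℤ) ∣ c₁ := fun hh => hC₁odd (by rw [hc]; exact (dvd_pow hh (by norm_num)).neg_right)
      have := odd_sq_mod_eight b₁ hbo
      have := odd_sq_mod_eight c₁ hco
      omega
  · -- g = 10 : impossible
    exfalso
    rw [hg] at hB₁ hC₁
    have h2B : (2 : ℤ) ∣ a ^ 2 - e ^ 2 := ⟨5 * B₁, by rw [← hBdef, hB₁]; push_cast; ring⟩
    obtain ⟨hao, heo⟩ := odd_of_coprime_of_even_sub hcop h2B
    have ha8 := odd_sq_mod_eight a hao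
    have he8 := odd_sq_mod_eight e heo
    apply hnot_both_even
    constructor
    · have : (10 : ℤ) * B₁ = a ^ 2 - e ^ 2 := by rw [← hBdef, hB₁]; norm_num
      omega
    · have : (10 : ℤ) * C₁ = a ^ 2 - 81 * e ^ 2 := by rw [← hCdef, hC₁]; norm_num
      omega
  · -- g = 16
    rw [hg] at hB₁
    rcases hb₁ with hb | hb
    · exact ⟨4 * b₁, Or.inl (by rw [hB₁, hb]; push_cast; ring)⟩
    · exact ⟨4 * b₁, Or.inr (Or.inl (by rw [hB₁, hb]; push_cast; ring))⟩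
  · -- g = 20
    rw [hg] at hB₁
    rcases hb₁ with hb | hb
    · exact ⟨2 * b₁, Or.inr (Or.inr (Or.inl (by rw [hB₁, hb]; push_cast; ring)))⟩
    · exact ⟨2 * b₁, Or.inr (Or.inr (Or.inr (by rw [hB₁, hb]; push_cast; ring)))⟩
  · -- g = 40 : impossible
    exfalso
    rw [hg] at hB₁ hC₁ hdiff
    have h2B : (2 : ℤ) ∣ a ^ 2 - e ^ 2 := ⟨20 * B₁, by rw [← hBdef, hB₁]; push_cast; ring⟩
    obtain ⟨hao, heo⟩ := odd_of_coprime_of_even_sub hcop h2B
    have he8 := odd_sq_mod_eight e heo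
    have hd : B₁ - C₁ = 2 * e ^ 2 := by push_cast at hdiff; linarith
    have hB₁odd : ¬ (2 : ℤ) ∣ B₁ := by
      intro hB₁e
      apply hnot_both_even
      exact ⟨hB₁e, by omega⟩
    have hC₁odd : ¬ (2 : ℤ) ∣ C₁ := by omega
    rcases hb₁ with hb | hb <;> rcases hc₁ with hc | hc
    · have hbo : ¬ (2 : ℤ) ∣ b₁ := fun hh => hB₁odd (by rw [hb]; exact dvd_pow hh (by norm_num))
      have hco : ¬ (2 : ℤ) ∣ c₁ := fun hh => hC₁odd (by rw [hc]; exact dvd_pow hh (by norm_num))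
      have := odd_sq_mod_eight b₁ hbo
      have := odd_sq_mod_eight c₁ hco
      omega
    · have : B₁ * C₁ ≤ 0 := by
        rw [hb, hc]; nlinarith [sq_nonneg b₁, sq_nonneg c₁, mul_nonneg (sq_nonneg b₁) (sq_nonneg c₁)]
      linarith
    · have : B₁ * C₁ ≤ 0 := by
        rw [hb, hc]; nlinarith [sq_nonneg b₁, sq_nonneg c₁, mul_nonneg (sq_nonneg b₁) (sq_nonneg c₁)]
      linarith
    · have hbo : ¬ (2 : ℤ) ∣ b₁ := fun hh => hB₁odd (by rw [hb]; exact (dvd_pow hh (by norm_num)).neg_right)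
      have hco : ¬ (2 : ℤ) ∣ c₁ := fun hh => hC₁odd (by rw [hc]; exact (dvd_pow hh (by norm_num)).neg_right)
      have := odd_sq_mod_eight b₁ hbo
      have := odd_sq_mod_eight c₁ hco
      omega
  · -- g = 80
    rw [hg] at hB₁
    rcases hb₁ with hb | hb
    · exact ⟨4 * b₁, Or.inr (Or.inr (Or.inl (by rw [hB₁, hb]; push_cast; ring)))⟩
    · exact ⟨4 * b₁, Or.inr (Or.inr (Or.inr (by rw [hB₁, hb]; push_cast; ring)))⟩


/-- A rational whose square is an integer is an integer. -/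
lemma int_of_sq_int (q : ℚ) (z : ℤ) (h : q ^ 2 = z) : ∃ k : ℤ, q = k := by
  have h1 : (q ^ 2).den = 1 := by rw [h]; exact Rat.den_intCast z
  rw [Rat.den_pow] at h1
  have h2 : q.den = 1 := by
    rcases Nat.pow_eq_one.mp h1 with h | h
    · exact h
    · omega
  exact ⟨q.num, ((Rat.den_eq_one_iff q).mp h2).symm⟩

/-- The set of abscissas of rational points with `Y ≠ 0`. -/
def Sol (X : ℚ) : Prop := ∃ Y : ℚ, Y ≠ 0 ∧ Y ^ 2 = X * (X - 1) * (X - 81)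

/-- `X`, `X - 1`, `X - 81` are nonzero rational squares. -/
def Sq3 (X : ℚ) : Prop :=
  ∃ s₁ s₂ s₃ : ℚ, s₁ ≠ 0 ∧ s₂ ≠ 0 ∧ s₃ ≠ 0 ∧ X = s₁ ^ 2 ∧ X - 1 = s₂ ^ 2 ∧ X - 81 = s₃ ^ 2

/-- integer form extracted from a rational point -/
theorem exists_int_form {X Y : ℚ} (hY : Y ≠ 0) (h : Y ^ 2 = X * (X - 1) * (X - 81)) :
    ∃ m e r : ℤ, IsCoprime m e ∧ e ≠ 0 ∧ r ≠ 0 ∧ X = m / e ^ 2 ∧
      m * (m - e ^ 2) * (m - 81 * e ^ 2) = r ^ 2 := by
  set n : ℕ := X.den with hn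
  set m : ℤ := X.num with hm
  have hnpos : 0 < n := X.den_pos
  have hnQ : (n : ℚ) ≠ 0 := by exact_mod_cast hnpos.ne'
  have hX : X = (m : ℚ) / (n : ℚ) := (Rat.num_div_den X).symm
  have hcop : IsCoprime m (n : ℤ) := Rat.isCoprime_num_den X
  -- the integer k' = Y n^2
  have hsq : (Y * (n : ℚ) ^ 2) ^ 2 = ((n * (m * (m - n) * (m - 81 * n)) : ℤ) : ℚ) := by
    have : (Y * (n : ℚ) ^ 2) ^ 2 = Y ^ 2 * (n : ℚ) ^ 4 := by ring
    rw [this, h, hX]
    push_cast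
    field_simp
  obtain ⟨κ, hκ⟩ := int_of_sq_int _ _ hsq
  have hκ0 : κ ≠ 0 := by
    rintro rfl
    have : Y * (n : ℚ) ^ 2 = 0 := by simpa using hκ
    rcases mul_eq_zero.mp this with h1 | h1
    · exact hY h1
    · exact hnQ (pow_eq_zero_iff (two_ne_zero) |>.mp h1)
  have hκsq : (n : ℤ) * (m * (m - n) * (m - 81 * n)) = κ ^ 2 := by
    have : ((κ ^ 2 : ℤ) : ℚ) = ((n * (m * (m - n) * (m - 81 * n)) : ℤ) : ℚ) := by
      rw [← hsq, hκ]; push_cast; ring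
    exact_mod_cast this.symm
  -- coprimality
  have hcn : IsCoprime (n : ℤ) m := hcop.symm
  have hc1 : IsCoprime (n : ℤ) (m - n) := by
    have := (isCoprime_sub_self_mul (-1) hcn.neg_right)
    have e1 : (-1 : ℤ) * n - -m = m - n := by ring
    rwa [e1] at this
  have hc2 : IsCoprime (n : ℤ) (m - 81 * n) := by
    have := (isCoprime_sub_self_mul (-81) hcn.neg_right)
    have e1 : (-81 : ℤ) * n - -m = m - 81 * n := by ring
    rwa [e1] at this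
  have hcR : IsCoprime (n : ℤ) (m * (m - n) * (m - 81 * n)) := (hcn.mul_right hc1).mul_right hc2
  have hnposZ : (0 : ℤ) < n := by exact_mod_cast hnpos
  obtain ⟨e, he⟩ := sq_of_pm_sq_of_pos hnposZ (Int.sq_of_isCoprime hcR hκsq)
  have hκpos : 0 < κ ^ 2 := by positivity
  have hRpos : 0 < m * (m - n) * (m - 81 * n) := by
    by_contra hneg
    have hneg' : m * (m - n) * (m - 81 * n) ≤ 0 := not_lt.mp hneg
    have : (n : ℤ) * (m * (m - n) * (m - 81 * n)) ≤ 0 :=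
      mul_nonpos_of_nonneg_of_nonpos hnposZ.le hneg'
    linarith
  have hκsq' : (m * (m - n) * (m - 81 * n)) * (n : ℤ) = κ ^ 2 := by rw [mul_comm]; exact hκsq
  obtain ⟨r, hr⟩ := sq_of_pm_sq_of_pos hRpos (Int.sq_of_isCoprime hcR.symm hκsq')
  have he0 : e ≠ 0 := by
    rintro rfl
    rw [he] at hnposZ
    norm_num at hnposZ
  have hr0 : r ≠ 0 := by
    rintro rfl
    rw [hr] at hRpos
    norm_num at hRpos
  refine ⟨m, e, r, ?_, he0, hr0, ?_, ?_⟩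
  · rw [he] at hcop
    exact (IsCoprime.pow_right_iff (by norm_num)).mp hcop
  · rw [hX]
    have : (n : ℚ) = (e : ℚ) ^ 2 := by exact_mod_cast he
    rw [this]
  · rw [← he]; exact hr

/-- rational core: the first coordinate is a square, the second is `±1, ±5` times a square. -/
theorem rat_core {X Y : ℚ} (hY : Y ≠ 0) (h : Y ^ 2 = X * (X - 1) * (X - 81)) :
    ∃ s₁ s₂ : ℚ, s₁ ≠ 0 ∧ s₂ ≠ 0 ∧ X = s₁ ^ 2 ∧
      (X - 1 = s₂ ^ 2 ∨ X - 1 = -s₂ ^ 2 ∨ X - 1 = 5 * s₂ ^ 2 ∨ X - 1 = -(5 * s₂ ^ 2)) := by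
  obtain ⟨m, e, r, hcop, he0, hr0, hX, hr⟩ := exists_int_form hY h
  obtain ⟨a, ha⟩ := num_isSquare m e r hcop hr0 hr
  subst ha
  have ha0 : a ≠ 0 := by
    rintro rfl
    apply hr0
    have : r ^ 2 = 0 := by rw [← hr]; ring
    exact pow_eq_zero_iff (two_ne_zero) |>.mp this
  have hcop' : IsCoprime a e := (IsCoprime.pow_left_iff (by norm_num)).mp hcop
  -- a ∣ r
  have har : a ∣ r := by
    have : a ^ 2 ∣ r ^ 2 := ⟨(a ^ 2 - e ^ 2) * (a ^ 2 - 81 * e ^ 2), by rw [← hr]; ring⟩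
    exact (Int.pow_dvd_pow_iff (by norm_num)).mp this
  obtain ⟨r', rfl⟩ := har
  have hr'0 : r' ≠ 0 := by rintro rfl; exact hr0 (mul_zero a)
  have hr' : (a ^ 2 - e ^ 2) * (a ^ 2 - 81 * e ^ 2) = r' ^ 2 := by
    have : a ^ 2 * ((a ^ 2 - e ^ 2) * (a ^ 2 - 81 * e ^ 2)) = a ^ 2 * r' ^ 2 := by
      rw [← mul_pow, ← hr]; ring
    exact mul_left_cancel₀ (pow_ne_zero 2 ha0) this
  obtain ⟨b, hb⟩ := second_factor a e r' hcop' hr'0 hr'
  have hB0 : a ^ 2 - e ^ 2 ≠ 0 := by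
    intro h0
    rw [h0, zero_mul] at hr'
    exact hr'0 (pow_eq_zero_iff (two_ne_zero) |>.mp hr'.symm)
  have hb0 : b ≠ 0 := by
    rintro rfl
    rcases hb with hb | hb | hb | hb <;> exact hB0 (by rw [hb]; ring)
  have heQ : (e : ℚ) ≠ 0 := by exact_mod_cast he0
  have haQ : (a : ℚ) ≠ 0 := by exact_mod_cast ha0
  have hbQ : (b : ℚ) ≠ 0 := by exact_mod_cast hb0
  refine ⟨a / e, b / e, div_ne_zero haQ heQ, div_ne_zero hbQ heQ, ?_, ?_⟩
  · rw [hX]; push_cast; field_simp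
  · have hX1 : X - 1 = ((a ^ 2 - e ^ 2 : ℤ) : ℚ) / (e : ℚ) ^ 2 := by
      rw [hX]; push_cast; field_simp
    rcases hb with hb | hb | hb | hb
    · left; rw [hX1, hb]; push_cast; field_simp
    · right; left; rw [hX1, hb]; push_cast; field_simp
    · right; right; left; rw [hX1, hb]; push_cast; field_simp
    · right; right; right; rw [hX1, hb]; push_cast; field_simp


/-- Lemma L: some translate of a point with `Y ≠ 0` has all three coordinates squares. -/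
theorem translate_sq3 {X : ℚ} (hS : Sol X) :
    Sq3 X ∨ Sq3 (81 / X) ∨ Sq3 ((X - 81) / (X - 1)) ∨ Sq3 (81 * (X - 1) / (X - 81)) := by
  obtain ⟨Y, hY, h⟩ := hS
  obtain ⟨s₁, s₂, hs₁, hs₂, hX, hd⟩ := rat_core hY h
  have hX0 : X ≠ 0 := by rw [hX]; exact pow_ne_zero 2 hs₁
  have hX1 : X - 1 ≠ 0 := by
    rcases hd with hd | hd | hd | hd <;> rw [hd] <;> simp [hs₂]
  have hX81 : X - 81 ≠ 0 := by
    intro h0
    rw [h0, mul_zero] at h
    exact hY (pow_eq_zero_iff (two_ne_zero) |>.mp h)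
  -- the third coordinate
  have h3 : X - 81 = Y ^ 2 / (X * (X - 1)) := by
    rw [h]; field_simp
  rcases hd with hd | hd | hd | hd
  · -- d = 1
    left
    refine ⟨s₁, s₂, Y / (s₁ * s₂), hs₁, hs₂, div_ne_zero hY (mul_ne_zero hs₁ hs₂), hX, hd, ?_⟩
    rw [h3, hd, hX]; field_simp
  · -- d = -1 : translate by (0,0)
    right; left
    have h3' : X - 81 = -(Y / (s₁ * s₂)) ^ 2 := by
      rw [h3, hd, hX]; field_simp
    refine ⟨9 / s₁, Y / (s₁ * s₂) / s₁, 9 * s₂ / s₁, div_ne_zero (by norm_num) hs₁,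
      div_ne_zero (div_ne_zero hY (mul_ne_zero hs₁ hs₂)) hs₁,
      div_ne_zero (mul_ne_zero (by norm_num) hs₂) hs₁, ?_, ?_, ?_⟩
    · rw [hX]; field_simp; norm_num
    · have : 81 / X - 1 = -(X - 81) / X := by field_simp; ring
      rw [this, h3', hX]; field_simp
    · have : 81 / X - 81 = -81 * (X - 1) / X := by field_simp; ring
      rw [this, hd, hX]; field_simp; ring
  · -- d = 5 : translate by (81,0)
    right; right; right
    have h3' : X - 81 = 5 * (Y / (5 * s₁ * s₂)) ^ 2 := by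
      rw [h3, hd, hX]; field_simp
    set s₃ := Y / (5 * s₁ * s₂) with hs₃def
    have hs₃ : s₃ ≠ 0 := div_ne_zero hY (mul_ne_zero (mul_ne_zero (by norm_num) hs₁) hs₂)
    refine ⟨9 * s₂ / s₃, 4 * s₁ / s₃, 36 / s₃, div_ne_zero (mul_ne_zero (by norm_num) hs₂) hs₃,
      div_ne_zero (mul_ne_zero (by norm_num) hs₁) hs₃, div_ne_zero (by norm_num) hs₃, ?_, ?_, ?_⟩
    · have e1 : 81 * (X - 1) / (X - 81) = 81 * (5 * s₂ ^ 2) / (5 * s₃ ^ 2) := by rw [hd, h3']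
      rw [e1]; field_simp; ring
    · have : 81 * (X - 1) / (X - 81) - 1 = 80 * X / (X - 81) := by field_simp; ring
      rw [this, h3', hX]; field_simp; ring
    · have : 81 * (X - 1) / (X - 81) - 81 = 6480 / (X - 81) := by field_simp; ring
      rw [this, h3']; field_simp; ring
  · -- d = -5 : translate by (1,0)
    right; right; left
    have h3' : X - 81 = -(5 * (Y / (5 * s₁ * s₂)) ^ 2) := by
      rw [h3, hd, hX]; field_simp
    set s₃ := Y / (5 * s₁ * s₂) with hs₃def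
    have hs₃ : s₃ ≠ 0 := div_ne_zero hY (mul_ne_zero (mul_ne_zero (by norm_num) hs₁) hs₂)
    refine ⟨s₃ / s₂, 4 / s₂, 4 * s₁ / s₂, div_ne_zero hs₃ hs₂, div_ne_zero (by norm_num) hs₂,
      div_ne_zero (mul_ne_zero (by norm_num) hs₁) hs₂, ?_, ?_, ?_⟩
    · have e1 : (X - 81) / (X - 1) = -(5 * s₃ ^ 2) / -(5 * s₂ ^ 2) := by rw [hd, h3']
      rw [e1]; field_simp
    · have : (X - 81) / (X - 1) - 1 = -80 / (X - 1) := by field_simp; ring
      rw [this, hd]; field_simp; ring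
    · have : (X - 81) / (X - 1) - 81 = -80 * X / (X - 1) := by field_simp; ring
      rw [this, hd, hX]; field_simp; ring


/-- denominator bound for a half of a point -/
theorem den_lt (s₁ t₂ t₃ : ℚ) (hs₁ : 0 < s₁) (h2 : s₁ ^ 2 - t₂ ^ 2 = 1) (h3 : s₁ ^ 2 - t₃ ^ 2 = 81)
    (hZ : 1 < (s₁ + t₂) * (s₁ + t₃)) : ((s₁ + t₂) * (s₁ + t₃)).den < (s₁ ^ 2).den := by
  set e : ℕ := s₁.den with he
  set a : ℤ := s₁.num with ha
  have hepos : 0 < e := s₁.den_pos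
  have heQ : (e : ℚ) ≠ 0 := by exact_mod_cast hepos.ne'
  have heQpos : (0 : ℚ) < e := by exact_mod_cast hepos
  have hs₁eq : s₁ = (a : ℚ) / (e : ℚ) := (Rat.num_div_den s₁).symm
  have hapos : 0 < a := Rat.num_pos.mpr hs₁
  -- integrality of b, c
  have hb' : (t₂ * e) ^ 2 = ((a ^ 2 - e ^ 2 : ℤ) : ℚ) := by
    have : t₂ ^ 2 = s₁ ^ 2 - 1 := by linarith
    rw [mul_pow, this, hs₁eq]; push_cast; field_simp
  have hc' : (t₃ * e) ^ 2 = ((a ^ 2 - 81 * e ^ 2 : ℤ) : ℚ) := by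
    have : t₃ ^ 2 = s₁ ^ 2 - 81 := by linarith
    rw [mul_pow, this, hs₁eq]; push_cast; field_simp
  obtain ⟨b, hb⟩ := int_of_sq_int _ _ hb'
  obtain ⟨c, hc⟩ := int_of_sq_int _ _ hc'
  have ht₂ : t₂ = (b : ℚ) / e := by rw [← hb]; field_simp
  have ht₃ : t₃ = (c : ℚ) / e := by rw [← hc]; field_simp
  have hab : a ^ 2 - b ^ 2 = (e : ℤ) ^ 2 := by
    have : ((b ^ 2 : ℤ) : ℚ) = ((a ^ 2 - e ^ 2 : ℤ) : ℚ) := by rw [← hb']; rw [hb]; push_cast; ring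
    have := Int.cast_injective this
    linarith
  have hac : a ^ 2 - c ^ 2 = 81 * (e : ℤ) ^ 2 := by
    have : ((c ^ 2 : ℤ) : ℚ) = ((a ^ 2 - 81 * e ^ 2 : ℤ) : ℚ) := by rw [← hc']; rw [hc]; push_cast; ring
    have := Int.cast_injective this
    linarith
  have heZpos : (0 : ℤ) < e := by exact_mod_cast hepos
  have he2pos : (0 : ℤ) < (e : ℤ) ^ 2 := by positivity
  have hfac : (a - b) * (a + b) = (e : ℤ) ^ 2 := by rw [← hab]; ring
  -- positivity of a - b and a + b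
  have hmpos : 0 < a - b ∧ 0 < a + b := by
    have hprod : 0 < (a - b) * (a + b) := by rw [hfac]; exact he2pos
    rcases pos_and_pos_or_neg_and_neg_of_mul_pos hprod with h | h
    · exact h
    · exfalso; have := h.1; have := h.2; linarith
  obtain ⟨hamb, hapb⟩ := hmpos
  -- b + c > 0
  have hZ1 : (s₁ + t₂) * (s₁ + t₃) - 1 = (s₁ + t₂) * (t₂ + t₃) := by
    have : (1 : ℚ) = s₁ ^ 2 - t₂ ^ 2 := h2.symm
    nth_rewrite 1 [this]; ring
  have hst₂ : 0 < s₁ + t₂ := by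
    rw [hs₁eq, ht₂, ← add_div]
    apply div_pos _ heQpos
    exact_mod_cast hapb
  have ht₂₃ : 0 < t₂ + t₃ := by
    have h1 : 0 < (s₁ + t₂) * (t₂ + t₃) := by rw [← hZ1]; linarith
    exact (pos_iff_pos_of_mul_pos h1).mp hst₂
  have hbc : 0 < b + c := by
    rw [ht₂, ht₃, ← add_div] at ht₂₃
    have := (div_pos_iff_of_pos_right heQpos).mp ht₂₃
    exact_mod_cast this
  -- a + b ≥ 2
  have hapb2 : 2 ≤ a + b := by
    by_contra hlt
    have hab1 : a + b = 1 := by omega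
    have hca : a ≤ c := by omega
    have : a ^ 2 ≤ c ^ 2 := by nlinarith
    nlinarith
  -- Z as a quotient of integers
  have hambQ : ((a - b : ℤ) : ℚ) ≠ 0 := by exact_mod_cast hamb.ne'
  have hZeq : (s₁ + t₂) * (s₁ + t₃) = ((a + c : ℤ) : ℚ) / ((a - b : ℤ) : ℚ) := by
    have h1 : (s₁ + t₂) * (s₁ - t₂) = 1 := by rw [← h2]; ring
    have h2' : s₁ - t₂ = ((a - b : ℤ) : ℚ) / e := by rw [hs₁eq, ht₂]; push_cast; ring
    have h3' : s₁ + t₃ = ((a + c : ℤ) : ℚ) / e := by rw [hs₁eq, ht₃]; push_cast; ring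
    have hne : s₁ - t₂ ≠ 0 := by
      intro h0; rw [h0, mul_zero] at h1; exact zero_ne_one h1
    have h4 : s₁ + t₂ = 1 / (s₁ - t₂) := by field_simp; linarith
    rw [h4, h2', h3']
    field_simp
  have hden_dvd : (((s₁ + t₂) * (s₁ + t₃)).den : ℤ) ∣ (a - b) := by
    rw [hZeq, Rat.intCast_div_eq_divInt]
    exact Rat.den_dvd _ _
  have hden_le : (((s₁ + t₂) * (s₁ + t₃)).den : ℤ) ≤ a - b := Int.le_of_dvd hamb hden_dvd
  have hfinal : (((s₁ + t₂) * (s₁ + t₃)).den : ℤ) < (e : ℤ) ^ 2 := by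
    have : (a - b) * 2 ≤ (a - b) * (a + b) := mul_le_mul_of_nonneg_left hapb2 hamb.le
    rw [hfac] at this
    linarith
  rw [Rat.den_pow]
  exact_mod_cast hfinal

/-- descent step -/
theorem descent {X : ℚ} (hX : Sq3 X) : ∃ Z : ℚ, Sq3 Z ∧ Z.den < X.den := by
  obtain ⟨s₁', s₂, s₃, hs₁', hs₂, hs₃, h1, h2, h3⟩ := hX
  -- normalise s₁ > 0
  obtain ⟨s₁, hs₁pos, h1'⟩ : ∃ s₁ : ℚ, 0 < s₁ ∧ X = s₁ ^ 2 := by
    rcases lt_or_gt_of_ne hs₁' with h | h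
    · exact ⟨-s₁', by linarith, by rw [h1]; ring⟩
    · exact ⟨s₁', h, h1⟩
  have r2 : s₁ ^ 2 - s₂ ^ 2 = 1 := by rw [← h1', ← h2]; ring
  have r3 : s₁ ^ 2 - s₃ ^ 2 = 81 := by rw [← h1', ← h3]; ring
  have r2' : ∀ ε₂ : ℚ, ε₂ ^ 2 = 1 → s₁ ^ 2 - (ε₂ * s₂) ^ 2 = 1 := by
    intro ε₂ h; rw [mul_pow, h, one_mul]; exact r2
  have r3' : ∀ ε₃ : ℚ, ε₃ ^ 2 = 1 → s₁ ^ 2 - (ε₃ * s₃) ^ 2 = 81 := by
    intro ε₃ h; rw [mul_pow, h, one_mul]; exact r3
  -- key: for any sign choice, if the half is Sq3, conclude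
  have key : ∀ ε₂ ε₃ : ℚ, ε₂ ^ 2 = 1 → ε₃ ^ 2 = 1 →
      Sq3 ((s₁ + ε₂ * s₂) * (s₁ + ε₃ * s₃)) → ∃ Z : ℚ, Sq3 Z ∧ Z.den < X.den := by
    intro ε₂ ε₃ hε₂ hε₃ hS
    refine ⟨_, hS, ?_⟩
    rw [h1']
    apply den_lt s₁ (ε₂ * s₂) (ε₃ * s₃) hs₁pos (r2' ε₂ hε₂) (r3' ε₃ hε₃)
    obtain ⟨u₁, u₂, u₃, hu₁, hu₂, hu₃, e1, e2, e3⟩ := hS
    have : 0 < u₂ ^ 2 := by positivity
    linarith
  -- the point X' and its translates
  have hp12 : s₁ + s₂ ≠ 0 := by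
    intro h0
    have : s₁ ^ 2 - s₂ ^ 2 = (s₁ + s₂) * (s₁ - s₂) := by ring
    rw [this, h0, zero_mul] at r2
    exact zero_ne_one r2
  have hp13 : s₁ + s₃ ≠ 0 := by
    intro h0
    have : s₁ ^ 2 - s₃ ^ 2 = (s₁ + s₃) * (s₁ - s₃) := by ring
    rw [this, h0, zero_mul] at r3
    norm_num at r3
  have hp23 : s₂ + s₃ ≠ 0 := by
    intro h0
    have : s₂ ^ 2 - s₃ ^ 2 = (s₂ + s₃) * (s₂ - s₃) := by ring
    have h80 : s₂ ^ 2 - s₃ ^ 2 = 80 := by linarith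
    rw [this, h0, zero_mul] at h80
    norm_num at h80
  set X' := (s₁ + s₂) * (s₁ + s₃) with hX'
  have hX'1 : X' - 1 = (s₁ + s₂) * (s₂ + s₃) := by
    have : (1 : ℚ) = s₁ ^ 2 - s₂ ^ 2 := r2.symm
    rw [hX']; nth_rewrite 1 [this]; ring
  have hX'81 : X' - 81 = (s₁ + s₃) * (s₂ + s₃) := by
    have : (81 : ℚ) = s₁ ^ 2 - s₃ ^ 2 := r3.symm
    rw [hX']; nth_rewrite 1 [this]; ring
  have hSol : Sol X' := by
    refine ⟨(s₁ + s₂) * (s₁ + s₃) * (s₂ + s₃), mul_ne_zero (mul_ne_zero hp12 hp13) hp23, ?_⟩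
    rw [hX'1, hX'81, hX']; ring
  have hX'0 : X' ≠ 0 := mul_ne_zero hp12 hp13
  have hX'1ne : X' - 1 ≠ 0 := by rw [hX'1]; exact mul_ne_zero hp12 hp23
  have hX'81ne : X' - 81 ≠ 0 := by rw [hX'81]; exact mul_ne_zero hp13 hp23
  have hm12 : (s₁ + s₂) * (s₁ - s₂) = 1 := by rw [← r2]; ring
  have hm13 : (s₁ + s₃) * (s₁ - s₃) = 81 := by rw [← r3]; ring
  rcases translate_sq3 hSol with hS | hS | hS | hS
  · apply key 1 1 (by norm_num) (by norm_num)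
    simpa using hS
  · apply key (-1) (-1) (by norm_num) (by norm_num)
    have : 81 / X' = (s₁ + -1 * s₂) * (s₁ + -1 * s₃) := by
      rw [div_eq_iff hX'0, hX']
      linear_combination (-(s₁ ^ 2 - s₃ ^ 2)) * r2 - r3
    rwa [this] at hS
  · apply key (-1) 1 (by norm_num) (by norm_num)
    have : (X' - 81) / (X' - 1) = (s₁ + -1 * s₂) * (s₁ + 1 * s₃) := by
      rw [div_eq_iff hX'1ne, hX'81, hX'1]
      linear_combination (-((s₁ + s₃) * (s₂ + s₃))) * r2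
    rwa [this] at hS
  · apply key 1 (-1) (by norm_num) (by norm_num)
    have : 81 * (X' - 1) / (X' - 81) = (s₁ + 1 * s₂) * (s₁ + -1 * s₃) := by
      rw [div_eq_iff hX'81ne, hX'81, hX'1]
      linear_combination (-((s₁ + s₂) * (s₂ + s₃))) * r3
    rwa [this] at hS

theorem not_sq3 : ∀ (n : ℕ) (X : ℚ), X.den = n → ¬ Sq3 X := by
  intro n
  induction n using Nat.strong_induction_on with
  | _ n ih =>
    intro X hXn hS
    obtain ⟨Z, hZ, hlt⟩ := descent hS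
    exact ih Z.den (hXn ▸ hlt) Z rfl hZ

theorem not_sol (X : ℚ) : ¬ Sol X := by
  intro hS
  rcases translate_sq3 hS with h | h | h | h <;> exact not_sq3 _ _ rfl h

/-- (D1) The only rational points on `Y^2 = X (X - 1) (X - 81)` have `Y = 0`. -/
theorem eq_zero_of_sq_eq (X Y : ℚ) (h : Y ^ 2 = X * (X - 1) * (X - 81)) : Y = 0 := by
  by_contra hY
  exact not_sol X ⟨Y, hY, h⟩

end Fermat.Agent.S51.H56
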