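import Mathlib

set_option autoImplicit false

namespace Fermat.Agent.S51.H57

/-- `x` is the `x`-coordinate of a rational point with `y ≠ 0` on `y² = x(x-1)(x-81)`. -/
def Good (x : ℚ) : Prop := ∃ y : ℚ, y ≠ 0 ∧ y ^ 2 = x * (x - 1) * (x - 81)

/-- `x`, `x-1`, `x-81` are all nonzero rational squares. -/
def Good1 (x : ℚ) : Prop :=
  ∃ a b c : ℚ, a ≠ 0 ∧ b ≠ 0 ∧ c ≠ 0 ∧ x = a ^ 2 ∧ x - 1 = b ^ 2 ∧ x - 81 = c ^ 2

/-- The `x`-coordinate of `2P` in terms of the `x`-coordinate of `P`. -/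
noncomputable def dup (x : ℚ) : ℚ := (x ^ 2 - 81) ^ 2 / (4 * (x * (x - 1) * (x - 81)))

theorem Good.ne_zero {x : ℚ} (h : Good x) : x ≠ 0 := by
  obtain ⟨y, hy, h⟩ := h
  rintro rfl
  apply hy
  simpa using h

theorem Good.ne_one {x : ℚ} (h : Good x) : x - 1 ≠ 0 := by
  obtain ⟨y, hy, h⟩ := h
  intro h1
  apply hy
  rw [h1] at h
  simpa using h

theorem Good.ne_81 {x : ℚ} (h : Good x) : x - 81 ≠ 0 := by
  obtain ⟨y, hy, h⟩ := h
  intro h1
  apply hy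
  rw [h1] at h
  simpa using h

theorem Good1.good {x : ℚ} (h : Good1 x) : Good x := by
  obtain ⟨a, b, c, ha, hb, hc, h1, h2, h3⟩ := h
  refine ⟨a * b * c, by positivity, ?_⟩
  rw [h2, h3]
  nth_rewrite 1 [h1]
  ring

/-- Translation by the 2-torsion point `(0,0)`. -/
theorem Good.t1 {x : ℚ} (h : Good x) : Good (81 / x) := by
  have hx := h.ne_zero
  obtain ⟨y, hy, h⟩ := h
  refine ⟨81 * y / x ^ 2, by positivity, ?_⟩
  field_simp
  linear_combination h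

/-- Translation by the 2-torsion point `(1,0)`. -/
theorem Good.t2 {x : ℚ} (h : Good x) : Good ((x - 81) / (x - 1)) := by
  have hx := h.ne_one
  obtain ⟨y, hy, h⟩ := h
  refine ⟨80 * y / (x - 1) ^ 2, by positivity, ?_⟩
  field_simp
  linear_combination (80 ^ 2) * h

/-- Translation by the 2-torsion point `(81,0)`. -/
theorem Good.t3 {x : ℚ} (h : Good x) : Good (81 * (x - 1) / (x - 81)) := by
  have hx := h.ne_81
  obtain ⟨y, hy, h⟩ := h
  refine ⟨6480 * y / (x - 81) ^ 2, by positivity, ?_⟩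
  field_simp
  linear_combination (6480 ^ 2) * h

theorem dup_t1 {x : ℚ} (h : Good x) : dup (81 / x) = dup x := by
  have h0 := h.ne_zero
  have h1 := h.ne_one
  have h2 := h.ne_81
  have h1' : 81 - x ≠ 0 := by intro h; apply h2; linarith
  have h2' : 1 - x ≠ 0 := by intro h; apply h1; linarith
  unfold dup
  have e1 : 81 / x - 1 = (81 - x) / x := by field_simp
  have e2 : 81 / x - 81 = 81 * (1 - x) / x := by field_simp
  rw [e1, e2]
  field_simp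
  ring

theorem dup_t2 {x : ℚ} (h : Good x) : dup ((x - 81) / (x - 1)) = dup x := by
  have h0 := h.ne_zero
  have h1 := h.ne_one
  have h2 := h.ne_81
  unfold dup
  have e1 : (x - 81) / (x - 1) - 1 = (-80) / (x - 1) := by field_simp; ring
  have e2 : (x - 81) / (x - 1) - 81 = (-80 * x) / (x - 1) := by field_simp; ring
  rw [e1, e2]
  field_simp
  ring

theorem dup_t3 {x : ℚ} (h : Good x) : dup (81 * (x - 1) / (x - 81)) = dup x := by
  have h0 := h.ne_zero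
  have h1 := h.ne_one
  have h2 := h.ne_81
  unfold dup
  have e1 : 81 * (x - 1) / (x - 81) - 1 = (80 * x) / (x - 81) := by field_simp; ring
  have e2 : 81 * (x - 1) / (x - 81) - 81 = 6480 / (x - 81) := by field_simp; ring
  rw [e1, e2]
  field_simp
  ring

/-- Halving: a point all of whose `x - eᵢ` are squares is the double of a rational point. -/
theorem Good1.halve {x₀ : ℚ} (h : Good1 x₀) : ∃ x, Good x ∧ dup x = x₀ := by
  obtain ⟨a, b, c, ha, hb, hc, h1, h2, h3⟩ := h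
  have hab : a + b ≠ 0 := by
    intro h
    have : a ^ 2 = b ^ 2 := by
      have : a = -b := by linarith
      rw [this]; ring
    rw [← h1, ← h2] at this
    linarith
  have hac : a + c ≠ 0 := by
    intro h
    have : a ^ 2 = c ^ 2 := by
      have : a = -c := by linarith
      rw [this]; ring
    rw [← h1, ← h3] at this
    linarith
  have hbc : b + c ≠ 0 := by
    intro h
    have : b ^ 2 = c ^ 2 := by
      have : b = -c := by linarith
      rw [this]; ring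
    rw [← h2, ← h3] at this
    linarith
  have hb2 : b ^ 2 = a ^ 2 - 1 := by rw [← h1, ← h2]
  have hc2 : c ^ 2 = a ^ 2 - 81 := by rw [← h1, ← h3]
  have e0 : (a + b) * (a + c) - 1 = (b + a) * (b + c) := by linear_combination -hb2
  have e1 : (a + b) * (a + c) - 81 = (c + a) * (c + b) := by linear_combination -hc2
  have key : ((a + b) * (a + c)) * ((a + b) * (a + c) - 1) * ((a + b) * (a + c) - 81)
      = ((a + b) * (a + c) * (b + c)) ^ 2 := by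
    rw [e0, e1]; ring
  refine ⟨(a + b) * (a + c), ⟨(a + b) * (a + c) * (b + c), by positivity, key.symm⟩, ?_⟩
  unfold dup
  rw [key, h1]
  have e2 : ((a + b) * (a + c)) ^ 2 - 81 = 2 * a * ((a + b) * (a + c) * (b + c)) := by
    have : (81 : ℚ) = (a ^ 2 - b ^ 2) * (a ^ 2 - c ^ 2) := by rw [hb2, hc2]; ring
    linear_combination -this
  rw [e2]
  field_simp
  ring

theorem nat_isSquare_of_cube_isSquare {D : ℕ} (hD : 0 < D) (h : IsSquare (D ^ 3)) :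
    ∃ e : ℕ, 0 < e ∧ D = e ^ 2 := by
  obtain ⟨k, hk⟩ := h
  have h1 : D ^ 2 ∣ k ^ 2 := ⟨D, by rw [sq k, ← hk]; ring⟩
  have h2 : D ∣ k := (Nat.pow_dvd_pow_iff (by norm_num)).1 h1
  obtain ⟨e, rfl⟩ := h2
  have h3 : D ^ 2 * D = D ^ 2 * e ^ 2 := by rw [← pow_succ]; rw [hk]; ring
  have h4 : D = e ^ 2 := Nat.eq_of_mul_eq_mul_left (by positivity) h3
  refine ⟨e, ?_, h4⟩
  rcases Nat.eq_zero_or_pos e with h0 | h0
  · subst h0; simp at h4; omega
  · exact h0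

/-- Integral representation of a good `x`. -/
theorem Good.repr {x : ℚ} (h : Good x) :
    ∃ (m n : ℤ) (e : ℕ), 0 < e ∧ IsCoprime m (e : ℤ) ∧ n ≠ 0 ∧ x.den = e ^ 2 ∧
      x = m / (e : ℚ) ^ 2 ∧ m * (m - e ^ 2) * (m - 81 * e ^ 2) = n ^ 2 := by
  obtain ⟨y, hy, hxy⟩ := h
  set N : ℤ := x.num with hN
  set D : ℕ := x.den with hD
  have hDpos : 0 < D := x.den_pos
  have hcop : IsCoprime N (D : ℤ) := by
    rw [Int.isCoprime_iff_nat_coprime]
    simpa [hN, hD] using x.reduced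
  have hx : x = (N : ℚ) / (D : ℚ) := (Rat.num_div_den x).symm
  have hD0 : (D : ℚ) ≠ 0 := by positivity
  have hprod : x * (x - 1) * (x - 81) =
      ((N * (N - D) * (N - 81 * D) : ℤ) : ℚ) / (((D : ℤ) ^ 3 : ℤ) : ℚ) := by
    rw [hx]
    push_cast
    field_simp
  have hcop2 : IsCoprime (N * (N - D) * (N - 81 * D)) ((D : ℤ) ^ 3) := by
    apply IsCoprime.pow_right
    apply IsCoprime.mul_left
    · apply IsCoprime.mul_left hcop
      have : IsCoprime (N + (-1) * (D : ℤ)) (D : ℤ) := (IsCoprime.add_mul_right_left_iff).2 hcop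
      simpa [sub_eq_add_neg] using this
    · have : IsCoprime (N + (-81) * (D : ℤ)) (D : ℤ) := (IsCoprime.add_mul_right_left_iff).2 hcop
      simpa [sub_eq_add_neg] using this
  have hcop3 : Nat.Coprime (N * (N - D) * (N - 81 * D)).natAbs ((D : ℤ) ^ 3).natAbs :=
    Int.isCoprime_iff_nat_coprime.1 hcop2
  have hpos3 : (0 : ℤ) < (D : ℤ) ^ 3 := by positivity
  have hsq : IsSquare (x * (x - 1) * (x - 81)) := ⟨y, by rw [← hxy]; ring⟩
  rw [Rat.isSquare_iff] at hsq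
  obtain ⟨hnum, hden⟩ := hsq
  have hden' : ((x * (x - 1) * (x - 81)).den : ℤ) = (D : ℤ) ^ 3 := by
    rw [hprod]; exact Rat.den_div_eq_of_coprime hpos3 hcop3
  have hden'' : (x * (x - 1) * (x - 81)).den = D ^ 3 := by exact_mod_cast hden'
  rw [hprod, Rat.num_div_eq_of_coprime hpos3 hcop3] at hnum
  rw [hden''] at hden
  obtain ⟨e, he, hDe⟩ := nat_isSquare_of_cube_isSquare hDpos hden
  obtain ⟨n, hn⟩ := hnum
  have hDe' : (D : ℤ) = (e : ℤ) ^ 2 := by exact_mod_cast hDe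
  have hDe'' : (D : ℚ) = (e : ℚ) ^ 2 := by exact_mod_cast hDe
  refine ⟨N, n, e, he, ?_, ?_, hDe, ?_, ?_⟩
  · rw [hDe'] at hcop
    exact (IsCoprime.pow_right_iff (by norm_num)).1 hcop
  · rintro rfl
    have h0 : x * (x - 1) * (x - 81) = 0 := by
      rw [hprod, hn]; simp
    rw [← hxy] at h0
    exact hy (by simpa using h0)
  · rw [hx, hDe'']
  · rw [← hDe', hn]; ring


theorem zmod3_aux1 : ∀ a b c : ZMod 3, a ≠ 0 → b ≠ 0 →
    (3 * b ^ 2 - a ^ 2) * (b ^ 2 - 27 * a ^ 2) ≠ c ^ 2 := by decide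

theorem zmod3_aux2 : ∀ a b c : ZMod 3, a ≠ 0 → b ≠ 0 →
    (27 * b ^ 2 - a ^ 2) * (b ^ 2 - 3 * a ^ 2) ≠ c ^ 2 := by decide

theorem int_cast_zmod3_ne_zero {a : ℤ} (h : ¬ (3 : ℤ) ∣ a) : ((a : ℤ) : ZMod 3) ≠ 0 := by
  intro h0
  exact h ((ZMod.intCast_zmod_eq_zero_iff_dvd a 3).1 h0)

theorem pos_of_eq {m n : ℤ} {e : ℕ} (he : 0 < e) (hn : n ≠ 0)
    (h : m * (m - e ^ 2) * (m - 81 * e ^ 2) = n ^ 2) : 0 < m := by
  by_contra hm
  replace hm : m ≤ 0 := not_lt.1 hm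
  have he' : (0 : ℤ) < (e : ℤ) ^ 2 := by positivity
  have h1 : m - (e : ℤ) ^ 2 < 0 := by linarith
  have h2 : m - 81 * (e : ℤ) ^ 2 < 0 := by linarith
  have h3 : 0 < (m - (e : ℤ) ^ 2) * (m - 81 * (e : ℤ) ^ 2) := mul_pos_of_neg_of_neg h1 h2
  have h4 : m * ((m - (e : ℤ) ^ 2) * (m - 81 * (e : ℤ) ^ 2)) ≤ 0 :=
    mul_nonpos_of_nonpos_of_nonneg hm h3.le
  have h5 : 0 < n ^ 2 := by positivity
  rw [← h, mul_assoc] at h5
  linarith

/-- The numerator of a good `x` is a perfect square. -/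
theorem Good.sq_num {x : ℚ} (h : Good x) :
    ∃ (u n : ℤ) (e : ℕ), 0 < e ∧ IsCoprime u (e : ℤ) ∧ n ≠ 0 ∧ u ≠ 0 ∧ x.den = e ^ 2 ∧
      x = (u : ℚ) ^ 2 / (e : ℚ) ^ 2 ∧
      u ^ 2 * (u ^ 2 - e ^ 2) * (u ^ 2 - 81 * e ^ 2) = n ^ 2 := by
  obtain ⟨m, n, e, he, hcop, hn, hden, hx, heq⟩ := h.repr
  obtain ⟨m', n', e', he', hcop', hn', hden', hx', heq'⟩ := h.t1.repr
  have hx0 := h.ne_zero
  have hm : 0 < m := pos_of_eq he hn heq
  have heQ : (e : ℚ) ≠ 0 := by positivity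
  have he'Q : (e' : ℚ) ≠ 0 := by positivity
  have heZ : (e : ℤ) ≠ 0 := by positivity
  have he'Z : (e' : ℤ) ≠ 0 := by positivity
  -- m * m' = 81 e² e'²
  have hrel : m * m' = 81 * (e : ℤ) ^ 2 * (e' : ℤ) ^ 2 := by
    have h1 : x * (81 / x) = 81 := by field_simp
    rw [hx'] at h1
    nth_rewrite 1 [hx] at h1
    have h2 : (m : ℚ) * m' = 81 * (e : ℚ) ^ 2 * (e' : ℚ) ^ 2 := by
      field_simp at h1
      linear_combination h1
    exact_mod_cast h2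
  -- e'² ∣ m
  have hdvd : (e' : ℤ) ^ 2 ∣ m := by
    have hc : IsCoprime ((e' : ℤ) ^ 2) m' := (IsCoprime.pow_left hcop'.symm)
    have : (e' : ℤ) ^ 2 ∣ m * m' := ⟨81 * (e : ℤ) ^ 2, by rw [hrel]; ring⟩
    exact hc.dvd_of_dvd_mul_right this
  obtain ⟨g, hg⟩ := hdvd
  have hgm' : g * m' = 81 * (e : ℤ) ^ 2 := by
    have h1 : (e' : ℤ) ^ 2 * (g * m') = (e' : ℤ) ^ 2 * (81 * (e : ℤ) ^ 2) := by
      rw [← mul_assoc, ← hg, hrel]; ring
    exact mul_left_cancel₀ (pow_ne_zero 2 he'Z) h1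
  have hgpos : 0 < g := by
    have h1 : (0 : ℤ) < (e' : ℤ) ^ 2 := by positivity
    rw [hg] at hm
    by_contra hg0
    have : (e' : ℤ) ^ 2 * g ≤ 0 := mul_nonpos_of_nonneg_of_nonpos h1.le (not_lt.1 hg0)
    linarith
  have hgcop : IsCoprime g ((e : ℤ) ^ 2) := by
    apply IsCoprime.pow_right
    rw [hg] at hcop
    exact hcop.of_mul_left_right
  have hg81 : g ∣ 81 := by
    have : g ∣ 81 * (e : ℤ) ^ 2 := ⟨m', hgm'.symm⟩
    exact hgcop.dvd_of_dvd_mul_right this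
  have hgle : g ≤ 81 := Int.le_of_dvd (by norm_num) hg81
  have hgcases : g = 1 ∨ g = 3 ∨ g = 9 ∨ g = 27 ∨ g = 81 := by
    interval_cases g <;> omega
  -- 3 ∤ e and 3 ∤ e' when 3 ∣ g and g < 81
  rcases hgcases with rfl | rfl | rfl | rfl | rfl
  · refine ⟨e', n, e, he, ?_, hn, he'Z, hden, ?_, ?_⟩
    · rw [hg] at hcop
      have : IsCoprime ((e' : ℤ) ^ 2) (e : ℤ) := by simpa using hcop
      exact (IsCoprime.pow_left_iff (by norm_num)).1 this
    · rw [hx, hg]; push_cast; ring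
    · rw [← heq, hg]; ring
  · -- g = 3 : contradiction mod 3
    exfalso
    have h3e : ¬ (3 : ℤ) ∣ (e : ℤ) := by
      intro h3
      rw [hg] at hcop
      have : IsCoprime (3 : ℤ) (e : ℤ) := hcop.of_mul_left_right
      have h33 : (3 : ℤ) ∣ 1 := by
        obtain ⟨a, b, hab⟩ := this
        rw [← hab]
        exact dvd_add (dvd_mul_left _ _) (dvd_mul_of_dvd_right h3 _)
      norm_num at h33
    have h3e' : ¬ (3 : ℤ) ∣ (e' : ℤ) := by
      intro h3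
      have hm' : m' = 27 * (e : ℤ) ^ 2 := by linarith
      rw [hm'] at hcop'
      have : IsCoprime (27 : ℤ) (e' : ℤ) := hcop'.of_mul_left_left
      have h33 : (3 : ℤ) ∣ 1 := by
        obtain ⟨a, b, hab⟩ := this
        rw [← hab]
        exact dvd_add (dvd_mul_of_dvd_right (by norm_num) _) (dvd_mul_of_dvd_right h3 _)
      norm_num at h33
    have hdn : (3 * (e' : ℤ)) ^ 2 ∣ n ^ 2 :=
      ⟨(3 * (e' : ℤ) ^ 2 - (e : ℤ) ^ 2) * ((e' : ℤ) ^ 2 - 27 * (e : ℤ) ^ 2), by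
        rw [← heq, hg]; ring⟩
    have hdn' : 3 * (e' : ℤ) ∣ n := (Int.pow_dvd_pow_iff (by norm_num)).1 hdn
    obtain ⟨n₁, rfl⟩ := hdn'
    have hZ : (3 * (e' : ℤ) ^ 2 - (e : ℤ) ^ 2) * ((e' : ℤ) ^ 2 - 27 * (e : ℤ) ^ 2) = n₁ ^ 2 := by
      have h1 : (3 * (e' : ℤ)) ^ 2 *
          ((3 * (e' : ℤ) ^ 2 - (e : ℤ) ^ 2) * ((e' : ℤ) ^ 2 - 27 * (e : ℤ) ^ 2)) =
          (3 * (e' : ℤ)) ^ 2 * n₁ ^ 2 := by
        rw [hg] at heq
        linear_combination heq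
      exact mul_left_cancel₀ (pow_ne_zero 2 (mul_ne_zero (by norm_num) he'Z)) h1
    have hZ3 := congrArg (Int.cast : ℤ → ZMod 3) hZ
    push_cast at hZ3
    exact zmod3_aux1 _ _ _ (int_cast_zmod3_ne_zero h3e) (int_cast_zmod3_ne_zero h3e') hZ3
  · refine ⟨3 * e', n, e, he, ?_, hn, mul_ne_zero (by norm_num) he'Z, hden, ?_, ?_⟩
    · rw [hg] at hcop
      have h1 : IsCoprime ((3 * (e' : ℤ)) ^ 2) (e : ℤ) := by
        have : (e' : ℤ) ^ 2 * 9 = (3 * (e' : ℤ)) ^ 2 := by ring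
        rw [← this]; exact hcop
      exact (IsCoprime.pow_left_iff (by norm_num)).1 h1
    · rw [hx, hg]; push_cast; ring
    · rw [← heq, hg]; ring
  · -- g = 27 : contradiction mod 3
    exfalso
    have h3e : ¬ (3 : ℤ) ∣ (e : ℤ) := by
      intro h3
      rw [hg] at hcop
      have : IsCoprime (27 : ℤ) (e : ℤ) := hcop.of_mul_left_right
      have h33 : (3 : ℤ) ∣ 1 := by
        obtain ⟨a, b, hab⟩ := this
        rw [← hab]
        exact dvd_add (dvd_mul_of_dvd_right (by norm_num) _) (dvd_mul_of_dvd_right h3 _)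
      norm_num at h33
    have h3e' : ¬ (3 : ℤ) ∣ (e' : ℤ) := by
      intro h3
      have hm' : m' = 3 * (e : ℤ) ^ 2 := by linarith
      rw [hm'] at hcop'
      have : IsCoprime (3 : ℤ) (e' : ℤ) := hcop'.of_mul_left_left
      have h33 : (3 : ℤ) ∣ 1 := by
        obtain ⟨a, b, hab⟩ := this
        rw [← hab]
        exact dvd_add (dvd_mul_left _ _) (dvd_mul_of_dvd_right h3 _)
      norm_num at h33
    have hdn : (27 * (e' : ℤ)) ^ 2 ∣ n ^ 2 :=
      ⟨(27 * (e' : ℤ) ^ 2 - (e : ℤ) ^ 2) * ((e' : ℤ) ^ 2 - 3 * (e : ℤ) ^ 2), by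
        rw [← heq, hg]; ring⟩
    have hdn' : 27 * (e' : ℤ) ∣ n := (Int.pow_dvd_pow_iff (by norm_num)).1 hdn
    obtain ⟨n₁, rfl⟩ := hdn'
    have hZ : (27 * (e' : ℤ) ^ 2 - (e : ℤ) ^ 2) * ((e' : ℤ) ^ 2 - 3 * (e : ℤ) ^ 2) = n₁ ^ 2 := by
      have h1 : (27 * (e' : ℤ)) ^ 2 *
          ((27 * (e' : ℤ) ^ 2 - (e : ℤ) ^ 2) * ((e' : ℤ) ^ 2 - 3 * (e : ℤ) ^ 2)) =
          (27 * (e' : ℤ)) ^ 2 * n₁ ^ 2 := by
        rw [hg] at heq
        linear_combination heq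
      exact mul_left_cancel₀ (pow_ne_zero 2 (mul_ne_zero (by norm_num) he'Z)) h1
    have hZ3 := congrArg (Int.cast : ℤ → ZMod 3) hZ
    push_cast at hZ3
    exact zmod3_aux2 _ _ _ (int_cast_zmod3_ne_zero h3e) (int_cast_zmod3_ne_zero h3e') hZ3
  · refine ⟨9 * e', n, e, he, ?_, hn, mul_ne_zero (by norm_num) he'Z, hden, ?_, ?_⟩
    · rw [hg] at hcop
      have h1 : IsCoprime ((9 * (e' : ℤ)) ^ 2) (e : ℤ) := by
        have : (e' : ℤ) ^ 2 * 81 = (9 * (e' : ℤ)) ^ 2 := by ring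
        rw [← this]; exact hcop
      exact (IsCoprime.pow_left_iff (by norm_num)).1 h1
    · rw [hx, hg]; push_cast; ring
    · rw [← heq, hg]; ring


theorem zmod4_aux1 : ∀ u e e2 t : ZMod 4, e2 ^ 2 * 2 = u ^ 2 - e ^ 2 →
    t ^ 2 * 2 = u ^ 2 - 81 * e ^ 2 → (e2 = 0 ∨ e2 = 2) ∧ (t = 0 ∨ t = 2) := by decide

theorem zmod4_aux2 : ∀ h e e2 t : ZMod 4, (h = 1 ∨ h = 3) → (e = 1 ∨ e = 3) →
    h * (e2 ^ 2 - t ^ 2) ≠ 10 * e ^ 2 := by decide

theorem even_of_zmod4 {a : ℤ} (h : ((a : ℤ) : ZMod 4) = 0 ∨ ((a : ℤ) : ZMod 4) = 2) :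
    (2 : ℤ) ∣ a := by
  rcases h with h | h
  · have := (ZMod.intCast_zmod_eq_zero_iff_dvd a 4).1 h
    omega
  · have h2 : (((a - 2 : ℤ)) : ZMod 4) = 0 := by
      push_cast; rw [h]; ring
    have := (ZMod.intCast_zmod_eq_zero_iff_dvd (a - 2) 4).1 h2
    omega

theorem odd_zmod4 {a : ℤ} (h : ¬ (2 : ℤ) ∣ a) :
    ((a : ℤ) : ZMod 4) = 1 ∨ ((a : ℤ) : ZMod 4) = 3 := by
  have h4 : (4 : ZMod 4) = 0 := by decide
  have : a % 4 = 1 ∨ a % 4 = 3 := by omega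
  rcases this with h1 | h1
  · left
    have : a = 4 * (a / 4) + 1 := by omega
    rw [this]; push_cast; rw [h4]; ring
  · right
    have : a = 4 * (a / 4) + 3 := by omega
    rw [this]; push_cast; rw [h4]; ring

theorem not_coprime_of_two_dvd {a b : ℤ} (ha : (2 : ℤ) ∣ a) (hb : (2 : ℤ) ∣ b)
    (h : IsCoprime a b) : False := by
  obtain ⟨r, s, hrs⟩ := h
  have : (2 : ℤ) ∣ 1 := by
    rw [← hrs]
    exact dvd_add (dvd_mul_of_dvd_right ha _) (dvd_mul_of_dvd_right hb _)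
  norm_num at this

theorem class_enum {g : ℤ} (hg : g ∣ 80) (h4 : g % 4 ≠ 2) (h16 : g % 16 ≠ 8) :
    ∃ k : ℤ, k ≠ 0 ∧ (g = k ^ 2 ∨ g = -k ^ 2 ∨ g = 5 * k ^ 2 ∨ g = -(5 * k ^ 2)) := by
  have h1 : g ≤ 80 := Int.le_of_dvd (by norm_num) hg
  have h2 : -g ≤ 80 := Int.le_of_dvd (by norm_num) ((neg_dvd).2 hg)
  have h3 : -80 ≤ g := by linarith
  interval_cases g <;>
    first
    | (exfalso; revert hg; decide)
    | (exfalso; omega)
    | (refine ⟨1, ?_, ?_⟩ <;> decide)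
    | (refine ⟨2, ?_, ?_⟩ <;> decide)
    | (refine ⟨4, ?_, ?_⟩ <;> decide)

/-- Square classes of `x` and `x - 1` for a good `x`. -/
theorem Good.classes {x : ℚ} (h : Good x) :
    ∃ a b : ℚ, a ≠ 0 ∧ b ≠ 0 ∧ x = a ^ 2 ∧
      (x - 1 = b ^ 2 ∨ x - 1 = -b ^ 2 ∨ x - 1 = 5 * b ^ 2 ∨ x - 1 = -(5 * b ^ 2)) := by
  obtain ⟨u, n, e, he, hcop, hn, hu, hden, hx, heq⟩ := h.sq_num
  obtain ⟨t, n2, e2, he2, hcop2, hn2, ht, hden2, hx2, heq2⟩ := h.t2.sq_num
  have hx1 := h.ne_one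
  have hx81 := h.ne_81
  have heQ : (e : ℚ) ≠ 0 := by positivity
  have he2Q : (e2 : ℚ) ≠ 0 := by positivity
  have heZ : (e : ℤ) ≠ 0 := by positivity
  have he2Z : (e2 : ℤ) ≠ 0 := by positivity
  have hB0 : u ^ 2 - (e : ℤ) ^ 2 ≠ 0 := by
    intro h0; apply hn; rw [h0] at heq; simpa using heq.symm
  have hC0 : u ^ 2 - 81 * (e : ℤ) ^ 2 ≠ 0 := by
    intro h0; apply hn; rw [h0] at heq; simpa using heq.symm
  have hxm1 : x - 1 = ((u ^ 2 - (e : ℤ) ^ 2 : ℤ) : ℚ) / (e : ℚ) ^ 2 := by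
    rw [hx]; push_cast; field_simp
  have hxm81 : x - 81 = ((u ^ 2 - 81 * (e : ℤ) ^ 2 : ℤ) : ℚ) / (e : ℚ) ^ 2 := by
    rw [hx]; push_cast; field_simp
  -- C * e2² = t² * B
  have hrel : (u ^ 2 - 81 * (e : ℤ) ^ 2) * (e2 : ℤ) ^ 2 = t ^ 2 * (u ^ 2 - (e : ℤ) ^ 2) := by
    have h1 : (x - 81) / (x - 1) * (x - 1) = x - 81 := by field_simp
    rw [hx2, hxm1, hxm81] at h1
    have hBQ : ((u ^ 2 - (e : ℤ) ^ 2 : ℤ) : ℚ) ≠ 0 := by exact_mod_cast hB0
    have h2 : ((u ^ 2 - 81 * (e : ℤ) ^ 2 : ℤ) : ℚ) * (e2 : ℚ) ^ 2 =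
        (t : ℚ) ^ 2 * ((u ^ 2 - (e : ℤ) ^ 2 : ℤ) : ℚ) := by
      field_simp at h1
      linear_combination -h1
    exact_mod_cast h2
  have hdvd : (e2 : ℤ) ^ 2 ∣ u ^ 2 - (e : ℤ) ^ 2 := by
    have hc : IsCoprime ((e2 : ℤ) ^ 2) (t ^ 2) := hcop2.symm.pow
    have : (e2 : ℤ) ^ 2 ∣ t ^ 2 * (u ^ 2 - (e : ℤ) ^ 2) := ⟨u ^ 2 - 81 * (e : ℤ) ^ 2, by
      rw [← hrel]; ring⟩
    exact hc.dvd_of_dvd_mul_left this
  obtain ⟨g, hg⟩ := hdvd
  have hCg : u ^ 2 - 81 * (e : ℤ) ^ 2 = t ^ 2 * g := by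
    have h1 : (e2 : ℤ) ^ 2 * (u ^ 2 - 81 * (e : ℤ) ^ 2) = (e2 : ℤ) ^ 2 * (t ^ 2 * g) := by
      rw [hg] at hrel; linear_combination hrel
    exact mul_left_cancel₀ (pow_ne_zero 2 he2Z) h1
  have hg0 : g ≠ 0 := by
    rintro rfl; apply hB0; rw [hg]; ring
  have hdiff : g * ((e2 : ℤ) ^ 2 - t ^ 2) = 80 * (e : ℤ) ^ 2 := by
    linear_combination hCg - hg
  have hgcop : IsCoprime g ((e : ℤ) ^ 2) := by
    apply IsCoprime.pow_right
    have h1 : IsCoprime (u ^ 2 + (-(e : ℤ)) * (e : ℤ)) (e : ℤ) :=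
      (IsCoprime.add_mul_right_left_iff).2 hcop.pow_left
    have h2 : u ^ 2 + (-(e : ℤ)) * (e : ℤ) = (e2 : ℤ) ^ 2 * g := by rw [← hg]; ring
    rw [h2] at h1
    exact h1.of_mul_left_right
  have hg80 : g ∣ 80 := by
    have : g ∣ 80 * (e : ℤ) ^ 2 := ⟨_, hdiff.symm⟩
    exact hgcop.dvd_of_dvd_mul_right this
  -- step (i)
  have h4 : g % 4 ≠ 2 := by
    intro hg4
    have h44 : (4 : ZMod 4) = 0 := by decide
    have hgz : ((g : ℤ) : ZMod 4) = 2 := by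
      have : g = 4 * (g / 4) + 2 := by omega
      rw [this]; push_cast; rw [h44]; ring
    have e1 := congrArg (Int.cast : ℤ → ZMod 4) hg
    have e2' := congrArg (Int.cast : ℤ → ZMod 4) hCg
    push_cast at e1 e2'
    rw [hgz] at e1 e2'
    obtain ⟨h1, h2⟩ := zmod4_aux1 _ _ _ _ e1.symm e2'.symm
    exact not_coprime_of_two_dvd (even_of_zmod4 h2) (even_of_zmod4 h1) hcop2
  -- step (ii)
  have h16 : g % 16 ≠ 8 := by
    intro hg16
    obtain ⟨k, hk⟩ : ∃ k : ℤ, g = 8 * (2 * k + 1) := ⟨g / 16, by omega⟩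
    have hodd : ¬ (2 : ℤ) ∣ (2 * k + 1) := by omega
    have he_odd : ¬ (2 : ℤ) ∣ (e : ℤ) := by
      intro h2e
      have h2u2 : (2 : ℤ) ∣ u ^ 2 := by
        have : u ^ 2 = (e2 : ℤ) ^ 2 * g + (e : ℤ) ^ 2 := by rw [← hg]; ring
        rw [this, hk]
        exact dvd_add (dvd_mul_of_dvd_right (dvd_mul_of_dvd_left (by norm_num) _) _)
          (dvd_pow h2e (by norm_num))
      have h2u : (2 : ℤ) ∣ u := Int.prime_two.dvd_of_dvd_pow h2u2
      exact not_coprime_of_two_dvd h2u h2e hcop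
    have hd : (2 * k + 1) * ((e2 : ℤ) ^ 2 - t ^ 2) = 10 * (e : ℤ) ^ 2 := by
      have h1 : (8 : ℤ) * ((2 * k + 1) * ((e2 : ℤ) ^ 2 - t ^ 2)) = 8 * (10 * (e : ℤ) ^ 2) := by
        rw [hk] at hdiff; linear_combination hdiff
      exact mul_left_cancel₀ (by norm_num) h1
    have hd4 := congrArg (Int.cast : ℤ → ZMod 4) hd
    have := zmod4_aux2 (((2 * k + 1 : ℤ)) : ZMod 4) (((e : ℤ)) : ZMod 4) (((e2 : ℤ)) : ZMod 4)
      ((t : ℤ) : ZMod 4) (odd_zmod4 hodd) (odd_zmod4 he_odd)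
    apply this
    rw [Int.cast_mul, Int.cast_sub, Int.cast_pow, Int.cast_pow, Int.cast_mul, Int.cast_pow] at hd4
    exact hd4
  obtain ⟨k, hk0, hk⟩ := class_enum hg80 h4 h16
  have hkQ : (k : ℚ) ≠ 0 := by exact_mod_cast hk0
  have huQ : (u : ℚ) ≠ 0 := by exact_mod_cast hu
  refine ⟨u / e, e2 * k / e, by positivity, by positivity, by rw [hx]; ring, ?_⟩
  rw [hxm1, hg]
  rcases hk with hk | hk | hk | hk
  · left; rw [hk]; push_cast; field_simp
  · right; left; rw [hk]; push_cast; field_simp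
  · right; right; left; rw [hk]; push_cast; field_simp
  · right; right; right; rw [hk]; push_cast; field_simp


/-- Every good `x` has a 2-torsion translate all of whose `x - eᵢ` are squares. -/
theorem Good.normalize {x : ℚ} (h : Good x) : ∃ x', Good1 x' ∧ dup x' = dup x := by
  obtain ⟨a, b, ha, hb, hxa, hcl⟩ := h.classes
  have hx0 := h.ne_zero
  have hx1 := h.ne_one
  have hx81 := h.ne_81
  obtain ⟨y, hy, hxy⟩ := id h
  rcases hcl with hc | hc | hc | hc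
  · -- class 1
    refine ⟨x, ⟨a, b, y / (a * b), ha, hb, by positivity, hxa, hc, ?_⟩, rfl⟩
    have : x * (x - 1) ≠ 0 := mul_ne_zero hx0 hx1
    have e1 : x - 81 = y ^ 2 / (x * (x - 1)) := by
      rw [hxy]; field_simp
    rw [e1, div_pow, mul_pow, ← hxa, ← hc]
  · -- class -1 : translate by (0,0)
    have e81 : x - 81 = -(y / (a * b)) ^ 2 := by
      have : x * (x - 1) ≠ 0 := mul_ne_zero hx0 hx1
      have e1 : x - 81 = y ^ 2 / (x * (x - 1)) := by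
        rw [hxy]; field_simp
      rw [e1, div_pow, mul_pow, ← hxa]
      have : b ^ 2 = -(x - 1) := by rw [hc]; ring
      rw [this]; field_simp
    refine ⟨81 / x, ⟨9 / a, y / (a * b) / a, 9 * b / a, by positivity, by positivity,
      by positivity, ?_, ?_, ?_⟩, dup_t1 h⟩
    · rw [hxa]; field_simp; norm_num
    · have : 81 / x - 1 = -(x - 81) / x := by field_simp; ring
      rw [this, e81, hxa]; field_simp
    · have : 81 / x - 81 = -81 * (x - 1) / x := by field_simp; ring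
      rw [this, hc, hxa]; field_simp; ring
  · -- class 5 : translate by (81,0)
    have e81 : x - 81 = 5 * (y / (5 * a * b)) ^ 2 := by
      have : x * (x - 1) ≠ 0 := mul_ne_zero hx0 hx1
      have e1 : x - 81 = y ^ 2 / (x * (x - 1)) := by
        rw [hxy]; field_simp
      rw [e1, hc, hxa]; field_simp
    have hd : y / (5 * a * b) ≠ 0 := by positivity
    set d := y / (5 * a * b) with hd_def
    refine ⟨81 * (x - 1) / (x - 81), ⟨9 * b / d, 4 * a / d, 36 / d, by positivity, by positivity,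
      by positivity, ?_, ?_, ?_⟩, dup_t3 h⟩
    · rw [e81, hc]; field_simp
      ring
    · have : 81 * (x - 1) / (x - 81) - 1 = 80 * x / (x - 81) := by field_simp; ring
      rw [this, e81, hxa]; field_simp; ring
    · have : 81 * (x - 1) / (x - 81) - 81 = 6480 / (x - 81) := by field_simp; ring
      rw [this, e81]; field_simp; ring
  · -- class -5 : translate by (1,0)
    have e81 : x - 81 = -(5 * (y / (5 * a * b)) ^ 2) := by
      have : x * (x - 1) ≠ 0 := mul_ne_zero hx0 hx1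
      have e1 : x - 81 = y ^ 2 / (x * (x - 1)) := by
        rw [hxy]; field_simp
      rw [e1, hc, hxa]; field_simp
    have hd : y / (5 * a * b) ≠ 0 := by positivity
    set d := y / (5 * a * b) with hd_def
    refine ⟨(x - 81) / (x - 1), ⟨d / b, 4 / b, 4 * a / b, by positivity, by positivity,
      by positivity, ?_, ?_, ?_⟩, dup_t2 h⟩
    · rw [e81, hc]; field_simp
    · have : (x - 81) / (x - 1) - 1 = -80 / (x - 1) := by field_simp; ring
      rw [this, hc]; field_simp; ring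
    · have : (x - 81) / (x - 1) - 81 = -80 * x / (x - 1) := by field_simp; ring
      rw [this, hc, hxa]; field_simp; ring


theorem int_isSquare_of_rat_sq {z : ℤ} {q : ℚ} (h : q ^ 2 = (z : ℚ)) : ∃ v : ℤ, z = v ^ 2 := by
  have : IsSquare ((z : ℤ) : ℚ) := ⟨q, by rw [← h]; ring⟩
  rw [Rat.isSquare_intCast_iff] at this
  obtain ⟨v, hv⟩ := this
  exact ⟨v, by rw [hv]; ring⟩

/-- Key size estimate: halving strictly decreases the denominator. -/
theorem size_lemma {x' : ℚ} (h' : Good1 x') : x'.den < (dup x').den := by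
  obtain ⟨a, b, c, ha, hb, hc, h1, h2, h3⟩ := h'
  set ρ : ℤ := a.num with hρ
  set s : ℕ := a.den with hs
  have hspos : 0 < s := a.den_pos
  have hsQ : (s : ℚ) ≠ 0 := by positivity
  have hsZ : (s : ℤ) ≠ 0 := by positivity
  have haρ : a = (ρ : ℚ) / (s : ℚ) := (Rat.num_div_den a).symm
  have hρ0 : ρ ≠ 0 := by
    rw [hρ]; exact Rat.num_ne_zero.2 ha
  have hρQ : (ρ : ℚ) ≠ 0 := by exact_mod_cast hρ0
  have hcop : IsCoprime ρ (s : ℤ) := by
    rw [Int.isCoprime_iff_nat_coprime]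
    simpa [hρ, hs] using a.reduced
  have hden : x'.den = s * s := by
    rw [h1, sq, Rat.mul_self_den]
  -- v and w
  obtain ⟨v, hv⟩ : ∃ v : ℤ, ρ ^ 2 - (s : ℤ) ^ 2 = v ^ 2 := by
    apply int_isSquare_of_rat_sq (q := b * s)
    rw [mul_pow, ← h2, h1, haρ]; push_cast; field_simp
  obtain ⟨w, hw⟩ : ∃ w : ℤ, ρ ^ 2 - 81 * (s : ℤ) ^ 2 = w ^ 2 := by
    apply int_isSquare_of_rat_sq (q := c * s)
    rw [mul_pow, ← h3, h1, haρ]; push_cast; field_simp
  have hx1 : x' - 1 = (v : ℚ) ^ 2 / (s : ℚ) ^ 2 := by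
    have : ((ρ ^ 2 - (s : ℤ) ^ 2 : ℤ) : ℚ) = ((v ^ 2 : ℤ) : ℚ) := by rw [hv]
    push_cast at this
    rw [← this, h1, haρ]; field_simp
  have hx81 : x' - 81 = (w : ℚ) ^ 2 / (s : ℚ) ^ 2 := by
    have : ((ρ ^ 2 - 81 * (s : ℤ) ^ 2 : ℤ) : ℚ) = ((w ^ 2 : ℤ) : ℚ) := by rw [hw]
    push_cast at this
    rw [← this, h1, haρ]; field_simp
  have hv0 : v ≠ 0 := by
    rintro rfl
    have : x' - 1 = 0 := by rw [hx1]; simp
    rw [h2] at this
    exact hb (by simpa using this)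
  have hw0 : w ≠ 0 := by
    rintro rfl
    have : x' - 81 = 0 := by rw [hx81]; simp
    rw [h3] at this
    exact hc (by simpa using this)
  have hvQ : (v : ℚ) ≠ 0 := by exact_mod_cast hv0
  have hwQ : (w : ℚ) ≠ 0 := by exact_mod_cast hw0
  -- the square root of dup x'
  set r₀ : ℚ := ((ρ ^ 4 - 81 * (s : ℤ) ^ 4 : ℤ) : ℚ) / ((2 * ρ * v * w * (s : ℤ) : ℤ) : ℚ) with hr₀
  have hdup : dup x' = r₀ * r₀ := by
    unfold dup
    rw [hx1, hx81, h1, haρ, hr₀]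
    push_cast
    field_simp
    ring
  have hden0 : (dup x').den = r₀.den * r₀.den := by rw [hdup, Rat.mul_self_den]
  have hr₀pos : 0 < r₀.den := r₀.den_pos
  -- cross-multiplied relation
  have hcross : r₀.num * (2 * ρ * v * w * (s : ℤ)) = (r₀.den : ℤ) * (ρ ^ 4 - 81 * (s : ℤ) ^ 4) := by
    have hne : ((2 * ρ * v * w * (s : ℤ) : ℤ) : ℚ) ≠ 0 := by
      push_cast; positivity
    have hdQ : (r₀.den : ℚ) ≠ 0 := by positivity
    have e1 : (r₀.num : ℚ) / (r₀.den : ℚ) =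
        ((ρ ^ 4 - 81 * (s : ℤ) ^ 4 : ℤ) : ℚ) / ((2 * ρ * v * w * (s : ℤ) : ℤ) : ℚ) := by
      rw [Rat.num_div_den]
    rw [div_eq_div_iff hdQ hne] at e1
    have e2 : ((r₀.num * (2 * ρ * v * w * (s : ℤ)) : ℤ) : ℚ) =
        (((r₀.den : ℤ) * (ρ ^ 4 - 81 * (s : ℤ) ^ 4) : ℤ) : ℚ) := by
      push_cast
      push_cast at e1
      linear_combination e1
    exact_mod_cast e2
  have hcopD : IsCoprime (s : ℤ) (ρ ^ 4 - 81 * (s : ℤ) ^ 4) := by
    have h1 : IsCoprime (ρ ^ 4 + (-81 * (s : ℤ) ^ 3) * (s : ℤ)) (s : ℤ) :=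
      (IsCoprime.add_mul_right_left_iff).2 hcop.pow_left
    have h2 : ρ ^ 4 + (-81 * (s : ℤ) ^ 3) * (s : ℤ) = ρ ^ 4 - 81 * (s : ℤ) ^ 4 := by ring
    rw [h2] at h1
    exact h1.symm
  have hsdvd : (s : ℤ) ∣ (r₀.den : ℤ) := by
    have : (s : ℤ) ∣ (r₀.den : ℤ) * (ρ ^ 4 - 81 * (s : ℤ) ^ 4) :=
      ⟨r₀.num * (2 * ρ * v * w), by rw [← hcross]; ring⟩
    exact hcopD.dvd_of_dvd_mul_right this
  have hsdvd' : s ∣ r₀.den := by exact_mod_cast hsdvd
  have hsle : s ≤ r₀.den := Nat.le_of_dvd hr₀pos hsdvd'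
  have hsne : s ≠ r₀.den := by
    intro hse
    have hcross' : r₀.num * (2 * ρ * v * w) = ρ ^ 4 - 81 * (s : ℤ) ^ 4 := by
      have : (s : ℤ) * (r₀.num * (2 * ρ * v * w)) = (s : ℤ) * (ρ ^ 4 - 81 * (s : ℤ) ^ 4) := by
        have hse' : (r₀.den : ℤ) = (s : ℤ) := by exact_mod_cast hse.symm
        rw [hse'] at hcross
        linear_combination hcross
      exact mul_left_cancel₀ hsZ this
    have hρdvd : ρ ∣ 81 * (s : ℤ) ^ 4 := by
      have h1 : ρ ∣ ρ ^ 4 - 81 * (s : ℤ) ^ 4 := ⟨r₀.num * (2 * v * w), by rw [← hcross']; ring⟩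
      have h2 : ρ ∣ ρ ^ 4 := dvd_pow_self ρ (by norm_num)
      have h3 := dvd_sub h2 h1
      have h4 : ρ ^ 4 - (ρ ^ 4 - 81 * (s : ℤ) ^ 4) = 81 * (s : ℤ) ^ 4 := by ring
      rwa [h4] at h3
    have hρ81 : ρ ∣ 81 := (hcop.pow_right (n := 4)).dvd_of_dvd_mul_right hρdvd
    have hR1 : |ρ| ≤ 81 := Int.le_of_dvd (by norm_num) ((abs_dvd ρ 81).2 hρ81)
    have hR0 : 1 ≤ |ρ| := Int.one_le_abs hρ0
    have hV0 : 1 ≤ |v| := Int.one_le_abs hv0
    have hRsq : |ρ| ^ 2 = ρ ^ 2 := sq_abs ρ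
    have hVsq : |v| ^ 2 = v ^ 2 := sq_abs v
    have hs1 : (1 : ℤ) ≤ (s : ℤ) := by exact_mod_cast hspos
    have hw1 : 1 ≤ w ^ 2 := by
      have : 0 < w ^ 2 := by positivity
      linarith
    -- |v| < |ρ|
    have hVR : |v| < |ρ| := by
      apply lt_of_pow_lt_pow_left₀ 2 (abs_nonneg ρ)
      rw [hRsq, hVsq, ← hv]
      nlinarith
    have hVR' : |v| + 1 ≤ |ρ| := hVR
    -- 81 v² = 80 ρ² + w²
    have h81 : 81 * |v| ^ 2 = 80 * |ρ| ^ 2 + w ^ 2 := by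
      rw [hRsq, hVsq]; linear_combination -81 * hv + hw
    nlinarith
  have hslt : s < r₀.den := lt_of_le_of_ne hsle hsne
  rw [hden, hden0]
  exact Nat.mul_lt_mul'' hslt hslt

/-- Infinite descent. -/
theorem no_good1 : ∀ (n : ℕ) (x : ℚ), x.den = n → ¬ Good1 x := by
  intro n
  induction n using Nat.strong_induction_on with
  | _ n ih =>
    intro x hx h
    obtain ⟨xq, hq, hdup⟩ := h.halve
    obtain ⟨x', h1', hd'⟩ := hq.normalize
    have hlt := size_lemma h1'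
    rw [hd', hdup, hx] at hlt
    exact ih x'.den hlt x' rfl h1'

theorem not_good (x : ℚ) : ¬ Good x := by
  intro h
  obtain ⟨x', h1, _⟩ := h.normalize
  exact no_good1 _ x' rfl h1

/-- **(D1)** The only rational points on `Y² = X (X - 1) (X - 81)` are the 2-torsion points. -/
theorem descent (X Y : ℚ) (h : Y ^ 2 = X * (X - 1) * (X - 81)) : Y = 0 := by
  by_contra hY
  exact not_good X ⟨Y, hY, h⟩


end Fermat.Agent.S51.H57
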