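import Fermat.Agent.S51.H80_Identities

/-!
# The Fricke parameter of a point of order 5 (helper65, for S51)

For a root `x` of `ψ₅` on a Weierstrass curve with `Δ ≠ 0` (characteristic `≠ 2`):
`sInv = -ψ₃³/B⁴` is the Tate parameter, `tInv = sInv - 11 - 1/sInv` the Fricke parameter of `X₀(5)`,
and `j = (t² + 10 t + 5)³ / t`.  Doubling sends `sInv ↦ -1/sInv`, hence fixes `tInv`.
-/

set_option autoImplicit false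

namespace Fermat.Agent.S51.H65

open WeierstrassCurve WeierstrassCurve.Affine Fermat.Agent.S51.H80

variable {K : Type*} [Field K] (W : Affine K)

/-- the Tate parameter `-ψ₃³/B⁴`. -/
noncomputable def sInv (x : K) : K := -(psi3 W x) ^ 3 / (Bx W x) ^ 4

/-- the Fricke parameter `s - 11 - 1/s`. -/
noncomputable def tInv (x : K) : K := sInv W x - 11 - 1 / sInv W x

/-- `N² + 4 ψ₃ = B · (12 x + b₂)` with `N = 6x² + b₂ x + b₄`. -/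
lemma N_sq_add (x : K) :
    (6 * x ^ 2 + W.b₂ * x + W.b₄) ^ 2 + 4 * psi3 W x = Bx W x * (12 * x + W.b₂) := by
  simp only [psi3, Bx]
  linear_combination (1 : K) * W.b_relation

/-- `c₄ = (12 x + b₂)² - 24 N`. -/
lemma c₄_eq (x : K) :
    W.c₄ = (12 * x + W.b₂) ^ 2 - 24 * (6 * x ^ 2 + W.b₂ * x + W.b₄) := by
  simp only [c₄]
  ring

/-- `Δ B² = -ψ₃ (N² + 4ψ₃)² + N³ B² + 36 N ψ₃ B² - 27 B⁴`. -/
lemma Δ_mul_Bx_sq (x : K) :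
    W.Δ * Bx W x ^ 2 = -psi3 W x * ((6 * x ^ 2 + W.b₂ * x + W.b₄) ^ 2 + 4 * psi3 W x) ^ 2
      + (6 * x ^ 2 + W.b₂ * x + W.b₄) ^ 3 * Bx W x ^ 2
      + 36 * (6 * x ^ 2 + W.b₂ * x + W.b₄) * psi3 W x * Bx W x ^ 2 - 27 * Bx W x ^ 4 := by
  simp only [psi3, Bx, Δ]
  linear_combination (-4 * x ^ 6 * W.b₂ ^ 2 - x ^ 5 * W.b₂ ^ 3 - 36 * x ^ 5 * W.b₂ * W.b₄ + 216 * x ^ 5 * W.b₆ - 11 * x ^ 4 * W.b₂ ^ 2 * W.b₄ + 63 * x ^ 4 * W.b₂ * W.b₆ - 69 * x ^ 4 * W.b₄ ^ 2 + 108 * x ^ 4 * W.b₈ + x ^ 3 * W.b₂ ^ 2 * W.b₆ - 35 * x ^ 3 * W.b₂ * W.b₄ ^ 2 + 36 * x ^ 3 * W.b₂ * W.b₈ + 72 * x ^ 3 * W.b₄ * W.b₆ + 2 * x ^ 2 * W.b₂ ^ 2 * W.b₈ - 15 * x ^ 2 * W.b₂ * W.b₄ * W.b₆ - 33 * x ^ 2 * W.b₄ ^ 3 + 60 * x ^ 2 * W.b₄ * W.b₈ + 54 * x ^ 2 * W.b₆ ^ 2 + 4 * x * W.b₂ * W.b₄ * W.b₈ - 33 * x * W.b₄ ^ 2 * W.b₆ + 36 * x * W.b₆ * W.b₈ + W.b₂ * W.b₆ * W.b₈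 + W.b₄ ^ 2 * W.b₈ - 9 * W.b₄ * W.b₆ ^ 2 + 4 * W.b₈ ^ 2) * W.b_relation

/-- abstract form: `c₄` in terms of `p = ψ₃`, `B`. -/
lemma core_c₄ {p B N L c4 : K} (hp : p ≠ 0) (hB : B ≠ 0)
    (h1 : N ^ 2 + 4 * p = B * L) (h2 : c4 = L ^ 2 - 24 * N)
    (h5 : N * p * B ^ 2 = p ^ 3 + B ^ 4) :
    c4 * p ^ 4 * B ^ 10 =
      p ^ 12 + 12 * p ^ 9 * B ^ 4 + 14 * p ^ 6 * B ^ 8 - 12 * p ^ 3 * B ^ 12 + B ^ 16 := by
  have hN : N = (p ^ 3 + B ^ 4) / (p * B ^ 2) := by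
    field_simp
    linear_combination h5
  have hL : L = (N ^ 2 + 4 * p) / B := by
    field_simp
    linear_combination -h1
  rw [h2, hL, hN]
  field_simp
  ring

/-- abstract form: `Δ` in terms of `p = ψ₃`, `B`. -/
lemma core_Δ {p B N D : K} (hp : p ≠ 0) (hB : B ≠ 0)
    (h3 : D * B ^ 2 = -p * (N ^ 2 + 4 * p) ^ 2 + N ^ 3 * B ^ 2 + 36 * N * p * B ^ 2 - 27 * B ^ 4)
    (h5 : N * p * B ^ 2 = p ^ 3 + B ^ 4) :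
    D * B ^ 10 = -p ^ 3 * (p ^ 6 + 11 * p ^ 3 * B ^ 4 - B ^ 8) := by
  have hN : N = (p ^ 3 + B ^ 4) / (p * B ^ 2) := by
    field_simp
    linear_combination h5
  have hD : D = (-p * (N ^ 2 + 4 * p) ^ 2 + N ^ 3 * B ^ 2 + 36 * N * p * B ^ 2 - 27 * B ^ 4) / B ^ 2 := by
    field_simp
    linear_combination h3
  rw [hD, hN]
  field_simp
  ring


variable {W}

/-- at a root of `ψ₅` on a curve with `Δ ≠ 0`, `B ≠ 0`. -/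
lemma Bx_ne_zero_of_Psi5 (hΔ : W.Δ ≠ 0) (h2 : (2 : K) ≠ 0) {x : K} (h5 : Psi5 W x = 0) :
    Bx W x ≠ 0 := by
  intro hB
  have h3 : psi3 W x = 0 := by
    have : psi3 W x ^ 3 = 0 := by
      have := h5
      simp only [Psi5, hB] at this
      linear_combination -this
    exact pow_eq_zero_iff (by norm_num) |>.1 this
  exact hΔ (Δ_eq_zero_of_Bx_psi3 W h2 hB h3)

/-- at a root of `ψ₅` on a curve with `Δ ≠ 0`, `ψ₃ ≠ 0`. -/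
lemma psi3_ne_zero_of_Psi5 (hΔ : W.Δ ≠ 0) (h2 : (2 : K) ≠ 0) {x : K} (h5 : Psi5 W x = 0) :
    psi3 W x ≠ 0 := by
  intro h3
  have hB : Bx W x = 0 := by
    have : Bx W x ^ 4 = 0 := by
      have := h5
      simp only [Psi5, psi4t, h3] at this
      linear_combination -this
    exact pow_eq_zero_iff (by norm_num) |>.1 this
  exact hΔ (Δ_eq_zero_of_Bx_psi3 W h2 hB h3)

/-- `ψ₅ = 0` rewritten: `N ψ₃ B² = ψ₃³ + B⁴`. -/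
lemma N_mul_of_Psi5 {x : K} (h5 : Psi5 W x = 0) :
    (6 * x ^ 2 + W.b₂ * x + W.b₄) * psi3 W x * Bx W x ^ 2 = psi3 W x ^ 3 + Bx W x ^ 4 := by
  simp only [Psi5, psi4t] at h5
  linear_combination h5

/-- `c₄ ψ₃⁴ B¹⁰` at a root of `ψ₅`. -/
lemma c₄_of_Psi5 (hΔ : W.Δ ≠ 0) (h2 : (2 : K) ≠ 0) {x : K} (h5 : Psi5 W x = 0) :
    W.c₄ * psi3 W x ^ 4 * Bx W x ^ 10 =
      psi3 W x ^ 12 + 12 * psi3 W x ^ 9 * Bx W x ^ 4 + 14 * psi3 W x ^ 6 * Bx W x ^ 8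
        - 12 * psi3 W x ^ 3 * Bx W x ^ 12 + Bx W x ^ 16 :=
  core_c₄ (psi3_ne_zero_of_Psi5 hΔ h2 h5) (Bx_ne_zero_of_Psi5 hΔ h2 h5)
    (N_sq_add W x) (c₄_eq W x) (N_mul_of_Psi5 h5)

/-- `Δ B¹⁰` at a root of `ψ₅`. -/
lemma Δ_of_Psi5 (hΔ : W.Δ ≠ 0) (h2 : (2 : K) ≠ 0) {x : K} (h5 : Psi5 W x = 0) :
    W.Δ * Bx W x ^ 10 =
      -psi3 W x ^ 3 * (psi3 W x ^ 6 + 11 * psi3 W x ^ 3 * Bx W x ^ 4 - Bx W x ^ 8) :=
  core_Δ (psi3_ne_zero_of_Psi5 hΔ h2 h5) (Bx_ne_zero_of_Psi5 hΔ h2 h5)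
    (Δ_mul_Bx_sq W x) (N_mul_of_Psi5 h5)

/-- abstract final step of `t_of_root5`. -/
lemma core_t {p B c4 D : K} (hp : p ≠ 0) (hB : B ≠ 0) (hD : D ≠ 0)
    (hc : c4 * p ^ 4 * B ^ 10 =
      p ^ 12 + 12 * p ^ 9 * B ^ 4 + 14 * p ^ 6 * B ^ 8 - 12 * p ^ 3 * B ^ 12 + B ^ 16)
    (hΔ : D * B ^ 10 = -p ^ 3 * (p ^ 6 + 11 * p ^ 3 * B ^ 4 - B ^ 8)) :
    (-p ^ 3 / B ^ 4 - 11 - 1 / (-p ^ 3 / B ^ 4)) ≠ 0 ∧
    c4 ^ 3 * (-p ^ 3 / B ^ 4 - 11 - 1 / (-p ^ 3 / B ^ 4)) =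
      D * ((-p ^ 3 / B ^ 4 - 11 - 1 / (-p ^ 3 / B ^ 4)) ^ 2
        + 10 * (-p ^ 3 / B ^ 4 - 11 - 1 / (-p ^ 3 / B ^ 4)) + 5) ^ 3 := by
  have hQ : p ^ 6 + 11 * p ^ 3 * B ^ 4 - B ^ 8 ≠ 0 := by
    intro hQ
    rw [hQ, mul_zero] at hΔ
    exact hD ((mul_eq_zero.1 hΔ).resolve_right (pow_ne_zero _ hB))
  have ht : (-p ^ 3 / B ^ 4 - 11 - 1 / (-p ^ 3 / B ^ 4))
      = -(p ^ 6 + 11 * p ^ 3 * B ^ 4 - B ^ 8) / (p ^ 3 * B ^ 4) := by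
    field_simp
    ring
  have hc' : c4 = (p ^ 12 + 12 * p ^ 9 * B ^ 4 + 14 * p ^ 6 * B ^ 8 - 12 * p ^ 3 * B ^ 12 + B ^ 16)
      / (p ^ 4 * B ^ 10) := by
    field_simp
    linear_combination hc
  have hD' : D = -p ^ 3 * (p ^ 6 + 11 * p ^ 3 * B ^ 4 - B ^ 8) / B ^ 10 := by
    field_simp
    linear_combination hΔ
  refine ⟨?_, ?_⟩
  · rw [ht]
    exact div_ne_zero (neg_ne_zero.2 hQ) (mul_ne_zero (pow_ne_zero _ hp) (pow_ne_zero _ hB))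
  · rw [ht, hc', hD']
    field_simp
    ring

/-- **(5b)** the Fricke parameter at a root of `ψ₅` is nonzero and `j = (t² + 10t + 5)³ / t`. -/
theorem t_of_root5 (hΔ : W.Δ ≠ 0) (h2 : (2 : K) ≠ 0) (x : K) (h5 : Psi5 W x = 0) :
    tInv W x ≠ 0 ∧ W.c₄ ^ 3 * tInv W x = W.Δ * ((tInv W x) ^ 2 + 10 * tInv W x + 5) ^ 3 := by
  simp only [tInv, sInv]
  exact core_t (psi3_ne_zero_of_Psi5 hΔ h2 h5) (Bx_ne_zero_of_Psi5 hΔ h2 h5) hΔ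
    (c₄_of_Psi5 hΔ h2 h5) (Δ_of_Psi5 hΔ h2 h5)

/-- `ψ₃(x(2P)) B⁴ = ψ₃ (ψ₅ - (ψ₄/ψ₂)²)`. -/
lemma psi3_dbl {x t : K} (ht : t * Bx W x = numD W x) :
    psi3 W t * Bx W x ^ 4 = psi3 W x * (Psi5 W x - psi4t W x ^ 2) := by
  have e1 := Bx_dbl W ht
  have e2 := numD_dbl W ht
  have e3 := numD_sub W t
  have e4 := numD_sub W x
  linear_combination (Bx W x ^ 4) * e3 + (t * Bx W x) * e1 - e2 + (psi4t W x ^ 2) * e4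
    + (psi4t W x ^ 2) * ht

/-- doubling inverts the Tate parameter up to sign: `s(2P) = -1/s(P)`. -/
lemma sInv_double (hΔ : W.Δ ≠ 0) (h2 : (2 : K) ≠ 0) (x : K) (h5 : Psi5 W x = 0) :
    sInv W (numD W x / Bx W x) = -1 / sInv W x := by
  have hB := Bx_ne_zero_of_Psi5 hΔ h2 h5
  have hp := psi3_ne_zero_of_Psi5 hΔ h2 h5
  have ht : numD W x / Bx W x * Bx W x = numD W x := div_mul_cancel₀ _ hB
  have e1 := Bx_dbl W ht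
  have e3 := psi3_dbl ht
  rw [h5, zero_sub] at e3
  have h4 : psi4t W x * Bx W x ^ 2 = psi3 W x ^ 3 := by
    simp only [Psi5] at h5
    linear_combination h5
  have h4ne : psi4t W x ≠ 0 := by
    intro h0
    rw [h0, zero_mul] at h4
    exact hp (pow_eq_zero_iff (by norm_num) |>.1 h4.symm)
  generalize numD W x / Bx W x = t at e1 e3
  have hBt : Bx W t = psi4t W x ^ 2 / Bx W x ^ 3 := by
    field_simp
    linear_combination e1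
  have hpt : psi3 W t = -(psi3 W x * psi4t W x ^ 2) / Bx W x ^ 4 := by
    field_simp
    linear_combination e3
  have h4' : psi4t W x = psi3 W x ^ 3 / Bx W x ^ 2 := by
    field_simp
    linear_combination h4
  simp only [sInv]
  rw [hBt, hpt, h4']
  field_simp

/-- **(5c)** the Fricke parameter is invariant under doubling. -/
theorem tInv_double (hΔ : W.Δ ≠ 0) (h2 : (2 : K) ≠ 0) (x : K) (h5 : Psi5 W x = 0) :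
    tInv W (numD W x / Bx W x) = tInv W x := by
  have hB := Bx_ne_zero_of_Psi5 hΔ h2 h5
  have hp := psi3_ne_zero_of_Psi5 hΔ h2 h5
  have hs : sInv W x ≠ 0 := by
    simp only [sInv]
    exact div_ne_zero (neg_ne_zero.2 (pow_ne_zero _ hp)) (pow_ne_zero _ hB)
  simp only [tInv]
  rw [sInv_double hΔ h2 x h5]
  field_simp
  ring

end Fermat.Agent.S51.H65
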