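import Fermat.Agent.S51.H80_Exists
import Mathlib.Data.Set.Card
import Mathlib.Data.Set.Card.Arithmetic
import Mathlib.LinearAlgebra.Dimension.Free
import Mathlib.LinearAlgebra.FiniteDimensional.Lemmas
import Mathlib.FieldTheory.Finiteness
import Mathlib.Algebra.Module.ZMod
import Mathlib.FieldTheory.Finite.Basic

/-!
# Cardinality bounds for `E[3]`, `E[5]` and lines (helper80, for S51)
-/

set_option autoImplicit false

namespace Fermat.Agent.S51.H80

open WeierstrassCurve WeierstrassCurve.Affine Polynomial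

section Count

variable {K : Type*} [Field K] [DecidableEq K] (W : Affine K)

/-- the `x`-coordinate, with junk value `0` at infinity. -/
def xCoord : W.Point → K
  | .zero => 0
  | .some x _ _ => x

omit [DecidableEq K] in
@[simp] lemma xCoord_some {x y : K} (h : W.Nonsingular x y) : xCoord W (.some x y h) = x := rfl

omit [DecidableEq K] in
/-- The set of affine points with `x`-coordinate in a finite set is finite, of cardinality at most
twice the cardinality of that set. -/
lemma ncard_affine_le (R : Finset K) (S : Set W.Point)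
    (hS : ∀ P ∈ S, P ≠ 0 ∧ xCoord W P ∈ R) : S.Finite ∧ S.ncard ≤ 2 * R.card := by
  classical
  -- fibres of the `x`-coordinate on nonzero points have at most two elements
  have hfib : ∀ x : K, ∀ P ∈ S, xCoord W P = x → ∀ Q ∈ S, xCoord W Q = x → Q = P ∨ Q = -P := by
    intro x P hP hPx Q hQ hQx
    rcases P with _ | ⟨x₁, y₁, h₁⟩
    · exact absurd rfl (hS _ hP).1
    rcases Q with _ | ⟨x₂, y₂, h₂⟩
    · exact absurd rfl (hS _ hQ).1
    simp only [xCoord_some] at hPx hQx
    exact (Point.X_eq_iff (h₁ := h₂) (h₂ := h₁)).1 (hQx.trans hPx.symm)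
  have hsub : ∀ x : K, (S ∩ {P | xCoord W P = x}).Finite ∧
      (S ∩ {P | xCoord W P = x}).ncard ≤ 2 := by
    intro x
    by_cases hne : (S ∩ {P | xCoord W P = x}).Nonempty
    · obtain ⟨P, hP, hPx⟩ := hne
      have hsub' : S ∩ {P | xCoord W P = x} ⊆ ({P, -P} : Set W.Point) := by
        rintro Q ⟨hQ, hQx⟩
        rcases hfib x P hP hPx Q hQ hQx with h | h
        · exact Or.inl h
        · exact Or.inr h
      have hfin : ({P, -P} : Set W.Point).Finite := Set.toFinite _
      refine ⟨hfin.subset hsub', (Set.ncard_le_ncard hsub' hfin).trans ?_⟩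
      exact (Set.ncard_insert_le _ _).trans (by simp)
    · rw [Set.not_nonempty_iff_eq_empty] at hne
      rw [hne]; simp
  have hcover : S = ⋃ x ∈ R, (S ∩ {P | xCoord W P = x}) := by
    ext P
    simp only [Set.mem_iUnion, Set.mem_inter_iff, Set.mem_ofPred_eq, exists_prop]
    constructor
    · intro hP
      exact ⟨xCoord W P, (hS P hP).2, hP, rfl⟩
    · rintro ⟨x, -, hP, -⟩
      exact hP
  have hfinS : S.Finite := by
    rw [hcover]
    exact Set.Finite.biUnion R.finite_toSet (fun x _ => (hsub x).1)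
  refine ⟨hfinS, ?_⟩
  calc S.ncard = (⋃ x ∈ R, (S ∩ {P | xCoord W P = x})).ncard := by rw [← hcover]
    _ ≤ ∑ x ∈ R, (S ∩ {P | xCoord W P = x}).ncard := Finset.set_ncard_biUnion_le _ _
    _ ≤ ∑ _x ∈ R, 2 := Finset.sum_le_sum (fun x _ => (hsub x).2)
    _ = 2 * R.card := by simp [mul_comm]


/-- finiteness and cardinality bound for the `n`-torsion, given a finite set containing the
`x`-coordinates of all nonzero `n`-torsion points. -/
lemma card_torsionBy_le (n : ℤ) (R : Finset K)
    (hR : ∀ (x y : K) (h : W.Nonsingular x y), n • (Point.some x y h : W.Point) = 0 → x ∈ R) :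
    Finite (Submodule.torsionBy ℤ W.Point n) ∧
      Nat.card (Submodule.torsionBy ℤ W.Point n) ≤ 2 * R.card + 1 := by
  classical
  set T : Set W.Point := (Submodule.torsionBy ℤ W.Point n : Set W.Point) with hT
  have hS : ∀ P ∈ T \ {0}, P ≠ 0 ∧ xCoord W P ∈ R := by
    rintro P ⟨hP, hP0⟩
    refine ⟨hP0, ?_⟩
    rcases P with _ | ⟨x, y, h⟩
    · exact absurd rfl hP0
    · exact hR x y h ((Submodule.mem_torsionBy_iff _ _).1 hP)
  obtain ⟨hfin, hcard⟩ := ncard_affine_le W R (T \ {0}) hS
  have hsub : T ⊆ insert 0 (T \ {0}) := by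
    intro P hP
    by_cases h0 : P = 0
    · exact Or.inl h0
    · exact Or.inr ⟨hP, h0⟩
  have hfinT : T.Finite := (hfin.insert 0).subset hsub
  refine ⟨hfinT.to_subtype, ?_⟩
  have h1 : Nat.card (Submodule.torsionBy ℤ W.Point n) = T.ncard := Nat.card_coe_set_eq T
  rw [h1]
  calc T.ncard ≤ (insert 0 (T \ {0})).ncard := Set.ncard_le_ncard hsub (hfin.insert 0)
    _ ≤ (T \ {0}).ncard + 1 := Set.ncard_insert_le _ _
    _ ≤ 2 * R.card + 1 := by omega

variable {W}

theorem card_torsionBy_three_le (hΔ : W.Δ ≠ 0) (h2 : (2 : K) ≠ 0) (h3 : (3 : K) ≠ 0) :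
    Finite (Submodule.torsionBy ℤ W.Point ((3 : ℕ) : ℤ)) ∧
      Nat.card (Submodule.torsionBy ℤ W.Point ((3 : ℕ) : ℤ)) ≤ 9 := by
  classical
  obtain ⟨hfin, hcard⟩ := card_torsionBy_le W ((3 : ℕ) : ℤ) (W.Ψ₃.roots.toFinset) (by
    intro x y h hP
    rw [three_zsmul] at hP
    have := (three_torsion_iff hΔ h2 h).1 hP
    rw [Multiset.mem_toFinset, mem_roots (W.Ψ₃_ne_zero h3), IsRoot.def, eval_Ψ₃]
    exact this)
  refine ⟨hfin, hcard.trans ?_⟩
  have h4 : W.Ψ₃.roots.toFinset.card ≤ 4 := by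
    calc W.Ψ₃.roots.toFinset.card ≤ Multiset.card W.Ψ₃.roots := Multiset.toFinset_card_le _
      _ ≤ W.Ψ₃.natDegree := card_roots' _
      _ = 4 := W.natDegree_Ψ₃ h3
  omega

theorem card_torsionBy_five_le (hΔ : W.Δ ≠ 0) (h2 : (2 : K) ≠ 0) (h5 : (5 : K) ≠ 0) :
    Finite (Submodule.torsionBy ℤ W.Point ((5 : ℕ) : ℤ)) ∧
      Nat.card (Submodule.torsionBy ℤ W.Point ((5 : ℕ) : ℤ)) ≤ 25 := by
  classical
  have h5' : ((5 : ℕ) : K) ≠ 0 := by exact_mod_cast h5
  obtain ⟨hfin, hcard⟩ := card_torsionBy_le W ((5 : ℕ) : ℤ) ((W.preΨ' 5).roots.toFinset) (by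
    intro x y h hP
    rw [five_zsmul] at hP
    have := (five_torsion_iff hΔ h2 h).1 hP
    rw [Multiset.mem_toFinset, mem_roots (W.preΨ'_ne_zero h5'), IsRoot.def, eval_preΨ'_five]
    exact this)
  refine ⟨hfin, hcard.trans ?_⟩
  have h12 : (W.preΨ' 5).roots.toFinset.card ≤ 12 := by
    calc (W.preΨ' 5).roots.toFinset.card ≤ Multiset.card (W.preΨ' 5).roots :=
          Multiset.toFinset_card_le _
      _ ≤ (W.preΨ' 5).natDegree := card_roots' _
      _ = 12 := by
          rw [W.natDegree_preΨ' h5']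
          have : ¬ Even 5 := by decide
          simp [this]
  omega

end Count

section Line

/-- In a module over `ZMod p` with fewer than `p ^ 3` elements, a submodule different from `⊥` and
`⊤` is generated by one element. -/
theorem exists_generator_of_proper (p : ℕ) [Fact p.Prime] {G : Type*} [AddCommGroup G]
    [Module (ZMod p) G] [Finite G] (hcard : Nat.card G < p ^ 3) (N : Submodule (ZMod p) G)
    (h0 : N ≠ ⊥) (h1 : N ≠ ⊤) : ∃ v ∈ N, v ≠ 0 ∧ ∀ w ∈ N, ∃ c : ZMod p, w = c • v := by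
  classical
  have hp : 1 < p := (Fact.out : p.Prime).one_lt
  have : Module.Finite (ZMod p) G := Module.Finite.of_finite
  have hG : Nat.card G = p ^ Module.finrank (ZMod p) G := by
    have := Module.natCard_eq_pow_finrank (K := ZMod p) (V := G)
    rw [this, Nat.card_zmod]
  have hrank : Module.finrank (ZMod p) G ≤ 2 := by
    rw [hG] at hcard
    have := (Nat.pow_lt_pow_iff_right hp).1 hcard
    omega
  have hlt : Module.finrank (ZMod p) N < Module.finrank (ZMod p) G :=
    Submodule.finrank_lt h1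
  have hpos : 0 < Module.finrank (ZMod p) N := by
    rw [Module.finrank_pos_iff]
    exact (Submodule.nontrivial_iff_ne_bot).2 h0
  have hone : Module.finrank (ZMod p) N = 1 := by omega
  obtain ⟨v, hv0, hv⟩ := finrank_eq_one_iff'.1 hone
  refine ⟨v, v.2, fun h => hv0 (Subtype.ext h), fun w hw => ?_⟩
  obtain ⟨c, hc⟩ := hv ⟨w, hw⟩
  exact ⟨c, by rw [← Submodule.coe_smul, hc]⟩

end Line

end Fermat.Agent.S51.H80
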