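import Fermat.Agent.S51.H80_Torsion
import Mathlib.AlgebraicGeometry.EllipticCurve.DivisionPolynomial.Degree
import Mathlib.FieldTheory.IsAlgClosed.Basic
import Mathlib.Algebra.Module.Torsion.Basic

/-!
# Existence of points of order 3 and 5 over an algebraically closed field (helper80, for S51)
-/

set_option autoImplicit false

namespace Fermat.Agent.S51.H80

open WeierstrassCurve WeierstrassCurve.Affine Polynomial

variable {K : Type*} [Field K] (W : Affine K)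

lemma eval_Ψ₃ (x : K) : (W.Ψ₃).eval x = psi3 W x := by
  simp [Ψ₃, psi3]

lemma eval_Ψ₂Sq (x : K) : (W.Ψ₂Sq).eval x = Bx W x := by
  simp [Ψ₂Sq, Bx]

lemma preΨ'_five : W.preΨ' 5 = W.preΨ₄ * W.Ψ₂Sq ^ 2 - W.Ψ₃ ^ 3 := by
  have := W.preΨ'_odd 0
  simpa using this

lemma eval_preΨ'_five (x : K) : (W.preΨ' 5).eval x = Psi5 W x := by
  rw [preΨ'_five]
  simp only [eval_sub, eval_mul, eval_pow, eval_Ψ₃, eval_Ψ₂Sq]
  simp only [preΨ₄, Psi5, psi4t, psi3, Bx, eval_add, eval_mul, eval_pow, eval_X, eval_C,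
    eval_ofNat]
  linear_combination
    (x ^ 2 * (4 * x ^ 3 + W.b₂ * x ^ 2 + 2 * W.b₄ * x + W.b₆) ^ 2) * W.b_relation

variable [IsAlgClosed K]

/-- every `x` is the `x`-coordinate of a point of the curve (characteristic `≠ 2`). -/
lemma exists_equation (h2 : (2 : K) ≠ 0) (x : K) : ∃ y : K, W.Equation x y := by
  obtain ⟨z, hz⟩ := IsAlgClosed.exists_pow_nat_eq (Bx W x) (n := 2) (by norm_num)
  refine ⟨(z - W.a₁ * x - W.a₃) / 2, ?_⟩
  rw [equation_iff]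
  simp only [Bx, b₂, b₄, b₆] at hz
  field_simp
  linear_combination hz

lemma exists_nonsingular (hΔ : W.Δ ≠ 0) (h2 : (2 : K) ≠ 0) (x : K) :
    ∃ y : K, W.Nonsingular x y := by
  have : W.IsElliptic := ⟨isUnit_iff_ne_zero.2 hΔ⟩
  obtain ⟨y, hy⟩ := exists_equation W h2 x
  exact ⟨y, equation_iff_nonsingular.1 hy⟩

lemma exists_psi3_eq_zero (h3 : (3 : K) ≠ 0) : ∃ x : K, psi3 W x = 0 := by
  have hdeg : (W.Ψ₃).degree ≠ 0 := by
    rw [degree_eq_natDegree (W.Ψ₃_ne_zero h3), W.natDegree_Ψ₃ h3]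
    norm_num
  obtain ⟨x, hx⟩ := IsAlgClosed.exists_root _ hdeg
  exact ⟨x, by rw [← eval_Ψ₃]; exact hx⟩

lemma exists_Psi5_eq_zero (h5 : (5 : K) ≠ 0) : ∃ x : K, Psi5 W x = 0 := by
  have h5' : ((5 : ℕ) : K) ≠ 0 := by exact_mod_cast h5
  have hdeg : (W.preΨ' 5).degree ≠ 0 := by
    rw [degree_eq_natDegree (W.preΨ'_ne_zero h5'), W.natDegree_preΨ' h5']
    have : ¬ Even 5 := by decide
    simp [this]
  obtain ⟨x, hx⟩ := IsAlgClosed.exists_root _ hdeg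
  exact ⟨x, by rw [← eval_preΨ'_five]; exact hx⟩

variable [DecidableEq K]

omit [IsAlgClosed K] in
lemma three_zsmul (P : W.Point) : ((3 : ℕ) : ℤ) • P = P + P + P := by
  rw [Nat.cast_smul_eq_nsmul ℤ]
  rw [show (3 : ℕ) = 1 + 1 + 1 from rfl, add_nsmul, add_nsmul, one_nsmul]

omit [IsAlgClosed K] in
lemma five_zsmul (P : W.Point) : ((5 : ℕ) : ℤ) • P = P + P + (P + P) + P := by
  rw [Nat.cast_smul_eq_nsmul ℤ]
  rw [show (5 : ℕ) = 1 + 1 + (1 + 1) + 1 from rfl, add_nsmul, add_nsmul, add_nsmul, one_nsmul]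

/-- there is a point of exact order `3`. -/
theorem exists_three_torsion (hΔ : W.Δ ≠ 0) (h2 : (2 : K) ≠ 0) (h3 : (3 : K) ≠ 0) :
    ∃ P : W.Point, P ≠ 0 ∧ ((3 : ℕ) : ℤ) • P = 0 := by
  obtain ⟨x, hx⟩ := exists_psi3_eq_zero W h3
  obtain ⟨y, hy⟩ := exists_nonsingular W hΔ h2 x
  refine ⟨Point.some x y hy, Point.some_ne_zero _, ?_⟩
  rw [three_zsmul]
  exact (three_torsion_iff hΔ h2 hy).2 hx

/-- there is a point of exact order `5`. -/
theorem exists_five_torsion (hΔ : W.Δ ≠ 0) (h2 : (2 : K) ≠ 0) (h5 : (5 : K) ≠ 0) :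
    ∃ P : W.Point, P ≠ 0 ∧ ((5 : ℕ) : ℤ) • P = 0 := by
  obtain ⟨x, hx⟩ := exists_Psi5_eq_zero W h5
  obtain ⟨y, hy⟩ := exists_nonsingular W hΔ h2 x
  refine ⟨Point.some x y hy, Point.some_ne_zero _, ?_⟩
  rw [five_zsmul]
  exact (five_torsion_iff hΔ h2 hy).2 hx

theorem nontrivial_torsionBy_three (hΔ : W.Δ ≠ 0) (h2 : (2 : K) ≠ 0) (h3 : (3 : K) ≠ 0) :
    Nontrivial (Submodule.torsionBy ℤ W.Point ((3 : ℕ) : ℤ)) := by
  obtain ⟨P, hP0, hP⟩ := exists_three_torsion W hΔ h2 h3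
  refine ⟨⟨⟨P, (Submodule.mem_torsionBy_iff _ _).2 hP⟩, 0, ?_⟩⟩
  intro h
  exact hP0 (congrArg Subtype.val h)

theorem nontrivial_torsionBy_five (hΔ : W.Δ ≠ 0) (h2 : (2 : K) ≠ 0) (h5 : (5 : K) ≠ 0) :
    Nontrivial (Submodule.torsionBy ℤ W.Point ((5 : ℕ) : ℤ)) := by
  obtain ⟨P, hP0, hP⟩ := exists_five_torsion W hΔ h2 h5
  refine ⟨⟨⟨P, (Submodule.mem_torsionBy_iff _ _).2 hP⟩, 0, ?_⟩⟩
  intro h
  exact hP0 (congrArg Subtype.val h)

end Fermat.Agent.S51.H80
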