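import Fermat.Agent.S51.H80_Doubling

/-!
# Polynomial identities between `Bx`, `psi3`, `numD`, `psi4t`, `Psi5` (helper80, for S51)
-/

set_option autoImplicit false

namespace Fermat.Agent.S51.H80

open WeierstrassCurve WeierstrassCurve.Affine

variable {K : Type*} [Field K] (W : Affine K)

/-- `16 ψ₃ = 2 B B'' - B'²`. -/
lemma sixteen_psi3 (x : K) :
    16 * psi3 W x = 2 * Bx W x * (24 * x + 2 * W.b₂) - (12 * x ^ 2 + 2 * W.b₂ * x + 2 * W.b₄) ^ 2 := by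
  simp only [psi3, Bx]
  linear_combination (4) * W.b_relation

/-- Bezout identity between `B` and `B'`: a common zero forces `Δ = 0`. -/
lemma bezout_B (x : K) :
    (96 * x * W.b₂ ^ 2 - 2304 * x * W.b₄ + 16 * W.b₂ ^ 3 - 480 * W.b₂ * W.b₄ + 1728 * W.b₆) * Bx W x
      + (-32 * x ^ 2 * W.b₂ ^ 2 + 768 * x ^ 2 * W.b₄ - 8 * x * W.b₂ ^ 3 + 224 * x * W.b₂ * W.b₄ - 576 * x * W.b₆ - 8 * W.b₂ ^ 2 * W.b₄ - 48 * W.b₂ * W.b₆ + 256 * W.b₄ ^ 2) * (12 * x ^ 2 + 2 * W.b₂ * x + 2 * W.b₄)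
      = -64 * W.Δ := by
  simp only [Bx, Δ]
  linear_combination (-16 * W.b₂ ^ 2) * W.b_relation

/-- `B` and `ψ₃` have no common zero on a curve with `Δ ≠ 0` (characteristic `≠ 2`). -/
lemma Δ_eq_zero_of_Bx_psi3 (h2 : (2 : K) ≠ 0) {x : K} (hB : Bx W x = 0) (h3 : psi3 W x = 0) :
    W.Δ = 0 := by
  have h16 := sixteen_psi3 W x
  rw [hB, h3] at h16
  have hB' : (12 * x ^ 2 + 2 * W.b₂ * x + 2 * W.b₄) = 0 := by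
    have : (12 * x ^ 2 + 2 * W.b₂ * x + 2 * W.b₄) ^ 2 = 0 := by linear_combination h16
    exact pow_eq_zero_iff (two_ne_zero) |>.1 this
  have hbz := bezout_B W x
  rw [hB, hB'] at hbz
  have h64 : (64 : K) ≠ 0 := by
    have : (64 : K) = 2 ^ 6 := by norm_num
    rw [this]; exact pow_ne_zero 6 h2
  have : (64 : K) * W.Δ = 0 := by linear_combination hbz
  exact (mul_eq_zero.1 this).resolve_left h64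

/-- `B(x(2P)) · B³ = (ψ₄/ψ₂)²`. -/
lemma Bx_dbl {x t : K} (ht : t * Bx W x = numD W x) :
    Bx W t * Bx W x ^ 3 = psi4t W x ^ 2 := by
  have e1 : Bx W t * Bx W x ^ 3 = 4 * (t * Bx W x) ^ 3 + W.b₂ * (t * Bx W x) ^ 2 * Bx W x
      + 2 * W.b₄ * (t * Bx W x) * Bx W x ^ 2 + W.b₆ * Bx W x ^ 3 := by
    simp only [Bx]; ring
  rw [e1, ht]
  simp only [Bx, numD, psi4t, psi3]
  linear_combination (-9 * x ^ 8 - 6 * x ^ 7 * W.b₂ - x ^ 6 * W.b₂ ^ 2 - 18 * x ^ 6 * W.b₄ - 6 * x ^ 5 * W.b₂ * W.b₄ - 18 * x ^ 5 * W.b₆ - 6 * x ^ 4 * W.b₂ * W.b₆ - 9 * x ^ 4 * W.b₄ ^ 2 - 6 * x ^ 4 * W.b₈ - 2 * x ^ 3 * W.b₂ * W.b₈ - 18 * x ^ 3 * W.b₄ * W.b₆ - 6 * x ^ 2 * W.b₄ * W.b₈ - 9 * x ^ 2 * W.b₆ ^ 2 - 6 * x * W.b₆ * W.b₈ - W.b₈ ^ 2) * W.b_relation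

/-- `numD(x(2P)) · B⁴ - x · B · (ψ₄/ψ₂)² = - ψ₅ ψ₃`. -/
lemma numD_dbl {x t : K} (ht : t * Bx W x = numD W x) :
    numD W t * Bx W x ^ 4 - x * Bx W x * psi4t W x ^ 2 = - (Psi5 W x * psi3 W x) := by
  have e1 : numD W t * Bx W x ^ 4 = (t * Bx W x) ^ 4 - W.b₄ * (t * Bx W x) ^ 2 * Bx W x ^ 2
      - 2 * W.b₆ * (t * Bx W x) * Bx W x ^ 3 - W.b₈ * Bx W x ^ 4 := by
    simp only [numD]; ring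
  rw [e1, ht]
  simp only [Bx, numD, psi4t, psi3, Psi5]
  linear_combination (-36 * x ^ 12 - 33 * x ^ 11 * W.b₂ - 10 * x ^ 10 * W.b₂ ^ 2 - 90 * x ^ 10 * W.b₄ - x ^ 9 * W.b₂ ^ 3 - 54 * x ^ 9 * W.b₂ * W.b₄ - 81 * x ^ 9 * W.b₆ - 8 * x ^ 8 * W.b₂ ^ 2 * W.b₄ - 48 * x ^ 8 * W.b₂ * W.b₆ - 72 * x ^ 8 * W.b₄ ^ 2 - 24 * x ^ 8 * W.b₈ - 7 * x ^ 7 * W.b₂ ^ 2 * W.b₆ - 21 * x ^ 7 * W.b₂ * W.b₄ ^ 2 - 14 * x ^ 7 * W.b₂ * W.b₈ - 126 * x ^ 7 * W.b₄ * W.b₆ - 2 * x ^ 6 * W.b₂ ^ 2 * W.b₈ - 36 * x ^ 6 * W.b₂ * W.b₄ * W.b₆ - 18 * x ^ 6 * W.b₄ ^ 3 - 36 * x ^ 6 * W.b₄ * W.b₈ - 54 * x ^ 6 * W.b₆ ^ 2 - 10 * x ^ 5 * W.b₂ * W.b₄ * W.b₈ - 15 * x ^ 5 * W.b₂ * W.b₆ ^ 2 - 45 * x ^ 5 * W.b₄ ^ 2 * W.b₆ - 30 * x ^ 5 * W.b₆ * W.b₈ - 8 * x ^ 4 * W.b₂ * W.b₆ * W.b₈ - 12 * x ^ 4 * W.b₄ ^ 2 * W.b₈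 - 36 * x ^ 4 * W.b₄ * W.b₆ ^ 2 - 4 * x ^ 4 * W.b₈ ^ 2 - x ^ 3 * W.b₂ * W.b₈ ^ 2 - 18 * x ^ 3 * W.b₄ * W.b₆ * W.b₈ - 9 * x ^ 3 * W.b₆ ^ 3 - 2 * x ^ 2 * W.b₄ * W.b₈ ^ 2 - 6 * x ^ 2 * W.b₆ ^ 2 * W.b₈ - x * W.b₆ * W.b₈ ^ 2) * W.b_relation

end Fermat.Agent.S51.H80
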