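import Fermat.Prelude.Def_FLTPrelim_ModularRep
import Fermat.Agent.S51.H80_Card

/-!
# S51, part (A-lines) (helper80)

For `E = (W.map (Int.castRingHom ℚ))⁄(AlgebraicClosure ℚ)` with `W.Δ ≠ 0` and `n = 3, 5`:
* `E[n]` is nontrivial;
* a submodule `N ≠ ⊥, ⊤` of `E[n]` is generated by one point;
* hence a non-irreducible `E[n]` has a Galois-stable line.
-/

set_option autoImplicit false

namespace Fermat.Agent.S51.H80

open WeierstrassCurve WeierstrassCurve.Affine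
open scoped WeierstrassCurve.Affine

/-- the base change to `ℚ̄` of an integral Weierstrass curve. -/
noncomputable abbrev EQbar (W : WeierstrassCurve ℤ) : Affine (AlgebraicClosure ℚ) :=
  (W.map (Int.castRingHom ℚ))⁄(AlgebraicClosure ℚ)

lemma EQbar_Δ_ne_zero (W : WeierstrassCurve ℤ) (hΔ : W.Δ ≠ 0) : (EQbar W).Δ ≠ 0 := by
  show ((W.map (Int.castRingHom ℚ)).map (algebraMap ℚ (AlgebraicClosure ℚ))).Δ ≠ 0
  rw [map_Δ, map_Δ]
  simpa using hΔ

theorem modRep_nontrivial_three (W : WeierstrassCurve ℤ) (hΔ : W.Δ ≠ 0) :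
    Nontrivial (Submodule.torsionBy ℤ (EQbar W).Point ((3 : ℕ) : ℤ)) :=
  nontrivial_torsionBy_three _ (EQbar_Δ_ne_zero W hΔ) (by norm_num) (by norm_num)

theorem modRep_nontrivial_five (W : WeierstrassCurve ℤ) (hΔ : W.Δ ≠ 0) :
    Nontrivial (Submodule.torsionBy ℤ (EQbar W).Point ((5 : ℕ) : ℤ)) :=
  nontrivial_torsionBy_five _ (EQbar_Δ_ne_zero W hΔ) (by norm_num) (by norm_num)

theorem modRep_card_three (W : WeierstrassCurve ℤ) (hΔ : W.Δ ≠ 0) :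
    Finite (Submodule.torsionBy ℤ (EQbar W).Point ((3 : ℕ) : ℤ)) ∧
      Nat.card (Submodule.torsionBy ℤ (EQbar W).Point ((3 : ℕ) : ℤ)) ≤ 9 :=
  card_torsionBy_three_le (EQbar_Δ_ne_zero W hΔ) (by norm_num) (by norm_num)

theorem modRep_card_five (W : WeierstrassCurve ℤ) (hΔ : W.Δ ≠ 0) :
    Finite (Submodule.torsionBy ℤ (EQbar W).Point ((5 : ℕ) : ℤ)) ∧
      Nat.card (Submodule.torsionBy ℤ (EQbar W).Point ((5 : ℕ) : ℤ)) ≤ 25 :=
  card_torsionBy_five_le (EQbar_Δ_ne_zero W hΔ) (by norm_num) (by norm_num)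

/-- scalar multiplication by `c : ZMod p` is multiplication by the natural number `c.val`. -/
lemma zmod_smul_eq_nsmul (p : ℕ) [NeZero p] {G : Type*} [AddCommGroup G] [Module (ZMod p) G]
    (c : ZMod p) (v : G) : c • v = c.val • v := by
  conv_lhs => rw [← ZMod.natCast_zmod_val c]
  exact Nat.cast_smul_eq_nsmul (ZMod p) c.val v

/-- (A-lines), `n = 3`. -/
theorem modRep_line_three (W : WeierstrassCurve ℤ) (hΔ : W.Δ ≠ 0)
    (N : Submodule (ZMod 3) (Submodule.torsionBy ℤ (EQbar W).Point ((3 : ℕ) : ℤ)))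
    (h0 : N ≠ ⊥) (h1 : N ≠ ⊤) :
    ∃ P ∈ N, P ≠ 0 ∧ ∀ Q ∈ N, ∃ k : ℕ, Q = k • P := by
  have : Fact (Nat.Prime 3) := ⟨Nat.prime_three⟩
  obtain ⟨hfin, hcard⟩ := modRep_card_three W hΔ
  obtain ⟨v, hv, hv0, hgen⟩ := exists_generator_of_proper 3
    (lt_of_le_of_lt hcard (by norm_num)) N h0 h1
  refine ⟨v, hv, hv0, fun Q hQ => ?_⟩
  obtain ⟨c, hc⟩ := hgen Q hQ
  exact ⟨c.val, by rw [hc, zmod_smul_eq_nsmul]⟩

/-- (A-lines), `n = 5`. -/
theorem modRep_line_five (W : WeierstrassCurve ℤ) (hΔ : W.Δ ≠ 0)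
    (N : Submodule (ZMod 5) (Submodule.torsionBy ℤ (EQbar W).Point ((5 : ℕ) : ℤ)))
    (h0 : N ≠ ⊥) (h1 : N ≠ ⊤) :
    ∃ P ∈ N, P ≠ 0 ∧ ∀ Q ∈ N, ∃ k : ℕ, Q = k • P := by
  have : Fact (Nat.Prime 5) := ⟨Nat.prime_five⟩
  obtain ⟨hfin, hcard⟩ := modRep_card_five W hΔ
  obtain ⟨v, hv, hv0, hgen⟩ := exists_generator_of_proper 5
    (lt_of_le_of_lt hcard (by norm_num)) N h0 h1
  refine ⟨v, hv, hv0, fun Q hQ => ?_⟩
  obtain ⟨c, hc⟩ := hgen Q hQ
  exact ⟨c.val, by rw [hc, zmod_smul_eq_nsmul]⟩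

/-- a non-irreducible `E[3]` contains a Galois-stable line. -/
theorem exists_line_of_not_irreducible_three (W : WeierstrassCurve ℤ) (hΔ : W.Δ ≠ 0)
    (h : ¬ W.ModRepIsIrreducible 3) :
    ∃ N : Submodule (ZMod 3) (Submodule.torsionBy ℤ (EQbar W).Point ((3 : ℕ) : ℤ)),
      Point.IsGaloisStable ℚ N ∧ ∃ P ∈ N, P ≠ 0 ∧ ∀ Q ∈ N, ∃ k : ℕ, Q = k • P := by
  unfold ModRepIsIrreducible Point.GaloisRepIsIrreducible at h
  rw [not_and_or] at h
  have h' := h.resolve_left (not_not.2 (modRep_nontrivial_three W hΔ))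
  push Not at h'
  obtain ⟨N, hN, h0, h1⟩ := h'
  exact ⟨N, hN, modRep_line_three W hΔ N h0 h1⟩

/-- a non-irreducible `E[5]` contains a Galois-stable line. -/
theorem exists_line_of_not_irreducible_five (W : WeierstrassCurve ℤ) (hΔ : W.Δ ≠ 0)
    (h : ¬ W.ModRepIsIrreducible 5) :
    ∃ N : Submodule (ZMod 5) (Submodule.torsionBy ℤ (EQbar W).Point ((5 : ℕ) : ℤ)),
      Point.IsGaloisStable ℚ N ∧ ∃ P ∈ N, P ≠ 0 ∧ ∀ Q ∈ N, ∃ k : ℕ, Q = k • P := by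
  unfold ModRepIsIrreducible Point.GaloisRepIsIrreducible at h
  rw [not_and_or] at h
  have h' := h.resolve_left (not_not.2 (modRep_nontrivial_five W hΔ))
  push Not at h'
  obtain ⟨N, hN, h0, h1⟩ := h'
  exact ⟨N, hN, modRep_line_five W hΔ N h0 h1⟩

/-- a nonzero point of `E[3]` is affine, with `x`-coordinate a root of `ψ₃`. -/
theorem modRep_point_three (W : WeierstrassCurve ℤ) (hΔ : W.Δ ≠ 0)
    (P : Submodule.torsionBy ℤ (EQbar W).Point ((3 : ℕ) : ℤ)) (hP : P ≠ 0) :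
    ∃ (x y : AlgebraicClosure ℚ) (h : (EQbar W).Nonsingular x y),
      (P : (EQbar W).Point) = Point.some x y h ∧ psi3 (EQbar W) x = 0 := by
  obtain ⟨P, hP3⟩ := P
  rcases P with _ | ⟨x, y, h⟩
  · exact absurd (Subtype.ext rfl) hP
  · refine ⟨x, y, h, rfl, ?_⟩
    have h3 := (Submodule.mem_torsionBy_iff _ _).1 hP3
    rw [three_zsmul] at h3
    exact (three_torsion_iff (EQbar_Δ_ne_zero W hΔ) (by norm_num) h).1 h3

/-- a nonzero point `P` of `E[5]` is affine, with `x`-coordinate a root of `ψ₅`, it is not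
`2`-torsion and `x(2P) = numD / Bx`. -/
theorem modRep_point_five (W : WeierstrassCurve ℤ) (hΔ : W.Δ ≠ 0)
    (P : Submodule.torsionBy ℤ (EQbar W).Point ((5 : ℕ) : ℤ)) (hP : P ≠ 0) :
    ∃ (x y : AlgebraicClosure ℚ) (h : (EQbar W).Nonsingular x y),
      (P : (EQbar W).Point) = Point.some x y h ∧ Psi5 (EQbar W) x = 0 ∧ Bx (EQbar W) x ≠ 0 ∧
      psi3 (EQbar W) x ≠ 0 ∧
      ∃ (y' : AlgebraicClosure ℚ)
        (h' : (EQbar W).Nonsingular (numD (EQbar W) x / Bx (EQbar W) x) y'),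
        (((2 : ℕ) • P : Submodule.torsionBy ℤ (EQbar W).Point ((5 : ℕ) : ℤ)) : (EQbar W).Point)
          = Point.some (numD (EQbar W) x / Bx (EQbar W) x) y' h' := by
  obtain ⟨P, hP5⟩ := P
  rcases P with _ | ⟨x, y, h⟩
  · exact absurd (Subtype.ext rfl) hP
  · have h5 := (Submodule.mem_torsionBy_iff _ _).1 hP5
    rw [five_zsmul] at h5
    have hΔ' := EQbar_Δ_ne_zero W hΔ
    have h2 : (2 : AlgebraicClosure ℚ) ≠ 0 := by norm_num
    have hx5 := (five_torsion_iff hΔ' h2 h).1 h5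
    have hB := Bx_ne_zero_of_Psi5 hΔ' h2 hx5
    obtain ⟨y', h', hadd⟩ := exists_add_self (EQbar W) h hB
    refine ⟨x, y, h, rfl, hx5, hB, psi3_ne_zero_of_Psi5 hΔ' h2 hx5, y', h', ?_⟩
    rw [Submodule.coe_smul_of_tower, two_nsmul]
    exact hadd

end Fermat.Agent.S51.H80
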