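import Mathlib

/-!
# Rational points on `Y^2 = X (X - 1) (X - 81)` and on the Fricke model of `X_0(15)`

Elementary 2-descent (helper88).  Main results:

* `Fermat.Agent.S51.H88.no_point`   : `Y^2 = X (X-1) (X-81)` over `ℚ` forces `Y = 0`.
* `Fermat.Agent.S51.H88.points_E`   : `W^2 = X (X+9) (X-16)` over `ℚ` forces
  `X ∈ {0, -9, 16, 36, -4}`.
* `Fermat.Agent.S51.H88.points_fricke` : `y^2 = x^4 - 10 x^3 - 13 x^2 + 10 x + 1` over `ℚ`
  forces `x ∈ {0, 1/2, -2}`.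
-/

namespace Fermat.Agent.S51.H88

/-- Squarefree-part decomposition of two integers whose product is a square. -/
theorem sf_decomp {a b c : ℤ} (ha : a ≠ 0) (h : a * b = c ^ 2) :
    ∃ d s t : ℤ, Squarefree d ∧ a = d * s ^ 2 ∧ b = d * t ^ 2 := by
  obtain ⟨a₀, b₀, hab, hsq⟩ := Nat.sq_mul_squarefree a.natAbs
  have hb₀ : b₀ ≠ 0 := by
    rintro rfl
    simp at hab
    exact ha (Int.natAbs_eq_zero.mp hab.symm)
  have ha₀ : a₀ ≠ 0 := by
    rintro rfl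
    simp at hab
    exact ha (Int.natAbs_eq_zero.mp hab.symm)
  set d : ℤ := a.sign * a₀ with hd
  have hda : a = d * (b₀ : ℤ) ^ 2 := by
    have h1 : (a.natAbs : ℤ) = (b₀ : ℤ) ^ 2 * a₀ := by exact_mod_cast hab.symm
    have h2 : a = a.sign * a.natAbs := (Int.sign_mul_natAbs a).symm
    rw [hd]
    calc a = a.sign * a.natAbs := h2
      _ = a.sign * ((b₀ : ℤ) ^ 2 * a₀) := by rw [h1]
      _ = a.sign * a₀ * (b₀ : ℤ) ^ 2 := by ring
  have hdsq : Squarefree d := by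
    rw [← Int.squarefree_natAbs, hd, Int.natAbs_mul, Int.natAbs_sign_of_ne_zero ha, one_mul,
      Int.natAbs_natCast]
    exact hsq
  have hd0 : d ≠ 0 := hdsq.ne_zero
  have hb₀' : (b₀ : ℤ) ≠ 0 := by exact_mod_cast hb₀
  -- b₀ ∣ c
  have hab' : a * b = (b₀ : ℤ) ^ 2 * (d * b) := by
    calc a * b = (d * (b₀ : ℤ) ^ 2) * b := by rw [← hda]
      _ = (b₀ : ℤ) ^ 2 * (d * b) := by ring
  have hdvd : (b₀ : ℤ) ^ 2 ∣ c ^ 2 := by
    rw [← h, hab']
    exact Dvd.intro _ rfl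
  have hdvd' : (b₀ : ℤ) ∣ c := (Int.pow_dvd_pow_iff two_ne_zero).mp hdvd
  obtain ⟨c₁, rfl⟩ := hdvd'
  have h3 : d * b = c₁ ^ 2 := by
    have : (b₀ : ℤ) ^ 2 * (d * b) = (b₀ : ℤ) ^ 2 * c₁ ^ 2 := by
      rw [← hab', h]; ring
    exact mul_left_cancel₀ (pow_ne_zero 2 hb₀') this
  have h4 : d ∣ c₁ := by
    have : d ∣ c₁ ^ 2 := Dvd.intro _ h3
    exact (hdsq.dvd_pow_iff_dvd two_ne_zero).mp this
  obtain ⟨c₂, rfl⟩ := h4
  refine ⟨d, b₀, c₂, hdsq, hda, ?_⟩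
  have : d * b = d * (d * c₂ ^ 2) := by rw [h3]; ring
  exact mul_left_cancel₀ hd0 this

/-- A rational number whose square is an integer is an integer. -/
theorem int_of_sq_int {q : ℚ} {k : ℤ} (h : q ^ 2 = k) : ∃ c : ℤ, q = c := by
  have h1 : (q ^ 2).den = 1 := by rw [h]; exact Rat.den_intCast k
  rw [Rat.den_pow] at h1
  have h2 : q.den = 1 := by
    have := Nat.pow_eq_one.mp h1
    rcases this with h | h
    · exact h
    · exact absurd h two_ne_zero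
  exact ⟨q.num, ((Rat.den_eq_one_iff q).mp h2).symm⟩



theorem key3A : ∀ e s t : ZMod 3, e ≠ 0 → s ≠ 0 → (3 * s^2 - e^2) * (s^2 - 27 * e^2) = t^2 → False := by decide
theorem key3B : ∀ e s t : ZMod 3, e ≠ 0 → s ≠ 0 → (27 * s^2 - e^2) * (s^2 - 3 * e^2) = t^2 → False := by decide
theorem key3C : ∀ e s t : ZMod 3, e ≠ 0 → (243 * s^2 - e^2) * (3 * s^2 - e^2) = 3 * t^2 → False := by decide
theorem key4 : ∀ d' B C e : ZMod 4, (d' = 1 ∨ d' = 3) → (e = 1 ∨ e = 3) → d' * (B^2 - C^2) = 10 * e^2 → False := by decide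

/-- No solutions of `(3 s² - e²)(s² - 27 e²) = t²` with `3 ∤ e`. -/
theorem excl3 {s e t : ℤ} (he : ¬ (3 : ℤ) ∣ e) (h : (3 * s^2 - e^2) * (s^2 - 27 * e^2) = t^2) : False := by
  have he' : (e : ZMod 3) ≠ 0 := by
    rw [Ne, ZMod.intCast_zmod_eq_zero_iff_dvd]; exact_mod_cast he
  have p3 : Prime (3 : ℤ) := Int.prime_three
  by_cases hs : (3 : ℤ) ∣ s
  · obtain ⟨s₁, rfl⟩ := hs
    -- 9 ∣ t^2
    have h9 : (3 : ℤ) ^ 2 ∣ t ^ 2 := by
      rw [← h]; exact ⟨(3 * (3 * s₁)^2 - e^2) * (s₁^2 - 3 * e^2), by ring⟩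
    obtain ⟨t₁, rfl⟩ := (Int.pow_dvd_pow_iff two_ne_zero).mp h9
    have h1 : (27 * s₁^2 - e^2) * (s₁^2 - 3 * e^2) = t₁^2 := by
      have : (9 : ℤ) * ((27 * s₁^2 - e^2) * (s₁^2 - 3 * e^2)) = 9 * t₁^2 := by linear_combination h
      exact mul_left_cancel₀ (by norm_num) this
    by_cases hs1 : (3 : ℤ) ∣ s₁
    · obtain ⟨s₂, rfl⟩ := hs1
      have h3 : (3 : ℤ) ∣ t₁ ^ 2 := by
        rw [← h1]; exact ⟨(27 * (3 * s₂)^2 - e^2) * (3 * s₂^2 - e^2), by ring⟩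
      obtain ⟨t₂, rfl⟩ := p3.dvd_of_dvd_pow h3
      have h2 : (243 * s₂^2 - e^2) * (3 * s₂^2 - e^2) = 3 * t₂^2 := by
        have : (3 : ℤ) * ((243 * s₂^2 - e^2) * (3 * s₂^2 - e^2)) = 3 * (3 * t₂^2) := by
          linear_combination h1
        exact mul_left_cancel₀ (by norm_num) this
      have h2' := congrArg (Int.cast : ℤ → ZMod 3) h2
      push_cast at h2'
      exact key3C _ _ _ he' h2'
    · have hs1' : (s₁ : ZMod 3) ≠ 0 := by
        rw [Ne, ZMod.intCast_zmod_eq_zero_iff_dvd]; exact_mod_cast hs1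
      have h1' := congrArg (Int.cast : ℤ → ZMod 3) h1
      push_cast at h1'
      exact key3B _ _ _ he' hs1' h1'
  · have hs' : (s : ZMod 3) ≠ 0 := by
      rw [Ne, ZMod.intCast_zmod_eq_zero_iff_dvd]; exact_mod_cast hs
    have h' := congrArg (Int.cast : ℤ → ZMod 3) h
    push_cast at h'
    exact key3A _ _ _ he' hs' h'



theorem key2par : ∀ M e : ZMod 2, M^2 - e^2 = 0 → (M = 0 ∧ e = 0) ∨ (M ≠ 0 ∧ e ≠ 0) := by decide
theorem key2B : ∀ B : ZMod 2, B^2 = 0 → B = 0 := by decide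
theorem key4' : ∀ d' B C : ZMod 4, (d' = 1 ∨ d' = -1 ∨ d' = 5 ∨ d' = -5) → d' * (B^2 - C^2) = 2 → False := by decide

theorem odd_sq {x : ℤ} (hx : ¬ (2 : ℤ) ∣ x) : ∃ a : ℤ, x ^ 2 = 8 * a + 1 := by
  have hodd : Odd x := by
    rw [← Int.not_even_iff_odd, even_iff_two_dvd]; exact hx
  obtain ⟨k, rfl⟩ := hodd
  obtain ⟨r, hr⟩ := Int.even_mul_succ_self k
  exact ⟨r, by linear_combination 4 * hr⟩

theorem excl2 {M e B C d' : ℤ} (hd' : d' = 1 ∨ d' = -1 ∨ d' = 5 ∨ d' = -5)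
    (hodd : ¬ ((2 : ℤ) ∣ M ∧ (2 : ℤ) ∣ e))
    (h1 : M ^ 2 - e ^ 2 = 2 * d' * B ^ 2) (h2 : M ^ 2 - 81 * e ^ 2 = 2 * d' * C ^ 2) : False := by
  -- parity
  have hpar : ¬ (2 : ℤ) ∣ M ∧ ¬ (2 : ℤ) ∣ e := by
    have h1' := congrArg (Int.cast : ℤ → ZMod 2) h1
    push_cast at h1'
    have h20 : (2 : ZMod 2) = 0 := by decide
    rw [h20, zero_mul, zero_mul] at h1'
    rcases key2par _ _ h1' with ⟨hM, he⟩ | ⟨hM, he⟩
    · exfalso; apply hodd
      constructor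
      · exact_mod_cast (ZMod.intCast_zmod_eq_zero_iff_dvd M 2).mp hM
      · exact_mod_cast (ZMod.intCast_zmod_eq_zero_iff_dvd e 2).mp he
    · constructor
      · intro h; apply hM; rw [ZMod.intCast_zmod_eq_zero_iff_dvd]; exact_mod_cast h
      · intro h; apply he; rw [ZMod.intCast_zmod_eq_zero_iff_dvd]; exact_mod_cast h
  obtain ⟨a, ha⟩ := odd_sq hpar.1
  obtain ⟨b, hb⟩ := odd_sq hpar.2
  have hd2 : (d' : ZMod 2) = 1 := by
    rcases hd' with rfl | rfl | rfl | rfl <;> decide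
  -- B even
  have hB : (2 : ℤ) ∣ B := by
    have h : 4 * (a - b) = d' * B ^ 2 := by rw [ha, hb] at h1; linarith
    have h' := congrArg (Int.cast : ℤ → ZMod 2) h
    push_cast at h'
    have h40 : (4 : ZMod 2) = 0 := by decide
    rw [h40, zero_mul, hd2, one_mul] at h'
    have := key2B _ h'.symm
    exact_mod_cast (ZMod.intCast_zmod_eq_zero_iff_dvd B 2).mp this
  have hC : (2 : ℤ) ∣ C := by
    have h : 4 * (a - 81 * b - 10) = d' * C ^ 2 := by rw [ha, hb] at h2; linarith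
    have h' := congrArg (Int.cast : ℤ → ZMod 2) h
    push_cast at h'
    have h40 : (4 : ZMod 2) = 0 := by decide
    rw [h40, zero_mul, hd2, one_mul] at h'
    have := key2B _ h'.symm
    exact_mod_cast (ZMod.intCast_zmod_eq_zero_iff_dvd C 2).mp this
  obtain ⟨B₁, rfl⟩ := hB
  obtain ⟨C₁, rfl⟩ := hC
  have h : 80 * b + 10 = d' * (B₁ ^ 2 - C₁ ^ 2) := by
    rw [ha, hb] at h1 h2
    have e1 : 8 * (a - b) = 8 * (d' * B₁ ^ 2) := by linear_combination h1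
    have e2 : 8 * (a - 81 * b - 10) = 8 * (d' * C₁ ^ 2) := by linear_combination h2
    linarith
  have h' := congrArg (Int.cast : ℤ → ZMod 4) h
  push_cast at h'
  have h80 : (80 : ZMod 4) = 0 := by decide
  have h10 : (10 : ZMod 4) = 2 := by decide
  rw [h80, zero_mul, zero_add, h10] at h'
  have hd4 : ((d' : ℤ) : ZMod 4) = 1 ∨ ((d' : ℤ) : ZMod 4) = -1 ∨ ((d' : ℤ) : ZMod 4) = 5 ∨
      ((d' : ℤ) : ZMod 4) = -5 := by
    rcases hd' with rfl | rfl | rfl | rfl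
    · left; push_cast; rfl
    · right; left; push_cast; rfl
    · right; right; left; push_cast; rfl
    · right; right; right; push_cast; rfl
  exact key4' _ _ _ hd4 h'.symm


theorem cases81 {d : ℤ} (hpos : 0 < d) (hd : d ∣ 81) (h9 : ¬ (9 : ℤ) ∣ d) : d = 1 ∨ d = 3 := by
  have hle : d ≤ 81 := Int.le_of_dvd (by norm_num) hd
  have hmod : (81 : ℤ) % d = 0 := Int.emod_eq_zero_of_dvd hd
  have h9' : ¬ d % 9 = 0 := fun h => h9 (Int.dvd_of_emod_eq_zero h)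
  clear hd h9
  interval_cases d <;> omega

theorem cases80pos {d : ℤ} (hpos : 0 < d) (hd : d ∣ 80) (h4 : ¬ (4 : ℤ) ∣ d) :
    d = 1 ∨ d = 2 ∨ d = 5 ∨ d = 10 := by
  have hle : d ≤ 80 := Int.le_of_dvd (by norm_num) hd
  have hmod : (80 : ℤ) % d = 0 := Int.emod_eq_zero_of_dvd hd
  have h4' : ¬ d % 4 = 0 := fun h => h4 (Int.dvd_of_emod_eq_zero h)
  clear hd h4
  interval_cases d <;> omega

theorem cases80 {d : ℤ} (h0 : d ≠ 0) (hd : d ∣ 80) (h4 : ¬ (4 : ℤ) ∣ d) :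
    d = 1 ∨ d = -1 ∨ d = 5 ∨ d = -5 ∨ d = 2 ∨ d = -2 ∨ d = 10 ∨ d = -10 := by
  rcases lt_or_gt_of_ne h0 with hneg | hpos
  · have := cases80pos (d := -d) (by omega) ((Int.neg_dvd).mpr hd)
      (fun h => h4 ((Int.dvd_neg).mp h))
    omega
  · have := cases80pos hpos hd h4
    omega

/-- Integer form of the class analysis for `Y^2 = X (X-1) (X-81)`. -/
theorem class_analysis_int {m n N : ℤ} (hn : 0 < n) (hcop : IsCoprime m n) (hN : N ≠ 0)
    (h : N ^ 2 = n * (m * (m - n) * (m - 81 * n))) :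
    ∃ M e B C d : ℤ, (d = 1 ∨ d = -1 ∨ d = 5 ∨ d = -5) ∧ m = M ^ 2 ∧ n = e ^ 2 ∧
      m - n = d * B ^ 2 ∧ m - 81 * n = d * C ^ 2 := by
  obtain ⟨a, b, hab⟩ := hcop
  have hcop : IsCoprime m n := ⟨a, b, hab⟩
  have c1 : IsCoprime n m := hcop.symm
  have c2 : IsCoprime n (m - n) := ⟨b + a, a, by linear_combination hab⟩
  have c3 : IsCoprime n (m - 81 * n) := ⟨b + a * 81, a, by linear_combination hab⟩
  have c : IsCoprime n (m * (m - n) * (m - 81 * n)) := (c1.mul_right c2).mul_right c3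
  have not_unit : ∀ k : ℤ, 2 ≤ k → ∀ x y : ℤ, IsCoprime x y → k ∣ x → k ∣ y → False := by
    intro k hk x y hxy hx hy
    have hu := hxy.isUnit_of_dvd' hx hy
    rcases Int.isUnit_iff.mp hu with h1 | h1 <;> omega
  obtain ⟨e, he | he⟩ := Int.sq_of_isCoprime c h.symm
  swap
  · exfalso; nlinarith [sq_nonneg e]
  have he0 : e ≠ 0 := by rintro rfl; simp at he; omega
  -- the rest is a square
  have hdvd : e ^ 2 ∣ N ^ 2 := by rw [h, he]; exact Dvd.intro _ rfl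
  obtain ⟨K, rfl⟩ := (Int.pow_dvd_pow_iff two_ne_zero).mp hdvd
  have hK : m * (m - n) * (m - 81 * n) = K ^ 2 := by
    have : e ^ 2 * (m * (m - n) * (m - 81 * n)) = e ^ 2 * K ^ 2 := by
      linear_combination (-1 : ℤ) * h - (m * (m - n) * (m - 81 * n)) * he
    exact mul_left_cancel₀ (pow_ne_zero 2 he0) this
  have hK0 : K ≠ 0 := by rintro rfl; simp at hN
  have hm0 : m ≠ 0 := by
    rintro rfl; apply hK0
    have : K ^ 2 = 0 := by rw [← hK]; ring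
    exact (pow_eq_zero_iff two_ne_zero).mp this
  have hmn0 : m - n ≠ 0 := by
    intro h0; apply hK0
    have : K ^ 2 = 0 := by rw [← hK, h0]; ring
    exact (pow_eq_zero_iff two_ne_zero).mp this
  have hmpos : 0 < m := by
    by_contra hneg
    have hm : m < 0 := lt_of_le_of_ne (not_lt.mp hneg) hm0
    have h1 : 0 < m * (m - n) := mul_pos_of_neg_of_neg hm (by linarith)
    have h2 : m * (m - n) * (m - 81 * n) < 0 := mul_neg_of_pos_of_neg h1 (by linarith)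
    nlinarith [sq_nonneg K]
  -- first squarefree decomposition
  obtain ⟨d₁, s, t, hsq₁, hms, hRt⟩ :=
    sf_decomp (a := m) (b := (m - n) * (m - 81 * n)) (c := K) hm0 (by rw [← hK]; ring)
  have hd₁pos : 0 < d₁ := by
    by_contra hneg
    have : d₁ * s ^ 2 ≤ 0 := mul_nonpos_of_nonpos_of_nonneg (not_lt.mp hneg) (sq_nonneg s)
    omega
  have hd₁m : d₁ ∣ m := ⟨s ^ 2, hms⟩
  have hd₁81 : d₁ ∣ 81 := by
    have h1 : d₁ ∣ (m - n) * (m - 81 * n) := ⟨t ^ 2, hRt⟩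
    have h2 : d₁ ∣ 81 * n ^ 2 := by
      have : 81 * n ^ 2 = (m - n) * (m - 81 * n) - m * (m - 82 * n) := by ring
      rw [this]
      exact dvd_sub h1 (Dvd.dvd.mul_right hd₁m _)
    have h3 : IsCoprime d₁ (n ^ 2) := (IsCoprime.of_isCoprime_of_dvd_left hcop hd₁m).pow_right
    exact h3.dvd_of_dvd_mul_right h2
  have h9 : ¬ (9 : ℤ) ∣ d₁ := by
    intro h9
    have := hsq₁ 3 (by obtain ⟨k, hk⟩ := h9; exact ⟨k, by rw [hk]; ring⟩)
    rcases Int.isUnit_iff.mp this with h1 | h1 <;> omega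
  have hd₁ : d₁ = 1 ∨ d₁ = 3 := cases81 hd₁pos hd₁81 h9
  rcases hd₁ with rfl | rfl
  swap
  · exfalso
    have h3e : ¬ (3 : ℤ) ∣ e := by
      intro h3
      have h3n : (3 : ℤ) ∣ n := by rw [he]; exact Dvd.dvd.pow h3 two_ne_zero
      exact not_unit 3 (by norm_num) m n hcop hd₁m h3n
    apply excl3 (s := s) (e := e) (t := t) h3e
    have : (3 : ℤ) * ((3 * s ^ 2 - e ^ 2) * (s ^ 2 - 27 * e ^ 2)) = 3 * t ^ 2 := by
      rw [← hRt, hms, he]; ring
    exact mul_left_cancel₀ (by norm_num) this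
  rw [one_mul] at hms hRt
  -- second squarefree decomposition
  obtain ⟨d, B, C, hsq, hB, hC⟩ :=
    sf_decomp (a := m - n) (b := m - 81 * n) (c := t) hmn0 hRt
  have hd80 : d ∣ 80 := by
    have h1 : d ∣ m - n := ⟨B ^ 2, hB⟩
    have h2 : d ∣ m - 81 * n := ⟨C ^ 2, hC⟩
    have h3 : d ∣ 80 * n := by
      have : 80 * n = (m - n) - (m - 81 * n) := by ring
      rw [this]; exact dvd_sub h1 h2
    have h4 : IsCoprime d n := IsCoprime.of_isCoprime_of_dvd_left c2.symm h1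
    exact h4.dvd_of_dvd_mul_right h3
  have h4 : ¬ (4 : ℤ) ∣ d := by
    intro h4
    have := hsq 2 (by obtain ⟨k, hk⟩ := h4; exact ⟨k, by rw [hk]; ring⟩)
    rcases Int.isUnit_iff.mp this with h1 | h1 <;> omega
  have hd0 : d ≠ 0 := hsq.ne_zero
  have hdcases : d = 1 ∨ d = -1 ∨ d = 5 ∨ d = -5 ∨ d = 2 ∨ d = -2 ∨ d = 10 ∨ d = -10 :=
    cases80 hd0 hd80 h4
  have hodd : ¬ ((2 : ℤ) ∣ s ∧ (2 : ℤ) ∣ e) := by
    rintro ⟨h2s, h2e⟩
    have h2m : (2 : ℤ) ∣ m := by rw [hms]; exact Dvd.dvd.pow h2s two_ne_zero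
    have h2n : (2 : ℤ) ∣ n := by rw [he]; exact Dvd.dvd.pow h2e two_ne_zero
    exact not_unit 2 (by norm_num) m n hcop h2m h2n
  have hex : ∀ d' : ℤ, (d' = 1 ∨ d' = -1 ∨ d' = 5 ∨ d' = -5) → d = 2 * d' → False := by
    intro d' hd' hdd'
    apply excl2 (M := s) (e := e) (B := B) (C := C) hd' hodd
    · rw [← hms, ← he, hB, hdd']
    · rw [← hms, ← he, hC, hdd']
  rcases hdcases with hd | hd | hd | hd | hd | hd | hd | hd
  · exact ⟨s, e, B, C, d, Or.inl hd, hms, he, hB, hC⟩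
  · exact ⟨s, e, B, C, d, Or.inr (Or.inl hd), hms, he, hB, hC⟩
  · exact ⟨s, e, B, C, d, Or.inr (Or.inr (Or.inl hd)), hms, he, hB, hC⟩
  · exact ⟨s, e, B, C, d, Or.inr (Or.inr (Or.inr hd)), hms, he, hB, hC⟩
  · exact (hex 1 (Or.inl rfl) (by rw [hd]; norm_num)).elim
  · exact (hex (-1) (Or.inr (Or.inl rfl)) (by rw [hd]; norm_num)).elim
  · exact (hex 5 (Or.inr (Or.inr (Or.inl rfl))) (by rw [hd]; norm_num)).elim
  · exact (hex (-5) (Or.inr (Or.inr (Or.inr rfl))) (by rw [hd]; norm_num)).elim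


/-- Class analysis: on `Y^2 = X (X-1) (X-81)` with `Y ≠ 0`, `X` is a square and `X - 1`, `X - 81`
are `d` times squares with `d ∈ {1, -1, 5, -5}`. -/
theorem class_analysis {X Y : ℚ} (h : Y ^ 2 = X * (X - 1) * (X - 81)) (hY : Y ≠ 0) :
    ∃ u v w d : ℚ, (d = 1 ∨ d = -1 ∨ d = 5 ∨ d = -5) ∧ X = u ^ 2 ∧ X - 1 = d * v ^ 2 ∧
      X - 81 = d * w ^ 2 := by
  set m : ℤ := X.num with hm
  set n : ℤ := (X.den : ℤ) with hn
  have hnpos : 0 < n := by rw [hn]; exact_mod_cast X.den_pos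
  have hn0 : (n : ℚ) ≠ 0 := by exact_mod_cast hnpos.ne'
  have hX : X = (m : ℚ) / (n : ℚ) := by
    rw [hm, hn]; push_cast; exact (Rat.num_div_den X).symm
  have hcop : IsCoprime m n := by
    rw [Int.isCoprime_iff_gcd_eq_one, hm, hn]
    have := X.reduced
    simpa [Int.gcd, Nat.Coprime] using this
  have hq : (Y * (n : ℚ) ^ 2) ^ 2 = ((n * (m * (m - n) * (m - 81 * n)) : ℤ) : ℚ) := by
    push_cast
    rw [mul_pow, h, hX]
    field_simp
  obtain ⟨N, hN⟩ := int_of_sq_int hq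
  have hN0 : N ≠ 0 := by
    rintro rfl
    have : Y * (n : ℚ) ^ 2 = 0 := by rw [hN]; simp
    rcases mul_eq_zero.mp this with h1 | h1
    · exact hY h1
    · exact hn0 (pow_eq_zero_iff two_ne_zero |>.mp h1)
  have hN2 : N ^ 2 = n * (m * (m - n) * (m - 81 * n)) := by
    have : ((N ^ 2 : ℤ) : ℚ) = ((n * (m * (m - n) * (m - 81 * n)) : ℤ) : ℚ) := by
      rw [← hq, hN]; push_cast; ring
    exact_mod_cast this
  obtain ⟨M, e, B, C, d, hd, hmM, hne, hB, hC⟩ := class_analysis_int hnpos hcop hN0 hN2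
  have he0 : (e : ℚ) ≠ 0 := by
    have : e ≠ 0 := by rintro rfl; rw [hne] at hnpos; simp at hnpos
    exact_mod_cast this
  have hmM' : (m : ℚ) = (M : ℚ) ^ 2 := by exact_mod_cast hmM
  have hne' : (n : ℚ) = (e : ℚ) ^ 2 := by exact_mod_cast hne
  have hB' : (m : ℚ) - n = d * (B : ℚ) ^ 2 := by exact_mod_cast hB
  have hC' : (m : ℚ) - 81 * n = d * (C : ℚ) ^ 2 := by exact_mod_cast hC
  refine ⟨M / e, B / e, C / e, d, ?_, ?_, ?_, ?_⟩
  · rcases hd with rfl | rfl | rfl | rfl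
    · left; norm_num
    · right; left; norm_num
    · right; right; left; norm_num
    · right; right; right; norm_num
  · rw [hX, hmM', hne']; field_simp
  · rw [hX, div_pow, ← hne']
    field_simp
    linear_combination hB'
  · rw [hX, div_pow, ← hne']
    field_simp
    linear_combination hC'


/-- Reduction: a point with `Y ≠ 0` gives a solution of `z₁² - z₂² = 1`, `z₁² - z₃² = 81`. -/
theorem red {X Y : ℚ} (h : Y ^ 2 = X * (X - 1) * (X - 81)) (hY : Y ≠ 0) :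
    ∃ z₁ z₂ z₃ : ℚ, z₁ ^ 2 - z₂ ^ 2 = 1 ∧ z₁ ^ 2 - z₃ ^ 2 = 81 ∧
      (z₁ ^ 2 = X ∨ z₁ ^ 2 * X = 81 ∨ z₁ ^ 2 * (X - 81) = 81 * (X - 1) ∨
        z₁ ^ 2 * (X - 1) = X - 81) := by
  have hY2 : Y ^ 2 ≠ 0 := pow_ne_zero 2 hY
  rw [h] at hY2
  have hX0 : X ≠ 0 := fun h0 => hY2 (by rw [h0]; ring)
  have hX1 : X - 1 ≠ 0 := fun h0 => hY2 (by rw [h0]; ring)
  have hX81 : X - 81 ≠ 0 := fun h0 => hY2 (by rw [h0]; ring)
  obtain ⟨u, v, w, d, hd, hx, hv, hw⟩ := class_analysis h hY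
  have hu : u ≠ 0 := by rintro rfl; apply hX0; rw [hx]; ring
  have hv0 : v ≠ 0 := by rintro rfl; apply hX1; rw [hv]; ring
  have hw0 : w ≠ 0 := by rintro rfl; apply hX81; rw [hw]; ring
  rcases hd with rfl | rfl | rfl | rfl
  · refine ⟨u, v, w, ?_, ?_, Or.inl hx.symm⟩
    · linear_combination hv - hx
    · linear_combination hw - hx
  · refine ⟨9 / u, w / u, 9 * v / u, ?_, ?_, Or.inr (Or.inl ?_)⟩
    · rw [div_pow, div_pow, ← sub_div, div_eq_iff (pow_ne_zero 2 hu)]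
      linear_combination hx - hw
    · rw [div_pow, div_pow, ← sub_div, div_eq_iff (pow_ne_zero 2 hu)]
      linear_combination 81 * hx - 81 * hv
    · rw [div_pow, hx]; field_simp; norm_num
  · refine ⟨9 * v / w, 4 * u / w, 36 / w, ?_, ?_, Or.inr (Or.inr (Or.inl ?_))⟩
    · rw [div_pow, div_pow, ← sub_div, div_eq_iff (pow_ne_zero 2 hw0)]
      linear_combination 16 * hx - (81 / 5) * hv + (1 / 5) * hw
    · rw [div_pow, div_pow, ← sub_div, div_eq_iff (pow_ne_zero 2 hw0)]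
      linear_combination 81 * (-(1 / 5) * hv + (1 / 5) * hw)
    · rw [div_pow, hw, hv]; field_simp; norm_num
  · refine ⟨w / v, 4 / v, 4 * u / v, ?_, ?_, Or.inr (Or.inr (Or.inr ?_))⟩
    · rw [div_pow, div_pow, ← sub_div, div_eq_iff (pow_ne_zero 2 hv0)]
      linear_combination (1 / 5) * hw - (1 / 5) * hv
    · rw [div_pow, div_pow, ← sub_div, div_eq_iff (pow_ne_zero 2 hv0)]
      linear_combination 16 * hx - (81 / 5) * hv + (1 / 5) * hw
    · rw [div_pow, hw, hv]; field_simp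

/-- Size bound for the descent step. -/
theorem bound {z₁ z₂ z₃ t : ℚ} (h1 : z₁ ^ 2 - z₂ ^ 2 = 1) (h2 : z₁ ^ 2 - z₃ ^ 2 = 81)
    (ht : t ^ 2 = (z₁ + z₂) * (z₁ + z₃)) : t.num.natAbs < z₁.num.natAbs := by
  set M : ℤ := z₁.num with hM
  set e : ℤ := (z₁.den : ℤ) with he
  have hepos : 0 < e := by rw [he]; exact_mod_cast z₁.den_pos
  have he0 : (e : ℚ) ≠ 0 := by exact_mod_cast hepos.ne'
  have hz₁ : z₁ * e = M := by rw [hM, he]; exact_mod_cast Rat.mul_den_eq_num z₁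
  obtain ⟨B, hB⟩ := int_of_sq_int (q := z₂ * e) (k := M ^ 2 - e ^ 2) (by
    push_cast; rw [← hz₁]; linear_combination (-(e : ℚ) ^ 2) * h1)
  obtain ⟨C, hC⟩ := int_of_sq_int (q := z₃ * e) (k := M ^ 2 - 81 * e ^ 2) (by
    push_cast; rw [← hz₁]; linear_combination (-(e : ℚ) ^ 2) * h2)
  have hB2 : M ^ 2 - e ^ 2 = B ^ 2 := by
    have : ((M ^ 2 - e ^ 2 : ℤ) : ℚ) = ((B ^ 2 : ℤ) : ℚ) := by
      push_cast; rw [← hB, ← hz₁]; linear_combination ((e : ℚ) ^ 2) * h1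
    exact_mod_cast this
  have hC2 : M ^ 2 - 81 * e ^ 2 = C ^ 2 := by
    have : ((M ^ 2 - 81 * e ^ 2 : ℤ) : ℚ) = ((C ^ 2 : ℤ) : ℚ) := by
      push_cast; rw [← hC, ← hz₁]; linear_combination ((e : ℚ) ^ 2) * h2
    exact_mod_cast this
  -- t^2 * (M - B) = M + C
  have hkey : t ^ 2 * ((M - B : ℤ) : ℚ) = ((M + C : ℤ) : ℚ) := by
    push_cast
    rw [← hz₁, ← hB, ← hC, ht]
    linear_combination ((z₁ + z₃) * e) * h1
  have hMB : M - B ≠ 0 := by
    intro h0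
    have : (M - B) * (M + B) = e ^ 2 := by linear_combination hB2
    rw [h0, zero_mul] at this
    exact (pow_ne_zero 2 hepos.ne') this.symm
  have hMC : M + C ≠ 0 := by
    intro h0
    have : (M + C) * (M - C) = 81 * e ^ 2 := by linear_combination hC2
    rw [h0, zero_mul] at this
    have : e ^ 2 = 0 := by omega
    exact (pow_ne_zero 2 hepos.ne') this
  have hMB' : ((M - B : ℤ) : ℚ) ≠ 0 := by exact_mod_cast hMB
  have ht2 : t ^ 2 = Rat.divInt (M + C) (M - B) := by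
    rw [Rat.divInt_eq_div, eq_div_iff hMB']; exact hkey
  have hdvd : t.num ^ 2 ∣ M + C := by
    rw [← Rat.num_pow, ht2]; exact Rat.num_dvd _ hMB
  have hle : t.num ^ 2 ≤ |M + C| :=
    Int.le_of_dvd (abs_pos.mpr hMC) ((dvd_abs _ _).mpr hdvd)
  rw [Int.natAbs_lt_iff_sq_lt]
  have habs : |M + C| ≤ |M| + |C| := abs_add_le M C
  have hCM : |C| < |M| := by
    apply sq_lt_sq.mp
    nlinarith [sq_nonneg e, sq_nonneg C, sq_nonneg M, pow_pos hepos 2]
  have hM9 : 9 ≤ |M| := by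
    by_contra hlt
    have hlt : |M| < 9 := not_le.mp hlt
    have h3 : M ^ 2 < 81 := by
      have := abs_nonneg M
      have h4 : |M| ^ 2 < 81 := by nlinarith
      rwa [sq_abs] at h4
    nlinarith [sq_nonneg C, sq_nonneg e]
  have hMsq : M ^ 2 = |M| ^ 2 := (sq_abs M).symm
  nlinarith [abs_nonneg C, abs_nonneg M]

/-- Descent step. -/
theorem desc {z₁ z₂ z₃ : ℚ} (h1 : z₁ ^ 2 - z₂ ^ 2 = 1) (h2 : z₁ ^ 2 - z₃ ^ 2 = 81) :
    ∃ z₁' z₂' z₃' : ℚ, z₁' ^ 2 - z₂' ^ 2 = 1 ∧ z₁' ^ 2 - z₃' ^ 2 = 81 ∧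
      z₁'.num.natAbs < z₁.num.natAbs := by
  have h12 : z₁ + z₂ ≠ 0 := by
    intro h0
    have : (z₁ + z₂) * (z₁ - z₂) = 1 := by linear_combination h1
    rw [h0, zero_mul] at this; exact zero_ne_one this
  have h13 : z₁ + z₃ ≠ 0 := by
    intro h0
    have : (z₁ + z₃) * (z₁ - z₃) = 81 := by linear_combination h2
    rw [h0, zero_mul] at this; norm_num at this
  have h23 : z₂ + z₃ ≠ 0 := by
    intro h0
    have : (z₂ + z₃) * (z₂ - z₃) = 80 := by linear_combination h2 - h1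
    rw [h0, zero_mul] at this; norm_num at this
  set X₀ : ℚ := (z₁ + z₂) * (z₁ + z₃) with hX₀
  have hX1 : X₀ - 1 = (z₁ + z₂) * (z₂ + z₃) := by rw [hX₀]; linear_combination h1
  have hX81 : X₀ - 81 = (z₁ + z₃) * (z₂ + z₃) := by rw [hX₀]; linear_combination h2
  have hcurve : ((z₁ + z₂) * (z₁ + z₃) * (z₂ + z₃)) ^ 2 = X₀ * (X₀ - 1) * (X₀ - 81) := by
    rw [hX1, hX81, hX₀]; ring
  have hY0 : (z₁ + z₂) * (z₁ + z₃) * (z₂ + z₃) ≠ 0 := mul_ne_zero (mul_ne_zero h12 h13) h23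
  obtain ⟨z₁', z₂', z₃', h1', h2', hrel⟩ := red hcurve hY0
  refine ⟨z₁', z₂', z₃', h1', h2', ?_⟩
  rcases hrel with hr | hr | hr | hr
  · exact bound h1 h2 hr
  · -- z₁'^2 = (z₁ - z₂)(z₁ - z₃)
    have h1m : z₁ ^ 2 - (-z₂) ^ 2 = 1 := by linear_combination h1
    have h2m : z₁ ^ 2 - (-z₃) ^ 2 = 81 := by linear_combination h2
    apply bound h1m h2m
    have hX₀0 : X₀ ≠ 0 := mul_ne_zero h12 h13
    apply mul_right_cancel₀ hX₀0
    have h12' : (z₁ ^ 2 - z₂ ^ 2) * (z₁ ^ 2 - z₃ ^ 2) = 81 := by rw [h1, h2]; norm_num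
    rw [hr, hX₀]
    linear_combination (-1 : ℚ) * h12'
  · -- z₁'^2 = (z₁ + z₂)(z₁ - z₃)
    have h2m : z₁ ^ 2 - (-z₃) ^ 2 = 81 := by linear_combination h2
    apply bound h1 h2m
    have hne : X₀ - 81 ≠ 0 := by rw [hX81]; exact mul_ne_zero h13 h23
    apply mul_right_cancel₀ hne
    rw [hr, hX1, hX81]
    linear_combination (-(z₁ + z₂) * (z₂ + z₃)) * h2
  · -- z₁'^2 = (z₁ - z₂)(z₁ + z₃)
    have h1m : z₁ ^ 2 - (-z₂) ^ 2 = 1 := by linear_combination h1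
    apply bound h1m h2
    have hne : X₀ - 1 ≠ 0 := by rw [hX1]; exact mul_ne_zero h12 h23
    apply mul_right_cancel₀ hne
    rw [hr, hX1, hX81]
    linear_combination (-(z₁ + z₃) * (z₂ + z₃)) * h1

/-- The system `z₁² - z₂² = 1`, `z₁² - z₃² = 81` has no rational solutions. -/
theorem no_sol (z₁ z₂ z₃ : ℚ) (h1 : z₁ ^ 2 - z₂ ^ 2 = 1) (h2 : z₁ ^ 2 - z₃ ^ 2 = 81) : False := by
  suffices H : ∀ n : ℕ, ∀ z₁ z₂ z₃ : ℚ, z₁.num.natAbs = n → z₁ ^ 2 - z₂ ^ 2 = 1 →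
      z₁ ^ 2 - z₃ ^ 2 = 81 → False from H _ z₁ z₂ z₃ rfl h1 h2
  intro n
  induction n using Nat.strong_induction_on with
  | _ n ih =>
    intro z₁ z₂ z₃ hn h1 h2
    obtain ⟨z₁', z₂', z₃', h1', h2', hlt⟩ := desc h1 h2
    exact ih _ (hn ▸ hlt) z₁' z₂' z₃' rfl h1' h2'

/-- **Theorem A.** The only rational points of `Y^2 = X (X-1) (X-81)` have `Y = 0`. -/
theorem no_point {X Y : ℚ} (h : Y ^ 2 = X * (X - 1) * (X - 81)) : Y = 0 := by
  by_contra hY
  obtain ⟨z₁, z₂, z₃, h1, h2, -⟩ := red h hY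
  exact no_sol z₁ z₂ z₃ h1 h2


/-- **Theorem A'.** Rational points of `W^2 = X (X+9) (X-16)` (the curve 15a1 = `X_0(15)`). -/
theorem points_E {X W : ℚ} (h : W ^ 2 = X * (X + 9) * (X - 16)) :
    X = 0 ∨ X = -9 ∨ X = 16 ∨ X = 36 ∨ X = -4 := by
  by_cases hx : X - 16 = 0
  · right; right; left; linarith
  set x : ℚ := X - 16 with hxdef
  have hX : X = x + 16 := by rw [hxdef]; ring
  have hW : W ^ 2 = x * (x + 16) * (x + 25) := by rw [h, hX]; ring
  have h1 : W ^ 2 - x ^ 2 = x * (x + 20) ^ 2 := by linear_combination hW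
  have h2 : W ^ 2 - 81 * x ^ 2 = x * (x - 20) ^ 2 := by linear_combination hW
  have hcurve : (W * (x ^ 2 - 400) / x ^ 2) ^ 2 =
      (W ^ 2 / x ^ 2) * (W ^ 2 / x ^ 2 - 1) * (W ^ 2 / x ^ 2 - 81) := by
    have e1 : W ^ 2 / x ^ 2 - 1 = (W ^ 2 - x ^ 2) / x ^ 2 := by field_simp
    have e2 : W ^ 2 / x ^ 2 - 81 = (W ^ 2 - 81 * x ^ 2) / x ^ 2 := by field_simp
    rw [e1, e2, h1, h2]
    field_simp
    ring
  have hY := no_point hcurve
  have hnum : W * (x ^ 2 - 400) = 0 := by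
    rcases div_eq_zero_iff.mp hY with h0 | h0
    · exact h0
    · exact absurd (pow_eq_zero_iff two_ne_zero |>.mp h0) hx
  rcases mul_eq_zero.mp hnum with hW0 | hx400
  · rw [hW0] at h
    have : X * (X + 9) * (X - 16) = 0 := by rw [← h]; ring
    rcases mul_eq_zero.mp this with h3 | h3
    · rcases mul_eq_zero.mp h3 with h4 | h4
      · left; exact h4
      · right; left; linarith
    · right; right; left; linarith
  · have : (x - 20) * (x + 20) = 0 := by linear_combination hx400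
    rcases mul_eq_zero.mp this with h3 | h3
    · right; right; right; left; rw [hX]; linarith
    · right; right; right; right; rw [hX]; linarith

/-- **C2.** Rational points of the Fricke model `y^2 = x^4 - 10 x^3 - 13 x^2 + 10 x + 1`
of `X_0(15)`. -/
theorem points_fricke {x y : ℚ} (h : y ^ 2 = x ^ 4 - 10 * x ^ 3 - 13 * x ^ 2 + 10 * x + 1) :
    x = 0 ∨ x = 1 / 2 ∨ x = -2 := by
  have hE : ((4 * (y - x ^ 2 + 5 * x) + 76) * x - 10 * (y - x ^ 2 + 5 * x) - 10) ^ 2 =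
      (2 * x ^ 2 - 10 * x - 2 * y - 2) * ((2 * x ^ 2 - 10 * x - 2 * y - 2) + 9) *
        ((2 * x ^ 2 - 10 * x - 2 * y - 2) - 16) := by
    linear_combination (8 * (y - x ^ 2 + 5 * x) + 152) * h
  rcases points_E hE with h0 | h0 | h0 | h0 | h0
  · have hy : y = x ^ 2 - 5 * x - 1 := by linarith
    rw [hy] at h
    have : x ^ 2 = 0 := by linear_combination (1 / 36 : ℚ) * h
    left; exact pow_eq_zero_iff two_ne_zero |>.mp this
  · have hy : y = x ^ 2 - 5 * x - 1 + 9 / 2 := by linarith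
    rw [hy] at h
    have : (x - 1 / 2) ^ 2 = 0 := by linear_combination (1 / 45 : ℚ) * h
    right; left
    have := pow_eq_zero_iff two_ne_zero |>.mp this
    linarith
  · have hy : y = x ^ 2 - 5 * x - 1 - 8 := by linarith
    rw [hy] at h
    have : (x + 2) ^ 2 = 0 := by linear_combination (1 / 20 : ℚ) * h
    right; right
    have := pow_eq_zero_iff two_ne_zero |>.mp this
    linarith
  · have hy : y = x ^ 2 - 5 * x - 1 - 18 := by linarith
    rw [hy] at h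
    right; right
    linear_combination (1 / 180 : ℚ) * h
  · have hy : y = x ^ 2 - 5 * x - 1 + 2 := by linarith
    rw [hy] at h
    have : x * (x - 1 / 2) = 0 := by linear_combination (1 / 40 : ℚ) * h
    rcases mul_eq_zero.mp this with h3 | h3
    · left; exact h3
    · right; left; linarith

end Fermat.Agent.S51.H88
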